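import Fermat.Agent.CarayolK.Line
import Fermat.Agent.Carayol.Descent

/-!
# The action of inertia on expansions and integrality over the line of the coordinate
-/

set_option autoImplicit false
set_option linter.unusedSectionVars false
set_option linter.style.haveILetI false

noncomputable section

open UpperHalfPlane hiding I I_re I_im
open Filter Topology Complex Function FLTAgent.ModEq FLTAgent.GoodModel ModularCurve
open scoped MatrixGroups Manifold Classical

namespace FLTAgent.CarayolK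

open FLTAgent.Carayol (Coord coordT ser_injective trComp mem_trRing_of_level sPairs_mono
  coeffMap_range)

/-- Refining the level of an expansion. -/
theorem ser_levelUp {S : Subring ℂ} {a k n : ℕ} [NeZero a] [NeZero k] [NeZero n] (hk : a * k = n)
    (x : trRing S n) (y : trRing S a) (h : (x : ℍ → ℂ) = y) : ser x = qExpand S k (ser y) :=
  sPairs_unique (h ▸ ser_spec x) (sPairs_refine hk (ser_spec y))

/-- The expansion after scaling the variable. -/
theorem ser_comp_scale {S : Subring ℂ} {n : ℕ} [NeZero n] (ζ : Sˣ)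
    (hζ : ((ζ : S) : ℂ) = zetaN n) {l : ℕ} [NeZero l] (A k : ℕ) [NeZero A] [NeZero k]
    (hl : 1 * l * k = n) (x : trRing S n) (y : trRing S l)
    (h : (x : ℍ → ℂ) = fun τ => (y : ℍ → ℂ) (affPt A 0 1 τ)) :
    ser x = qExpand S (A * k) (ser y) := by
  haveI : NeZero (A * k) := ⟨mul_ne_zero (NeZero.ne A) (NeZero.ne k)⟩
  have h1 := Carayol.sPairs_comp_affPt ζ hζ A 0 1 l k hl (ser_spec y)
  rw [mul_zero, zpow_zero, substHom_one] at h1
  exact sPairs_unique (h ▸ ser_spec x) h1

theorem ser_embAt_refine {q M0 N' : ℕ} [NeZero M0] [NeZero N'] [NeZero q] [Fact q.Prime]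
    {C : Carayol.Ctx q M0 N'} {n k : ℕ} [NeZero n] [NeZero k] (hk : M0 * (N' * q) * k = n)
    (x : trRing C.S n) (a : C.R) (h : (x : ℍ → ℂ) = (a : ℍ → ℂ)) :
    ser x = qExpand C.S k (C.embAt 1 a) := by
  rw [Carayol.Ctx.embAt_apply]
  refine ser_levelUp hk x _ ?_
  rw [h]
  exact (compg_one _).symm

theorem ser_embAt_scale {q M0 N' : ℕ} [NeZero M0] [NeZero N'] [NeZero q] [Fact q.Prime]
    {C : Carayol.Ctx q M0 N'} {n : ℕ} [NeZero n] (ζ : C.Sˣ) (hζ : ((ζ : C.S) : ℂ) = zetaN n)
    (A k : ℕ) [NeZero A] [NeZero k] (hl : 1 * (M0 * (N' * q)) * k = n)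
    (x : trRing C.S n) (a : C.R)
    (h : (x : ℍ → ℂ) = fun τ => (a : ℍ → ℂ) (affPt A 0 1 τ)) :
    ser x = qExpand C.S (A * k) (C.embAt 1 a) := by
  rw [Carayol.Ctx.embAt_apply]
  refine ser_comp_scale ζ hζ A k hl x _ ?_
  rw [h]
  funext τ
  exact (congrFun (compg_one (a : ℍ → ℂ)) _).symm

namespace Ctx

variable {q M0 N' K : ℕ} [NeZero M0] [NeZero N'] [NeZero q] [Fact q.Prime] (X : Ctx q M0 N' K)

theorem embAt_apply (γ : SL(2, ℤ)) (a : X.R) :
    X.embAt γ a = ser (trComp γ (Subring.inclusion X.R_le a)) := rfl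

theorem embAt_congr {γ γ' : SL(2, ℤ)} (a : X.R)
    (h : compg γ (a : ℍ → ℂ) = compg γ' (a : ℍ → ℂ)) : X.embAt γ a = X.embAt γ' a := by
  have e : trComp γ (Subring.inclusion X.R_le a) = trComp γ' (Subring.inclusion X.R_le a) :=
    Subtype.ext h
  rw [embAt_apply, embAt_apply, e]

theorem emb_one' (a : X.R) : X.emb X.one' a = X.embAt 1 a :=
  X.embAt_congr a (X.compg_rep_idx (one_mem _) a)

theorem emb_idx {γ : SL(2, ℤ)} (hγ : γ ∈ CongruenceSubgroup.Gamma M0) (a : X.R) :
    X.emb (X.idx hγ) a = X.embAt γ a :=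
  X.embAt_congr a (X.compg_rep_idx hγ a)

theorem embAt_one_ofCtr (a : X.ctr.R) :
    X.embAt 1 (X.ofCtr a) = qExpand X.S (q ^ (K - 1)) (X.ctr.embAt 1 a) := by
  rw [embAt_apply]
  exact ser_embAt_refine (C := X.ctr) (n := X.lev) (k := q ^ (K - 1))
    (by rw [lev, ← X.pow_pred]; ring) (trComp 1 (Subring.inclusion X.R_le (X.ofCtr a))) a
    (compg_one _)

theorem sig_coe (i : Fin K) (a : X.shf.R) (τ : ℍ) :
    (X.ofShf i a : ℍ → ℂ) τ = (a : ℍ → ℂ) (affPt (q ^ (i : ℕ)) 0 1 τ) := rfl

theorem embAt_one_ofShf (i : Fin K) (a : X.shf.R) :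
    X.embAt 1 (X.ofShf i a) = qExpand X.S (q ^ (i : ℕ) * (N' * q ^ (K - 1))) (X.shf.embAt 1 a) := by
  rw [embAt_apply]
  exact ser_embAt_scale (C := X.shf) (n := X.lev) X.ζ X.hζ (q ^ (i : ℕ)) (N' * q ^ (K - 1))
    (by rw [lev, ← X.pow_pred]; ring) (trComp 1 (Subring.inclusion X.R_le (X.ofShf i a))) a
    ((compg_one _).trans (funext fun τ => X.sig_coe i a τ))

/-- The expansions of the functions of the cover have small coefficients. -/
theorem coeff_embAt_one (hF : X.FixedPart) (a : X.R) (k : ℤ) :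
    (X.embAt 1 a).coeff k ∈ X.inc.range := by
  suffices h : X.embAt 1 a ∈ (coeffMap X.inc).range by
    obtain ⟨G, hG⟩ := h
    rw [← hG, coeffMap_coeff]
    exact ⟨_, rfl⟩
  have hlift : ∀ (m : ℕ) [NeZero m] (G : LaurentSeries X.S), (∀ k, G.coeff k ∈ X.inc.range) →
      qExpand X.S m G ∈ (coeffMap X.inc).range := by
    intro m _ G hG
    obtain ⟨G0, hG0⟩ := coeffMap_range X.inc (Subring.inclusion_injective X.hWS) hG
    exact ⟨qExpand X.W m G0, by rw [coeffMap_qExpand, hG0]⟩
  set Q : Subring (ℍ → ℂ) := ((coeffMap X.inc).range.comap (X.embAt 1)).map X.R.subtype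
  have hle : Subring.closure X.gens ≤ Q := by
    rw [Subring.closure_le]
    rintro f (hf | hf)
    · refine Subring.mem_map.2 ⟨X.ofCtr ⟨f, hf⟩, Subring.mem_comap.2 ?_, rfl⟩
      rw [X.embAt_one_ofCtr]
      exact hlift _ _ fun k => X.ctr.coeff_embAt_one (X.fixedPart_ctr hF) _ k
    · obtain ⟨i, g, hg, rfl⟩ := Set.mem_iUnion.1 hf
      refine Subring.mem_map.2 ⟨X.ofShf i ⟨g, hg⟩, Subring.mem_comap.2 ?_, rfl⟩
      rw [X.embAt_one_ofShf]
      exact hlift _ _ fun k => X.shf.coeff_embAt_one (X.fixedPart_shf hF) _ k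
  obtain ⟨b, hb, hba⟩ := Subring.mem_map.1 (hle a.2)
  obtain rfl : b = a := Subtype.ext hba
  exact Subring.mem_comap.1 hb

theorem embAt_one_fix (hF : X.FixedPart) {σ : X.S ≃+* X.S} (hσ : ∀ w, σ (X.inc w) = X.inc w)
    (a : X.R) : coeffMap σ.toRingHom (X.embAt 1 a) = X.embAt 1 a := by
  ext k : 2
  rw [coeffMap_coeff]
  obtain ⟨w, hw⟩ := X.coeff_embAt_one hF a k
  rw [← hw]
  exact hσ w

theorem emb_injective_idx {l l' : X.Idx} (h : X.emb l = X.emb l') : l = l' := by
  have key : ∀ f : X.R, compg (X.rep l) (f : ℍ → ℂ) = compg (X.rep l') (f : ℍ → ℂ) := fun f => by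
    have h2 := DFunLike.congr_fun h f
    exact congrArg (fun x : trRing X.S X.lev => (x : ℍ → ℂ)) (ser_injective h2)
  refine Subtype.ext ?_
  rw [← X.triple_rep l, ← X.triple_rep l']
  simp only [triple, key ⟨_, X.eta_mem⟩, key ⟨_, X.bot_mem⟩, key ⟨_, X.top_mem⟩]

instance charZero_series : CharZero (LaurentSeries X.S) :=
  charZero_of_injective_ringHom (f := (HahnSeries.C : X.S →+* LaurentSeries X.S))
    HahnSeries.C_injective

/-- An element separating the embeddings. -/
theorem exists_separating_R : ∃ θ : X.R, Injective fun l => X.emb l θ := by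
  set a : X.R := ⟨_, X.eta_mem⟩
  set b : X.R := ⟨_, X.bot_mem⟩
  set c : X.R := ⟨_, X.top_mem⟩
  have hne : ∀ l l' : X.Idx, l ≠ l' →
      X.emb l a ≠ X.emb l' a ∨ X.emb l b ≠ X.emb l' b ∨ X.emb l c ≠ X.emb l' c := by
    intro l l' hll
    by_contra h
    simp only [ne_eq, not_or, not_not] at h
    obtain ⟨ha, hb, hc⟩ := h
    refine hll (Subtype.ext ?_)
    have key : ∀ f : X.R, X.emb l f = X.emb l' f →
        compg (X.rep l) (f : ℍ → ℂ) = compg (X.rep l') (f : ℍ → ℂ) := fun f hf =>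
      congrArg (fun x : trRing X.S X.lev => (x : ℍ → ℂ)) (ser_injective hf)
    rw [← X.triple_rep l, ← X.triple_rep l']
    exact congrArg₂ Prod.mk (key a ha) (congrArg₂ Prod.mk (key b hb) (key c hc))
  set D : X.Idx × X.Idx → Polynomial (LaurentSeries X.S) := fun p =>
    Polynomial.C (X.emb p.1 a - X.emb p.2 a) + Polynomial.C (X.emb p.1 b - X.emb p.2 b) *
      Polynomial.X + Polynomial.C (X.emb p.1 c - X.emb p.2 c) * Polynomial.X ^ 2
  have hD : ∀ p : X.Idx × X.Idx, p.1 ≠ p.2 → D p ≠ 0 := by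
    intro p hp h
    have c0 := congrArg (fun P : Polynomial (LaurentSeries X.S) => P.coeff 0) h
    have c1 := congrArg (fun P : Polynomial (LaurentSeries X.S) => P.coeff 1) h
    have c2 := congrArg (fun P : Polynomial (LaurentSeries X.S) => P.coeff 2) h
    simp only [D, Polynomial.coeff_add, Polynomial.coeff_C_mul, Polynomial.coeff_C,
      Polynomial.coeff_X, Polynomial.coeff_X_pow, Polynomial.coeff_zero] at c0 c1 c2
    norm_num [sub_eq_zero] at c0 c1 c2
    rcases hne _ _ hp with e | e | e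
    exacts [e c0, e c1, e c2]
  have hfin : (⋃ p ∈ {p : X.Idx × X.Idx | p.1 ≠ p.2},
      {t : ℕ | (D p).IsRoot (t : LaurentSeries X.S)}).Finite :=
    (Set.toFinite _).biUnion fun p hp =>
      (Polynomial.finite_setOfPred_isRoot (hD p hp)).preimage Nat.cast_injective.injOn
  obtain ⟨t, ht⟩ := hfin.exists_notMem
  refine ⟨a + (t : X.R) * b + (t : X.R) ^ 2 * c, fun l l' h => ?_⟩
  by_contra hll
  refine ht (Set.mem_biUnion (show (l, l') ∈ {p : X.Idx × X.Idx | p.1 ≠ p.2} from hll) ?_)
  simp only [map_add, map_mul, map_pow, map_natCast] at h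
  simp only [Set.mem_ofPred_eq, Polynomial.IsRoot, D, Polynomial.eval_add, Polynomial.eval_mul,
    Polynomial.eval_pow, Polynomial.eval_C, Polynomial.eval_X]
  linear_combination h

/-- The inverse of the product of differences as an element. -/
def dR : X.R := X.ofCtr X.ctr.dR

/-- Polynomials in the coordinate. -/
def evR : Polynomial X.W →+* X.R := Polynomial.eval₂RingHom X.cW X.yR

/-- The product of the differences over the small ring. -/
def dltW : Polynomial X.W := ∏ i, (Polynomial.X - Polynomial.C (X.co.c i))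

theorem incl_evR (P : Polynomial X.W) :
    Subring.inclusion X.R_le (X.evR P) = X.evT (P.map X.inc) := by
  rw [evR, Polynomial.coe_eval₂RingHom, Polynomial.hom_eval₂, evT, Polynomial.coe_eval₂RingHom,
    Polynomial.eval₂_map]
  rfl

theorem map_dltW : X.dltW.map X.inc = X.dltS := by
  simp [dltW, dltS, Polynomial.map_prod]

theorem evR_dltW_mul_dR : X.evR X.dltW * X.dR = 1 := by
  refine Subtype.ext (funext fun τ => ?_)
  have h := congrArg (fun x : trRing X.S X.lev => (x : ℍ → ℂ) τ) (X.incl_evR X.dltW)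
  simp only [Subring.coe_inclusion, X.map_dltW, X.evT_dltS] at h
  show (X.evR X.dltW : ℍ → ℂ) τ * (X.ctr.dlt τ)⁻¹ = 1
  rw [h, mul_inv_cancel₀ (X.ctr.dlt_ne τ)]

theorem evT_dltS_mul_dR : X.evT X.dltS * Subring.inclusion X.R_le X.dR = 1 := by
  rw [← X.map_dltW, ← X.incl_evR, ← map_mul, X.evR_dltW_mul_dR, map_one]

/-- The invariant elements of the ring of functions. -/
def invSub : Subring (trRing X.S X.lev) :=
  ⨅ γ ∈ CongruenceSubgroup.Gamma M0, (trComp γ).eqLocus (RingHom.id _)

theorem mem_invSub {x : trRing X.S X.lev} :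
    x ∈ X.invSub ↔ ∀ γ ∈ CongruenceSubgroup.Gamma M0, compg γ (x : ℍ → ℂ) = x := by
  simp only [invSub, Subring.mem_iInf]
  exact ⟨fun h γ hγ => congrArg Subtype.val (h γ hγ), fun h γ hγ => Subtype.ext (h γ hγ)⟩

theorem evT_mem_invSub (P : Polynomial X.S) : X.evT P ∈ X.invSub := by
  refine X.mem_invSub.2 fun γ hγ => funext fun τ => ?_
  rw [compg_apply, X.evT_apply, X.evT_apply, X.ctr.T_pm (Or.inl hγ)]

theorem dR_mem_invSub : Subring.inclusion X.R_le X.dR ∈ X.invSub := by
  refine X.mem_invSub.2 fun γ hγ => funext fun τ => ?_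
  show (X.ctr.dlt (γ • τ))⁻¹ = (X.ctr.dlt τ)⁻¹
  simp only [Carayol.Ctx.dlt, X.ctr.T_pm (Or.inl hγ)]

/-- The conjugate of an invariant element. -/
theorem exists_invSub_conj {σ : X.S ≃+* X.S} (hσ : ∀ w, σ (X.inc w) = X.inc w)
    {x : trRing X.S X.lev} (hx : x ∈ X.invSub) :
    ∃ y ∈ X.invSub, ser y = coeffMap σ.toRingHom (ser x) := by
  obtain ⟨P, s, h⟩ := X.exists_poly_el x (X.mem_invSub.1 hx)
  refine ⟨X.evT (P.map σ.toRingHom) * Subring.inclusion X.R_le X.dR ^ s,
    mul_mem (X.evT_mem_invSub _) (pow_mem X.dR_mem_invSub s), ?_⟩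
  have hfix : ∀ Q : Polynomial X.S, ser (X.evT (Q.map σ.toRingHom)) =
      coeffMap σ.toRingHom (ser (X.evT Q)) := fun Q => by
    rw [X.ser_evT, X.ser_evT, Polynomial.eval₂_map, Polynomial.hom_eval₂]
    congr 1
    · ext y : 1
      simp [HahnSeries.C_apply, coeffMap_single]
    · rw [Ys_eq, coeffMap_coeffMap]
      ext k
      simp only [coeffMap_coeff, RingHom.comp_apply]
      exact (congrArg Subtype.val (hσ _)).symm
  have hd : X.dltS.map σ.toRingHom = X.dltS := by
    simp only [dltS, Polynomial.map_prod, Polynomial.map_sub, Polynomial.map_X, Polynomial.map_C]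
    simp [hσ]
  rw [map_mul, map_pow, hfix, ← h, map_mul, map_pow, map_mul, map_pow, ← hfix, hd, mul_assoc,
    ← mul_pow, ← map_mul, X.evT_dltS_mul_dR, map_one, one_pow, mul_one]

/-- An automorphism of the constants permutes the conjugates of an element. -/
theorem exists_galois_conj (hF : X.FixedPart) {σ : X.S ≃+* X.S}
    (hσ : ∀ w, σ (X.inc w) = X.inc w) (b : X.R) (l : X.Idx) :
    ∃ l', X.emb l b = coeffMap σ.toRingHom (X.emb l' b) := by
  set el : X.Idx → trRing X.S X.lev := fun l => trComp (X.rep l) (Subring.inclusion X.R_le b)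
  set p0 : Polynomial (trRing X.S X.lev) := ∏ l, (Polynomial.X - Polynomial.C (el l))
  have hel : ∀ (γ : SL(2, ℤ)) (hγ : γ ∈ CongruenceSubgroup.Gamma M0) (l : X.Idx),
      trComp γ (el l) = el (X.perm hγ l) := fun γ hγ l =>
    Subtype.ext (X.compg_rep_perm hγ l (X.stab_R b)).symm
  have hco : ∀ k, p0.coeff k ∈ X.invSub := fun k => X.mem_invSub.2 fun γ hγ => by
    have hinv : p0.map (trComp γ) = p0 := by
      rw [Polynomial.map_prod]
      simp only [Polynomial.map_sub, Polynomial.map_X, Polynomial.map_C, hel γ hγ]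
      exact Equiv.prod_comp (X.perm hγ) fun l => Polynomial.X - Polynomial.C (el l)
    have h1 := congrArg (fun p : Polynomial (trRing X.S X.lev) =>
      ((p.coeff k : trRing X.S X.lev) : ℍ → ℂ)) hinv
    simp only [Polynomial.coeff_map] at h1
    exact h1
  have hlift : (p0.map ser).map (coeffMap σ.toRingHom) ∈
      Polynomial.lifts (ser.comp X.invSub.subtype) := (Polynomial.lifts_iff_coeff_lifts _).2 fun k => by
    obtain ⟨y, hy, hy'⟩ := X.exists_invSub_conj hσ (hco k)
    exact ⟨⟨y, hy⟩, by rw [Polynomial.coeff_map, Polynomial.coeff_map]; exact hy'⟩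
  obtain ⟨p', hp'⟩ := (Polynomial.mem_lifts _).1 hlift
  set incb := Subring.inclusion X.R_le b
  have hp : p0.map ser = ∏ l, (Polynomial.X - Polynomial.C (X.emb l b)) := by
    rw [Polynomial.map_prod]
    simp only [Polynomial.map_sub, Polynomial.map_X, Polynomial.map_C]
    rfl
  have h0 : (p'.map X.invSub.subtype).eval incb = 0 := by
    refine ser_injective ?_
    have e : ser incb = coeffMap σ.toRingHom (ser incb) := by
      have h := (X.embAt_one_fix hF hσ b).symm
      rwa [embAt_apply, show trComp 1 incb = incb from Subtype.ext (compg_one _)] at h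
    rw [map_zero, ← Polynomial.eval₂_at_apply, ← Polynomial.eval_map, Polynomial.map_map, hp', e,
      Polynomial.eval_map, Polynomial.eval₂_at_apply, ← map_zero (coeffMap σ.toRingHom)]
    congr 1
    rw [hp, Polynomial.eval_prod]
    refine Finset.prod_eq_zero (Finset.mem_univ X.one') ?_
    rw [Polynomial.eval_sub, Polynomial.eval_X, Polynomial.eval_C, X.emb_one', embAt_apply,
      show trComp 1 incb = incb from Subtype.ext (compg_one _), sub_self]
  have h1 : (p'.map X.invSub.subtype).eval (el l) = 0 := by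
    have hc : (trComp (X.rep l)).comp X.invSub.subtype = X.invSub.subtype := RingHom.ext fun y =>
      Subtype.ext (X.mem_invSub.1 y.2 _ (X.rep_mem l))
    have h := congrArg (trComp (X.rep l)) h0
    rw [map_zero, ← Polynomial.eval₂_at_apply, ← Polynomial.eval_map, Polynomial.map_map, hc] at h
    exact h
  have h2 := congrArg ser h1
  rw [map_zero, ← Polynomial.eval₂_at_apply, ← Polynomial.eval_map, Polynomial.map_map, hp', hp,
    Polynomial.map_prod, Polynomial.eval_prod, Finset.prod_eq_zero_iff] at h2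
  obtain ⟨l', -, hl'⟩ := h2
  rw [Polynomial.map_sub, Polynomial.map_X, Polynomial.map_C, Polynomial.eval_sub,
    Polynomial.eval_X, Polynomial.eval_C, sub_eq_zero] at hl'
  exact ⟨l', hl'⟩

/-- The Galois action permutes the conjugates. -/
theorem exists_galois_perm (hF : X.FixedPart) {σ : X.S ≃+* X.S}
    (hσ : ∀ w, σ (X.inc w) = X.inc w) :
    ∃ e : X.Idx ≃ X.Idx, ∀ l a, coeffMap σ.toRingHom (X.emb l a) = X.emb (e l) a := by
  have hσ' : ∀ w, σ.symm (X.inc w) = X.inc w := fun w => σ.symm_apply_eq.2 (hσ w).symm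
  have hfwd : ∀ (b : X.R) (l : X.Idx), ∃ l', coeffMap σ.toRingHom (X.emb l b) = X.emb l' b := by
    intro b l
    obtain ⟨l', hl'⟩ := X.exists_galois_conj hF hσ' b l
    refine ⟨l', ?_⟩
    rw [hl', coeffMap_coeffMap]
    ext k : 2
    simp
  obtain ⟨θ, hθ⟩ := X.exists_separating_R
  choose e he using hfwd θ
  have hall : ∀ l a, coeffMap σ.toRingHom (X.emb l a) = X.emb (e l) a := by
    intro l a
    choose f hf using fun t : ℕ => hfwd (θ + (t : X.R) * a) l
    obtain ⟨t, t', htt, hft⟩ := Finite.exists_ne_map_eq_of_infinite f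
    have h1 := hf t
    have h2 := hf t'
    rw [← hft] at h2
    simp only [map_add, map_mul, map_natCast] at h1 h2
    have h3 : coeffMap σ.toRingHom (X.emb l a) = X.emb (f t) a := by
      have hne : (t : LaurentSeries X.S) - t' ≠ 0 := sub_ne_zero.2 (Nat.cast_injective.ne htt)
      refine mul_left_cancel₀ hne ?_
      linear_combination h1 - h2
    rw [h3] at h1
    have h4 : X.emb (e l) θ = X.emb (f t) θ := by rw [← he l]; linear_combination h1
    rw [hθ h4, h3]
  have hinj : Injective e := fun l l' h => hθ (coeffMap_injective σ.toRingHom σ.injective (by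
    show coeffMap σ.toRingHom (X.emb l θ) = coeffMap σ.toRingHom (X.emb l' θ)
    rw [he, he, h]))
  exact ⟨Equiv.ofBijective e (Finite.injective_iff_bijective.1 hinj), hall⟩

/-- The Galois action on the translates. -/
theorem exists_galois_move (hF : X.FixedPart) {σ : X.S ≃+* X.S}
    (hσ : ∀ w, σ (X.inc w) = X.inc w) {γ : SL(2, ℤ)} (hγ : γ ∈ CongruenceSubgroup.Gamma M0) :
    ∃ γ', γ' ∈ CongruenceSubgroup.Gamma M0 ∧
      (∀ a : X.R, coeffMap σ.toRingHom (X.embAt γ a) = X.embAt γ' a) ∧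
      (γ = 1 → X.triple γ' = X.triple γ) := by
  obtain ⟨e, he⟩ := X.exists_galois_perm hF hσ
  refine ⟨X.rep (e (X.idx hγ)), X.rep_mem _, fun a => ?_, fun h1 => ?_⟩
  · rw [← X.emb_idx hγ, he]; rfl
  · have : e (X.idx hγ) = X.idx hγ := X.emb_injective_idx (RingHom.ext fun a => by
      rw [← he, X.emb_idx hγ, h1, X.embAt_one_fix hF hσ])
    rw [this, X.triple_rep]
    rfl

/-- The ring of the line. -/
def U : Subring X.R := Subring.closure (Set.range X.evR ∪ {X.dR})

theorem evR_mem_U (P : Polynomial X.W) : X.evR P ∈ X.U :=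
  Subring.subset_closure (Or.inl ⟨P, rfl⟩)

theorem dR_mem_U : X.dR ∈ X.U := Subring.subset_closure (Or.inr rfl)

theorem exists_U_form {u : X.R} (hu : u ∈ X.U) :
    ∃ (P : Polynomial X.W) (s : ℕ), u * X.evR X.dltW ^ s = X.evR P := by
  induction hu using Subring.closure_induction with
  | mem x hx =>
    rcases hx with ⟨P, rfl⟩ | rfl
    · exact ⟨P, 0, by simp⟩
    · exact ⟨1, 1, by rw [pow_one, mul_comm, X.evR_dltW_mul_dR, map_one]⟩
  | zero => exact ⟨0, 0, by simp⟩
  | one => exact ⟨1, 0, by simp⟩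
  | add x y _ _ hx hy =>
    obtain ⟨P, s, hP⟩ := hx
    obtain ⟨Q, t, hQ⟩ := hy
    refine ⟨P * X.dltW ^ t + Q * X.dltW ^ s, s + t, ?_⟩
    rw [map_add, map_mul, map_mul, map_pow, map_pow, ← hP, ← hQ, pow_add]
    ring
  | neg x _ hx =>
    obtain ⟨P, s, hP⟩ := hx
    exact ⟨-P, s, by rw [map_neg, ← hP, neg_mul]⟩
  | mul x y _ _ hx hy =>
    obtain ⟨P, s, hP⟩ := hx
    obtain ⟨Q, t, hQ⟩ := hy
    exact ⟨P * Q, s + t, by rw [map_mul, ← hP, ← hQ, pow_add]; ring⟩

/-- The elements of the line among the invariant functions. -/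
theorem exists_mem_U (x : trRing X.S (X.lev))
    (hinv : ∀ γ ∈ CongruenceSubgroup.Gamma M0, compg γ (x : ℍ → ℂ) = x)
    (hser : ∀ k, (ser x).coeff k ∈ X.inc.range) :
    ∃ u ∈ X.U, Subring.inclusion X.R_le u = x := by
  obtain ⟨P, s, h⟩ := X.exists_poly_W x hinv hser
  refine ⟨X.evR P * X.dR ^ s, mul_mem (X.evR_mem_U P) (pow_mem X.dR_mem_U s), ?_⟩
  have hd : X.evT X.dltS * Subring.inclusion X.R_le X.dR = 1 := by
    rw [← X.map_dltW, ← X.incl_evR, ← map_mul, X.evR_dltW_mul_dR, map_one]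
  rw [map_mul, map_pow, X.incl_evR, ← h, mul_assoc, ← mul_pow, hd, one_pow, mul_one]

/-- The characteristic polynomial of an element over the line. -/
theorem exists_charpoly (hF : X.FixedPart) (a : X.R) :
    ∃ p : Polynomial X.R, p.Monic ∧ p.natDegree = Fintype.card X.Idx ∧ (∀ k, p.coeff k ∈ X.U) ∧
      p.eval a = 0 ∧ p.map (X.embAt 1) = ∏ l, (Polynomial.X - Polynomial.C (X.emb l a)) := by
  set el : X.Idx → trRing X.S (X.lev) := fun l => trComp (X.rep l) (Subring.inclusion X.R_le a)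
  set p0 : Polynomial (trRing X.S (X.lev)) := ∏ l, (Polynomial.X - Polynomial.C (el l))
  have hel : ∀ (γ : SL(2, ℤ)) (hγ : γ ∈ CongruenceSubgroup.Gamma M0) (l : X.Idx),
      trComp γ (el l) = el (X.perm hγ l) := fun γ hγ l =>
    Subtype.ext (X.compg_rep_perm hγ l (X.stab_R a)).symm
  have hp : p0.map ser = ∏ l, (Polynomial.X - Polynomial.C (X.emb l a)) := by
    rw [Polynomial.map_prod]
    simp only [Polynomial.map_sub, Polynomial.map_X, Polynomial.map_C]
    rfl
  have hk : ∀ k, ∃ u ∈ X.U, Subring.inclusion X.R_le u = p0.coeff k := by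
    intro k
    refine X.exists_mem_U _ (fun γ hγ => ?_) fun i => hF _ fun σ hσ => ?_
    · have hinv : p0.map (trComp γ) = p0 := by
        rw [Polynomial.map_prod]
        simp only [Polynomial.map_sub, Polynomial.map_X, Polynomial.map_C, hel γ hγ]
        exact Equiv.prod_comp (X.perm hγ) fun l => Polynomial.X - Polynomial.C (el l)
      have h1 := congrArg (fun p : Polynomial (trRing X.S (X.lev)) =>
        ((p.coeff k : trRing X.S (X.lev)) : ℍ → ℂ)) hinv
      simp only [Polynomial.coeff_map] at h1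
      exact h1
    · obtain ⟨e, he⟩ := X.exists_galois_perm hF hσ
      have hinv : (p0.map ser).map (coeffMap σ.toRingHom) = p0.map ser := by
        rw [hp, Polynomial.map_prod]
        simp only [Polynomial.map_sub, Polynomial.map_X, Polynomial.map_C, he]
        exact Equiv.prod_comp e fun l => Polynomial.X - Polynomial.C (X.emb l a)
      have h1 := congrArg (fun p : Polynomial (LaurentSeries X.S) => (p.coeff k).coeff i) hinv
      simpa [Polynomial.coeff_map] using h1
  have hlift : p0 ∈ Polynomial.lifts (Subring.inclusion X.R_le) := (Polynomial.lifts_iff_coeff_lifts _).2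
    fun k => by obtain ⟨u, -, hu⟩ := hk k; exact ⟨u, hu⟩
  have hmon : p0.Monic := Polynomial.monic_prod_of_monic _ _ fun l _ => Polynomial.monic_X_sub_C _
  obtain ⟨p, hp0, hdeg, hpm⟩ := Polynomial.lifts_and_natDegree_eq_and_monic hlift hmon
  have hinj := Subring.inclusion_injective X.R_le
  have hser1 : (ser : trRing X.S (X.lev) →+* LaurentSeries X.S).comp
      (Subring.inclusion X.R_le) = X.embAt 1 := by
    refine RingHom.ext fun b => ?_
    have e : Subring.inclusion X.R_le b = trComp 1 (Subring.inclusion X.R_le b) :=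
      Subtype.ext (compg_one _).symm
    rw [RingHom.comp_apply, e]
    rfl
  have hmap : p.map (X.embAt 1) = ∏ l, (Polynomial.X - Polynomial.C (X.emb l a)) := by
    rw [← hser1, ← Polynomial.map_map, hp0, hp]
  refine ⟨p, hpm, ?_, fun k => ?_, ?_, hmap⟩
  · rw [hdeg, Polynomial.natDegree_prod_of_monic _ _ fun l _ => Polynomial.monic_X_sub_C _]
    simp
  · obtain ⟨u, hu, hu'⟩ := hk k
    rw [← hp0, Polynomial.coeff_map] at hu'
    rwa [← hinj hu']
  · refine X.embAt_injective 1 ?_
    rw [← Polynomial.eval₂_at_apply, ← Polynomial.eval_map, hmap, map_zero, ← X.emb_one',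
      Polynomial.eval_prod]
    exact Finset.prod_eq_zero (Finset.mem_univ X.one') (by simp)

/-- Traces of products are rational in the coordinate. -/
theorem exists_trace (hF : X.FixedPart) (a : X.R) : ∃ (P : Polynomial X.W) (s : ℕ),
    (∑ l, trComp (X.rep l) (Subring.inclusion X.R_le a)) * X.evT X.dltS ^ s =
      X.evT (P.map X.inc) := by
  refine X.exists_poly_W _ (fun γ hγ => ?_) fun i => hF _ fun σ hσ => ?_
  · rw [AddSubmonoidClass.coe_finsetSum]
    exact X.sum_invariant (X.stab_R a) hγ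
  · obtain ⟨e, he⟩ := X.exists_galois_perm hF hσ
    have h : coeffMap σ.toRingHom (∑ l, X.emb l a) = ∑ l, X.emb l a := by
      rw [map_sum]
      simp only [he]
      exact Equiv.sum_comp e fun l => X.emb l a
    have h2 : ser (∑ l, trComp (X.rep l) (Subring.inclusion X.R_le a)) = ∑ l, X.emb l a :=
      map_sum _ _ _
    rw [h2]
    have h1 := congrArg (fun z : LaurentSeries X.S => z.coeff i) h
    simpa using h1

/-- The ring of the cover is finitely generated. -/
theorem exists_finite_gen : ∃ (m : ℕ) (f : MvPolynomial (Fin m) X.W →+* X.R),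
    Function.Surjective f ∧ f.comp MvPolynomial.C = X.cW := by
  obtain ⟨m0, f0, hf0, hC0⟩ : ∃ (m : ℕ) (f : MvPolynomial (Fin m) X.W →+* X.ctr.R),
      Function.Surjective f ∧ ∀ w, f (MvPolynomial.C w) = X.ctr.cW w := by
    obtain ⟨m, f, hf, hC⟩ := X.ctr.exists_finite_gen
    exact ⟨m, f, hf, fun w => DFunLike.congr_fun hC w⟩
  obtain ⟨m1, f1, hf1, hC1⟩ : ∃ (m : ℕ) (f : MvPolynomial (Fin m) X.W →+* X.shf.R),
      Function.Surjective f ∧ ∀ w, f (MvPolynomial.C w) = X.shf.cW w := by
    obtain ⟨m, f, hf, hC⟩ := X.shf.exists_finite_gen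
    exact ⟨m, f, hf, fun w => DFunLike.congr_fun hC w⟩
  set ι := Fin m0 ⊕ (Fin K × Fin m1)
  set g : ι → X.R := Sum.elim (fun j => X.ofCtr (f0 (MvPolynomial.X j)))
    fun p => X.ofShf p.1 (f1 (MvPolynomial.X p.2))
  set F : MvPolynomial ι X.W →+* X.R := MvPolynomial.eval₂Hom X.cW g
  have hF0 : X.ofCtr.comp f0 = F.comp (MvPolynomial.rename Sum.inl).toRingHom := by
    refine MvPolynomial.ringHom_ext (fun w => ?_) fun j => ?_
    · simp only [RingHom.comp_apply, AlgHom.toRingHom_eq_coe, RingHom.coe_coe,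
        MvPolynomial.rename_C, F, MvPolynomial.eval₂Hom_C, hC0]
      rfl
    · simp [F, g]
  have hF1 : ∀ i, (X.ofShf i).comp f1 =
      F.comp (MvPolynomial.rename fun j => Sum.inr (i, j)).toRingHom := by
    intro i
    refine MvPolynomial.ringHom_ext (fun w => ?_) fun j => ?_
    · simp only [RingHom.comp_apply, AlgHom.toRingHom_eq_coe, RingHom.coe_coe,
        MvPolynomial.rename_C, F, MvPolynomial.eval₂Hom_C, hC1]
      exact Subtype.ext rfl
    · simp [F, g]
  refine ⟨Fintype.card ι, F.comp (MvPolynomial.rename (Fintype.equivFin ι).symm).toRingHom, ?_, ?_⟩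
  · refine Function.Surjective.comp (g := F) ?_ (fun P => ⟨MvPolynomial.rename (Fintype.equivFin ι) P,
      by simp [MvPolynomial.rename_rename]⟩)
    rintro ⟨φ, hφ⟩
    show (⟨φ, hφ⟩ : X.R) ∈ F.range
    induction hφ using Subring.closure_induction with
    | mem f hf =>
      rcases hf with hf | hf
      · obtain ⟨P, hP⟩ := hf0 ⟨f, hf⟩
        exact ⟨_, (DFunLike.congr_fun hF0 P).symm.trans (congrArg X.ofCtr hP)⟩
      · obtain ⟨i, a, ha, rfl⟩ := Set.mem_iUnion.1 hf
        obtain ⟨P, hP⟩ := hf1 ⟨a, ha⟩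
        exact ⟨_, (DFunLike.congr_fun (hF1 i) P).symm.trans (congrArg (X.ofShf i) hP)⟩
    | zero => exact zero_mem F.range
    | one => exact one_mem F.range
    | add x y hx hy ihx ihy => exact add_mem ihx ihy
    | neg x hx ihx => exact neg_mem ihx
    | mul x y hx hy ihx ihy => exact mul_mem ihx ihy
  · refine RingHom.ext fun w => ?_
    simp [F]

theorem isNoetherianRing_R [IsNoetherianRing X.W] : IsNoetherianRing X.R := by
  obtain ⟨m, f, hf, -⟩ := X.exists_finite_gen
  exact isNoetherianRing_of_surjective _ _ f hf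

/-- The ring of the cover is integral over the line. -/
theorem isIntegral_U (hF : X.FixedPart) (a : X.R) : IsIntegral X.U a := by
  obtain ⟨p, hp, -, hk, h0, -⟩ := X.exists_charpoly hF a
  have hlift : p ∈ Polynomial.lifts X.U.subtype :=
    (Polynomial.lifts_iff_coeff_lifts _).2 fun k => ⟨⟨_, hk k⟩, rfl⟩
  obtain ⟨p', hp', -, hm⟩ := Polynomial.lifts_and_natDegree_eq_and_monic hlift hp
  refine ⟨p', hm, ?_⟩
  rw [← Polynomial.eval_map]
  show (p'.map X.U.subtype).eval a = 0
  rw [hp', h0]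

end Ctx

end FLTAgent.CarayolK
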