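import Fermat.Agent.CarayolK.Reduction
import Fermat.Agent.CarayolK.Descent
import Fermat.Agent.Carayol.Points

/-!
# Minimal primes over `q` and points of the cover
-/

set_option autoImplicit false
set_option linter.unusedSectionVars false
set_option linter.style.haveILetI false

noncomputable section

open UpperHalfPlane hiding I I_re I_im
open Filter Topology Complex Function FLTAgent.ModEq FLTAgent.GoodModel ModularCurve
open scoped MatrixGroups Manifold Classical

namespace FLTAgent.CarayolK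

open FLTAgent.Carayol (coordT trComp not_eval₂_eq_zero)

namespace Res

variable {q M0 N' K : ℕ} [NeZero M0] [NeZero N'] [NeZero q] [Fact q.Prime]
variable {X : Ctx q M0 N' K} {k : Type} [Field k] (Ω : Res X k)

/-- The reduction of a translate of the coordinate. -/
theorem red_evR (γ : SL(2, ℤ)) (P : Polynomial X.W) :
    Ω.red γ (X.evR P) = (P.map Ω.φW).eval₂ HahnSeries.C (Ω.red γ X.yR) := by
  rw [Polynomial.eval₂_map, Ctx.evR, Polynomial.coe_eval₂RingHom, Polynomial.hom_eval₂]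
  congr 1
  ext w : 1
  exact Ω.red_cW γ w

/-- The coordinate at a translate has an exact pole or an exact zero. -/
theorem exists_red_yR (σ : SL(2, ℤ)) : ∃ (c : k) (a : ℤ), a ≠ 0 ∧
    LeadAt (Ω.red σ X.yR - HahnSeries.C c) a := by
  obtain ⟨c, a, ha, hl⟩ := Ω.ctr.exists_red_yR σ
  refine ⟨c, ((q ^ (K - 1) : ℕ) : ℤ) * a,
    mul_ne_zero (by exact_mod_cast NeZero.ne (q ^ (K - 1))) ha, ?_⟩
  have e : Ω.red σ X.yR - HahnSeries.C c =
      qExpand k (q ^ (K - 1)) (Ω.ctr.red σ X.ctr.yR - HahnSeries.C c) := by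
    rw [map_sub, Ctx.yR, Ω.red_eq_qExpand_ctr, HahnSeries.C_apply, qExpand_single, mul_zero]
  rw [e]
  exact ⟨geOrd_qExpand hl.1 _, by rw [qExpand_coeff_mul]; exact hl.2⟩

theorem dvd_of_red_U {σ : SL(2, ℤ)} {u : X.R} (hu : u ∈ X.U) (h : Ω.red σ u = 0) :
    (q : X.R) ∣ u := by
  obtain ⟨P, s, hP⟩ := X.exists_U_form hu
  obtain ⟨c, a, ha, hl⟩ := Ω.exists_red_yR σ
  have h1 : (P.map Ω.φW).eval₂ HahnSeries.C (Ω.red σ X.yR) = 0 := by
    rw [← Ω.red_evR, ← hP, map_mul, h, zero_mul]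
  have h2 := not_eval₂_eq_zero ha hl h1
  have hdvd : Polynomial.C (q : X.W) ∣ P := Polynomial.C_dvd_iff_dvd_coeff _ _ |>.2 fun i => Ω.kerW _ (by
    have := congrArg (fun p : Polynomial k => p.coeff i) h2
    simpa [Polynomial.coeff_map] using this)
  have h3 : X.evR (Polynomial.C (q : X.W)) = (q : X.R) := by rw [map_natCast Polynomial.C, map_natCast]
  have h4 : u = X.evR P * X.dR ^ s := by
    rw [← hP, mul_assoc, ← mul_pow, X.evR_dltW_mul_dR, one_pow, mul_one]
  rw [h4]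
  exact dvd_mul_of_dvd_left (h3 ▸ map_dvd X.evR hdvd) _

theorem isNilpotent_of_forall {a : X.R} (h : ∀ l, a ∈ Ω.ker (X.rep l)) :
    (q : X.R) ∣ a ^ Fintype.card X.Idx := by
  obtain ⟨p, hp, hdeg, hk, h0, hmap⟩ := X.exists_charpoly Ω.fixed a
  have hcoef : ∀ i, i < Fintype.card X.Idx → (q : X.R) ∣ p.coeff i := by
    intro i hi
    refine Ω.dvd_of_red_U (σ := 1) (hk i) ?_
    have h1 := congrArg (fun P : Polynomial (LaurentSeries k) => P.coeff i)
      (congrArg (Polynomial.map Ω.rd) hmap)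
    simp only [Polynomial.map_map, Polynomial.map_prod, Polynomial.map_sub, Polynomial.map_X,
      Polynomial.map_C, Polynomial.coeff_map] at h1
    rw [show Ω.red 1 (p.coeff i) = (Ω.rd.comp (X.embAt 1)) (p.coeff i) from rfl, h1]
    rw [Finset.prod_congr rfl fun l _ => by
      rw [show Ω.rd (X.emb l a) = 0 from h l, map_zero, sub_zero]]
    rw [Finset.prod_const, Finset.card_univ, Polynomial.coeff_X_pow, if_neg hi.ne]
  have h1 := h0
  rw [Polynomial.eval_eq_sum_range, hdeg, Finset.sum_range_succ,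
    show p.coeff (Fintype.card X.Idx) = 1 from hdeg ▸ hp.coeff_natDegree, one_mul,
    add_eq_zero_iff_neg_eq] at h1
  rw [← h1]
  exact (dvd_neg).2 (Finset.dvd_sum fun i hi => dvd_mul_of_dvd_left (hcoef i (Finset.mem_range.1 hi)) _)

/-- The reductions of all translates give minimal primes over `q`. -/
theorem exists_ker_le (P : Ideal X.R) [P.IsPrime] (hP : (q : X.R) ∈ P) :
    ∃ l, Ω.ker (X.rep l) ≤ P := by
  by_contra hne
  push Not at hne
  have : ∀ l, ∃ a ∈ Ω.ker (X.rep l), a ∉ P := fun l => SetLike.not_le_iff_exists.1 (hne l)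
  choose a ha haP using this
  have hprod : ∀ l, (∏ j, a j) ∈ Ω.ker (X.rep l) := fun l =>
    Ideal.mem_of_dvd _ (Finset.dvd_prod_of_mem a (Finset.mem_univ l)) (ha l)
  have h := P.mem_of_dvd (Ω.isNilpotent_of_forall hprod) hP
  obtain ⟨l, -, hl⟩ := (Ideal.IsPrime.prod_mem_iff).1 (Ideal.IsPrime.mem_of_pow_mem ‹_› _ h)
  exact haP l hl

theorem exists_ker_eq (σ : SL(2, ℤ)) : ∃ l, Ω.ker σ = Ω.ker (X.rep l) := by
  obtain ⟨l, hl⟩ := Ω.exists_ker_le (Ω.ker σ) (Ω.red_natCast σ)
  refine ⟨l, (eq_of_le_of_not_lt hl fun hlt => ?_).symm⟩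
  haveI : Algebra.IsIntegral X.U X.R := ⟨X.isIntegral_U Ω.fixed⟩
  have h2 := Ideal.IsIntegral.comap_lt_comap (R := X.U) (A := X.R) hlt
  obtain ⟨u, hu, hu'⟩ := SetLike.exists_of_lt h2
  refine hu' ?_
  obtain ⟨v, hv⟩ := Ω.dvd_of_red_U u.2 (show Ω.red σ (u : X.R) = 0 from hu)
  show Ω.red (X.rep l) (u : X.R) = 0
  rw [hv, map_mul, Ω.red_natCast, zero_mul]

theorem exists_pt [IsAlgClosed k] (P : Ideal X.R) [P.IsMaximal]
    (hP : (q : X.R) ∈ P) : ∃ p : Pt Ω, p.ideal = P := by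
  obtain ⟨m, f, hf, hfC⟩ := X.exists_finite_gen
  letI := Ideal.Quotient.field P
  have hker : RingHom.ker Ω.φW ≤ RingHom.ker ((Ideal.Quotient.mk P).comp X.cW) := by
    intro w hw
    obtain ⟨c, rfl⟩ := Ω.kerW w hw
    rw [RingHom.mem_ker, RingHom.comp_apply, map_mul, map_natCast, map_mul,
      Ideal.Quotient.eq_zero_iff_mem.2 hP, zero_mul]
  set ι : k →+* X.R ⧸ P := RingHom.liftOfSurjective Ω.φW Ω.surjW
    ⟨(Ideal.Quotient.mk P).comp X.cW, hker⟩
  have hι : ι.comp Ω.φW = (Ideal.Quotient.mk P).comp X.cW :=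
    RingHom.liftOfRightInverse_comp _ _ _ _
  letI := ι.toAlgebra
  let g : MvPolynomial (Fin m) k →ₐ[k] X.R ⧸ P :=
    MvPolynomial.aeval fun i => Ideal.Quotient.mk P (f (MvPolynomial.X i))
  have hg : Surjective g := by
    have key : g.toRingHom.comp (MvPolynomial.map Ω.φW) = (Ideal.Quotient.mk P).comp f := by
      refine MvPolynomial.ringHom_ext (fun w => ?_) fun i => ?_
      · simp only [RingHom.comp_apply, MvPolynomial.map_C, g, AlgHom.toRingHom_eq_coe,
          RingHom.coe_coe, MvPolynomial.aeval_C]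
        rw [show f (MvPolynomial.C w) = X.cW w from RingHom.congr_fun hfC w]
        exact RingHom.congr_fun hι w
      · simp [g]
    intro z
    obtain ⟨z, rfl⟩ := Ideal.Quotient.mk_surjective z
    obtain ⟨P', rfl⟩ := hf z
    exact ⟨MvPolynomial.map Ω.φW P', RingHom.congr_fun key P'⟩
  haveI : Algebra.FiniteType k (X.R ⧸ P) := Algebra.FiniteType.of_surjective g hg
  haveI : Module.Finite k (X.R ⧸ P) := finite_of_finite_type_of_isJacobsonRing k _
  haveI : Algebra.IsIntegral k (X.R ⧸ P) := Algebra.IsIntegral.of_finite k _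
  set e : k ≃+* X.R ⧸ P := RingEquiv.ofBijective ι
    (IsAlgClosed.algebraMap_bijective_of_isIntegral (k := k) (K := X.R ⧸ P))
  refine ⟨⟨e.symm.toRingHom.comp (Ideal.Quotient.mk P), RingHom.ext fun w => ?_⟩, ?_⟩
  · apply e.injective
    simp only [RingHom.comp_apply, RingEquiv.toRingHom_eq_coe, RingEquiv.coe_toRingHom,
      RingEquiv.apply_symm_apply]
    exact (RingHom.congr_fun hι w).symm
  · ext z
    rw [Pt.mem_ideal]
    simp [Ideal.Quotient.eq_zero_iff_mem]

end Res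

end FLTAgent.CarayolK
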