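import Fermat.Agent.CarayolK.Frac
import Fermat.Agent.CarayolK.Minimal
import Fermat.Agent.Carayol.Series

/-!
# Functions with divisible norms have roots in the function field
-/

set_option autoImplicit false
set_option linter.unusedSectionVars false
set_option linter.style.haveILetI false

noncomputable section

open UpperHalfPlane hiding I I_re I_im
open Filter Topology Complex Function FLTAgent.ModEq FLTAgent.GoodModel ModularCurve
open scoped MatrixGroups Manifold Classical

namespace FLTAgent.CarayolK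

open FLTAgent.Carayol (trComp sPairs_mono coordT toL root_change exists_nth_root ser_injective IsIntVal AtPuncture punct)

variable {q M0 N' K : ℕ} [NeZero M0] [NeZero N'] [NeZero q] [Fact q.Prime] (X : Ctx q M0 N' K)

namespace Ctx

/-- The representatives of the cusps of the line. -/
def cr (_X : Ctx q M0 N' K) : Option (Fin M0) → SL(2, ℤ)
  | none => 1
  | some i => cuspRep0 M0 i

/-- The coordinate at a cusp of the line. -/
def Tc (c : Option (Fin M0)) : LaurentSeries X.S := ser (trComp (X.cr c) ⟨X.ctr.T, X.T_mem⟩)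

theorem Tc_none : X.Tc none = X.Ys := by
  rw [Tc, ← X.ser_T]
  exact congrArg ser (Subtype.ext (compg_one _))

theorem leadAt_lift {G : LaurentSeries X.W} {a : ℤ} (hG : LeadAt G a) :
    LeadAt (qExpand X.S (N' * q ^ K) (coeffMap X.inc G)) (((N' * q ^ K : ℕ) : ℤ) * a) := by
  refine ⟨fun i hi => geOrd_qExpand (a := a) (fun l hl => by
    rw [coeffMap_coeff, hG.1 l hl, map_zero]) (N' * q ^ K) i hi, ?_⟩
  rw [qExpand_coeff_mul, coeffMap_coeff]
  exact hG.2.map X.inc

theorem leadAt_Tc_none : LeadAt (X.Tc none) (-((N' * q ^ K : ℕ) : ℤ)) := by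
  rw [X.Tc_none, show -((N' * q ^ K : ℕ) : ℤ) = ((N' * q ^ K : ℕ) : ℤ) * (-1) by ring]
  exact X.leadAt_lift X.co.leadH

theorem atPuncture_Tc (i : Fin M0) : AtPuncture (X.Tc (some i)) (X.inc (X.co.c i)) (N' * q ^ K) := by
  obtain ⟨G, hG, hl⟩ := X.co.cusp.2 i
  have h := (sPairs X.W M0).add_mem hG (sPairs_const (n := M0) (X.co.c i))
  have h2 : X.Tc (some i) = qExpand X.S (N' * q ^ K) (coeffMap X.inc (G + HahnSeries.C (X.co.c i))) := by
    refine sPairs_unique (ser_spec _) ?_
    convert sPairs_refine (k := N' * q ^ K) rfl (sPairs_mono X.hWS h) using 2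
    funext τ
    show X.ctr.T (cuspRep0 M0 i • τ) = _
    simp
  rw [AtPuncture, h2, map_add, map_add, HahnSeries.C_apply, coeffMap_single, qExpand_single, mul_zero,
    ← HahnSeries.C_apply, add_sub_cancel_right]
  simpa using X.leadAt_lift hl

theorem embAt_mul (γ δ : SL(2, ℤ)) (a : X.R) :
    X.embAt (γ * δ) a = ser (trComp δ (trComp γ (Subring.inclusion X.R_le a))) := by
  rw [X.embAt_apply]
  exact congrArg ser (Subtype.ext (compg_compg _ _ _).symm)

theorem ser_trComp_evT (σ : SL(2, ℤ)) (P : Polynomial X.S) :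
    ser (trComp σ (X.evT P)) = P.eval₂ HahnSeries.C (ser (trComp σ ⟨X.ctr.T, X.T_mem⟩)) := by
  rw [evT, Polynomial.coe_eval₂RingHom, Polynomial.hom_eval₂, Polynomial.hom_eval₂]
  congr 1
  ext x : 1
  exact (congrArg ser (Subtype.ext rfl)).trans (X.ser_const x)

theorem exists_trace_cusp (hF : X.FixedPart) (a : X.R) : ∃ (P : Polynomial X.S) (s : ℕ),
    ∀ c, (∑ l, X.embAt (X.rep l * X.cr c) a) *
      (punct fun i => X.inc (X.co.c i)).eval₂ HahnSeries.C (X.Tc c) ^ s =
        P.eval₂ HahnSeries.C (X.Tc c) := by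
  obtain ⟨P, s, hP⟩ := X.exists_trace hF a
  refine ⟨P.map X.inc, s, fun c => ?_⟩
  have hd : (punct fun i => X.inc (X.co.c i)) = X.dltS := rfl
  have hl : ∀ l, X.embAt (X.rep l * X.cr c) a =
      ser (trComp (X.cr c) (trComp (X.rep l) (Subring.inclusion X.R_le a))) := fun l => X.embAt_mul _ _ _
  rw [hd, Finset.sum_congr rfl fun l _ => hl l, ← map_sum, ← map_sum]
  show ser (trComp (X.cr c) _) * (X.dltS.eval₂ HahnSeries.C (ser (trComp (X.cr c) ⟨X.ctr.T, X.T_mem⟩))) ^ s =
    (P.map X.inc).eval₂ HahnSeries.C (ser (trComp (X.cr c) ⟨X.ctr.T, X.T_mem⟩))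
  rw [← X.ser_trComp_evT, ← X.ser_trComp_evT, ← map_pow, ← map_pow, ← map_mul, ← map_mul, hP]

end Ctx

variable {X} {k : Type} [Field k] {Ω : Res X k}
variable [IsDiscreteValuationRing X.S] [IsAlgClosed k] [IsNoetherianRing X.W]

namespace Ram

variable (ρ : Ram Ω) {L : Type*} [Field L] [IsAlgClosed L] {A : ValuationSubring L} {π : A →+* k}

include ρ in
set_option maxHeartbeats 400000 in
/-- A normalised function with a root modulo a nilpotent element gives a root of a fixed power of the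
original one. -/
theorem exists_root_of_normalised (hπ : Surjective π) (hA : Specialization.RankOne π)
    (jO : X.S →+* A) (hjO : Injective jO) (hjφ : π.comp jO = Ω.φ) {n : ℕ} (hn : (n : k) ≠ 0)
    (hnW : IsUnit (n : X.W)) {E : ℕ} {f F t r : X.R} {c : X.W} (hc : c ≠ 0) (ht : t ≠ 0)
    (hF : ∀ g a, Ω.rs g a F ≠ 0) (he : t ^ n * f ^ E = F * X.cW c * r ^ n)
    (hvF : X.VDvd n F) {a j : X.R} {e : ℕ} (ha : a ^ n = F * (1 + j)) (hj : (q : X.R) ∣ j ^ e)
    (L' : Subfield (LaurentSeries L)) (hC : ∀ x : L, HahnSeries.C x ∈ L')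
    (hR : ∀ a : X.R, toL jO (X.emb X.one' a) ∈ L') :
    ∃ g ∈ L', g ^ n = toL jO (X.emb X.one' f) ^ E := by
  have hn0 : n ≠ 0 := fun h => hn (by simp [h])
  haveI : NeZero n := ⟨hn0⟩
  have hkerφ : ∀ x : X.S, Ω.φ x = 0 → ρ.ϖ ∣ x := fun x h => by
    rw [← Ideal.mem_span_singleton, ← ρ.irr.maximalIdeal_eq, IsLocalRing.mem_maximalIdeal,
      mem_nonunits_iff]
    exact fun hu => (hu.map Ω.φ).ne_zero h
  have hF0 : F ≠ 0 := fun h => by
    obtain ⟨l⟩ : Nonempty X.Idx := ⟨X.one'⟩
    exact hF (X.sheet l) (X.kind l) (by rw [h, map_zero])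
  obtain ⟨rb, hrb⟩ := X.exists_basis
  set eq' := Fintype.equivFin X.Idx
  set σ : Option (Fin M0) → Fin (Fintype.card X.Idx) → X.R →+* LaurentSeries X.S :=
    fun c l => X.embAt (X.rep (eq'.symm l) * X.cr c) with hσ
  have hσn : ∀ l, σ none l = X.emb (eq'.symm l) := fun l => by
    simp only [hσ, Ctx.cr, mul_one, Ctx.emb]
  have hjφ' : ∀ x, π (jO x) = Ω.φ x := fun x => RingHom.congr_fun hjφ x
  obtain ⟨u, hu⟩ := hnW.exists_right_inv
  have hϖdvd : ∀ (c : Option (Fin M0)) (l : Fin (Fintype.card X.Idx)),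
      HahnSeries.C ρ.ϖ ∣ σ c l (q : X.R) := fun c l => by
    rw [map_natCast, ← map_natCast (HahnSeries.C : X.S →+* LaurentSeries X.S), ρ.hq, map_mul, map_pow]
    exact dvd_mul_of_dvd_right (dvd_pow_self _
      (mul_ne_zero (pow_ne_zero _ X.hq.ne_zero) (by have := X.hq.two_le; omega))) _
  obtain ⟨g, hgK, hg⟩ := exists_nth_root (F := FractionRing X.R) hπ hA jO hjO ρ.irr
    (by rw [hjφ', ρ.φϖ]) (fun x hx => hkerφ x (by rwa [← hjφ']))
    (fun y => by obtain ⟨w, hw⟩ := Ω.surjW y; exact ⟨X.inc w, (hjφ' _).trans hw⟩)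
    X.cW X.inc (fun i => X.inc (X.co.c i)) (fun i i' hne => by
      rw [← map_sub]; exact (X.co.cusp.1 i i' hne).map X.inc)
    X.Tc (Nat.pos_of_ne_zero (NeZero.ne (N' * q ^ K))) X.atPuncture_Tc X.leadAt_Tc_none
    σ (fun c l => X.embAt_injective _) (fun c l w => X.embAt_cW _ w)
    (fun a => by
      obtain ⟨P, s, hP⟩ := X.exists_trace_cusp Ω.fixed a
      refine ⟨P, s, fun c => ?_⟩
      rw [← hP c]
      congr 1
      exact Fintype.sum_equiv eq'.symm _ _ fun l => rfl)
    rb (by simpa only [hσn] using hrb) hn (f := F) hF0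
    hvF
    (fun c l => by
      rw [hjφ]
      show Ω.red (X.rep (eq'.symm l) * X.cr c) F ≠ 0
      obtain ⟨l', hl'⟩ := Ω.exists_ker_eq (X.rep (eq'.symm l) * X.cr c)
      exact fun h0 => hF (X.sheet l') (X.kind l') (by
        have h1 : F ∈ Ω.ker (X.rep l') := by rw [← hl']; exact h0
        rw [← Ω.red_rep]
        exact h1))
    (u := X.cW u) (by rw [← map_natCast X.cW, ← map_mul, hu, map_one])
    (ϖR := (q : X.R)) hϖdvd ha hj (eq' X.one') L' hC
    (by
      have h1 := hR X.yR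
      rwa [show X.emb X.one' X.yR = X.Tc none from by
        rw [X.emb_one', X.embAt_apply, Ctx.Tc]; exact congrArg ser (Subtype.ext rfl)] at h1)
    (fun a => by rw [hσn, Equiv.symm_apply_apply]; exact hR a)
  rw [hσn, Equiv.symm_apply_apply] at hg
  -- absorb the constant and the change by powers
  set ψ : X.R →+* LaurentSeries L := (toL jO).comp (X.emb X.one') with hψ
  have hψinj : Injective ψ := by
    refine (coeffMap_injective (A.subtype.comp jO) (Subtype.val_injective.comp hjO)).comp ?_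
    exact X.embAt_injective _
  have hψc : ψ (X.cW c) = HahnSeries.C ((jO (X.inc c) : A) : L) := by
    show toL jO (X.emb X.one' (X.cW c)) = _
    rw [show X.emb X.one' (X.cW c) = HahnSeries.C (X.inc c) from X.embAt_cW _ c, toL, HahnSeries.C_apply, coeffMap_single]
    rfl
  have hcL : ((jO (X.inc c) : A) : L) ≠ 0 := fun h =>
    (fun h0 => hc (Subring.inclusion_injective X.hWS (h0.trans (map_zero _).symm))) (hjO ((Subtype.ext h).trans (map_zero jO).symm))
  obtain ⟨z, hz⟩ := IsAlgClosed.exists_pow_nat_eq (((jO (X.inc c) : A) : L) ^ 1) (Nat.pos_of_ne_zero hn0)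
  have ht' : ψ t ≠ 0 := fun h => ht (hψinj (h.trans (map_zero ψ).symm))
  refine ⟨g * HahnSeries.C z * ψ r ^ 1 / ψ t ^ 1, div_mem (mul_mem (mul_mem hgK (hC z))
    (pow_mem (hR r) _)) (pow_mem (hR t) _), ?_⟩
  have h2 := congrArg ψ he
  simp only [map_mul, map_pow, hψc] at h2
  have h3 : g ^ n = ψ F ^ 1 := hg.trans (pow_one _).symm
  have h4 : (HahnSeries.C z : LaurentSeries L) ^ n =
      HahnSeries.C ((jO (X.inc c) : A) : L) ^ 1 := by rw [← map_pow, ← map_pow, hz]
  exact (root_change ht' h3 h4 h2).trans (by rw [mul_one]; rfl)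

end Ram

end FLTAgent.CarayolK
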