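import Fermat.Agent.CarayolK.Finite
import Fermat.Agent.CarayolK.Series
import Fermat.Agent.EigenLattice.Dictionary
import Fermat.Agent.EigenLattice.NewAt
import Fermat.Agent.Curves.Existence

/-!
# The geometric bound at `q` for classes fixed by inertia, higher powers of `q`
-/

set_option autoImplicit false
set_option linter.unusedSectionVars false
set_option linter.style.haveILetI false
set_option synthInstance.maxHeartbeats 400000
set_option maxHeartbeats 1000000

noncomputable section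

open Function AlgebraicCurve IsLocalRing ModularCurve FLTAgent.ModEq FLTAgent.GoodModel
open scoped Classical

namespace FLTAgent.CarayolK

open FLTAgent.Carayol (HhRel toL K0 mem_K0)

local notation "QA" => AlgebraicClosure ℚ
local notation "GG" => (AlgebraicClosure ℚ ≃ₐ[ℚ] AlgebraicClosure ℚ)

/-- The exponent lost by the root extraction. -/
def expK (q K : ℕ) : ℕ := q ^ (K - 1) * (q - 1) * (q ^ (K - 1) * (q - 1))

theorem expK_pos {q : ℕ} (hq : q.Prime) (K : ℕ) : 0 < expK q K := by
  have := hq.two_le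
  have h1 : 0 < q - 1 := by omega
  have h2 : 0 < q ^ (K - 1) := pow_pos hq.pos _
  unfold expK
  positivity

/-- Functions with divisible norms and divisor have roots up to a fixed exponent. -/
def RootOfNorms (q K : ℕ) [NeZero q] [Fact q.Prime] : Prop :=
  ∀ {M0 N' : ℕ} [NeZero M0] [NeZero N'] (X : Ctx q M0 N' K) [IsDiscreteValuationRing X.S]
    [IsNoetherianRing X.W] (k : Type) [Field k] [IsAlgClosed k] (Ω : Res X k) (_ : Ram Ω)
    (L : Type) [Field L] [IsAlgClosed L] (A : ValuationSubring L) (π : A →+* k),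
    Surjective π → Specialization.RankOne π → ∀ jO : X.S →+* A, Injective jO → π.comp jO = Ω.φ →
    ∀ {n : ℕ}, (n : k) ≠ 0 → IsUnit (n : X.W) → Nat.Coprime q n → ∀ {f : X.R}, f ≠ 0 →
    X.RelB n false f → X.RelB n true f → X.VDvd n f →
    ∀ L' : Subfield (LaurentSeries L), (∀ x : L, HahnSeries.C x ∈ L') →
    (∀ a : X.R, toL jO (X.emb X.one' a) ∈ L') →
    ∃ g ∈ L', g ^ n = toL jO (X.emb X.one' f) ^ expK q K

namespace Model

variable {A : ValuationSubring QA} {q M0 N' K M' : ℕ} [Fact q.Prime] [NeZero q] [NeZero M0]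
  [NeZero N'] [NeZero M'] (m : Model A q M0 N' K M')

/-- At a place, a fixed class killed by both push forwards has bounded exponent. -/
theorem smul_eq_zero_of_fixed (hroot : RootOfNorms q K) (hA : A.LiesOverPrime q) {d : ℕ}
    (hrel : HhRel Kronecker.complexEmb M0 d) {n : ℕ} (hn : ¬ q ∣ n)
    (D : Divisor.degZero (K := QA) (F := modularFunctionFieldBar (q * (q ^ (K - 1) * M') * q)))
    (hnD : n • Pic0.mk D = 0)
    (hfix : ∀ σ ∈ A.inertiaSubgroupIn ℚ, σ • Pic0.mk D = Pic0.mk D)
    (hpush : ∀ b, (Divisor.pushforwardAlong (Carayol.Pull.deg q (q ^ (K - 1) * M') b) (Kronecker.isIntegralAlong _)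
      (D : Divisor QA _)).IsPrincipal) :
    (expK q K * (d * Fintype.card m.X.Idx).factorial) • Pic0.mk D = 0 := by
  haveI := m.dvr
  haveI := m.noeth
  haveI : IsAlgClosed (ResidueField A) := FrobTrace.isAlgClosed_residueField A
  have hq : q.Prime := Fact.out
  have hn0 : n ≠ 0 := fun h => hn (h ▸ dvd_zero q)
  obtain ⟨D', f, hf, hDD, hdiv, hgal⟩ := EigenLattice.exists_rational_function hn0 hnD
  have hord : ∀ v : Place QA (modularFunctionFieldBar (q * (q ^ (K - 1) * M') * q)),
      (n : ℤ) * (D' : Divisor QA _) v = v.ord f := fun v => by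
    rw [← Curves.divOf_apply (K := QA) f v, ← hdiv]
    simp
  have hpush' : ∀ b, (Divisor.pushforwardAlong (Carayol.Pull.deg q (q ^ (K - 1) * M') b) (Kronecker.isIntegralAlong _)
      (D' : Divisor QA _)).IsPrincipal := fun b => by
    have h1 : (-(D : Divisor QA (modularFunctionFieldBar (q * (q ^ (K - 1) * M') * q))) +
        (D' : Divisor QA (modularFunctionFieldBar (q * (q ^ (K - 1) * M') * q)))).IsPrincipal :=
      QuotientAddGroup.eq.1 hDD.symm
    have h2 := Divisor.isPrincipal_pushforwardAlong (Carayol.Pull.deg q (q ^ (K - 1) * M') b) (Kronecker.isIntegralAlong _)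
      (Kronecker.finiteAlong _) (Kronecker.normFormulaAlong _ (Kronecker.finiteAlong _)) h1
    have h3 := (Divisor.principal (K := QA) (F := modularFunctionFieldBar (q * (q ^ (K - 1) * M')))).add_mem
      (Divisor.mem_principal.2 (hpush b)) (Divisor.mem_principal.2 h2)
    rw [← map_add, add_neg_cancel_left] at h3
    exact h3
  set P := m.P
  have hK := m.small
  have hfK : ∀ k, (f : LaurentSeries QA).coeff k ∈ K0 A := fun k => by
    rw [mem_K0]
    intro σ hσ
    have h := congrArg (fun z : LaurentSeries QA => z.coeff k) (hgal σ (hfix σ hσ))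
    simp only [coeffMap_coeff] at h
    exact h
  obtain ⟨a, e, he, hae⟩ := P.exists_frac_Theta hK f hfK
  have hrelB : ∀ b, m.X.RelB n b (a * e ^ (n - 1)) := fun b => by
    obtain ⟨g, hg, c, hc, hnorm⟩ := EigenLattice.exists_norm_eq (Carayol.Pull.deg q (q ^ (K - 1) * M') b)
      (Kronecker.isIntegralAlong _) hf hord (hpush' b)
    exact P.relB_of_norm hK hn0 b hfK hf he hae hg hc hnorm
  have hv : m.X.VDvd n (a * e ^ (n - 1)) := P.vDvd hK hf hn0 _ hord he (hae 1)
  have ha : a ≠ 0 := fun h0 => by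
    have h1 := hae 1
    rw [h0, map_zero, mul_eq_zero] at h1
    rcases h1 with h | h
    · exact he (P.eps_injective 1 (h.trans (map_zero _).symm))
    · exact hf ((P.Theta 1).injective (h.trans (map_zero _).symm))
  haveI := FrobTrace.charP_residueField hA
  have hnk : (n : ResidueField A) ≠ 0 := fun h => hn ((CharP.cast_eq_zero_iff _ q n).1 h)
  have hcoe : (Kronecker.complexEmb.comp (A.subtype.comp m.jO)) = m.X.S.subtype :=
    RingHom.ext m.hjκ
  have hemb : ∀ x : m.X.R, coeffMap Kronecker.complexEmb (toL m.jO (m.X.emb m.X.one' x)) =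
      P.eps 1 x := fun x => by
    rw [toL, coeffMap_coeffMap, hcoe, m.X.emb_one', P.eps_eq]
  obtain ⟨G, hG, hGn⟩ := hroot m.X (ResidueField A) m.Ω m.ρ QA A (residue A)
    IsLocalRing.residue_surjective (Specialization.rankOne_residue hA) m.jO m.hjO m.hjφ hnk
    (m.unitW n hn) (hq.coprime_iff_not_dvd.2 hn) (mul_ne_zero ha (pow_ne_zero _ he)) (hrelB false)
    (hrelB true) hv (P.Kc.comap (coeffMap Kronecker.complexEmb))
    (fun x => by
      show coeffMap Kronecker.complexEmb (HahnSeries.C x) ∈ P.Kc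
      rw [HahnSeries.C_apply, coeffMap_single, ← HahnSeries.C_apply, ← m.hκ]
      exact P.C_mem_Kc x)
    (fun x => by
      show coeffMap Kronecker.complexEmb _ ∈ P.Kc
      rw [hemb]
      exact P.eps_mem_Kc x)
  -- the root in the field of the cover
  letI := (P.ThetaK hK).toAlgebra
  obtain ⟨hfin, hle⟩ := P.finrank_le hK (d := d) (m.hκ ▸ hrel)
  haveI := hfin
  have hedne : P.epsK e ≠ 0 := fun h => he (P.eps_injective 1
    ((congrArg Subtype.val h).trans (map_zero _).symm))
  set g : P.Kc := ⟨coeffMap Kronecker.complexEmb G, hG⟩ / P.epsK e ^ expK q K with hg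
  have hgn : g ^ n = algebraMap (modularFunctionFieldBar (q * (q ^ (K - 1) * M') * q)) P.Kc (f ^ expK q K) := by
    rw [hg, div_pow, div_eq_iff (pow_ne_zero _ (pow_ne_zero _ hedne)), map_pow]
    refine Subtype.ext ?_
    show coeffMap Kronecker.complexEmb G ^ n =
      P.Theta 1 f ^ expK q K * (P.eps 1 e ^ expK q K) ^ n
    rw [← map_pow, hGn, map_pow, hemb]
    show P.eps 1 (a * e ^ (n - 1)) ^ expK q K = _
    obtain ⟨k, rfl⟩ := Nat.exists_eq_succ_of_ne_zero hn0
    rw [map_mul, map_pow, ← hae 1, Nat.succ_sub_one, ← pow_mul (P.eps 1 e) (expK q K),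
      mul_comm (expK q K) (k + 1), pow_mul (P.eps 1 e) (k + 1), ← mul_pow, pow_succ (P.eps 1 e) k]
    ring
  set r := Module.finrank (modularFunctionFieldBar (q * (q ^ (K - 1) * M') * q)) P.Kc
  have hnorm := congrArg (Algebra.norm (modularFunctionFieldBar (q * (q ^ (K - 1) * M') * q))) hgn
  rw [map_pow, Algebra.norm_algebraMap, ← pow_mul] at hnorm
  set z := Algebra.norm (modularFunctionFieldBar (q * (q ^ (K - 1) * M') * q)) g
  have hz : z ≠ 0 := fun h0 => by
    rw [h0, zero_pow hn0] at hnorm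
    exact pow_ne_zero _ hf hnorm.symm
  have hkill : (expK q K * r) • Pic0.mk D' = 0 := by
    rw [← Kronecker.pic0_mk_nsmul]
    refine (QuotientAddGroup.eq_zero_iff _).2 ⟨z, hz, fun v => ?_⟩
    have h1 := congrArg v.ord hnorm
    rw [Curves.ord_pow, Curves.ord_pow, ← hord v] at h1
    have h2 : v.ord z = ((expK q K * r : ℕ) : ℤ) * (D' : Divisor QA _) v :=
      mul_left_cancel₀ (Int.natCast_ne_zero.2 hn0) (by rw [h1]; ring)
    rw [h2]
    simp [nsmul_eq_mul]
  obtain ⟨s, hs⟩ := Nat.dvd_factorial (Module.finrank_pos : 0 < r) hle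
  rw [← hDD, hs, show expK q K * (r * s) = s * (expK q K * r) by ring, mul_smul, hkill, smul_zero]

end Model

/-- The geometric bound at `q` at level `q ^ (K + 1) M'`. -/
theorem carayol_bound_of_root (q M' K : ℕ) [Fact q.Prime] [NeZero q] [NeZero M']
    [NeZero (q ^ (K - 1) * M')] (hq : ¬ q ∣ M') (hK : 2 ≤ K) (hroot : RootOfNorms q K) :
    EigenLattice.CarayolBound q (q ^ (K - 1) * M') := by
  have hqp : q.Prime := Fact.out
  by_cases hex : ∃ A : ValuationSubring QA, A.LiesOverPrime q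
  swap
  · exact ⟨1, one_pos, fun A hA => absurd ⟨A, hA⟩ hex⟩
  obtain ⟨A₀, hA₀⟩ := hex
  obtain ⟨M0, hM, hq0⟩ : ∃ M0, (M0 = 2 ∨ M0 = 3) ∧ ¬ q ∣ M0 := by
    rcases eq_or_ne q 2 with rfl | h2
    · exact ⟨3, Or.inr rfl, by norm_num⟩
    · exact ⟨2, Or.inl rfl, fun h => h2 ((Nat.prime_dvd_prime_iff_eq hqp Nat.prime_two).1 h)⟩
  haveI : NeZero M0 := ⟨by omega⟩
  haveI : NeZero (M0 * M') := ⟨Nat.mul_ne_zero (NeZero.ne M0) (NeZero.ne M')⟩
  obtain ⟨m₀⟩ := nonempty_model hA₀ hM hq0 hq hK
  obtain ⟨d, hrel⟩ := m₀.P.exists_hhRel m₀.small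
  rw [m₀.hκ] at hrel
  refine ⟨expK q K * (d * Fintype.card m₀.X.Idx).factorial,
    Nat.mul_pos (expK_pos hqp K) (Nat.factorial_pos _), fun A hA n hn => ?_⟩
  intro D hnD hfix hα hβ
  obtain ⟨m⟩ := nonempty_model hA hM hq0 hq hK
  rw [card_idx_eq m₀.X m.X]
  exact m.smul_eq_zero_of_fixed hroot hA hrel hn D hnD hfix (fun b => by cases b <;> assumption)

end FLTAgent.CarayolK
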