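import Fermat.Agent.CarayolK.Setup

/-!
# Reductions, kinds of branches, points and fibres

The kind `a ≤ K + 1` of a translate is the position of the last maximum of the reduced chain: it is
`0` when `q ∣ γ₀₀`, and one more than the exponent of `q` in `γ₁₀`, capped at `K`, otherwise.
-/

set_option autoImplicit false
set_option linter.unusedSectionVars false
set_option linter.style.haveILetI false

noncomputable section

open UpperHalfPlane hiding I I_re I_im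
open Filter Topology Complex Function FLTAgent.ModEq FLTAgent.GoodModel ModularCurve
open scoped MatrixGroups Manifold Classical

namespace FLTAgent.CarayolK

open FLTAgent.Carayol (IsIntVal coordT ser_injective)

variable {q M0 N' K : ℕ} [NeZero M0] [NeZero N'] [NeZero q] [Fact q.Prime]

namespace Ctx

variable (X : Ctx q M0 N' K)

/-- The translates of the function at the last vertex are finitely many. -/
theorem top_finite :
    (Set.range fun γ : CongruenceSubgroup.Gamma M0 => compg (γ : SL(2, ℤ)) X.top).Finite := by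
  haveI hne : ∀ j, NeZero (q ^ j) := fun j => ⟨pow_ne_zero j (NeZero.ne q)⟩
  refine ((Set.toFinite (Set.univ : Set (Fin (K + 1)))).prod
    (Set.finite_Ico (0 : ℤ) ((M0 : ℤ) * (q : ℤ) ^ K))).image
      (fun x => fun τ : ℍ => coordT M0 (affPt (q ^ (x.1 : ℕ)) x.2 (q ^ (K - (x.1 : ℕ))) τ))
    |>.subset ?_
  rintro _ ⟨γ, rfl⟩
  obtain ⟨m, B, δ, hm, -, hδ, -, -, -, -, he⟩ := X.exists_vertex γ.2 K
  set P : ℤ := (M0 : ℤ) * (q : ℤ) ^ (K - m) with hP
  have hP0 : 0 < P := by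
    have : (0 : ℤ) < (M0 : ℤ) := by exact_mod_cast Nat.pos_of_ne_zero (NeZero.ne M0)
    have : (0 : ℤ) < (q : ℤ) := by exact_mod_cast X.hq.pos
    positivity
  refine ⟨(⟨m, by omega⟩, B % P), ⟨Set.mem_univ _, Int.emod_nonneg _ hP0.ne', ?_⟩, funext fun τ => ?_⟩
  · exact (Int.emod_lt_of_pos _ hP0).trans_le (mul_le_mul_of_nonneg_left
      (pow_le_pow_right₀ (by exact_mod_cast X.hq.one_le) (Nat.sub_le _ _)) (by positivity))
  simp only [compg_apply, top, he]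
  rw [show coordT M0 (δ • affPt (q ^ m) B (q ^ (K - m)) τ) = coordT M0 (affPt (q ^ m) B (q ^ (K - m)) τ)
    from X.ctr.T_pm hδ _]
  set T0 := ModularGroup.T ^ ((M0 : ℤ) * (B / P))
  have hT : T0 ∈ CongruenceSubgroup.Gamma M0 := by
    rw [CongruenceSubgroup.Gamma_mem]
    simp only [T0, ModularGroup.coe_T_zpow]
    simp
  have e : affPt (q ^ m) B (q ^ (K - m)) τ = T0 • affPt (q ^ m) (B % P) (q ^ (K - m)) τ := by
    refine UpperHalfPlane.ext ?_
    rw [coe_sl_smul']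
    simp only [T0, ModularGroup.coe_T_zpow, coe_affPt]
    have h2 := congrArg (fun z : ℤ => (z : ℂ)) (Int.mul_ediv_add_emod B P)
    simp only [hP] at h2 ⊢
    have hq0 : (q : ℂ) ≠ 0 := Nat.cast_ne_zero.mpr (NeZero.ne q)
    simp
    push_cast at h2
    field_simp
    linear_combination -h2
  rw [e]
  exact (X.ctr.T_pm (Or.inl hT) _).symm

theorem tripleSet_finite :
    (Set.range fun γ : CongruenceSubgroup.Gamma M0 => X.triple (γ : SL(2, ℤ))).Finite := by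
  refine ((X.ctr.nodes.finite_toSet).prod
    ((Set.finite_range X.ctr.rX).prod X.top_finite)).subset ?_
  rintro _ ⟨γ, rfl⟩
  refine ⟨X.ctr.compg_mem_nodes γ.2 X.ctr.eta_mem_nodes, ?_, γ, rfl⟩
  obtain ⟨r, h, -⟩ := X.ctr.exists_root (mul_mem (X.ctr.gr_mem0 (some 0)) γ.2)
  refine ⟨r, ?_⟩
  show X.ctr.rX r = compg (γ : SL(2, ℤ)) X.bot
  rw [bot, Carayol.Ctx.rX, Carayol.Ctx.rX, compg_compg]
  exact h.symm

instance : Fintype X.Idx := X.tripleSet_finite.fintype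

instance : IsDomain X.R :=
  haveI := (ser_injective (S := X.S) (n := X.lev)).isDomain _
  (Subring.inclusion_injective X.R_le).isDomain _

/-- The sheets. -/
abbrev Sheet : Type := X.ctr.Sheet

/-- The exponent of `q` in the lower left entry, capped at `K`. -/
def lvl (_X : Ctx q M0 N' K) (γ : SL(2, ℤ)) : ℕ :=
  Nat.findGreatest (fun m => (q : ℤ) ^ m ∣ γ 1 0) K

/-- The kind of a translate. -/
def kindAt (γ : SL(2, ℤ)) : Fin (K + 2) :=
  if (q : ℤ) ∣ γ 0 0 then 0 else ⟨X.lvl γ + 1, by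
    have := Nat.findGreatest_le (P := fun m => (q : ℤ) ^ m ∣ γ 1 0) K
    unfold lvl
    omega⟩

/-- The kind of a triple at a vertex along a kind of chain. -/
def tkind (_X : Ctx q M0 N' K) (i : ℕ) (a : Fin (K + 2)) : Fin 3 :=
  if i + 1 < (a : ℕ) then 0 else if i + 1 = (a : ℕ) then 1 else 2

/-- The exponent in the reduction of the cover shifted to a vertex along a kind of chain. -/
def texp (_X : Ctx q M0 N' K) (i : ℕ) (a : Fin (K + 2)) : ℕ :=
  q ^ (K - 1 - i + 2 * min i ((a : ℕ) - 1))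

instance neZero_texp (i : ℕ) (a : Fin (K + 2)) : NeZero (N' * X.texp i a) :=
  ⟨mul_ne_zero (NeZero.ne N') (pow_ne_zero _ (NeZero.ne q))⟩

/-- The sheet of an index. -/
def sheet (l : X.Idx) : X.Sheet :=
  ⟨compg (X.rep l) X.ctr.eta, X.ctr.compg_mem_nodes (X.rep_mem l) X.ctr.eta_mem_nodes⟩

/-- The kind of an index. -/
def kind (l : X.Idx) : Fin (K + 2) := X.kindAt (X.rep l)

include X in
theorem qdvd_mul_of_unit {x : ℤ} (hx : ¬ (q : ℤ) ∣ x) (n : ℕ) (y : ℤ) :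
    ∃ s : ℤ, (q : ℤ) ^ n ∣ y + x * ((M0 * N' : ℕ) : ℤ) * s := by
  have hp : Prime (q : ℤ) := Int.prime_iff_natAbs_prime.2 (by simpa using X.hq)
  have h : IsCoprime ((q : ℤ) ^ n) (x * ((M0 * N' : ℕ) : ℤ)) := by
    refine IsCoprime.pow_left (hp.coprime_iff_not_dvd.2 fun hd => ?_)
    rcases hp.dvd_or_dvd hd with h | h
    · exact hx h
    · exact X.hqm (Int.natCast_dvd_natCast.1 h)
  obtain ⟨u, v, huv⟩ := h
  exact ⟨-y * v, y * u, by linear_combination (-y) * huv⟩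

theorem exists_gm (g : X.Sheet) (a : Fin (K + 2)) :
    ∃ γ ∈ CongruenceSubgroup.Gamma M0, compg γ X.ctr.eta = g.1 ∧ X.kindAt γ = a := by
  set m : ℕ := M0 * N' with hm
  obtain ⟨γ0, hγ0, he0⟩ := X.ctr.mem_nodes.1 g.2
  have hp : Prime (q : ℤ) := Int.prime_iff_natAbs_prime.2 (by simpa using X.hq)
  have hmq : ¬ (q : ℤ) ∣ (m : ℤ) := fun h => X.hqm (Int.natCast_dvd_natCast.1 h)
  -- row operations fixing the level structure
  have hrow : ∀ (δ : SL(2, ℤ)), δ ∈ CongruenceSubgroup.Gamma m → ∀ γ ∈ CongruenceSubgroup.Gamma M0,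
      compg γ X.ctr.eta = g.1 → δ * γ ∈ CongruenceSubgroup.Gamma M0 ∧
        compg (δ * γ) X.ctr.eta = g.1 := fun δ hδ γ hγ he =>
    ⟨mul_mem (Carayol.Ctx.mem_M0_of_mem_m hδ) hγ, by rw [← compg_compg, X.ctr.eta_fix hδ, he]⟩
  have hlo : ∀ s : ℤ, ∃ δ ∈ CongruenceSubgroup.Gamma m, ∀ γ : SL(2, ℤ),
      (δ * γ) 0 0 = γ 0 0 ∧ (δ * γ) 1 0 = γ 1 0 + (m : ℤ) * s * γ 0 0 := fun s => by
    obtain ⟨δ, d00, d01, d10, d11⟩ : ∃ δ : SL(2, ℤ),
        δ 0 0 = 1 ∧ δ 0 1 = 0 ∧ δ 1 0 = (m : ℤ) * s ∧ δ 1 1 = 1 :=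
      ⟨⟨!![1, 0; (m : ℤ) * s, 1], by rw [Matrix.det_fin_two_of]; ring⟩, rfl, rfl, rfl, rfl⟩
    refine ⟨δ, CongruenceSubgroup.Gamma_mem.mpr ⟨by simp [d00], by simp [d01], by simp [d10],
      by simp [d11]⟩, fun γ => ⟨?_, ?_⟩⟩ <;>
      simp only [Matrix.SpecialLinearGroup.coe_mul, Matrix.mul_apply, Fin.sum_univ_two, d00, d01,
        d10, d11] <;> ring
  have hup : ∀ s : ℤ, ∃ δ ∈ CongruenceSubgroup.Gamma m, ∀ γ : SL(2, ℤ),
      (δ * γ) 1 0 = γ 1 0 ∧ (δ * γ) 0 0 = γ 0 0 + (m : ℤ) * s * γ 1 0 := fun s => by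
    obtain ⟨δ, d00, d01, d10, d11⟩ : ∃ δ : SL(2, ℤ),
        δ 0 0 = 1 ∧ δ 0 1 = (m : ℤ) * s ∧ δ 1 0 = 0 ∧ δ 1 1 = 1 :=
      ⟨⟨!![1, (m : ℤ) * s; 0, 1], by rw [Matrix.det_fin_two_of]; ring⟩, rfl, rfl, rfl, rfl⟩
    refine ⟨δ, CongruenceSubgroup.Gamma_mem.mpr ⟨by simp [d00], by simp [d01], by simp [d10],
      by simp [d11]⟩, fun γ => ⟨?_, ?_⟩⟩ <;>
      simp only [Matrix.SpecialLinearGroup.coe_mul, Matrix.mul_apply, Fin.sum_univ_two, d00, d01,
        d10, d11] <;> ring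
  have hnot : ∀ γ : SL(2, ℤ), (q : ℤ) ∣ γ 1 0 → ¬ (q : ℤ) ∣ γ 0 0 := fun γ h1 h0 => by
    have := dvd_sub (dvd_mul_of_dvd_left h0 (γ 1 1)) (dvd_mul_of_dvd_right h1 (γ 0 1))
    rw [det_eq γ] at this
    exact hp.not_isUnit (isUnit_of_dvd_one this)
  -- a first translate with both entries units
  obtain ⟨γ1, hγ1, he1, hc1⟩ : ∃ γ ∈ CongruenceSubgroup.Gamma M0, compg γ X.ctr.eta = g.1 ∧
      ¬ (q : ℤ) ∣ γ 1 0 := by
    by_cases hc : (q : ℤ) ∣ γ0 1 0
    · obtain ⟨δ, hδ, hd⟩ := hlo 1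
      obtain ⟨h1, h2⟩ := hrow δ hδ γ0 hγ0 he0
      refine ⟨_, h1, h2, fun h => ?_⟩
      rw [(hd γ0).2, dvd_add_right hc, mul_one] at h
      exact (hp.dvd_or_dvd h).elim hmq (hnot γ0 hc)
    · exact ⟨γ0, hγ0, he0, hc⟩
  have hset : ∀ x : ℤ, ∃ γ ∈ CongruenceSubgroup.Gamma M0, compg γ X.ctr.eta = g.1 ∧
      ¬ (q : ℤ) ∣ γ 1 0 ∧ (q : ℤ) ∣ γ 0 0 - x := fun x => by
    obtain ⟨s, hs⟩ := X.qdvd_mul_of_unit hc1 1 (γ1 0 0 - x)
    obtain ⟨δ, hδ, hd⟩ := hup s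
    obtain ⟨h1, h2⟩ := hrow δ hδ γ1 hγ1 he1
    refine ⟨_, h1, h2, by rwa [(hd γ1).1], ?_⟩
    rw [pow_one] at hs
    rw [(hd γ1).2]
    convert hs using 1
    rw [hm]; ring
  rcases Nat.eq_zero_or_pos (a : ℕ) with ha | ha
  · obtain ⟨γ, hγ, he, hc, hx⟩ := hset 0
    rw [sub_zero] at hx
    exact ⟨γ, hγ, he, by rw [kindAt, if_pos hx]; exact Fin.ext ha.symm⟩
  obtain ⟨γ2, hγ2, he2, -, hx⟩ := hset 1
  have ha2 : ¬ (q : ℤ) ∣ γ2 0 0 := fun h => hp.not_isUnit (isUnit_of_dvd_one (by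
    simpa using dvd_sub h hx))
  obtain ⟨s, hs⟩ := X.qdvd_mul_of_unit ha2 (a : ℕ) (γ2 1 0 - (q : ℤ) ^ ((a : ℕ) - 1))
  obtain ⟨δ, hδ, hd⟩ := hlo s
  obtain ⟨h1, h2⟩ := hrow δ hδ γ2 hγ2 he2
  refine ⟨_, h1, h2, ?_⟩
  rw [kindAt, if_neg (by rwa [(hd γ2).1])]
  refine Fin.ext ?_
  show X.lvl (δ * γ2) + 1 = (a : ℕ)
  obtain ⟨z, hz⟩ := hs
  have hc : (δ * γ2) 1 0 = (q : ℤ) ^ ((a : ℕ) - 1) + (q : ℤ) ^ (a : ℕ) * z := by
    rw [(hd γ2).2, ← hz, hm]
    ring
  have hlv : X.lvl (δ * γ2) = (a : ℕ) - 1 := by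
    have := a.2
    refine Nat.findGreatest_eq_iff.2 ⟨by omega, fun _ => ?_, fun n hn hnK hdn => ?_⟩
    · rw [hc]
      exact dvd_add dvd_rfl (dvd_mul_of_dvd_left (pow_dvd_pow _ (by omega)) _)
    · rw [hc] at hdn
      have h3 : (q : ℤ) ^ (a : ℕ) ∣ (q : ℤ) ^ ((a : ℕ) - 1) + (q : ℤ) ^ (a : ℕ) * z :=
        (pow_dvd_pow _ (by omega)).trans hdn
      rw [dvd_add_left (dvd_mul_right _ _)] at h3
      have := (pow_dvd_pow_iff hp.ne_zero hp.not_isUnit).1 h3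
      omega
  omega

/-- A representative of a branch. -/
def gm (g : X.Sheet) (a : Fin (K + 2)) : SL(2, ℤ) := (X.exists_gm g a).choose

theorem gm_mem (g : X.Sheet) (a : Fin (K + 2)) : X.gm g a ∈ CongruenceSubgroup.Gamma M0 :=
  (X.exists_gm g a).choose_spec.1

theorem gm_eta (g : X.Sheet) (a : Fin (K + 2)) : compg (X.gm g a) X.ctr.eta = g.1 :=
  (X.exists_gm g a).choose_spec.2.1

theorem gm_kind (g : X.Sheet) (a : Fin (K + 2)) : X.kindAt (X.gm g a) = a :=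
  (X.exists_gm g a).choose_spec.2.2

/-- The index of a branch. -/
def lg (g : X.Sheet) (a : Fin (K + 2)) : X.Idx := X.idx (X.gm_mem g a)

/-- The level structure as an element. -/
def etaR : X.R := X.ofCtr X.ctr.etaR

/-- The first vertex as an element. -/
def botR : X.R := X.ofCtr (X.ctr.xR true)

/-- The vertex before the last one as an element. -/
def preR : X.R := X.ofShf ⟨K - 1, by have := X.hK; omega⟩ X.shf.yR

/-- The last vertex as an element. -/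
def topR : X.R := ⟨X.top, X.top_mem⟩

/-- The fibres of the two maps to level one lower: `false` forgets the first vertex, `true` the
last one. -/
def fib (b : Bool) (l : X.Idx) : Finset X.Idx :=
  Finset.univ.filter fun l' => X.emb l' X.etaR = X.emb l X.etaR ∧
    (b = false → X.emb l' X.topR = X.emb l X.topR) ∧
    (b = true → X.emb l' X.botR = X.emb l X.botR ∧ X.emb l' X.preR = X.emb l X.preR)

end Ctx

/-- A reduction map of the constants. -/
structure Res (X : Ctx q M0 N' K) (k : Type) [Field k] where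
  φ : X.S →+* k
  surjW : Function.Surjective (φ.comp X.inc)
  kerW : ∀ w : X.W, φ (X.inc w) = 0 → (q : X.W) ∣ w
  q0 : φ q = 0
  fixed : X.FixedPart

namespace Res

variable {X : Ctx q M0 N' K} {k : Type} [Field k] (Ω : Res X k)

/-- The reduction of the small ring. -/
abbrev φW : X.W →+* k := Ω.φ.comp X.inc

/-- The reduction for the centre. -/
def ctr : Carayol.Res X.ctr k where
  φ := Ω.φ
  surjW := Ω.surjW
  kerW := Ω.kerW
  q0 := Ω.q0
  fixed := Ω.fixed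

/-- The reduction for the shifted covers. -/
def shf : Carayol.Res X.shf k where
  φ := Ω.φ
  surjW := Ω.surjW
  kerW := Ω.kerW
  q0 := Ω.q0
  fixed := Ω.fixed

/-- The reduction of an expansion. -/
abbrev rd : LaurentSeries X.S →+* LaurentSeries k := coeffMap Ω.φ

/-- The reduction of a translate. -/
def red (γ : SL(2, ℤ)) : X.R →+* LaurentSeries k := Ω.rd.comp (X.embAt γ)

/-- The kernel of the reduction of a translate. -/
def ker (γ : SL(2, ℤ)) : Ideal X.R := RingHom.ker (Ω.red γ)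

/-- The reduction on a branch. -/
def rs (g : X.Sheet) (a : Fin (K + 2)) : X.R →+* LaurentSeries k := Ω.red (X.gm g a)

/-- Functions on all sheets which are uniformly rational on one kind of branch. -/
def UF (a : Fin (K + 2)) : Subring (X.Sheet → LaurentSeries k) where
  carrier := {F | ∃ n d : X.R, ∀ g, Ω.rs g a d ≠ 0 ∧ Ω.rs g a d * F g = Ω.rs g a n}
  mul_mem' := by
    rintro F G ⟨n, d, h⟩ ⟨n', d', h'⟩
    refine ⟨n * n', d * d', fun g => ⟨by rw [map_mul]; exact mul_ne_zero (h g).1 (h' g).1, ?_⟩⟩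
    rw [Pi.mul_apply, map_mul, map_mul, ← (h g).2, ← (h' g).2]; ring
  one_mem' := ⟨1, 1, fun g => ⟨by simp, by simp⟩⟩
  add_mem' := by
    rintro F G ⟨n, d, h⟩ ⟨n', d', h'⟩
    refine ⟨n * d' + n' * d, d * d', fun g => ⟨by rw [map_mul]; exact mul_ne_zero (h g).1 (h' g).1, ?_⟩⟩
    rw [Pi.add_apply, map_mul, map_add, map_mul, map_mul, ← (h g).2, ← (h' g).2]; ring
  zero_mem' := ⟨0, 1, fun g => ⟨by simp, by simp⟩⟩
  neg_mem' := by
    rintro F ⟨n, d, h⟩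
    exact ⟨-n, d, fun g => ⟨(h g).1, by rw [Pi.neg_apply, map_neg, ← (h g).2]; ring⟩⟩

end Res

/-- A uniformiser of the constants, with ramification `q ^ (K - 1) (q - 1)`. -/
structure Ram {X : Ctx q M0 N' K} {k : Type} [Field k] (Ω : Res X k) where
  ϖ : X.S
  irr : Irreducible ϖ
  φϖ : Ω.φ ϖ = 0
  u : X.S
  hu : IsUnit u
  hq : (q : X.S) = u * ϖ ^ (q ^ (K - 1) * (q - 1))

/-- A point of the cover modulo `q`. -/
structure Pt {X : Ctx q M0 N' K} {k : Type} [Field k] (Ω : Res X k) where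
  π : X.R →+* k
  comp : π.comp X.cW = Ω.φW

namespace Pt

variable {X : Ctx q M0 N' K} {k : Type} [Field k] {Ω : Res X k} (p : Pt Ω)

/-- The ideal of a point. -/
def ideal : Ideal X.R := RingHom.ker p.π

theorem mem_ideal {z : X.R} : z ∈ p.ideal ↔ p.π z = 0 := RingHom.mem_ker

theorem π_cW (w : X.W) : p.π (X.cW w) = Ω.φW w := RingHom.congr_fun p.comp w

theorem π_surjective : Surjective p.π := fun z => by
  obtain ⟨w, rfl⟩ := Ω.surjW z
  exact ⟨X.cW w, p.π_cW w⟩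

instance isMaximal : p.ideal.IsMaximal := RingHom.ker_isMaximal_of_surjective p.π p.π_surjective

/-- The local ring of a point. -/
abbrev Loc : Type := Localization.AtPrime p.ideal

/-- Series with a value at a point along a branch. -/
def EV (g : X.Sheet) (a : Fin (K + 2)) : Subring (LaurentSeries k × k) where
  carrier := {F | ∃ n d : X.R, p.π d ≠ 0 ∧ Ω.rs g a d * F.1 = Ω.rs g a n ∧ p.π d * F.2 = p.π n}
  mul_mem' := by
    rintro F G ⟨n, d, h0, h1, h2⟩ ⟨n', d', h0', h1', h2'⟩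
    refine ⟨n * n', d * d', by rw [map_mul]; exact mul_ne_zero h0 h0', ?_, ?_⟩
    · rw [Prod.fst_mul, map_mul, map_mul, ← h1, ← h1']; ring
    · rw [Prod.snd_mul, map_mul, map_mul, ← h2, ← h2']; ring
  one_mem' := ⟨1, 1, by simp, by simp, by simp⟩
  add_mem' := by
    rintro F G ⟨n, d, h0, h1, h2⟩ ⟨n', d', h0', h1', h2'⟩
    refine ⟨n * d' + n' * d, d * d', by rw [map_mul]; exact mul_ne_zero h0 h0', ?_, ?_⟩
    · rw [Prod.fst_add, map_mul, map_add, map_mul, map_mul, ← h1, ← h1']; ring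
    · rw [Prod.snd_add, map_mul, map_add, map_mul, map_mul, ← h2, ← h2']; ring
  zero_mem' := ⟨0, 1, by simp, by simp, by simp⟩
  neg_mem' := by
    rintro F ⟨n, d, h0, h1, h2⟩
    exact ⟨-n, d, h0, by rw [Prod.fst_neg, map_neg, ← h1]; ring, by rw [Prod.snd_neg, map_neg, ← h2]; ring⟩

end Pt

namespace Ctx

variable (X : Ctx q M0 N' K)

/-- The norms along a fibre are constant multiples of `n`th powers. -/
def RelB (n : ℕ) (b : Bool) (f : X.R) : Prop :=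
  ∃ (c0 c1 : X.W) (g0 g1 : X.R), c0 ≠ 0 ∧ c1 ≠ 0 ∧ g0 ≠ 0 ∧ g1 ≠ 0 ∧
    ∀ l, HahnSeries.C (X.inc c1) * X.emb l g1 ^ n * ∏ l' ∈ X.fib b l, X.emb l' f =
      HahnSeries.C (X.inc c0) * X.emb l g0 ^ n

/-- Divisible valuations away from `q`. -/
def VDvd (n : ℕ) (f : X.R) : Prop :=
  ∀ v : FractionRing X.R → ℤ, IsIntVal ((algebraMap X.R (FractionRing X.R)).comp X.cW) v →
    (n : ℤ) ∣ v (algebraMap X.R (FractionRing X.R) f)

end Ctx

/-- A normalised norm relation. -/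
structure NRel {X : Ctx q M0 N' K} {k : Type} [Field k] (Ω : Res X k) (n : ℕ) (b : Bool)
    (F : X.R) where
  c0 : X.W
  c1 : X.W
  G0 : X.R
  G1 : X.R
  hc0 : Ω.φW c0 ≠ 0
  hc1 : Ω.φW c1 ≠ 0
  hG : ∀ g a, Ω.rs g a G0 ≠ 0 ∧ Ω.rs g a G1 ≠ 0
  rel : ∀ l, HahnSeries.C (X.inc c1) * X.emb l G1 ^ n * ∏ l' ∈ X.fib b l, X.emb l' F =
    HahnSeries.C (X.inc c0) * X.emb l G0 ^ n

end FLTAgent.CarayolK
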