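import Fermat.Agent.CarayolK.Vertices

/-!
# Vertices and edges on the branches

On a branch of kind `a` the vertex `j` reduces to the power `q ^ vexp j a` of one series, and only
the slopes pointing to the maximum survive.
-/

set_option autoImplicit false
set_option linter.unusedSectionVars false
set_option linter.style.haveILetI false

noncomputable section

open UpperHalfPlane hiding I I_re I_im
open Filter Topology Complex Function FLTAgent.ModEq FLTAgent.GoodModel ModularCurve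
open scoped MatrixGroups Manifold Classical

namespace FLTAgent.CarayolK

variable {q M0 N' K : ℕ} [NeZero M0] [NeZero N'] [NeZero q] [Fact q.Prime]

/-- The exponent of a vertex on a kind of branch. -/
def Ctx.vexp (_X : Ctx q M0 N' K) (j : ℕ) (a : Fin (K + 2)) : ℕ :=
  if j = 0 then (if (a : ℕ) = 0 then K + 1 else K - 1)
  else K - (j - 1) + 2 * min (j - 1) ((a : ℕ) - 1)

namespace Res

variable {X : Ctx q M0 N' K} {k : Type} [Field k] (Ω : Res X k)

/-- The basic series of the coordinate. -/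
def B : LaurentSeries k := Ω.ctr.bb

/-- The basic series of the slope. -/
def Nu : LaurentSeries k := Ω.ctr.nu

include Ω in
theorem qExpand_scale {G : LaurentSeries k} (hG : ∀ i, G.coeff i ^ q = G.coeff i) (t : ℕ) :
    qExpand k (N' * q ^ t) (qExpand k 1 G) = qExpand k N' G ^ (q ^ t) := by
  have h1 : qExpand k 1 G = G := qExpand_one_apply G
  have hpow : ∀ t, qExpand k (q ^ t) G = G ^ (q ^ t) ∧
      ∀ i, (qExpand k (q ^ t) G).coeff i ^ q = (qExpand k (q ^ t) G).coeff i := by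
    intro t
    induction t with
    | zero =>
      have e : qExpand k (q ^ 0) G = G := (qExpand_congr (pow_zero q) G).trans (qExpand_one_apply G)
      exact ⟨by rw [e, pow_zero, pow_one], fun i => by rw [e]; exact hG i⟩
    | succ t ih =>
      have hstep : qExpand k (q ^ (t + 1)) G = qExpand k q (qExpand k (q ^ t) G) := by
        rw [qExpand_qExpand]; exact qExpand_congr (pow_succ' q t) G
      refine ⟨?_, fun i => ?_⟩
      · rw [hstep, Ω.ctr.qExpand_eq_pow ih.2, ih.1, ← pow_mul, pow_succ]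
      · rw [hstep]
        by_cases hi : (q : ℤ) ∣ i
        · obtain ⟨b, rfl⟩ := hi
          rw [qExpand_coeff_mul]
          exact ih.2 b
        · rw [qExpand_coeff_of_not_dvd _ _ hi, zero_pow (NeZero.ne q)]
  rw [h1, ← qExpand_qExpand, (hpow t).1, map_pow]

theorem qExpand_bb (t : ℕ) : qExpand k (N' * q ^ t) Ω.shf.bb = Ω.B ^ (q ^ t) :=
  Ω.qExpand_scale Ω.shf.frob_H t

theorem qExpand_ee (t : ℕ) : qExpand k (N' * q ^ t) Ω.shf.ee = Ω.ctr.ee ^ (q ^ t) :=
  Ω.qExpand_scale Ω.shf.frob_eulH t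

theorem qExpand_nu (t : ℕ) : qExpand k (N' * q ^ t) Ω.shf.nu = Ω.Nu ^ (q ^ t) := by
  have he := Ω.qExpand_ee t
  rw [Nu, Carayol.Res.nu, Carayol.Res.nu, map_div₀, map_pow, he, div_pow, ← pow_mul, ← pow_mul,
    mul_comm q]

theorem qExpand_om (t : ℕ) : qExpand k (N' * q ^ t) Ω.shf.om = Ω.Nu ^ (q ^ (t + 1)) := by
  rw [← Ω.shf.nu_pow, map_pow, Ω.qExpand_nu t, ← pow_mul, ← pow_succ]

theorem kroot_true (i : ℕ) (a : Fin (K + 2)) :
    X.shf.kroot (X.tkind i a) true = none ↔ (a : ℕ) < i + 1 := by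
  unfold Ctx.tkind
  split_ifs <;> simp [Carayol.Ctx.kroot] <;> omega

theorem kroot_false (i : ℕ) (a : Fin (K + 2)) :
    X.shf.kroot (X.tkind i a) false = none ↔ i + 1 < (a : ℕ) := by
  unfold Ctx.tkind
  split_ifs <;> simp [Carayol.Ctx.kroot] <;> omega

theorem texp_eq (i : ℕ) (a : Fin (K + 2)) :
    X.texp i a = q ^ (K - 1 - i + 2 * min i ((a : ℕ) - 1)) := rfl

theorem rs_slot_side (g : X.Sheet) (a : Fin (K + 2)) (i : Fin K) (b : Bool) :
    (X.shf.kroot (X.tkind i a) b = none →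
      Ω.rs g a (X.ofShf i (X.shf.xR b)) = Ω.B ^ (q ^ (K - 1 - i + 2 * min (i : ℕ) ((a : ℕ) - 1) + 2)) ∧
      Ω.rs g a (X.ofShf i (X.shf.vR b)) = 0 ∧
      Ω.rs g a (X.ofShf i (X.shf.wR b)) = Ω.Nu ^ (q ^ (K - 1 - i + 2 * min (i : ℕ) ((a : ℕ) - 1) + 1))) ∧
    (X.shf.kroot (X.tkind i a) b ≠ none →
      Ω.rs g a (X.ofShf i (X.shf.xR b)) = Ω.B ^ (q ^ (K - 1 - i + 2 * min (i : ℕ) ((a : ℕ) - 1))) ∧
      Ω.rs g a (X.ofShf i (X.shf.wR b)) = 0 ∧
      Ω.rs g a (X.ofShf i (X.shf.vR b)) = Ω.Nu ^ (q ^ (K - 1 - i + 2 * min (i : ℕ) ((a : ℕ) - 1)))) := by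
  set t := K - 1 - (i : ℕ) + 2 * min (i : ℕ) ((a : ℕ) - 1)
  have hex : ∀ z, qExpand k (N' * X.texp i a) z = qExpand k (N' * q ^ t) z := fun z =>
    qExpand_congr rfl z
  obtain ⟨h1, h2⟩ := Ω.shf.rs_side (shfSheet X) (X.tkind i a) b
  refine ⟨fun h => ?_, fun h => ?_⟩
  · obtain ⟨x, v, w⟩ := h1 h
    rw [Ω.rs_ofShf, Ω.rs_ofShf, Ω.rs_ofShf, hex, hex, hex]
    refine ⟨?_, ?_, ?_⟩
    · rw [x, map_pow, Ω.qExpand_bb t, ← pow_mul, ← pow_add]
    · rw [v, map_zero]
    · rw [w, Ω.qExpand_om t]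
  · obtain ⟨x, w, v⟩ := h2 h
    rw [Ω.rs_ofShf, Ω.rs_ofShf, Ω.rs_ofShf, hex, hex, hex]
    refine ⟨?_, ?_, ?_⟩
    · rw [x, Ω.qExpand_bb t]
    · rw [w, map_zero]
    · rw [v, Ω.qExpand_nu t]

theorem rs_centre (g : X.Sheet) (a : Fin (K + 2)) (i : Fin K) :
    Ω.rs g a (X.ofShf i X.shf.yR) = Ω.B ^ (q ^ (K - i + 2 * min (i : ℕ) ((a : ℕ) - 1))) := by
  set t := K - 1 - (i : ℕ) + 2 * min (i : ℕ) ((a : ℕ) - 1)
  have h : Ω.shf.rs (shfSheet X) (X.tkind i a) X.shf.yR = Ω.shf.bb ^ q :=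
    Ω.shf.red_yR (X.shf.gm_mem _ _)
  have hex : ∀ z, qExpand k (N' * X.texp i a) z = qExpand k (N' * q ^ t) z := fun z =>
    qExpand_congr rfl z
  rw [Ω.rs_ofShf, h, hex, map_pow, Ω.qExpand_bb t, ← pow_mul, ← pow_succ]
  congr 2
  have := i.2
  omega

/-- The vertices on the branches. -/
theorem rs_vv (g : X.Sheet) (a : Fin (K + 2)) {j : ℕ} (hj : j ≤ K + 1) :
    Ω.rs g a (X.vv j) = Ω.B ^ (q ^ X.vexp j a) := by
  have hK := X.hK
  have ha := a.2
  rcases Nat.eq_zero_or_pos j with rfl | hpos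
  · rw [show X.vv 0 = X.ofShf X.first (X.shf.xR true) from (X.ofShf_xR_true X.first).symm]
    obtain ⟨h1, h2⟩ := Ω.rs_slot_side g a X.first true
    rw [kroot_true] at h1
    by_cases h : (a : ℕ) = 0
    · rw [(h1 (by omega)).1]
      congr 2
      simp only [Ctx.vexp, Ctx.first, h, if_true]
      omega
    · rw [(h2 (by rw [Ne, kroot_true]; simp only [Ctx.first]; omega)).1]
      congr 2
      simp only [Ctx.vexp, Ctx.first, if_true, if_neg h]
      omega
  obtain ⟨i, rfl⟩ : ∃ i, j = i + 1 := ⟨j - 1, by omega⟩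
  rcases Nat.lt_or_ge i K with hi | hi
  · rw [show X.vv (i + 1) = X.ofShf ⟨i, hi⟩ X.shf.yR from X.vv_succ ⟨i, hi⟩, Ω.rs_centre]
    congr 2
  · have hiK : i = K := by omega
    subst hiK
    rw [show X.vv (i + 1) = X.ofShf X.last (X.shf.xR false) by
      rw [X.ofShf_xR_false]; congr 1; simp only [Ctx.last]; omega]
    obtain ⟨h1, h2⟩ := Ω.rs_slot_side g a X.last false
    rw [kroot_false] at h1
    by_cases h : i < (a : ℕ)
    · rw [(h1 (by simp only [Ctx.last]; omega)).1]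
      congr 2
      simp only [Ctx.vexp, Ctx.last, Nat.succ_ne_zero, if_false]
      omega
    · rw [(h2 (by rw [Ne, kroot_false]; simp only [Ctx.last]; omega)).1]
      congr 2
      simp only [Ctx.vexp, Ctx.last, Nat.succ_ne_zero, if_false]
      omega

/-- An edge below the maximum does not point downwards. -/
theorem rs_eDn (g : X.Sheet) (a : Fin (K + 2)) {j : ℕ} (hj : j ≤ K) (h : j < (a : ℕ)) :
    Ω.rs g a (X.eDn j) = 0 := by
  rcases Nat.lt_or_eq_of_le hj with hlt | rfl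
  · rw [show X.eDn j = _ from X.eDn_lt ⟨j, hlt⟩]
    exact ((Ω.rs_slot_side g a ⟨j, hlt⟩ true).2 (by rw [Ne, kroot_true]; simp only; omega)).2.1
  · have hl : (X.last : ℕ) + 1 = j := by have := X.hK; simp only [Ctx.last]; omega
    have h2 := (X.edge_succ X.last).1
    rw [hl] at h2
    rw [h2]
    exact ((Ω.rs_slot_side g a X.last false).1 (by rw [kroot_false]; omega)).2.1

/-- An edge above the maximum does not point upwards. -/
theorem rs_eUp (g : X.Sheet) (a : Fin (K + 2)) {j : ℕ} (hj : j ≤ K) (h : (a : ℕ) ≤ j) :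
    Ω.rs g a (X.eUp j) = 0 := by
  rcases Nat.lt_or_eq_of_le hj with hlt | rfl
  · rw [show X.eUp j = _ from X.eUp_lt ⟨j, hlt⟩]
    exact ((Ω.rs_slot_side g a ⟨j, hlt⟩ true).1 (by rw [kroot_true]; simp only; omega)).2.1
  · have hl : (X.last : ℕ) + 1 = j := by have := X.hK; simp only [Ctx.last]; omega
    have h2 := (X.edge_succ X.last).2
    rw [hl] at h2
    rw [h2]
    exact ((Ω.rs_slot_side g a X.last false).2 (by rw [Ne, kroot_false]; omega)).2.1

end Res

end FLTAgent.CarayolK
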