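import Fermat.Agent.CarayolK.Regular
import Fermat.Agent.CarayolK.Values
import Fermat.Agent.Carayol.Branches

/-!
# Branches through a point

Along a branch every vertex reduces to a power of the vertex of least exponent, so one function
generates the maximal ideal of a point modulo the branches through it.
-/

set_option autoImplicit false
set_option linter.unusedSectionVars false
set_option linter.style.haveILetI false

noncomputable section

open UpperHalfPlane hiding I I_re I_im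
open Filter Topology Complex Function FLTAgent.ModEq FLTAgent.GoodModel ModularCurve
open scoped MatrixGroups Manifold Classical

namespace FLTAgent.CarayolK

open IsLocalRing (maximalIdeal)
open FLTAgent.Carayol (Eqs dvd_of_pow_rel)

variable {q M0 N' K : ℕ} [NeZero M0] [NeZero N'] [NeZero q] [Fact q.Prime]
variable {X : Ctx q M0 N' K} {k : Type} [Field k] {Ω : Res X k}

theorem Res.ker_rep_lg (g : X.Sheet) (a : Fin (K + 2)) :
    Ω.ker (X.rep (X.lg g a)) = RingHom.ker (Ω.rs g a) := by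
  ext x
  exact iff_of_eq (congrArg (· = 0) (congrArg Ω.rd (X.emb_idx (X.gm_mem g a) x)))

namespace Pt

variable (p : Pt Ω)

theorem kernels_le {g : X.Sheet} {a : Fin (K + 2)} (h : RingHom.ker (Ω.rs g a) ≤ p.ideal)
    {z z' : X.R} (he : Ω.rs g a z = Ω.rs g a z') : p.π z = p.π z' := by
  rw [← sub_eq_zero, ← map_sub, ← p.mem_ideal]
  exact h (by rw [RingHom.mem_ker, map_sub, he, sub_self])

/-- At an ordinary point all branches have the same kind. -/
theorem kind_unique (E : Eqs Ω.shf) (hord : p.om E X.first ≠ 0) {g g' : X.Sheet}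
    {a a' : Fin (K + 2)} (h : RingHom.ker (Ω.rs g a) ≤ p.ideal)
    (h' : RingHom.ker (Ω.rs g' a') ≤ p.ideal) : a = a' := by
  have key : ∀ {g g' : X.Sheet} {a a' : Fin (K + 2)}, RingHom.ker (Ω.rs g a) ≤ p.ideal →
      RingHom.ker (Ω.rs g' a') ≤ p.ideal → ¬ (a : ℕ) < (a' : ℕ) := by
    intro g g' a a' h h' hlt
    have := a'.2
    have haK : (a : ℕ) ≤ K := by omega
    refine (p.edge_cases E hord haK).2 ?_ ?_
    · exact p.mem_ideal.1 (h' (RingHom.mem_ker.2 (Ω.rs_eDn g' a' haK hlt)))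
    · exact p.mem_ideal.1 (h (RingHom.mem_ker.2 (Ω.rs_eUp g a haK le_rfl)))
  exact Fin.ext (le_antisymm (not_lt.1 (key h' h)) (not_lt.1 (key h h')))

/-- The vertex of least exponent generates the maximal ideal modulo the branches. -/
theorem exists_branch_gen [IsNoetherianRing p.Loc] {g g' : X.Sheet} {a : Fin (K + 2)}
    (h : RingHom.ker (Ω.rs g a) ≤ p.ideal) :
    ∃ b : X.R, p.π b = 0 ∧ maximalIdeal p.Loc ≤ Ideal.span {algebraMap X.R p.Loc b} ⊔
      (RingHom.ker (Ω.rs g a) ⊓ RingHom.ker (Ω.rs g' a)).map (algebraMap X.R p.Loc) := by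
  set I' := RingHom.ker (Ω.rs g a) ⊓ RingHom.ker (Ω.rs g' a)
  obtain ⟨j₀, hj₀, hmin⟩ := Finset.exists_min_image (Finset.range (K + 2))
    (fun j => X.vexp j a) ⟨0, by simp⟩
  rw [Finset.mem_range] at hj₀
  obtain ⟨c, hc⟩ := p.exists_lift (X.vv j₀)
  refine ⟨_, p.mem_ideal.1 hc, p.maximal_le _ (Ideal.mem_sup_left (Ideal.mem_sup_right
    (Ideal.mem_map_of_mem _ ⟨Ω.red_natCast _, Ω.red_natCast _⟩))) fun B _ J hJ => ?_⟩
  have hx : J.Agree (X.vv j₀) := J.agree_of_sub
    (hJ _ (Ideal.mem_sup_left (Ideal.subset_span rfl))) hc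
  obtain ⟨E⟩ := Ω.shf.nonempty_eqs
  obtain ⟨E0⟩ := Ω.ctr.nonempty_eqs
  refine J.agree_all E E0 fun j hj => ?_
  set t := q ^ (X.vexp j a - X.vexp j₀ a)
  have he : ∀ g'' : X.Sheet, Ω.rs g'' a (X.vv j) = Ω.rs g'' a (X.vv j₀ ^ t) := fun g'' => by
    rw [map_pow, Ω.rs_vv g'' a hj, Ω.rs_vv g'' a (by omega), ← pow_mul, ← pow_add,
      Nat.add_sub_cancel' (hmin j (Finset.mem_range.2 (by omega)))]
  have hmem : X.vv j - X.vv j₀ ^ t ∈ I' :=
    ⟨RingHom.mem_ker.2 (by rw [map_sub, he g, sub_self]),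
      RingHom.mem_ker.2 (by rw [map_sub, he g', sub_self])⟩
  have hpow : J.Agree (X.vv j₀ ^ t) := by
    have h1 : J.f (X.vv j₀) = J.ι (p.π (X.vv j₀)) := hx
    simp only [Jet.Agree, map_pow, h1]
  refine J.agree_congr hpow (hJ _ (Ideal.mem_sup_right (Ideal.mem_map_of_mem _ hmem))) ?_
  rw [map_sub, p.kernels_le h (he g), sub_self]

theorem ker_lt' {g : X.Sheet} {a : Fin (K + 2)} (h : RingHom.ker (Ω.rs g a) ≤ p.ideal) :
    RingHom.ker (Ω.rs g a) ≠ p.ideal := by
  rw [← Ω.ker_rep_lg] at h ⊢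
  exact p.ker_lt h

theorem map_ker_data [IsNoetherianRing p.Loc] {g : X.Sheet} {a : Fin (K + 2)}
    (h : RingHom.ker (Ω.rs g a) ≤ p.ideal) :
    ((RingHom.ker (Ω.rs g a)).map (algebraMap X.R p.Loc)).IsPrime ∧
      ((RingHom.ker (Ω.rs g a)).map (algebraMap X.R p.Loc)).comap (algebraMap X.R p.Loc) =
        RingHom.ker (Ω.rs g a) ∧
      (RingHom.ker (Ω.rs g a)).map (algebraMap X.R p.Loc) ≠ maximalIdeal p.Loc := by
  haveI : (RingHom.ker (Ω.rs g a)).IsPrime := RingHom.ker_isPrime _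
  have hdisj : Disjoint (p.ideal.primeCompl : Set X.R) (RingHom.ker (Ω.rs g a) : Set X.R) :=
    Set.disjoint_left.2 fun z hz hz' => hz (h hz')
  have hcomap := IsLocalization.under_map_of_isPrime_disjoint p.ideal.primeCompl p.Loc
    (I := RingHom.ker (Ω.rs g a)) inferInstance hdisj
  refine ⟨IsLocalization.isPrime_of_isPrime_disjoint p.ideal.primeCompl p.Loc _ inferInstance hdisj,
    hcomap, fun hm => p.ker_lt' h ?_⟩
  rw [← hcomap, hm]
  exact IsLocalization.AtPrime.under_maximalIdeal p.Loc p.ideal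

/-- Only one branch of a kind passes through a point. -/
theorem ker_unique [IsNoetherianRing p.Loc] {g g' : X.Sheet} {a : Fin (K + 2)}
    (h : RingHom.ker (Ω.rs g a) ≤ p.ideal) (h' : RingHom.ker (Ω.rs g' a) ≤ p.ideal) :
    RingHom.ker (Ω.rs g a) ≤ RingHom.ker (Ω.rs g' a) := by
  obtain ⟨b, hb, hgen⟩ := p.exists_branch_gen (g' := g') h
  obtain ⟨hP1, hc1, hne1⟩ := p.map_ker_data h
  obtain ⟨-, hc2, -⟩ := p.map_ker_data h'
  set φ := algebraMap X.R p.Loc
  set P1 := (RingHom.ker (Ω.rs g a)).map φ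
  set K' := (RingHom.ker (Ω.rs g a) ⊓ RingHom.ker (Ω.rs g' a)).map φ
  haveI := hP1
  have hK1 : K' ≤ P1 := Ideal.map_mono inf_le_left
  have hle : P1 ≤ K' := by
    refine Submodule.le_of_le_smul_of_le_jacobson_bot (I := maximalIdeal p.Loc)
      (IsNoetherian.noetherian P1)
      (le_of_eq (IsLocalRing.jacobson_eq_maximalIdeal ⊥ bot_ne_top).symm) fun z hz => ?_
    have hzm := hgen (IsLocalRing.le_maximalIdeal hP1.ne_top hz)
    obtain ⟨x, hx, y, hy, rfl⟩ := Submodule.mem_sup.1 hzm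
    obtain ⟨c, rfl⟩ := Ideal.mem_span_singleton'.1 hx
    have hcb : c * φ b ∈ P1 := (P1.add_mem_iff_left (hK1 hy)).1 hz
    have hbP : φ b ∉ P1 := fun hbP => hne1 (le_antisymm (IsLocalRing.le_maximalIdeal hP1.ne_top)
      (hgen.trans (sup_le ((Ideal.span_singleton_le_iff_mem _).2 hbP) hK1)))
    have hc : c ∈ P1 := (hP1.mem_or_mem hcb).resolve_right hbP
    rw [add_comm]
    refine Submodule.add_mem_sup hy ?_
    rw [smul_eq_mul, mul_comm c]
    exact Ideal.mul_mem_mul (p.algebraMap_mem_max.2 hb) hc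
  intro z hz
  rw [← hc2, Ideal.mem_comap]
  exact (hle.trans (Ideal.map_mono inf_le_right)) (Ideal.mem_map_of_mem _ hz)

/-- Roots of regular functions on a branch are regular. -/
theorem ev_root [IsNoetherianRing p.Loc] {g : X.Sheet} {a : Fin (K + 2)}
    (h : RingHom.ker (Ω.rs g a) ≤ p.ideal) {n : ℕ} (hn : n ≠ 0) {Z : LaurentSeries k} {A D : X.R}
    (hD : Ω.rs g a D ≠ 0) (hZ : Ω.rs g a D * Z = Ω.rs g a A) {a0 d0 : X.R} (hd0 : p.π d0 ≠ 0)
    (hpow : Ω.rs g a d0 * Z ^ n = Ω.rs g a a0) : ∃ e, (Z, e) ∈ p.EV g a := by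
  obtain ⟨b, hb, hgen⟩ := p.exists_branch_gen (g' := g) h
  rw [inf_idem] at hgen
  obtain ⟨hP1, hcomap, -⟩ := p.map_ker_data h
  set φ := algebraMap X.R p.Loc
  set P1 := (RingHom.ker (Ω.rs g a)).map φ
  haveI := hP1
  set Q := p.Loc ⧸ P1
  haveI : IsLocalRing Q :=
    IsLocalRing.of_surjective' (Ideal.Quotient.mk P1) Ideal.Quotient.mk_surjective
  set ψ : X.R →+* Q := (Ideal.Quotient.mk P1).comp φ
  have hmax : maximalIdeal Q = Ideal.span {ψ b} := by
    have h2 : Ideal.map (Ideal.Quotient.mk P1) (maximalIdeal p.Loc) = maximalIdeal Q :=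
      IsLocalRing.map_maximalIdeal_of_surjective _ Ideal.Quotient.mk_surjective
    rw [← h2]
    refine le_antisymm ?_ ((Ideal.span_singleton_le_iff_mem _).2
      (Ideal.mem_map_of_mem _ (p.algebraMap_mem_max.2 hb)))
    refine (Ideal.map_mono hgen).trans ?_
    rw [Ideal.map_sup, Ideal.map_span, Set.image_singleton, Ideal.map_quotient_self, sup_bot_eq]
    exact le_rfl
  have hzero : ∀ z, ψ z = 0 ↔ Ω.rs g a z = 0 := fun z => by
    show Ideal.Quotient.mk P1 (φ z) = 0 ↔ _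
    rw [Ideal.Quotient.eq_zero_iff_mem, ← Ideal.mem_comap, hcomap, RingHom.mem_ker]
  have hrel : ψ (A ^ n * d0) = ψ (D ^ n * a0) := by
    rw [← sub_eq_zero, ← map_sub, hzero, map_sub, map_mul, map_mul, map_pow, map_pow, ← hZ, ← hpow]
    ring
  rw [map_mul, map_mul, map_pow, map_pow] at hrel
  obtain ⟨w, hw⟩ : ψ D ∣ ψ A := dvd_of_pow_rel hmax hn (fun h0 => hD ((hzero D).1 h0))
    ((p.isUnit_algebraMap hd0).map (Ideal.Quotient.mk P1)) hrel
  obtain ⟨z, hz⟩ := Ideal.Quotient.mk_surjective w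
  obtain ⟨⟨c, s⟩, hc⟩ := IsLocalization.surj p.ideal.primeCompl z
  change z * φ s.1 = φ c at hc
  have hsπ : p.π s.1 ≠ 0 := fun h0 => s.2 (p.mem_ideal.2 h0)
  refine ⟨p.π c / p.π s.1, c, s.1, hsπ, ?_, by field_simp⟩
  have h2 : ψ (s.1 * A) = ψ (D * c) := by
    rw [map_mul, map_mul, show ψ c = Ideal.Quotient.mk P1 z * ψ s.1 by
      show Ideal.Quotient.mk P1 (φ c) = _; rw [← hc, map_mul]; rfl, hz, hw]
    ring
  have h3 := (hzero _).1 (show ψ (s.1 * A - D * c) = 0 by rw [map_sub, h2, sub_self])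
  rw [map_sub, map_mul, map_mul, ← hZ] at h3
  refine mul_left_cancel₀ hD ?_
  linear_combination h3

end Pt

end FLTAgent.CarayolK
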