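import Fermat.Agent.Carayol.Const

/-!
# Constants: the inertia field with the roots of unity of order `q ^ K`
-/

set_option autoImplicit false
set_option linter.style.haveILetI false

noncomputable section

namespace FLTAgent.CarayolK

open IsLocalRing
open FLTAgent.Carayol (K0 K1 intAt toA mem_K0 self_mem_K1 K0_le_K1 inertia_congr_K1 valuation_apply
  valuation_eq_one_of_pow_eq_one isDiscreteValuationRing_intAt)

local notation "QA" => AlgebraicClosure ℚ
local notation "GG" => (AlgebraicClosure ℚ ≃ₐ[ℚ] AlgebraicClosure ℚ)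

variable {A : ValuationSubring QA} {q K : ℕ} [Fact q.Prime]

theorem valuation_sub_one_le {n : ℕ} [NeZero n] {ζ μ : QA} (hζ : IsPrimitiveRoot ζ n)
    (hμ : μ ^ n = 1) : A.valuation (μ - 1) ≤ A.valuation (ζ - 1) := by
  obtain ⟨j, -, rfl⟩ := hζ.eq_pow_of_pow_eq_one hμ
  have hζA : ζ ∈ A := (A.valuation_le_one_iff ζ).1
    (valuation_eq_one_of_pow_eq_one (NeZero.ne n) hζ.pow_eq_one).le
  rw [← geom_sum_mul, map_mul]
  refine mul_le_of_le_one_left' ?_
  exact (A.valuation_le_one_iff _).2 (sum_mem fun i _ => pow_mem hζA i)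

theorem valuation_natCast_eq (hK : K ≠ 0) {ζ : QA} (hζ : IsPrimitiveRoot ζ (q ^ K)) :
    A.valuation (q : QA) = A.valuation (ζ - 1) ^ (q ^ (K - 1) * (q - 1)) := by
  have hq : q.Prime := Fact.out
  haveI : NeZero (q ^ K) := ⟨pow_ne_zero K hq.ne_zero⟩
  obtain ⟨k, rfl⟩ := Nat.exists_eq_succ_of_ne_zero hK
  have h1 : (Polynomial.cyclotomic (q ^ (k + 1)) QA).eval 1 = (q : QA) :=
    Polynomial.eval_one_cyclotomic_prime_pow k
  rw [Polynomial.cyclotomic_eq_prod_X_sub_primitiveRoots hζ, Polynomial.eval_prod] at h1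
  rw [← h1, map_prod, Finset.prod_congr rfl fun μ hμ => ?_, Finset.prod_const, hζ.card_primitiveRoots,
    Nat.totient_prime_pow hq (Nat.succ_pos k)]
  have hμ' := (mem_primitiveRoots (pow_pos hq.pos _)).1 hμ
  rw [Polynomial.eval_sub, Polynomial.eval_X, Polynomial.eval_C, ← Valuation.map_neg, neg_sub]
  exact le_antisymm (valuation_sub_one_le hζ hμ'.pow_eq_one) (valuation_sub_one_le hμ' hζ.pow_eq_one)

theorem valuation_sub_one_lt (hA : A.LiesOverPrime q) (hK : K ≠ 0) {ζ : QA}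
    (hζ : IsPrimitiveRoot ζ (q ^ K)) : A.valuation (ζ - 1) < 1 := by
  by_contra h
  have h2 := one_le_pow₀ (not_lt.1 h) (n := q ^ (K - 1) * (q - 1))
  rw [← valuation_natCast_eq hK hζ] at h2
  exact absurd (A.mem_nonunits_iff.mp hA) (not_lt.2 h2)

theorem exists_zpow_K1 (hA : A.LiesOverPrime q) (hK : K ≠ 0) {ζ : QA}
    (hζ : IsPrimitiveRoot ζ (q ^ K)) {x : QA} (hx : x ∈ K1 A ζ) (hx0 : x ≠ 0) :
    ∃ i : ℤ, A.valuation x = A.valuation (ζ - 1) ^ i := by
  classical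
  have hq : q.Prime := Fact.out
  have hpos0 : 0 < q ^ K := pow_pos hq.pos K
  set T : Finset QA := (primitiveRoots (q ^ K) QA).filter fun w => ∃ σ ∈ A.inertiaSubgroupIn ℚ, σ ζ = w
  have hT : ∀ w ∈ T, ∃ σ ∈ A.inertiaSubgroupIn ℚ, σ ζ = w := fun w hw => (Finset.mem_filter.1 hw).2
  choose! s hsI hsw using hT
  have hmemT : ∀ σ ∈ A.inertiaSubgroupIn ℚ, σ ζ ∈ T := fun σ hσ =>
    Finset.mem_filter.2 ⟨(mem_primitiveRoots hpos0).2 (hζ.map_of_injective σ.injective), σ, hσ, rfl⟩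
  -- the norm to the inertia field
  have hnorm : ∀ {y : QA}, y ∈ K1 A ζ → ∏ w ∈ T, s w y ∈ K0 A := by
    intro y hy
    rw [mem_K0]
    intro τ hτ
    rw [map_prod]
    refine Finset.prod_bij' (fun w _ => τ w) (fun w _ => τ.symm w) ?_ ?_ ?_ ?_ ?_
    · intro w hw
      rw [← hsw w hw]
      exact hmemT (τ * s w) (mul_mem hτ (hsI w hw))
    · intro w hw
      rw [← hsw w hw]
      exact hmemT (τ⁻¹ * s w) (mul_mem (inv_mem hτ) (hsI w hw))
    · intro w _; simp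
    · intro w _; simp
    · intro w hw
      have hw' : τ w ∈ T := by rw [← hsw w hw]; exact hmemT (τ * s w) (mul_mem hτ (hsI w hw))
      exact inertia_congr_K1 (σ := τ * s w) (mul_mem hτ (hsI w hw)) (hsI _ hw')
        (by rw [hsw _ hw']; show τ (s w ζ) = τ w; rw [hsw w hw]) hy
  have hval : ∀ {y : QA}, y ∈ K1 A ζ → y ≠ 0 →
      ∃ i : ℤ, A.valuation y ^ T.card = A.valuation (q : QA) ^ i := by
    intro y hy hy0
    have hne : ∏ w ∈ T, s w y ≠ 0 := Finset.prod_ne_zero_iff.2 fun w _ => by simpa using hy0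
    obtain ⟨i, hi⟩ := Mazur.exists_zpow_valuation A hq hA hne ((mem_K0).1 (hnorm hy))
    refine ⟨i, ?_⟩
    rw [← hi, map_prod, Finset.prod_congr rfl fun w hw => ?_, Finset.prod_const]
    exact valuation_apply (Places.inertia_le_decomposition A (hsI w hw)) y
  have hqv := valuation_natCast_eq (A := A) hK hζ
  obtain ⟨i, hi⟩ := hval hx hx0
  have h1 : ζ - 1 ∈ K1 A ζ := sub_mem (self_mem_K1 ζ) (one_mem _)
  have h1' : ζ - 1 ≠ 0 := sub_ne_zero.2 (hζ.ne_one (Nat.one_lt_pow hK hq.one_lt))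
  obtain ⟨j, hj⟩ := hval h1 h1'
  have hc : A.valuation (ζ - 1) ≠ 0 := (Valuation.ne_zero_iff _).2 h1'
  have hlt : A.valuation (ζ - 1) < 1 := valuation_sub_one_lt hA hK hζ
  have hinj := (zpow_right_strictAnti₀ (zero_lt_iff.2 hc) hlt).injective
  -- the degree of the extension
  have hcard : T.card = q ^ (K - 1) * (q - 1) := by
    have hle : T.card ≤ q ^ (K - 1) * (q - 1) := by
      refine (Finset.card_le_card (Finset.filter_subset _ _)).trans (le_of_eq ?_)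
      rw [hζ.card_primitiveRoots, Nat.totient_prime_pow hq (Nat.pos_of_ne_zero hK)]
    have he : A.valuation (ζ - 1) ^ (T.card : ℤ) = A.valuation (ζ - 1) ^ (((q ^ (K - 1) * (q - 1) : ℕ) : ℤ) * j) := by
      rw [zpow_natCast, hj, hqv, zpow_mul, zpow_natCast]
    have he' : (T.card : ℤ) = ((q ^ (K - 1) * (q - 1) : ℕ) : ℤ) * j := hinj he
    have hpos : 0 < T.card := Finset.card_pos.2 ⟨ζ, hmemT 1 (one_mem _)⟩
    have hdvd : q ^ (K - 1) * (q - 1) ∣ T.card := Int.natCast_dvd_natCast.1 ⟨j, he'⟩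
    exact le_antisymm hle (Nat.le_of_dvd hpos hdvd)
  refine ⟨i, ?_⟩
  have hq1 : q ^ (K - 1) * (q - 1) ≠ 0 :=
    mul_ne_zero (pow_ne_zero _ hq.ne_zero) (by have := hq.two_le; omega)
  refine (pow_left_inj₀ zero_le zero_le hq1).1 ?_
  rw [← hcard, hi, hqv, hcard, ← zpow_natCast, ← zpow_mul, ← zpow_natCast, ← zpow_mul, mul_comm]

theorem isDiscreteValuationRing_K1 (hA : A.LiesOverPrime q) (hK : K ≠ 0) {ζ : QA}
    (hζ : IsPrimitiveRoot ζ (q ^ K)) :
    IsDiscreteValuationRing (intAt A (K1 A ζ)) ∧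
      ∃ ϖ : intAt A (K1 A ζ), Irreducible ϖ ∧ (ϖ : QA) = ζ - 1 :=
  isDiscreteValuationRing_intAt A (sub_mem (self_mem_K1 ζ) (one_mem _))
    (sub_ne_zero.2 (hζ.ne_one (Nat.one_lt_pow hK (Fact.out : q.Prime).one_lt)))
    (valuation_sub_one_lt hA hK hζ) fun _ hx hx0 => exists_zpow_K1 hA hK hζ hx hx0

theorem inertia_maps_K1 {n : ℕ} [NeZero n] {ζ : QA} (hζ : IsPrimitiveRoot ζ n) {σ : GG}
    (hσ : σ ∈ A.inertiaSubgroupIn ℚ) {x : QA} (hx : x ∈ K1 A ζ) : σ x ∈ K1 A ζ := by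
  have h1 : K1 A ζ ≤ (K1 A ζ).comap (σ : QA →ₐ[ℚ] QA) := by
    refine sup_le (fun y hy => ?_) (IntermediateField.adjoin_le_iff.2 (Set.singleton_subset_iff.2 ?_))
    · show σ y ∈ K1 A ζ
      rw [(mem_K0).1 hy σ hσ]
      exact K0_le_K1 ζ hy
    · show σ ζ ∈ K1 A ζ
      obtain ⟨i, -, hi⟩ := hζ.eq_pow_of_pow_eq_one
        (show σ ζ ^ n = 1 by rw [← map_pow, hζ.pow_eq_one, map_one])
      rw [← hi]
      exact pow_mem (self_mem_K1 ζ) i
  exact h1 hx

/-- An element of inertia on the integers of the cyclotomic field. -/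
def inertiaAut {n : ℕ} [NeZero n] {ζ : QA} (hζ : IsPrimitiveRoot ζ n) (σ : GG)
    (hσ : σ ∈ A.inertiaSubgroupIn ℚ) : intAt A (K1 A ζ) ≃+* intAt A (K1 A ζ) where
  toFun x := ⟨σ x, Places.smul_mem_of_decomposition A (Places.inertia_le_decomposition A hσ) x.2.1,
    inertia_maps_K1 hζ hσ x.2.2⟩
  invFun x := ⟨σ⁻¹ x, Places.smul_mem_of_decomposition A
    (Places.inertia_le_decomposition A (inv_mem hσ)) x.2.1,
    inertia_maps_K1 hζ (inv_mem hσ) x.2.2⟩
  left_inv x := Subtype.ext (by simp [AlgEquiv.aut_inv])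
  right_inv x := Subtype.ext (by simp [AlgEquiv.aut_inv])
  map_mul' x y := Subtype.ext (by simp)
  map_add' x y := Subtype.ext (by simp)

end FLTAgent.CarayolK
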