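import Fermat.Agent.CarayolK.Invariant
import Fermat.Agent.Carayol.Pullback
import Fermat.Agent.Kronecker.Inputs
import Fermat.Agent.X0Fn.Field
import Fermat.Agent.GoodModel.Line

/-!
# The function field of level `q ^ (K + 1) M'` on the auxiliary cover
-/

set_option autoImplicit false
set_option linter.unusedSectionVars false
set_option linter.style.haveILetI false

noncomputable section

open UpperHalfPlane hiding I I_re I_im
open Filter Topology Complex Function FLTAgent.ModEq FLTAgent.GoodModel ModularCurve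
open scoped MatrixGroups Manifold Classical

namespace FLTAgent.CarayolK

open FLTAgent.Carayol (sPairs_le_of_le ser_injective trComp)

local notation "QA" => AlgebraicClosure ℚ

variable {q M0 N' K : ℕ} [NeZero M0] [NeZero N'] [NeZero q] [Fact q.Prime]

/-- The comparison of the auxiliary cover with the curve of level `q ^ (K + 1) M'`. -/
structure Pull (X : Ctx q M0 N' K) (M' : ℕ) where
  κ : QA →+* ℂ
  hS : X.S ≤ κ.range
  hN : M' ∣ M0 * N'

namespace Pull

variable {X : Ctx q M0 N' K} {M' : ℕ} [NeZero M'] (P : Pull X M')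

instance neZero_top : NeZero (q * (q ^ (K - 1) * M') * q) :=
  ⟨mul_ne_zero (mul_ne_zero (NeZero.ne q) (mul_ne_zero (pow_ne_zero _ (NeZero.ne q)) (NeZero.ne M')))
    (NeZero.ne q)⟩

instance neZero_bot : NeZero (q * (q ^ (K - 1) * M')) :=
  ⟨mul_ne_zero (NeZero.ne q) (mul_ne_zero (pow_ne_zero _ (NeZero.ne q)) (NeZero.ne M'))⟩

include X in
theorem top_eq : q * (q ^ (K - 1) * M') * q = q ^ (K + 1) * M' := by
  rw [pow_succ, ← X.pow_pred]; ring

/-- Functions with expansions over the algebraic numbers. -/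
abbrev Fn : Subring (ℍ → ℂ) := trRing P.κ.range X.lev

/-- The inclusion of the functions of the cover. -/
def ι : X.R →+* P.Fn :=
  (Subring.inclusion (sPairs_le_of_le P.hS)).comp (Subring.inclusion X.R_le)

theorem coe_ι (a : X.R) : (P.ι a : ℍ → ℂ) = a := rfl

/-- The complex expansion of a translate. -/
def big (γ : SL(2, ℤ)) : P.Fn →+* LaurentSeries ℂ :=
  (sIncl P.κ.range).comp (ser.comp (trComp γ))

theorem big_injective (γ : SL(2, ℤ)) : Injective (P.big γ) := fun a b h =>
  Subtype.ext (compg_injective γ (congrArg Subtype.val (ser_injective (sIncl_injective h))))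

theorem big_spec (γ : SL(2, ℤ)) (f : P.Fn) :
    HasExp X.lev (compg γ (f : ℍ → ℂ)) (P.big γ f) :=
  (mem_sPairs.mp (ser_spec (trComp γ f))).2

/-- The complex expansion of a translate of a function of the cover. -/
def eps (γ : SL(2, ℤ)) : X.R →+* LaurentSeries ℂ := (P.big γ).comp P.ι

theorem eps_eq (γ : SL(2, ℤ)) (a : X.R) : P.eps γ a = sIncl X.S (X.embAt γ a) :=
  (P.big_spec γ (P.ι a)).unique
    ((mem_sPairs.mp (ser_spec (trComp γ (Subring.inclusion X.R_le a)))).2)

/-- The scaling of the parameters. -/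
def theta : LaurentSeries QA →+* LaurentSeries ℂ :=
  (qExpand ℂ (M0 * N' * q ^ (K - 1))).comp (coeffMap P.κ)

theorem theta_injective : Injective P.theta :=
  P.theta.injective

theorem theta_C (c : QA) : P.theta (HahnSeries.C c) = HahnSeries.C (P.κ c) := by
  simp [theta, HahnSeries.C_apply, coeffMap_single, qExpand_single]

theorem theta_algebraMap (c : QA) :
    P.theta (algebraMap QA (LaurentSeries QA) c) = HahnSeries.C (P.κ c) := by
  rw [algebraMap_laurentSeries_eq_single, ← HahnSeries.C_apply, P.theta_C]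

theorem theta_gen {d : ℕ} [NeZero d] :
    P.theta (qExpand QA d (jqModC QA)) = jAt (1 : ℂˣ) (d * (M0 * N' * q ^ (K - 1))) := by
  haveI : NeZero (M0 * N' * q ^ (K - 1) * d) := ⟨mul_ne_zero (NeZero.ne _) (NeZero.ne d)⟩
  rw [theta, RingHom.comp_apply, coeffMap_qExpand, coeffMap_jqModC, qExpand_qExpand, jAt_eq,
    substHom_one]
  exact qExpand_congr (mul_comm _ _) _

/-- The constant functions. -/
def cst (c : QA) : P.Fn :=
  ⟨fun _ => P.κ c, mem_trRing.mpr fun _ => ⟨HahnSeries.C (⟨P.κ c, c, rfl⟩ : P.κ.range),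
    sPairs_const (⟨P.κ c, c, rfl⟩ : P.κ.range)⟩⟩

theorem big_cst (γ : SL(2, ℤ)) (c : QA) : P.big γ (P.cst c) = HahnSeries.C (P.κ c) := by
  refine (P.big_spec γ (P.cst c)).unique ?_
  have h := (mem_sPairs.mp (sPairs_const (n := X.lev) (⟨P.κ c, c, rfl⟩ : P.κ.range))).2
  rw [sIncl, HahnSeries.C_apply, coeffMap_single] at h
  rw [HahnSeries.C_apply]
  convert h using 1 <;> rfl

/-- The function `j (d τ / q)`. -/
def jf (d : ℕ) [NeZero d] (hd : d ∣ q ^ (K + 1) * M') : P.Fn :=
  Subring.inclusion (sPairs_le_of_le P.hS) ⟨jd q d, X.jd_mem P.hN hd⟩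

theorem big_jf (d : ℕ) [NeZero d] (hd : d ∣ q ^ (K + 1) * M') :
    P.big 1 (P.jf d hd) = jAt (1 : ℂˣ) (d * (M0 * N' * q ^ (K - 1))) := by
  haveI : NeZero (d * (M0 * N' * q ^ (K - 1))) := ⟨mul_ne_zero (NeZero.ne _) (NeZero.ne _)⟩
  refine (P.big_spec 1 (P.jf d hd)).unique ?_
  have h := (mem_sPairs.mp (sPairs_jd X.ζ X.hζ (M0 := q) (N' := M0 * N' * q ^ (K - 1)) X.lev_eq d)).2
  rw [sIncl, coeffMap_jAt, map_one] at h
  rwa [compg_one]

theorem exists_fn {a : LaurentSeries QA} (ha : a ∈ X0Fn.XA QA (q * (q ^ (K - 1) * M') * q)) :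
    ∃ f : P.Fn, P.big 1 f = P.theta a := by
  induction ha using Algebra.adjoin_induction with
  | mem x hx =>
    obtain ⟨_, ⟨d, hne, hd, rfl⟩, rfl⟩ := hx
    refine ⟨P.jf d (hd.trans (dvd_of_eq (top_eq (X := X)))), ?_⟩
    rw [P.big_jf, coeffEmb, coeffMap_qExpand, ← jqModC_rat, coeffMap_jqModC, P.theta_gen]
  | algebraMap r => exact ⟨P.cst r, by rw [P.big_cst, P.theta_algebraMap]⟩
  | add x y _ _ hx hy =>
    obtain ⟨f, hf⟩ := hx
    obtain ⟨g, hg⟩ := hy
    exact ⟨f + g, by rw [map_add, map_add, hf, hg]⟩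
  | mul x y _ _ hx hy =>
    obtain ⟨f, hf⟩ := hx
    obtain ⟨g, hg⟩ := hy
    exact ⟨f * g, by rw [map_mul, map_mul, hf, hg]⟩

/-- The function with a given expansion. -/
def fn : X0Fn.XA QA (q * (q ^ (K - 1) * M') * q) →+* P.Fn where
  toFun a := (P.exists_fn a.2).choose
  map_one' := P.big_injective 1 <| by
    rw [(P.exists_fn (Subalgebra.one_mem _)).choose_spec, map_one, map_one]
  map_zero' := P.big_injective 1 <| by
    rw [(P.exists_fn (Subalgebra.zero_mem _)).choose_spec, map_zero, map_zero]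
  map_add' a b := P.big_injective 1 <| (P.exists_fn (a + b).2).choose_spec.trans (by
    rw [map_add (P.big 1), (P.exists_fn a.2).choose_spec, (P.exists_fn b.2).choose_spec]
    exact map_add P.theta _ _)
  map_mul' a b := P.big_injective 1 <| (P.exists_fn (a * b).2).choose_spec.trans (by
    rw [map_mul (P.big 1), (P.exists_fn a.2).choose_spec, (P.exists_fn b.2).choose_spec]
    exact map_mul P.theta _ _)

theorem big_fn (a : X0Fn.XA QA (q * (q ^ (K - 1) * M') * q)) : P.big 1 (P.fn a) = P.theta a :=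
  (P.exists_fn a.2).choose_spec

theorem fn_injective : Injective P.fn := fun a b h =>
  Subtype.ext (P.theta_injective (by rw [← P.big_fn, ← P.big_fn, h]))

theorem fn_algebraMap (c : QA) : P.fn (algebraMap QA _ c) = P.cst c :=
  P.big_injective 1 (by rw [P.big_fn, P.big_cst]; exact P.theta_algebraMap c)

theorem fn_gen {d : ℕ} [NeZero d] (hd : d ∣ q ^ (K + 1) * M')
    (h : qExpand QA d (jqModC QA) ∈ X0Fn.XA QA (q * (q ^ (K - 1) * M') * q)) :
    P.fn ⟨_, h⟩ = P.jf d hd :=
  P.big_injective 1 (by rw [P.big_fn, P.big_jf, P.theta_gen])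

/-- The embedding of the function field at a translate. -/
def Theta (γ : SL(2, ℤ)) : modularFunctionFieldBar (q * (q ^ (K - 1) * M') * q) →+* LaurentSeries ℂ :=
  X0Fn.liftF ((P.big γ).comp P.fn) ((P.big_injective γ).comp P.fn_injective)

theorem Theta_incA (γ : SL(2, ℤ)) (a : X0Fn.XA QA (q * (q ^ (K - 1) * M') * q)) :
    P.Theta γ (X0Fn.incA QA _ a) = P.big γ (P.fn a) :=
  X0Fn.liftF_incA _ _ _

theorem Theta_one (f : modularFunctionFieldBar (q * (q ^ (K - 1) * M') * q)) :
    P.Theta 1 f = P.theta (f : LaurentSeries QA) := by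
  obtain ⟨a, b, rfl⟩ := X0Fn.exists_incA_div f
  rw [map_div₀, P.Theta_incA, P.Theta_incA, P.big_fn, P.big_fn, IntermediateField.coe_div, map_div₀]
  rfl

theorem Theta_algebraMap (γ : SL(2, ℤ)) (c : QA) :
    P.Theta γ (algebraMap QA _ c) = HahnSeries.C (P.κ c) := by
  rw [show algebraMap QA (modularFunctionFieldBar (q * (q ^ (K - 1) * M') * q)) c =
    X0Fn.incA QA _ (algebraMap QA _ c) from ((X0Fn.incA QA (q * (q ^ (K - 1) * M') * q)).commutes c).symm,
    P.Theta_incA, P.fn_algebraMap, P.big_cst]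

/-- An identity at the identical translate holds at all translates. -/
theorem Theta_eps {f : modularFunctionFieldBar (q * (q ^ (K - 1) * M') * q)} {a d : X.R}
    (h : P.eps 1 d * P.Theta 1 f = P.eps 1 a) (γ : SL(2, ℤ)) :
    P.eps γ d * P.Theta γ f = P.eps γ a := by
  obtain ⟨x, y, rfl⟩ := X0Fn.exists_incA_div f
  rcases eq_or_ne y 0 with rfl | hy
  · simp only [map_zero, div_zero, mul_zero] at h ⊢
    rw [P.big_injective 1 ((h.symm.trans (map_zero _).symm) : P.big 1 (P.ι a) = P.big 1 0) |>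
      congrArg (P.big γ) |>.trans (map_zero _) |> fun e : P.eps γ a = 0 => e]
  · have hne : ∀ σ, P.big σ (P.fn y) ≠ 0 := fun σ h0 =>
      hy (P.fn_injective (P.big_injective σ (h0.trans (map_zero _).symm) |>.trans (map_zero _).symm))
    simp only [map_div₀, P.Theta_incA, eps, RingHom.comp_apply] at h ⊢
    rw [mul_div, div_eq_iff (hne 1), ← map_mul, ← map_mul] at h
    rw [mul_div, div_eq_iff (hne γ), ← map_mul, ← map_mul, P.big_injective 1 h]

/-- The small field of constants. -/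
structure Small (L : IntermediateField ℚ QA) : Prop where
  fix : ∀ x : QA, (∀ σ : QA ≃ₐ[ℚ] QA, (∀ y ∈ L, σ y = y) → σ x = x) → x ∈ L
  frac : ∀ c ∈ L, ∃ w w' : X.W, w' ≠ 0 ∧ P.κ c * (w' : ℂ) = w
  mem : ∀ w : X.W, ∃ c ∈ L, P.κ c = w
  fixed : X.FixedPart

end Pull

end FLTAgent.CarayolK
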