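import Fermat.Agent.CarayolK.Branch
import Fermat.Agent.CarayolK.Pullback
import Fermat.Agent.CarayolK.Const
import Fermat.Agent.Carayol.Constants

/-!
# The constants of the auxiliary cover for higher powers at a place over `q`
-/

set_option autoImplicit false
set_option linter.unusedSectionVars false
set_option linter.style.haveILetI false
set_option linter.unreachableTactic false
set_option linter.unusedTactic false

noncomputable section

open Function IsLocalRing FLTAgent.GoodModel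
open scoped Classical

namespace FLTAgent.CarayolK

open FLTAgent.Carayol (K0 K1 intAt toA toA_injective mem_K0 self_mem_K1 K0_le_K1 cInt eInt eInt_symm
  coe_eInt cInt_mono cInt_le_range isUnit_natCast_intAt exists_preimage_zetaN mem_K0_of_pow_eq_one
  valuation_eq_one_of_pow_eq_one isDiscreteValuationRing_K0 nonempty_coord exists_residue_eq
  dvd_of_residue_eq_zero)

local notation "QA" => AlgebraicClosure ℚ
local notation "GG" => (AlgebraicClosure ℚ ≃ₐ[ℚ] AlgebraicClosure ℚ)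
local notation "κA" => Kronecker.complexEmb

variable {A : ValuationSubring QA} {q : ℕ} [Fact q.Prime]

/-- The cover, its constants and their reduction at a place. -/
structure Model (A : ValuationSubring QA) (q M0 N' K M' : ℕ) [Fact q.Prime] [NeZero q] [NeZero M0]
    [NeZero N'] [NeZero M'] where
  X : Ctx q M0 N' K
  P : Pull X M'
  hκ : P.κ = κA
  small : P.Small (K0 A)
  dvr : IsDiscreteValuationRing X.S
  noeth : IsNoetherianRing X.W
  Ω : Res X (ResidueField A)
  jO : X.S →+* A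
  hjO : Injective jO
  hjκ : ∀ x : X.S, κA ((jO x : A) : QA) = (x : ℂ)
  hjφ : (residue A).comp jO = Ω.φ
  ρ : Ram Ω
  unitW : ∀ n : ℕ, ¬ q ∣ n → IsUnit (n : X.W)

/-- The model exists at every place over `q`, for every auxiliary level divisible enough. -/
theorem nonempty_model_of_dvd [NeZero q] (hA : A.LiesOverPrime q) {M0 N' M' : ℕ} [NeZero M0]
    [NeZero M'] [NeZero N'] (hM : M0 = 2 ∨ M0 = 3) (hq0 : ¬ q ∣ M0) (hqN : ¬ q ∣ N')
    (hdvd : M' ∣ M0 * N') {K : ℕ} (hK2 : 2 ≤ K) : Nonempty (Model A q M0 N' K M') := by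
  have hq : q.Prime := Fact.out
  have hK : K ≠ 0 := by omega
  haveI hQ : NeZero (q ^ K) := ⟨pow_ne_zero K (NeZero.ne q)⟩
  set m := M0 * N' with hm
  haveI : NeZero m := ⟨mul_ne_zero (NeZero.ne _) (NeZero.ne _)⟩
  haveI : NeZero (M0 * (N' * q ^ K)) := ⟨mul_ne_zero (NeZero.ne _) (mul_ne_zero (NeZero.ne _) (NeZero.ne _))⟩
  haveI : NeZero (m * q ^ K) := ⟨mul_ne_zero (NeZero.ne _) (NeZero.ne _)⟩
  have hqm : ¬ q ∣ m := fun h => (hq.dvd_mul.1 h).elim hq0 hqN
  obtain ⟨z, hz, hzκ⟩ := exists_preimage_zetaN (m * q ^ K)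
  have hzq : IsPrimitiveRoot (z ^ (q ^ K)) m := hz.pow (Nat.pos_of_ne_zero (NeZero.ne _)) (mul_comm m (q ^ K))
  have hζq : IsPrimitiveRoot (z ^ m) (q ^ K) := hz.pow (Nat.pos_of_ne_zero (NeZero.ne _)) rfl
  set ζ := z ^ m with hζdef
  have hzq0 : z ^ (q ^ K) ∈ K0 A := mem_K0_of_pow_eq_one hA hqm hzq.pow_eq_one
  have hzA : z ∈ A := (A.valuation_le_one_iff z).1
    (valuation_eq_one_of_pow_eq_one (NeZero.ne (m * q ^ K)) hz.pow_eq_one).le
  have hzK1 : z ∈ K1 A ζ := by
    have hcop : Nat.Coprime (q ^ K) m := Nat.Coprime.pow_left K (hq.coprime_iff_not_dvd.2 hqm)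
    have hb := Nat.gcd_eq_gcd_ab (q ^ K) m
    rw [hcop] at hb
    have hz0 : z ≠ 0 := hz.ne_zero (NeZero.ne _)
    have : z = (z ^ (q ^ K)) ^ Nat.gcdA (q ^ K) m * (z ^ m) ^ Nat.gcdB (q ^ K) m := by
      rw [← zpow_natCast z (q ^ K), ← zpow_natCast z m, ← zpow_mul, ← zpow_mul, ← zpow_add₀ hz0, ← hb,
        Nat.cast_one, zpow_one]
    rw [this]
    exact mul_mem (zpow_mem (K0_le_K1 ζ hzq0) _) (zpow_mem (self_mem_K1 ζ) _)
  have hS1 := isDiscreteValuationRing_K1 hA hK hζq
  have hW1 := isDiscreteValuationRing_K0 hA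
  haveI := hS1.1
  haveI := hW1.1
  set eS := eInt A (K1 A ζ)
  set eW := eInt A (K0 A)
  -- the roots of unity
  set ζS : (cInt A (K1 A ζ))ˣ := Units.map eS.toRingHom.toMonoidHom
    (Units.ofPowEqOne (⟨z, hzA, hzK1⟩ : intAt A (K1 A ζ)) (m * q ^ K)
      (Subtype.ext (by push_cast; exact hz.pow_eq_one)) (NeZero.ne _))
  set ζW : (cInt A (K0 A))ˣ := Units.map eW.toRingHom.toMonoidHom
    (Units.ofPowEqOne (⟨z ^ (q ^ K), pow_mem hzA (q ^ K), hzq0⟩ : intAt A (K0 A)) m
      (Subtype.ext (by push_cast; exact hzq.pow_eq_one)) (NeZero.ne _))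
  have hζS : ((ζS : cInt A (K1 A ζ)) : ℂ) = zetaN (M0 * (N' * q ^ K)) := by
    show κA z = _
    rw [hzκ]
    congr 2
    rw [hm, mul_assoc]
  have hζW : ((ζW : cInt A (K0 A)) : ℂ) = zetaN (M0 * N') := by
    show κA (z ^ (q ^ K)) = _
    rw [map_pow, hzκ, Carayol.zetaN_pow]
  have hunit : ∀ n : ℕ, ¬ q ∣ n → IsUnit (n : cInt A (K0 A)) := fun n hn => by
    simpa using (isUnit_natCast_intAt hA (K0 A) hn).map eW
  have hζ0 : ((((ζW ^ N') : (cInt A (K0 A))ˣ) : cInt A (K0 A)) : ℂ) = zetaN M0 := by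
    rw [Units.val_pow_eq_pow_val, SubmonoidClass.coe_pow, hζW, Carayol.zetaN_pow]
  obtain ⟨co⟩ := nonempty_coord (cInt A (K0 A)) M0 hM (ζW ^ N') hζ0 (hunit M0 hq0)
  let X : Ctx q M0 N' K :=
    { hK := hK2, hq := hq, hM := hM, hqm := hqm, W := cInt A (K0 A), S := cInt A (K1 A ζ)
      hWS := cInt_mono (K0_le_K1 ζ), ζ := ζS, hζ := hζS, ζm := ζW, hζm := hζW
      hu := hunit m hqm, co := co }
  let P : Pull X M' := { κ := κA, hS := cInt_le_range _, hN := hdvd }
  haveI hdvr : IsDiscreteValuationRing X.S := IsDiscreteValuationRing.RingEquivClass.isDiscreteValuationRing eS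
  have hnoeth : IsNoetherianRing X.W := isNoetherianRing_of_ringEquiv _ eW
  haveI := FrobTrace.charP_residueField hA
  let jO : X.S →+* A := (toA A (K1 A ζ)).comp eS.symm.toRingHom
  have hjκ : ∀ x : X.S, κA ((jO x : A) : QA) = (x : ℂ) := fun x => eInt_symm _ x
  -- inertia gives enough automorphisms
  have hfixed : X.FixedPart := by
    intro x hx
    set y := eS.symm x with hy
    have hy0 : (y : QA) ∈ K0 A := by
      rw [mem_K0]
      intro σ hσ
      have h := hx ((eS.symm.trans (inertiaAut hζq σ hσ)).trans eS) fun w => by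
        refine Subtype.ext ?_
        show κA (σ ((eS.symm (X.inc w) : intAt A (K1 A ζ)) : QA)) = _
        obtain ⟨v, hv, hvw⟩ := w.2
        have : ((eS.symm (X.inc w) : intAt A (K1 A ζ)) : QA) = v :=
          (κA).injective ((eInt_symm _ _).trans hvw.symm)
        rw [this, (mem_K0).1 hv.2 σ hσ]
        exact hvw
      have h2 := congrArg eS.symm h
      simp only [RingEquiv.trans_apply, RingEquiv.symm_apply_apply] at h2
      exact congrArg Subtype.val h2
    exact ⟨eW ⟨y, y.2.1, hy0⟩, Subtype.ext (eInt_symm _ x)⟩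
  have hjW : ∀ w : X.W, ((eS.symm (X.inc w) : intAt A (K1 A ζ)) : QA) = (eW.symm w : intAt A (K0 A)) :=
    fun w => (κA).injective ((eInt_symm _ _).trans (eInt_symm _ w).symm)
  obtain ⟨ϖ0, hϖ0, hϖ0q⟩ := hW1.2
  let Ω : Res X (ResidueField A) :=
    { φ := (residue A).comp jO
      surjW := fun x => by
        obtain ⟨y, hy, hyx⟩ := exists_residue_eq hA x
        refine ⟨eW ⟨y, y.2, hy⟩, ?_⟩
        rw [← hyx]
        show residue A (jO (X.inc _)) = _
        congr 1
        refine Subtype.ext ((hjW _).trans ?_)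
        rw [RingEquiv.symm_apply_apply]
      kerW := fun w hw => by
        have h0 : residue A (toA A (K0 A) (eW.symm w)) = 0 := by
          rw [← hw]
          exact congrArg (residue A) (Subtype.ext (hjW w).symm)
        have h1 := map_dvd eW (dvd_of_residue_eq_zero hϖ0 h0)
        rw [RingEquiv.apply_symm_apply] at h1
        have h2 : ϖ0 = (q : intAt A (K0 A)) := Subtype.ext (hϖ0q.trans (by simp))
        rwa [h2, map_natCast] at h1
      q0 := by simp
      fixed := hfixed }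
  obtain ⟨ϖ1, hϖ1, hϖ1q⟩ := hS1.2
  have hval : A.valuation ((q : QA) / (ζ - 1) ^ (q ^ (K - 1) * (q - 1))) = 1 := by
    rw [map_div₀, map_pow, valuation_natCast_eq hK hζq, div_self]
    exact pow_ne_zero _ ((Valuation.ne_zero_iff _).2 (sub_ne_zero.2 (hζq.ne_one (Nat.one_lt_pow hK hq.one_lt))))
  set u1 : intAt A (K1 A ζ) := ⟨(q : QA) / (ζ - 1) ^ (q ^ (K - 1) * (q - 1)), (A.valuation_le_one_iff _).1 hval.le,
    (K1 A ζ).div_mem (natCast_mem _ q) (pow_mem (sub_mem (self_mem_K1 ζ) (one_mem _)) _)⟩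
  have hu1 : IsUnit u1 := by
    have hne : ((u1 : intAt A (K1 A ζ)) : QA) ≠ 0 := fun h => by
      rw [show ((q : QA) / (ζ - 1) ^ (q ^ (K - 1) * (q - 1))) = 0 from h, map_zero] at hval
      exact zero_ne_one hval
    refine IsUnit.of_mul_eq_one (⟨((u1 : intAt A (K1 A ζ)) : QA)⁻¹, ?_, (K1 A ζ).inv_mem u1.2.2⟩ :
      intAt A (K1 A ζ)) (Subtype.ext (mul_inv_cancel₀ hne))
    exact (A.valuation_le_one_iff _).1 (by rw [map_inv₀, hval, inv_one])
  let ρ : Ram Ω :=
    { ϖ := eS ϖ1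
      irr := (MulEquiv.irreducible_iff eS).2 hϖ1
      φϖ := by
        show residue A (toA A (K1 A ζ) (eS.symm (eS ϖ1))) = 0
        rw [RingEquiv.symm_apply_apply, residue_eq_zero_iff, ← ValuationSubring.coe_mem_nonunits_iff,
          ValuationSubring.mem_nonunits_iff]
        show A.valuation (ϖ1 : QA) < 1
        rw [hϖ1q]
        exact valuation_sub_one_lt hA hK hζq
      u := eS u1
      hu := hu1.map eS
      hq := by
        rw [← map_natCast eS, ← map_pow, ← map_mul]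
        congr 1
        refine Subtype.ext ?_
        push_cast
        rw [hϖ1q]
        exact (div_mul_cancel₀ _ (pow_ne_zero _ (sub_ne_zero.2 (hζq.ne_one (Nat.one_lt_pow hK hq.one_lt))))).symm }
  refine ⟨{ X := X, P := P, hκ := rfl, small := ⟨?_, ?_, ?_, hfixed⟩, dvr := hdvr, noeth := hnoeth,
            Ω := Ω, jO := jO, hjO := (toA_injective A _).comp eS.symm.injective, hjκ := hjκ,
            hjφ := rfl, ρ := ρ, unitW := hunit }⟩
  · intro x hx
    rw [mem_K0]
    exact fun σ hσ => hx σ fun y hy => (mem_K0).1 hy σ hσ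
  · intro c hc
    rcases le_total (A.valuation c) 1 with h | h
    · refine ⟨eW ⟨c, (A.valuation_le_one_iff c).1 h, hc⟩, 1, one_ne_zero, ?_⟩
      simp [P, eW]
    · have hc0 : c ≠ 0 := fun h0 => by simp [h0] at h
      refine ⟨1, eW ⟨c⁻¹, (A.valuation_le_one_iff _).1 (by rw [map_inv₀]; exact inv_le_one_of_one_le₀ h),
        (K0 A).inv_mem hc⟩, fun h0 => ?_, ?_⟩
      · have h1 := congrArg Subtype.val ((map_eq_zero_iff _ eW.injective).1 h0)
        exact inv_ne_zero hc0 h1
      · show κA c * κA c⁻¹ = ((1 : X.W) : ℂ)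
        rw [← map_mul, mul_inv_cancel₀ hc0, map_one, Subring.coe_one]
  · intro w
    exact ⟨(eW.symm w : intAt A (K0 A)), (eW.symm w).2.2, eInt_symm _ w⟩

/-- The model exists at every place over `q`. -/
theorem nonempty_model [NeZero q] (hA : A.LiesOverPrime q) {M0 M' : ℕ} [NeZero M0] [NeZero M']
    [NeZero (M0 * M')] (hM : M0 = 2 ∨ M0 = 3) (hq0 : ¬ q ∣ M0) (hqM : ¬ q ∣ M') {K : ℕ}
    (hK2 : 2 ≤ K) : Nonempty (Model A q M0 (M0 * M') K M') :=
  nonempty_model_of_dvd hA hM hq0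
    (fun h => ((Fact.out : q.Prime).dvd_mul.1 h).elim hq0 hqM)
    ⟨M0 * M0, by ring⟩ hK2

end FLTAgent.CarayolK
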