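import Fermat.Agent.CarayolK.Branch

/-!
# Uniform rationality and evaluation along a branch
-/

set_option autoImplicit false
set_option linter.unusedSectionVars false
set_option linter.style.haveILetI false

noncomputable section

open UpperHalfPlane hiding I I_re I_im
open Filter Topology Complex Function FLTAgent.ModEq FLTAgent.GoodModel ModularCurve
open scoped MatrixGroups Manifold Classical

namespace FLTAgent.CarayolK

variable {q M0 N' K : ℕ} [NeZero M0] [NeZero N'] [NeZero q] [Fact q.Prime]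
variable {X : Ctx q M0 N' K} {k : Type} [Field k]

namespace Res

variable (Ω : Res X k)

theorem mem_UF {a : Fin (K + 2)} {F : X.Sheet → LaurentSeries k} :
    F ∈ Ω.UF a ↔ ∃ n d : X.R, ∀ g, Ω.rs g a d ≠ 0 ∧ Ω.rs g a d * F g = Ω.rs g a n := Iff.rfl

theorem UF_inv {a : Fin (K + 2)} {F : X.Sheet → LaurentSeries k} (h : F ∈ Ω.UF a)
    (hF : ∀ g, F g ≠ 0) : (fun g => (F g)⁻¹) ∈ Ω.UF a := by
  obtain ⟨n, d, h⟩ := h
  refine ⟨d, n, fun g => ?_⟩
  obtain ⟨h1, h2⟩ := h g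
  refine ⟨h2 ▸ mul_ne_zero h1 (hF g), ?_⟩
  rw [← h2, mul_assoc, mul_inv_cancel₀ (hF g), mul_one]

theorem rs_mem_UF (a : Fin (K + 2)) (x : X.R) : (fun g => Ω.rs g a x) ∈ Ω.UF a :=
  ⟨x, 1, fun g => ⟨by simp, by simp⟩⟩

end Res

namespace Pt

variable {Ω : Res X k} (p : Pt Ω)

theorem mem_EV {g : X.Sheet} {a : Fin (K + 2)} {F : LaurentSeries k × k} :
    F ∈ p.EV g a ↔ ∃ n d : X.R, p.π d ≠ 0 ∧ Ω.rs g a d * F.1 = Ω.rs g a n ∧ p.π d * F.2 = p.π n :=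
  Iff.rfl

theorem ev_self (g : X.Sheet) (a : Fin (K + 2)) (x : X.R) : (Ω.rs g a x, p.π x) ∈ p.EV g a :=
  ⟨x, 1, by simp, by simp, by simp⟩

variable {g : X.Sheet} {a : Fin (K + 2)} (hle : RingHom.ker (Ω.rs g a) ≤ p.ideal)
include hle

theorem rs_ne {x : X.R} (h : p.π x ≠ 0) : Ω.rs g a x ≠ 0 := fun h0 =>
  h (p.mem_ideal.1 (hle h0))

theorem ev_unique {x : LaurentSeries k} {e e' : k} (h : (x, e) ∈ p.EV g a)
    (h' : (x, e') ∈ p.EV g a) : e = e' := by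
  obtain ⟨n, d, h0, h1, h2⟩ := h
  obtain ⟨n', d', h0', h1', h2'⟩ := h'
  have h3 : p.π (n * d' - n' * d) = 0 := p.mem_ideal.1 (hle (by
    rw [RingHom.mem_ker, map_sub, map_mul, map_mul, ← h1, ← h1']; ring))
  rw [map_sub, map_mul, map_mul, ← h2, ← h2', sub_eq_zero] at h3
  exact mul_left_cancel₀ (mul_ne_zero h0 h0') (by linear_combination h3)

theorem ev_ne {F : LaurentSeries k × k} (h : F ∈ p.EV g a) (he : F.2 ≠ 0) : F.1 ≠ 0 := by
  obtain ⟨n, d, h0, h1, h2⟩ := h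
  intro hx
  rw [hx, mul_zero] at h1
  exact p.rs_ne hle (h2 ▸ mul_ne_zero h0 he) h1.symm

theorem ev_inv {F : LaurentSeries k × k} (h : F ∈ p.EV g a) (he : F.2 ≠ 0) :
    (F.1⁻¹, F.2⁻¹) ∈ p.EV g a := by
  have hx := p.ev_ne hle h he
  obtain ⟨n, d, h0, h1, h2⟩ := h
  refine ⟨d, n, h2 ▸ mul_ne_zero h0 he, ?_, ?_⟩
  · rw [← h1, mul_assoc, mul_inv_cancel₀ hx, mul_one]
  · rw [← h2, mul_assoc, mul_inv_cancel₀ he, mul_one]

end Pt

end FLTAgent.CarayolK
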