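import Fermat.Agent.CarayolK.Setup
import Fermat.Agent.Carayol.Invariant

/-!
# The vertices of the chain and the functions `j (d τ / q)` on the auxiliary cover
-/

set_option autoImplicit false
set_option linter.unusedSectionVars false
set_option linter.style.haveILetI false

noncomputable section

open UpperHalfPlane hiding I I_re I_im
open Filter Topology Complex Function FLTAgent.ModEq FLTAgent.GoodModel ModularCurve
open scoped MatrixGroups Manifold Classical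

namespace FLTAgent.CarayolK

open FLTAgent.Carayol (Coord coordT sPairs_mono sPairs_comp_affPt T_zpow_smul_eq_affPt
  jd_invariant')

namespace Ctx

variable {q M0 N' K : ℕ} [NeZero M0] [NeZero N'] [NeZero q] [Fact q.Prime] (X : Ctx q M0 N' K)

theorem lev_eq : q * (M0 * N' * q ^ (K - 1)) = X.lev := by
  rw [lev, ← X.pow_pred]; ring

include X in
theorem coord_translate {B : ℤ} (hB : (M0 : ℤ) ∣ B) (z : ℍ) :
    coordT M0 (affPt 1 B 1 z) = coordT M0 z := by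
  have hmem : ModularGroup.T ^ B ∈ CongruenceSubgroup.Gamma M0 := by
    rw [CongruenceSubgroup.Gamma_mem]
    have hB' : (B : ZMod M0) = 0 := (ZMod.intCast_zmod_eq_zero_iff_dvd _ _).2 hB
    simp [ModularGroup.coe_T_zpow, hB']
  rw [← T_zpow_smul_eq_affPt]
  exact X.ctr.T_pm (Or.inl hmem) z

include X in
/-- The function at a vertex is fixed exactly by the matching group `Γ₀(q ^ i)`. -/
theorem fix_vertex_iff {i : ℕ} (hi : i ≤ K) {γ : SL(2, ℤ)}
    (hγ : γ ∈ CongruenceSubgroup.Gamma M0) :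
    compg γ (fun τ => coordT M0 (affPt (q ^ i) 0 1 τ)) =
      (fun τ => coordT M0 (affPt (q ^ i) 0 1 τ)) ↔ (q : ℤ) ^ i ∣ γ 1 0 := by
  obtain ⟨m, B, δ, hm, hmax, hPm, hB, h10, -, -, he⟩ := X.exists_vertex hγ i
  have hf : compg γ (fun τ => coordT M0 (affPt (q ^ i) 0 1 τ)) =
      fun τ => coordT M0 (affPt (q ^ m) B (q ^ (i - m)) τ) := by
    funext τ
    rw [compg_apply, he]
    exact X.ctr.T_pm hPm _
  rcases Nat.eq_or_lt_of_le hm with rfl | hlt
  · refine iff_of_true ?_ ⟨δ 1 0, by rw [mul_comm]; exact h10.symm⟩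
    rw [hf]
    funext τ
    have hpt : affPt (q ^ m) B (q ^ (m - m)) τ = affPt 1 B 1 (affPt (q ^ m) 0 1 τ) := by
      refine UpperHalfPlane.ext ?_
      simp only [coe_affPt, Nat.sub_self, pow_zero]
      push_cast
      ring
    rw [hpt, X.coord_translate hB]
  · refine iff_of_false (fun h => ?_) fun h => hmax hlt ((pow_dvd_pow _ hlt).trans h)
    have hH := sPairs_mono X.hWS X.co.hH
    set a := N' * q ^ (K - i + m) with ha
    haveI : NeZero a := ⟨mul_ne_zero (NeZero.ne _) (pow_ne_zero _ (NeZero.ne q))⟩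
    haveI : NeZero (q ^ m * a) := ⟨mul_ne_zero (pow_ne_zero _ (NeZero.ne q)) (NeZero.ne a)⟩
    haveI : NeZero (q ^ i * (N' * q ^ K)) :=
      ⟨mul_ne_zero (pow_ne_zero _ (NeZero.ne q)) (mul_ne_zero (NeZero.ne _) (pow_ne_zero _ (NeZero.ne q)))⟩
    have hp : q ^ (i - m) * q ^ (K - i + m) = q ^ K := by
      rw [← pow_add]; congr 1; omega
    have e1 := sPairs_comp_affPt X.ζ X.hζ (q ^ m) B (q ^ (i - m)) M0 a
      (by rw [ha, ← hp]; ring) hH
    have e2 := sPairs_comp_affPt X.ζ X.hζ (q ^ i) 0 1 M0 (N' * q ^ K) (by ring) hH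
    rw [← hf, h] at e1
    have e3 := congrArg (fun z : LaurentSeries X.S => z.coeff (((q ^ m * a : ℕ) : ℤ) * (-1)))
      (sPairs_unique e1 e2)
    have hnd : ¬ ((q ^ i * (N' * q ^ K) : ℕ) : ℤ) ∣ ((q ^ m * a : ℕ) : ℤ) * (-1) := by
      rw [mul_neg, mul_one, dvd_neg, Int.natCast_dvd_natCast, ha, mul_left_comm (q ^ i),
        mul_left_comm (q ^ m), ← pow_add, ← pow_add]
      intro hd
      have h2 := (Nat.pow_dvd_pow_iff_le_right X.hq.one_lt).1
        (Nat.dvd_of_mul_dvd_mul_left (Nat.pos_of_ne_zero (NeZero.ne N')) hd)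
      omega
    rw [substHom_coeff_mul, substHom_coeff_of_not_dvd _ _ _ hnd] at e3
    refine mul_ne_zero (Units.ne_zero _) ?_ e3
    rw [coeffMap_coeff]
    exact (X.co.leadH.2.map X.inc).ne_zero

/-- The stabiliser of the last vertex. -/
theorem fix_top_iff {γ : SL(2, ℤ)} (hγ : γ ∈ CongruenceSubgroup.Gamma M0) :
    compg γ X.top = X.top ↔ (q : ℤ) ^ K ∣ γ 1 0 :=
  X.fix_vertex_iff le_rfl hγ

/-- The stabiliser of the first vertex. -/
theorem fix_bot_iff {γ : SL(2, ℤ)} (hγ : γ ∈ CongruenceSubgroup.Gamma M0) :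
    compg γ X.bot = X.bot ↔ (q : ℤ) ∣ γ 0 1 :=
  X.ctr.fix_rX0_iff hγ

theorem jd_mem {M' d : ℕ} [NeZero d] (hN : M' ∣ M0 * N') (hd : d ∣ q ^ (K + 1) * M') :
    jd q d ∈ trRing X.S X.lev := by
  refine mem_trRing.mpr fun σ => ?_
  obtain ⟨G, hG⟩ := exists_sPairs_jd_smul X.ζ X.hζ (M0 := q) X.hq
    (N' := M0 * N' * q ^ (K - 1)) X.lev_eq
    (hd.trans ((mul_dvd_mul_left _ hN).trans
      (dvd_of_eq (by rw [pow_succ, ← X.pow_pred]; ring)))) σ
  exact ⟨G, hG⟩

theorem ser_jd {M' d : ℕ} [NeZero d] (hN : M' ∣ M0 * N') (hd : d ∣ q ^ (K + 1) * M') :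
    ser ⟨jd q d, X.jd_mem hN hd⟩ = jAt (1 : X.Sˣ) (d * (M0 * N' * q ^ (K - 1))) :=
  sPairs_unique (ser_spec _) (sPairs_jd X.ζ X.hζ X.lev_eq d)

theorem stab_jd {M' d : ℕ} [NeZero d] (hN : M' ∣ M0 * N') (hd : d ∣ q ^ (K + 1) * M')
    (γ γ' : SL(2, ℤ)) (hγ : γ ∈ CongruenceSubgroup.Gamma M0)
    (hγ' : γ' ∈ CongruenceSubgroup.Gamma M0) (h : X.triple γ = X.triple γ') :
    compg γ (jd q d) = compg γ' (jd q d) := by
  simp only [triple, Prod.mk.injEq] at h
  obtain ⟨he, hb, ht⟩ := h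
  have key : ∀ f : ℍ → ℂ, compg γ f = compg γ' f → compg (γ' * γ⁻¹) f = f := fun f h => by
    rw [← compg_compg, ← h, compg_compg, mul_inv_cancel, compg_one]
  have hmem := mul_mem hγ' (inv_mem hγ)
  have h1 := X.ctr.dvd_of_fix_eta hmem (key _ he)
  have h2 := (X.fix_bot_iff hmem).1 (key _ hb)
  have h3 := (X.fix_top_iff hmem).1 (key _ ht)
  set δ := γ' * γ⁻¹
  have hfix : compg δ (jd q d) = jd q d := by
    funext τ
    refine jd_invariant' (dvd_mul_of_dvd_right h2 _) ?_ τ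
    have hcop : IsCoprime ((q : ℤ) ^ K) ((M' : ℕ) : ℤ) := by
      refine IsCoprime.pow_left ?_
      rw [Int.isCoprime_iff_nat_coprime]
      simpa using (X.hq.coprime_iff_not_dvd.2 fun h => X.hqm (h.trans hN))
    have h4 : (q : ℤ) ^ K * M' ∣ δ 1 0 :=
      hcop.mul_dvd h3 ((Int.natCast_dvd_natCast.2 hN).trans h1)
    refine (Int.natCast_dvd_natCast.2 hd).trans ?_
    push_cast
    rw [pow_succ', mul_assoc]
    exact mul_dvd_mul_left _ h4
  calc compg γ (jd q d) = compg γ (compg δ (jd q d)) := by rw [hfix]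
    _ = compg γ' (jd q d) := by rw [compg_compg, inv_mul_cancel_right]

include X in
/-- A translate fixing `j (τ / q)` fixes the first vertex. -/
theorem dvd01_of_fix {M' : ℕ} (hN : M' ∣ M0 * N') {δ : SL(2, ℤ)}
    (h : compg δ (jd q 1) = jd q 1) (hc : (q : ℤ) ∣ δ 1 0) : (q : ℤ) ∣ δ 0 1 :=
  X.ctr.dvd01_of_fix hN h hc

include X in
/-- A translate fixing `j (q ^ K τ)` fixes the last vertex. -/
theorem dvd10_of_fix {δ : SL(2, ℤ)} (hδ : δ ∈ CongruenceSubgroup.Gamma M0)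
    (h : compg δ (jd q (q ^ (K + 1))) = jd q (q ^ (K + 1))) : (q : ℤ) ^ K ∣ δ 1 0 := by
  obtain ⟨m, B, ε, hm, -, -, -, h10, -, -, he⟩ := X.exists_vertex hδ K
  rcases Nat.eq_or_lt_of_le hm with rfl | hlt
  · exact ⟨ε 1 0, by rw [mul_comm]; exact h10.symm⟩
  exfalso
  have hsq : jd q (q ^ (K + 1)) = fun τ => jFun (affPt (q ^ K) 0 1 τ) := by
    funext τ
    rw [jd]
    congr 1
    refine UpperHalfPlane.ext ?_
    rw [coe_affPt, coe_affPt]
    have hq : (q : ℂ) ≠ 0 := Nat.cast_ne_zero.mpr (NeZero.ne q)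
    push_cast
    field_simp
    ring
  haveI : NeZero (M0 * N' * q ^ m) :=
    ⟨mul_ne_zero (mul_ne_zero (NeZero.ne _) (NeZero.ne _)) (pow_ne_zero _ (NeZero.ne q))⟩
  haveI : NeZero (q ^ m * (M0 * N' * q ^ m)) :=
    ⟨mul_ne_zero (pow_ne_zero _ (NeZero.ne q)) (NeZero.ne _)⟩
  haveI : NeZero (q ^ (K + 1) * (M0 * N' * q ^ (K - 1))) :=
    ⟨by simp [NeZero.ne M0, NeZero.ne N', NeZero.ne q]⟩
  have hp : q ^ (K - m) * q ^ m = q ^ K := by rw [← pow_add, Nat.sub_add_cancel hm]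
  have h1 := sPairs_jFun_affPt X.ζ X.hζ (q ^ m) B (q ^ (K - m)) (M0 * N' * q ^ m)
    (by rw [← hp]; ring)
  have h2 := sPairs_jd X.ζ X.hζ (M0 := q) (N' := M0 * N' * q ^ (K - 1)) X.lev_eq (q ^ (K + 1))
  have hf : (fun τ => jFun (affPt (q ^ m) B (q ^ (K - m)) τ)) = jd q (q ^ (K + 1)) := by
    conv_rhs => rw [← h, hsq]
    funext τ
    rw [compg_apply, he, jFun_smul]
  rw [hf] at h1
  obtain ⟨hn, -⟩ := jAt_injective (NeZero.ne _) (NeZero.ne _) (sPairs_unique h1 h2)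
  rw [mul_left_comm (q ^ m), mul_left_comm (q ^ (K + 1)), ← pow_add, ← pow_add] at hn
  have h3 := Nat.pow_right_injective X.hq.two_le
    (Nat.eq_of_mul_eq_mul_left (Nat.pos_of_ne_zero (mul_ne_zero (NeZero.ne M0) (NeZero.ne N'))) hn)
  have := X.hK
  omega

end Ctx

end FLTAgent.CarayolK
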