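import Fermat.Agent.CarayolK.Frac
import Fermat.Agent.CarayolK.Invariant
import Fermat.Agent.Carayol.Normalise

/-!
# The fibres of the maps to level one lower
-/

set_option autoImplicit false
set_option linter.unusedSectionVars false
set_option linter.style.haveILetI false

noncomputable section

open UpperHalfPlane hiding I I_re I_im
open Filter Topology Complex Function FLTAgent.ModEq FLTAgent.GoodModel ModularCurve
open scoped MatrixGroups Manifold Classical

namespace FLTAgent.CarayolK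

open FLTAgent.Carayol (ser_injective trComp coordT mul_inv_apply10)

theorem mul_inv_apply01 (γ g : SL(2, ℤ)) :
    (γ * g⁻¹) 0 1 = γ 0 1 * g 0 0 - γ 0 0 * g 0 1 := by
  simp [Matrix.SpecialLinearGroup.coe_mul, Matrix.SpecialLinearGroup.coe_inv, Matrix.adjugate_fin_two,
    Matrix.mul_apply, Fin.sum_univ_two]
  ring

namespace Ctx

variable {q M0 N' K : ℕ} [NeZero M0] [NeZero N'] [NeZero q] [Fact q.Prime] (X : Ctx q M0 N' K)

theorem emb_eq_iff {l l' : X.Idx} (a : X.R) :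
    X.emb l a = X.emb l' a ↔ compg (X.rep l) (a : ℍ → ℂ) = compg (X.rep l') (a : ℍ → ℂ) := by
  rw [← X.ser_trEl, ← X.ser_trEl, ser_injective.eq_iff, Subtype.ext_iff]
  rfl

theorem coe_preR : (X.preR : ℍ → ℂ) = fun τ => coordT M0 (affPt (q ^ (K - 1)) 0 1 τ) := rfl

theorem coe_botR : (X.botR : ℍ → ℂ) = X.bot := rfl

theorem coe_topR : (X.topR : ℍ → ℂ) = X.top := rfl

theorem coe_etaR : (X.etaR : ℍ → ℂ) = X.ctr.eta := rfl

theorem mem_fib {b : Bool} {l l' : X.Idx} : l' ∈ X.fib b l ↔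
    X.emb l' X.etaR = X.emb l X.etaR ∧
    (b = false → X.emb l' X.topR = X.emb l X.topR) ∧
    (b = true → X.emb l' X.botR = X.emb l X.botR ∧ X.emb l' X.preR = X.emb l X.preR) := by
  simp [fib]

theorem prod_fib_perm {β : Type*} [CommMonoid β] (b : Bool) {γ : SL(2, ℤ)}
    (hγ : γ ∈ CongruenceSubgroup.Gamma M0) (l : X.Idx) (F : X.Idx → β) :
    ∏ l' ∈ X.fib b l, F (X.perm hγ l') = ∏ l' ∈ X.fib b (X.perm hγ l), F l' := by
  refine Finset.prod_equiv (X.perm hγ) (fun i => ?_) fun _ _ => rfl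
  rw [X.mem_fib, X.mem_fib, X.emb_perm_iff, X.emb_perm_iff, X.emb_perm_iff, X.emb_perm_iff]

/-- Fibrewise products are quotients of two elements. -/
theorem exists_fib_frac (hF : X.FixedPart) (b : Bool) (x : X.R) :
    ∃ a d : X.R, d ≠ 0 ∧ ∀ l, X.emb l d * ∏ l' ∈ X.fib b l, X.emb l' x = X.emb l a := by
  set φ := ∏ l' ∈ X.fib b X.one', X.trEl l' x with hφ
  have hcomp : ∀ (γ : SL(2, ℤ)) (hγ : γ ∈ CongruenceSubgroup.Gamma M0),
      trComp γ φ = ∏ l' ∈ X.fib b (X.idx hγ), X.trEl l' x := by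
    intro γ hγ
    rw [hφ, map_prod, Finset.prod_congr rfl fun l' _ => X.trEl_perm hγ l' x,
      X.prod_fib_perm b hγ X.one' fun l' => X.trEl l' x, X.perm_one' hγ]
  have hrep : ∀ l, trComp (X.rep l) φ = ∏ l' ∈ X.fib b l, X.trEl l' x := fun l => by
    rw [hcomp _ (X.rep_mem l), ← X.perm_one' (X.rep_mem l), X.perm_rep_one']
  have hstab : X.Stab (φ : ℍ → ℂ) := fun γ γ' h h' e => by
    have : trComp γ φ = trComp γ' φ := by
      rw [hcomp γ h, hcomp γ' h', (X.idx_eq_iff h h').2 e]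
    exact congrArg Subtype.val this
  obtain ⟨a, d, hd, had⟩ := X.exists_frac hF φ hstab fun z k => by
    refine hF _ fun σ hσ => ?_
    obtain ⟨e, he⟩ := X.exists_galois_perm hF hσ
    have hs : ser (∑ l, trComp (X.rep l) (φ * Subring.inclusion X.R_le z)) =
        ∑ l, (∏ l' ∈ X.fib b l, X.emb l' x) * X.emb l z := by
      rw [map_sum]
      refine Finset.sum_congr rfl fun l _ => ?_
      rw [map_mul, hrep, map_mul, map_prod]
      rfl
    have hfix : coeffMap σ.toRingHom (∑ l, (∏ l' ∈ X.fib b l, X.emb l' x) * X.emb l z) =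
        ∑ l, (∏ l' ∈ X.fib b l, X.emb l' x) * X.emb l z := by
      rw [map_sum]
      refine Fintype.sum_equiv e _ _ fun l => ?_
      rw [map_mul, map_prod, he]
      congr 1
      refine Finset.prod_equiv e (fun i => ?_) fun i _ => he i x
      rw [X.mem_fib, X.mem_fib]
      simp only [← he]
      simp only [(coeffMap_injective σ.toRingHom σ.injective).eq_iff]
    rw [hs]
    have h1 := congrArg (fun z : LaurentSeries X.S => z.coeff k) hfix
    simp only [coeffMap_coeff] at h1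
    exact h1
  refine ⟨a, d, hd, fun l => ?_⟩
  have h := congrArg (fun z => ser (trComp (X.rep l) z)) had
  simp only [map_mul, hrep, map_prod] at h
  exact h

/-- An integral quotient lies in every normal ring over the cover. -/
theorem exists_of_intU {L : Type*} [CommRing L] [IsDomain L] [IsIntegrallyClosed L] (φ : X.R →+* L)
    (hφ : Injective φ) (hF : X.FixedPart) (b : Bool) (x : X.R) :
    ∃ a d : X.R, ∃ z : L, d ≠ 0 ∧ φ d * z = φ a ∧
      ∀ l, X.emb l d * ∏ l' ∈ X.fib b l, X.emb l' x = X.emb l a := by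
  obtain ⟨a, d, hd, had⟩ := X.exists_fib_frac hF b x
  obtain ⟨p, hp, hp0⟩ := X.intU_prod (X.fib b X.one') (fun l' => X.emb l' x)
    fun i _ => X.intU_emb hF i x
  have had1 := had X.one'
  rw [X.emb_one', X.emb_one'] at had1
  have heq : (Polynomial.scaleRoots (p.map X.U.subtype) d).eval a = 0 := by
    refine X.embAt_injective 1 ?_
    rw [map_zero, ← Polynomial.eval₂_at_apply, ← had1]
    exact Polynomial.scaleRoots_eval₂_eq_zero (X.embAt 1) (by rw [Polynomial.eval₂_map]; exact hp0)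
  set F := FractionRing L
  set ψ : X.R →+* F := (algebraMap L F).comp φ with hψ
  have hd' : ψ d ≠ 0 := fun h => hd (hφ (IsFractionRing.injective L F (h.trans ((map_zero ψ).symm.trans rfl))))
  have hint : IsIntegral L (ψ a / ψ d) := by
    refine ⟨(p.map X.U.subtype).map φ, (hp.map _).map _, ?_⟩
    rw [Polynomial.eval₂_map, ← hψ]
    have h2 := congrArg ψ heq
    rw [map_zero, ← Polynomial.eval₂_at_apply,
      show ψ a = ψ d * (ψ a / ψ d) from (mul_div_cancel₀ _ hd').symm, Polynomial.scaleRoots_eval₂_mul] at h2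
    exact (mul_eq_zero.1 h2).resolve_left (pow_ne_zero _ hd')
  obtain ⟨z, hz⟩ := IsIntegrallyClosed.isIntegral_iff.1 hint
  refine ⟨a, d, z, hd, IsFractionRing.injective L F ?_, had⟩
  rw [map_mul, hz]
  exact mul_div_cancel₀ _ hd'

variable {X}

theorem emb_cW (l : X.Idx) (w : X.W) : X.emb l (X.cW w) = HahnSeries.C (X.inc w) := X.embAt_cW _ w

theorem emb_ne {l : X.Idx} {a : X.R} (ha : a ≠ 0) : X.emb l a ≠ 0 := fun h =>
  ha (X.embAt_injective (X.rep l) (h.trans (map_zero _).symm))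

theorem inc_ne {w : X.W} (h : w ≠ 0) : X.inc w ≠ 0 :=
  (map_ne_zero_iff _ (Subring.inclusion_injective X.hWS)).2 h

theorem cW_ne {w : X.W} (h : w ≠ 0) : X.cW w ≠ 0 := fun h0 => by
  refine (HahnSeries.C_ne_zero (inc_ne h) : (HahnSeries.C (X.inc w) : LaurentSeries X.S) ≠ 0) ?_
  rw [← emb_cW X.one', h0, map_zero]

variable (X)

theorem compg_of_emb_one' {l : X.Idx} {a : X.R} (h : X.emb l a = X.emb X.one' a) :
    compg (X.rep l) (a : ℍ → ℂ) = a :=
  ((X.emb_eq_iff a).1 h).trans ((X.compg_rep_idx (one_mem _) a).trans (compg_one _))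

/-- The congruences on the fibre through the identical embedding. -/
theorem fix_of_mem_fib {b : Bool} {l : X.Idx} (h : l ∈ X.fib b X.one') :
    ((M0 * N' : ℕ) : ℤ) ∣ X.rep l 1 0 ∧ (b = false → (q : ℤ) ^ K ∣ X.rep l 1 0) ∧
      (b = true → (q : ℤ) ∣ X.rep l 0 1 ∧ (q : ℤ) ^ (K - 1) ∣ X.rep l 1 0) := by
  obtain ⟨he, ht, hb⟩ := X.mem_fib.1 h
  refine ⟨X.ctr.dvd_of_fix_eta (X.rep_mem l) (X.compg_of_emb_one' he),
    fun hb0 => (X.fix_top_iff (X.rep_mem l)).1 (X.compg_of_emb_one' (ht hb0)),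
    fun hb1 => ⟨(X.fix_bot_iff (X.rep_mem l)).1 (X.compg_of_emb_one' (hb hb1).1),
      (X.fix_vertex_iff (Nat.sub_le K 1) (X.rep_mem l)).1 (X.compg_of_emb_one' (hb hb1).2)⟩⟩

theorem idx_mem_fib {b : Bool} {γ : SL(2, ℤ)} (hm : γ ∈ CongruenceSubgroup.Gamma (M0 * N'))
    (h0 : b = false → (q : ℤ) ^ K ∣ γ 1 0)
    (h1 : b = true → (q : ℤ) ∣ γ 0 1 ∧ (q : ℤ) ^ (K - 1) ∣ γ 1 0) :
    X.idx (Carayol.Ctx.mem_M0_of_mem_m hm) ∈ X.fib b X.one' := by
  have hγ := Carayol.Ctx.mem_M0_of_mem_m hm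
  have key : ∀ a : X.R, compg γ (a : ℍ → ℂ) = a → X.emb (X.idx hγ) a = X.emb X.one' a := fun a ha => by
    rw [X.emb_eq_iff, X.compg_rep_idx hγ a, ha]
    exact ((X.compg_rep_idx (one_mem _) a).trans (compg_one _)).symm
  exact X.mem_fib.2 ⟨key _ (X.ctr.eta_fix hm), fun hb => key _ ((X.fix_top_iff hγ).2 (h0 hb)),
    fun hb => ⟨key _ ((X.fix_bot_iff hγ).2 (h1 hb).1),
      key _ ((X.fix_vertex_iff (Nat.sub_le K 1) hγ).2 (h1 hb).2)⟩⟩

theorem le_card_fib_one' (b : Bool) : q ≤ (X.fib b X.one').card := by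
  have hp : Prime (q : ℤ) := Nat.prime_iff_prime_int.1 X.hq
  set m : ℤ := ((M0 * N' : ℕ) : ℤ) with hm
  have hmq : ¬ (q : ℤ) ∣ m := fun h => X.hqm (Int.natCast_dvd_natCast.1 h)
  have hK1 : (q : ℤ) ^ (K - 1) * q = (q : ℤ) ^ K := by rw [mul_comm]; exact_mod_cast X.pow_pred
  have hfin : ∀ t t' : Fin q, (q : ℤ) ∣ m * ((t : ℕ) - (t' : ℕ) : ℤ) → t = t' := fun t t' h => by
    have h2 := (hp.dvd_or_dvd h).resolve_left hmq
    have := t.2; have := t'.2
    have h3 := Int.eq_zero_of_abs_lt_dvd h2 (by rw [abs_lt]; omega)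
    exact Fin.ext (by omega)
  cases b
  · set g : Fin q → SL(2, ℤ) := fun t => ⟨!![1, m * (t : ℕ); 0, 1], by rw [Matrix.det_fin_two_of]; ring⟩
    have hg : ∀ t, g t ∈ CongruenceSubgroup.Gamma (M0 * N') := fun t => by
      rw [CongruenceSubgroup.Gamma_mem]
      exact ⟨by simp [g], (ZMod.intCast_zmod_eq_zero_iff_dvd _ _).2 (by simp [g, hm]), by simp [g], by simp [g]⟩
    have hmem : ∀ t, X.idx (Carayol.Ctx.mem_M0_of_mem_m (hg t)) ∈ X.fib false X.one' := fun t =>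
      X.idx_mem_fib (hg t) (fun _ => by simp [g]) (fun h => by simp at h)
    refine le_trans (le_of_eq ?_) (Finset.card_le_card_of_injOn (s := (Finset.univ : Finset (Fin q)))
      (fun t => X.idx (Carayol.Ctx.mem_M0_of_mem_m (hg t))) (fun t _ => hmem t) fun t _ t' _ h => ?_)
    · simp
    have h2 := ((X.idx_eq_iff _ _).1 h)
    simp only [triple, Prod.mk.injEq] at h2
    have h3 : compg (g t * (g t')⁻¹) X.bot = X.bot := by
      rw [← compg_compg, h2.2.1, compg_compg, mul_inv_cancel, compg_one]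
    have h4 := (X.fix_bot_iff (Carayol.Ctx.mem_M0_of_mem_m (mul_mem (hg t) (inv_mem (hg t'))))).1 h3
    refine hfin t t' ?_
    have e : (g t * (g t')⁻¹) 0 1 = m * ((t : ℕ) - (t' : ℕ) : ℤ) := by
      rw [mul_inv_apply01]; simp [g]; ring
    rwa [e] at h4
  · set g : Fin q → SL(2, ℤ) := fun t =>
      ⟨!![1, 0; m * (q : ℤ) ^ (K - 1) * (t : ℕ), 1], by rw [Matrix.det_fin_two_of]; ring⟩
    have hg : ∀ t, g t ∈ CongruenceSubgroup.Gamma (M0 * N') := fun t => by
      rw [CongruenceSubgroup.Gamma_mem]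
      exact ⟨by simp [g], by simp [g], (ZMod.intCast_zmod_eq_zero_iff_dvd _ _).2
        (Dvd.intro ((q : ℤ) ^ (K - 1) * (t : ℕ)) (by simp [g, hm]; ring)), by simp [g]⟩
    have hmem : ∀ t, X.idx (Carayol.Ctx.mem_M0_of_mem_m (hg t)) ∈ X.fib true X.one' := fun t =>
      X.idx_mem_fib (hg t) (fun h => by simp at h) fun _ => ⟨by simp [g], by
        simp only [g, Matrix.of_apply, Matrix.cons_val', Matrix.cons_val_zero,
          Matrix.cons_val_one, Matrix.empty_val', Matrix.cons_val_fin_one]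
        exact dvd_mul_of_dvd_left (dvd_mul_left _ _) _⟩
    refine le_trans (le_of_eq ?_) (Finset.card_le_card_of_injOn (s := (Finset.univ : Finset (Fin q)))
      (fun t => X.idx (Carayol.Ctx.mem_M0_of_mem_m (hg t))) (fun t _ => hmem t) fun t _ t' _ h => ?_)
    · simp
    have h2 := ((X.idx_eq_iff _ _).1 h)
    simp only [triple, Prod.mk.injEq] at h2
    have h3 : compg (g t * (g t')⁻¹) X.top = X.top := by
      rw [← compg_compg, h2.2.2, compg_compg, mul_inv_cancel, compg_one]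
    have h4 := (X.fix_top_iff (Carayol.Ctx.mem_M0_of_mem_m (mul_mem (hg t) (inv_mem (hg t'))))).1 h3
    refine hfin t t' ((mul_dvd_mul_iff_left (pow_ne_zero (K - 1) hp.ne_zero)).1 ?_)
    rw [hK1]
    have e : (g t * (g t')⁻¹) 1 0 = (q : ℤ) ^ (K - 1) * (m * ((t : ℕ) - (t' : ℕ) : ℤ)) := by
      rw [mul_inv_apply10]; simp [g]; ring
    rwa [e] at h4

theorem card_fib_one'_le (b : Bool) : (X.fib b X.one').card ≤ q := by
  have hK1 : (q : ℤ) ^ (K - 1) * q = (q : ℤ) ^ K := by rw [mul_comm]; exact_mod_cast X.pow_pred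
  set f : X.Idx → ZMod q := fun l => if b then
      ((X.rep l 1 0 / (q : ℤ) ^ (K - 1) * X.rep l 0 0 : ℤ) : ZMod q)
    else ((X.rep l 0 1 * X.rep l 1 1 : ℤ) : ZMod q) with hf
  refine (Finset.card_le_card_of_injOn f (fun _ _ => Finset.mem_univ _) fun l hl l' hl' h => ?_).trans
    (le_of_eq (by simp [ZMod.card]))
  obtain ⟨-, h0, h1⟩ := X.fix_of_mem_fib hl
  obtain ⟨-, h0', h1'⟩ := X.fix_of_mem_fib hl'
  obtain ⟨he, ht, hb⟩ := X.mem_fib.1 hl
  obtain ⟨he', ht', hb'⟩ := X.mem_fib.1 hl'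
  have hmem := mul_mem (X.rep_mem l') (inv_mem (X.rep_mem l))
  have key : ∀ a : X.R, X.emb l a = X.emb X.one' a → X.emb l' a = X.emb X.one' a →
      compg (X.rep l) (a : ℍ → ℂ) = compg (X.rep l') (a : ℍ → ℂ) := fun a ha ha' =>
    (X.emb_eq_iff a).1 (ha.trans ha'.symm)
  have key' : ∀ φ : ℍ → ℂ, compg (X.rep l' * (X.rep l)⁻¹) φ = φ →
      compg (X.rep l) φ = compg (X.rep l') φ := fun φ hφ => by
    conv_lhs => rw [← hφ]
    rw [compg_compg, inv_mul_cancel_right]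
  refine Subtype.ext ?_
  rw [← X.triple_rep, ← X.triple_rep]
  simp only [triple, Prod.mk.injEq]
  have hdet : ∀ l : X.Idx, ((X.rep l 0 0 : ℤ) : ZMod q) * (X.rep l 1 1 : ℤ) -
      ((X.rep l 0 1 : ℤ) : ZMod q) * (X.rep l 1 0 : ℤ) = 1 := fun l => by
    have := congrArg (fun z : ℤ => (z : ZMod q)) (det_eq (X.rep l))
    push_cast at this
    exact this
  have e1 := hdet l
  have e1' := hdet l'
  cases b
  · refine ⟨key _ he he', key' _ ((X.fix_bot_iff hmem).2 ?_), key _ (ht rfl) (ht' rfl)⟩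
    have hc : ((X.rep l 1 0 : ℤ) : ZMod q) = 0 := (ZMod.intCast_zmod_eq_zero_iff_dvd _ _).2
      ((dvd_pow_self _ (by have := X.hK; omega)).trans (h0 rfl))
    have hc' : ((X.rep l' 1 0 : ℤ) : ZMod q) = 0 := (ZMod.intCast_zmod_eq_zero_iff_dvd _ _).2
      ((dvd_pow_self _ (by have := X.hK; omega)).trans (h0' rfl))
    simp only [hf, Bool.false_eq_true, if_false, Int.cast_mul] at h
    rw [hc, mul_zero, sub_zero] at e1
    rw [hc', mul_zero, sub_zero] at e1'
    rw [← ZMod.intCast_zmod_eq_zero_iff_dvd, mul_inv_apply01]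
    push_cast
    linear_combination ((X.rep l' 0 0 : ℤ) : ZMod q) * (X.rep l 0 1 : ℤ) * e1 -
      ((X.rep l 0 0 : ℤ) : ZMod q) * (X.rep l' 0 1 : ℤ) * e1' -
      ((X.rep l 0 0 : ℤ) : ZMod q) * (X.rep l' 0 0 : ℤ) * h
  · refine ⟨key _ he he', key _ (hb rfl).1 (hb' rfl).1, key' _ ((X.fix_top_iff hmem).2 ?_)⟩
    obtain ⟨hbq, s, hs⟩ := h1 rfl
    obtain ⟨hbq', s', hs'⟩ := h1' rfl
    have hq0 : (q : ℤ) ^ (K - 1) ≠ 0 := pow_ne_zero _ (by exact_mod_cast NeZero.ne q)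
    simp only [hf, if_true, hs, hs', Int.mul_ediv_cancel_left _ hq0, Int.cast_mul] at h
    rw [mul_inv_apply10, hs, hs', ← hK1,
      show (q : ℤ) ^ (K - 1) * s' * X.rep l 1 1 - X.rep l' 1 1 * ((q : ℤ) ^ (K - 1) * s) =
        (q : ℤ) ^ (K - 1) * (s' * X.rep l 1 1 - X.rep l' 1 1 * s) by ring]
    refine mul_dvd_mul_left _ ?_
    rw [← ZMod.intCast_zmod_eq_zero_iff_dvd]
    rw [(ZMod.intCast_zmod_eq_zero_iff_dvd _ _).2 hbq, zero_mul, sub_zero] at e1
    rw [(ZMod.intCast_zmod_eq_zero_iff_dvd _ _).2 hbq', zero_mul, sub_zero] at e1'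
    push_cast
    linear_combination ((X.rep l' 1 1 : ℤ) : ZMod q) * (s : ZMod q) * e1 -
      ((X.rep l 1 1 : ℤ) : ZMod q) * (s' : ZMod q) * e1' -
      ((X.rep l 1 1 : ℤ) : ZMod q) * (X.rep l' 1 1 : ℤ) * h

/-- The fibres have `q` elements. -/
theorem card_fib (b : Bool) (l : X.Idx) : (X.fib b l).card = q := by
  have h := X.prod_fib_perm b (X.rep_mem l) X.one' fun _ => Multiplicative.ofAdd (1 : ℕ)
  have h2 := congrArg Multiplicative.toAdd h
  simp only [Finset.prod_const, toAdd_pow, toAdd_ofAdd, smul_eq_mul, mul_one, X.perm_rep_one'] at h2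
  rw [← h2]
  exact le_antisymm (X.card_fib_one'_le b) (X.le_card_fib_one' b)

end Ctx

end FLTAgent.CarayolK
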