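import Fermat.Agent.CarayolK.Branch

/-!
# Reductions of the translates

On a branch of kind `a` the triple at the vertex `i` reduces to the branch `tkind i a` of the cover of
level `q`, in a power of the parameter.
-/

set_option autoImplicit false
set_option linter.unusedSectionVars false
set_option linter.style.haveILetI false

noncomputable section

open UpperHalfPlane hiding I I_re I_im
open Filter Topology Complex Function FLTAgent.ModEq FLTAgent.GoodModel ModularCurve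
open scoped MatrixGroups Manifold Classical

namespace FLTAgent.CarayolK

open FLTAgent.Carayol (coordT trComp sPairs_comp_affPt)

variable {q M0 N' K : ℕ} [NeZero M0] [NeZero N'] [NeZero q] [Fact q.Prime]

theorem roots_none {N₁ : ℕ} [NeZero N₁] (C : Carayol.Ctx q M0 N₁) {δ : SL(2, ℤ)}
    (hδ : δ ∈ CongruenceSubgroup.Gamma M0) :
    ∃ r s, compg δ C.sX = C.rX r ∧ compg δ (C.rX (some 0)) = C.rX s ∧
      (r = none ↔ (q : ℤ) ∣ δ 1 0) ∧ (s = none ↔ (q : ℤ) ∣ δ 0 0) := by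
  have crit : ∀ {ε : SL(2, ℤ)}, ε ∈ CongruenceSubgroup.Gamma M0 → ∀ {r}, compg ε C.sX = C.rX r →
      (r = none ↔ (q : ℤ) ∣ ε 1 0) := by
    intro ε hε r hr
    constructor
    · rintro rfl
      exact C.dvd_of_fix_sX hε (hr.trans (by simp [Carayol.Ctx.rX, Carayol.Ctx.gr, compg_one]))
    · intro h
      refine C.rX_injective (hr.symm.trans ?_)
      rw [(C.side_fix hε h).1]
      simp [Carayol.Ctx.rX, Carayol.Ctx.gr, compg_one]
  obtain ⟨r, hr, -⟩ := C.exists_root hδ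
  obtain ⟨s, hs, -⟩ := C.exists_root (mul_mem (C.gr_mem0 (some 0)) hδ)
  refine ⟨r, s, hr, by rw [Carayol.Ctx.rX, compg_compg]; exact hs, crit hδ hr,
    (crit (mul_mem (C.gr_mem0 (some 0)) hδ) hs).trans ?_⟩
  have hm := C.ne_zero_mod.1
  set kk := Carayol.Ctx.idxK q M0 N₁ 0 with hkk
  have e : (C.gr (some 0) * δ) 1 0 = ((M0 * N₁ : ℕ) : ℤ) * δ 0 0 +
      (1 + ((M0 * N₁ : ℕ) : ℤ) * (((M0 * N₁ : ℕ) : ℤ) * kk)) * δ 1 0 := by
    have e0 : (C.gr (some 0) : Matrix (Fin 2) (Fin 2) ℤ) =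
        !![1, ((M0 * N₁ : ℕ) : ℤ) * kk; ((M0 * N₁ : ℕ) : ℤ),
          1 + ((M0 * N₁ : ℕ) : ℤ) * (((M0 * N₁ : ℕ) : ℤ) * kk)] := rfl
    rw [Matrix.SpecialLinearGroup.coe_mul, e0, Matrix.mul_apply, Fin.sum_univ_two]
    simp
  have hk : (q : ℤ) ∣ 1 + ((M0 * N₁ : ℕ) : ℤ) * (((M0 * N₁ : ℕ) : ℤ) * kk) := by
    rw [← ZMod.intCast_zmod_eq_zero_iff_dvd, hkk, Carayol.Ctx.idxK]
    push_cast
    push_cast at hm
    rw [ZMod.natCast_zmod_val, mul_zero, zero_sub]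
    obtain ⟨hM0', hN'⟩ := mul_ne_zero_iff.1 hm
    field_simp
    ring
  rw [e, dvd_add_left (dvd_mul_of_dvd_left hk _)]
  have hp : Prime (q : ℤ) := Int.prime_iff_natAbs_prime.2 (by simpa using C.hq)
  refine ⟨fun h => (hp.dvd_or_dvd h).resolve_left fun h' => C.hqm ?_, fun h => dvd_mul_of_dvd_right h _⟩
  exact Int.natCast_dvd_natCast.1 h'

theorem ser_refine_eq {S : Subring ℂ} {n n' k : ℕ} [NeZero n] [NeZero n'] [NeZero k] (hl : n * k = n')
    (F : trRing S n') {G : trRing S n} (h : (F : ℍ → ℂ) = (G : ℍ → ℂ)) :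
    ser F = qExpand S k (ser G) := by
  refine sPairs_unique (ser_spec F) ?_
  rw [h]
  exact sPairs_refine hl (ser_spec G)

theorem coe_trComp_incl {S : Subring ℂ} {n : ℕ} {R : Subring (ℍ → ℂ)} (γ : SL(2, ℤ))
    (h : R ≤ trRing S n) (x : R) :
    ((trComp γ (Subring.inclusion h x) : trRing S n) : ℍ → ℂ) = compg γ (x : ℍ → ℂ) := rfl

theorem coe_incl {R R' : Subring (ℍ → ℂ)} (h : R ≤ R') (x : R) :
    ((Subring.inclusion h x : R') : ℍ → ℂ) = x := rfl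

namespace Res

variable {X : Ctx q M0 N' K} {k : Type} [Field k] (Ω : Res X k)

include Ω in
theorem charK : CharP k q := Ω.ctr.charK

theorem φ_root {z : X.S} {t : ℕ} (h : z ^ (q ^ t) = 1) : Ω.φ z = 1 := by
  haveI := Ω.charK
  refine sub_eq_zero.1 (eq_zero_of_pow_eq_zero (n := q ^ t) ?_)
  rw [sub_pow_char_pow, one_pow, ← map_pow, h, map_one, sub_self]

theorem φ_zeta {x : ℤ} (h : ((M0 * N' : ℕ) : ℤ) ∣ x) :
    Units.map Ω.φ.toMonoidHom (X.ζ ^ x) = 1 := by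
  obtain ⟨t, rfl⟩ := h
  rw [zpow_mul, zpow_natCast, map_zpow]
  have h1 : Units.map Ω.φ.toMonoidHom (X.ζ ^ (M0 * N')) = 1 := Units.ext (by
    show Ω.φ (((X.ζ ^ (M0 * N') : X.Sˣ)) : X.S) = 1
    refine Ω.φ_root (t := K) (Subtype.ext ?_)
    rw [Units.val_pow_eq_pow_val, ← pow_mul, SubmonoidClass.coe_pow, X.hζ,
      ← Units.val_pow_eq_pow_val,
      show M0 * N' * q ^ K = M0 * (N' * q ^ K) by ring,
      (zetaN_primitive (N := M0 * (N' * q ^ K))).pow_eq_one]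
    rfl)
  rw [h1, one_zpow]

theorem embAt_ofCtr (γ : SL(2, ℤ)) (f : X.ctr.R) :
    X.embAt γ (X.ofCtr f) = qExpand X.S (q ^ (K - 1)) (X.ctr.embAt γ f) :=
  ser_refine_eq (S := X.S) (n := M0 * (N' * q)) (k := q ^ (K - 1))
    (by rw [Ctx.lev, ← X.pow_pred]; ring) (trComp γ (Subring.inclusion X.R_le (X.ofCtr f)))
    (G := trComp γ (Subring.inclusion X.ctr.R_le f))
    ((coe_trComp_incl γ _ _).trans ((congrArg (compg γ) (coe_incl _ f)).trans
      (coe_trComp_incl γ _ _).symm))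

theorem red_eq_qExpand_ctr (γ : SL(2, ℤ)) (f : X.ctr.R) :
    Ω.red γ (X.ofCtr f) = qExpand k (q ^ (K - 1)) (Ω.ctr.red γ f) :=
  (congrArg Ω.rd (embAt_ofCtr γ f)).trans (coeffMap_qExpand _ _ _)

/-- Translates of the cover shifted to a vertex. -/
theorem exists_shf_transport {γ : SL(2, ℤ)} (hγ : γ ∈ CongruenceSubgroup.Gamma M0) (i : Fin K) :
    ∃ (δ : SL(2, ℤ)) (r s : Option (ZMod q)), δ ∈ CongruenceSubgroup.Gamma M0 ∧
      compg δ X.shf.sX = X.shf.rX r ∧ compg δ (X.shf.rX (some 0)) = X.shf.rX s ∧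
      (r = none ↔ X.tkind i (X.kindAt γ) = 0) ∧ (s = none ↔ X.tkind i (X.kindAt γ) = 2) ∧
      ∀ f : X.shf.R, Ω.red γ (X.ofShf i f) =
        qExpand k (N' * X.texp i (X.kindAt γ)) (Ω.shf.red δ f) := by
  obtain ⟨m, B, δ0, hm, hmax, hPm, hB, h10, h00, -, he⟩ := X.exists_vertex hγ (i : ℕ)
  have hp : Prime (q : ℤ) := Int.prime_iff_natAbs_prime.2 (by simpa using X.hq)
  have hqm : ¬ (q : ℤ) ∣ γ 1 0 ∨ ¬ (q : ℤ) ∣ γ 0 0 := by
    by_contra h
    push Not at h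
    have h1 := dvd_sub (dvd_mul_of_dvd_left h.2 (γ 1 1)) (dvd_mul_of_dvd_right h.1 (γ 0 1))
    rw [det_eq γ] at h1
    exact hp.not_isUnit (isUnit_of_dvd_one h1)
  -- the exponent of the shifted translate
  have hlv : m = min (i : ℕ) (X.lvl γ) := by
    have hspec : (q : ℤ) ^ X.lvl γ ∣ γ 1 0 :=
      Nat.findGreatest_spec (P := fun m => (q : ℤ) ^ m ∣ γ 1 0) (Nat.zero_le K) (by simp)
    have h1 : m ≤ X.lvl γ := Nat.le_findGreatest (by omega) (h10 ▸ dvd_mul_left _ _)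
    refine le_antisymm (le_min hm h1) (not_lt.1 fun hlt => ?_)
    obtain ⟨h2, h3⟩ := lt_min_iff.1 hlt
    exact hmax h2 ((pow_dvd_pow _ h3).trans hspec)
  have hkv : (X.kindAt γ : ℕ) - 1 = if (q : ℤ) ∣ γ 0 0 then 0 else X.lvl γ := by
    rw [Ctx.kindAt]; split_ifs <;> simp
  have hl0 : (q : ℤ) ∣ γ 0 0 → X.lvl γ = 0 := fun h => by
    refine Nat.findGreatest_eq_zero_iff.2 fun n hn _ hd => ?_
    exact (hqm.resolve_right (not_not.2 h)) ((dvd_pow_self _ (by omega)).trans hd)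
  have hmin : min (i : ℕ) ((X.kindAt γ : ℕ) - 1) = m := by
    rw [hkv]
    split_ifs with h
    · rw [hlv, hl0 h]
    · exact hlv.symm
  -- divisibility in the shifted translate
  have hi := i.2
  have hd10 : (q : ℤ) ∣ δ0 1 0 ↔ X.tkind i (X.kindAt γ) = 0 := by
    have ht : X.tkind i (X.kindAt γ) = 0 ↔ (i : ℕ) + 1 < (X.kindAt γ : ℕ) := by
      rw [Ctx.tkind]; split_ifs <;> simp_all
    rw [ht]
    constructor
    · intro hd
      have hd' : (q : ℤ) ^ (m + 1) ∣ γ 1 0 := by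
        rw [← h10, pow_succ, mul_comm (δ0 1 0)]; exact mul_dvd_mul_left _ hd
      have hmi : m = (i : ℕ) := le_antisymm hm (not_lt.1 fun h => hmax h hd')
      have h1 : m + 1 ≤ X.lvl γ := Nat.le_findGreatest (by omega) hd'
      by_cases h : (q : ℤ) ∣ γ 0 0
      · have := hl0 h; omega
      · rw [if_neg h] at hkv; omega
    · intro hlt
      have hmi : m = (i : ℕ) := by omega
      have h1 : (q : ℤ) ^ (m + 1) ∣ γ 1 0 := by
        refine (pow_dvd_pow _ ?_).trans (Nat.findGreatest_spec (P := fun m => (q : ℤ) ^ m ∣ γ 1 0)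
          (Nat.zero_le K) (by simp))
        show m + 1 ≤ X.lvl γ
        split_ifs at hkv <;> omega
      rw [← h10, pow_succ, mul_comm (δ0 1 0)] at h1
      exact (mul_dvd_mul_iff_left (pow_ne_zero m hp.ne_zero)).1 h1
  have hd00 : (q : ℤ) ∣ δ0 0 0 ↔ X.tkind i (X.kindAt γ) = 2 := by
    have ht : X.tkind i (X.kindAt γ) = 2 ↔ (X.kindAt γ : ℕ) < (i : ℕ) + 1 := by
      rw [Ctx.tkind]; split_ifs <;> simp_all <;> omega
    rw [ht, h00]
    by_cases h : (q : ℤ) ∣ γ 0 0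
    · refine iff_of_true (dvd_mul_of_dvd_right h _) ?_
      have : (X.kindAt γ : ℕ) = 0 := by rw [Ctx.kindAt, if_pos h]; rfl
      omega
    · have hk1 : (X.kindAt γ : ℕ) = X.lvl γ + 1 := by rw [Ctx.kindAt, if_neg h]
      constructor
      · intro hd
        have : (i : ℕ) - m ≠ 0 := fun h0 => by
          rw [h0, pow_zero, one_mul] at hd; exact h hd
        omega
      · intro hlt
        exact dvd_mul_of_dvd_left (dvd_pow_self _ (by omega)) _
  -- choose the sign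
  obtain ⟨δ, hδ, hsmul, hs10, hs00⟩ : ∃ δ ∈ CongruenceSubgroup.Gamma M0,
      (∀ τ : ℍ, δ0 • τ = δ • τ) ∧ ((q : ℤ) ∣ δ 1 0 ↔ (q : ℤ) ∣ δ0 1 0) ∧
      ((q : ℤ) ∣ δ 0 0 ↔ (q : ℤ) ∣ δ0 0 0) := by
    rcases hPm with h | h
    · exact ⟨δ0, h, fun _ => rfl, Iff.rfl, Iff.rfl⟩
    · exact ⟨-δ0, h, fun τ => (ModularGroup.SL_neg_smul δ0 τ).symm, by simp, by simp⟩
  obtain ⟨r, s, hr, hs, hrn, hsn⟩ := roots_none X.shf hδ
  refine ⟨δ, r, s, hδ, hr, hs, hrn.trans (hs10.trans hd10), hsn.trans (hs00.trans hd00), fun f => ?_⟩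
  set kk : ℕ := N' * q ^ (K - 1 - ((i : ℕ) - m)) with hkk
  haveI : NeZero (q ^ m * kk) :=
    ⟨mul_ne_zero (pow_ne_zero _ (NeZero.ne q)) (mul_ne_zero (NeZero.ne N') (pow_ne_zero _ (NeZero.ne q)))⟩
  haveI : NeZero kk := ⟨mul_ne_zero (NeZero.ne N') (pow_ne_zero _ (NeZero.ne q))⟩
  have hlev : q ^ ((i : ℕ) - m) * (M0 * (1 * q)) * kk = M0 * (N' * q ^ K) := by
    have h2 : q ^ ((i : ℕ) - m) * q ^ (K - 1 - ((i : ℕ) - m)) = q ^ (K - 1) := by
      rw [← pow_add]; congr 1; omega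
    rw [hkk, ← X.pow_pred, ← h2]; ring
  have hG := ser_spec (S := X.S) (n := M0 * (1 * q)) (trComp δ (Subring.inclusion X.shf.R_le f))
  set G : LaurentSeries X.S := ser (S := X.S) (n := M0 * (1 * q))
    (trComp δ (Subring.inclusion X.shf.R_le f))
  have h1 := sPairs_comp_affPt X.ζ X.hζ (q ^ m) B (q ^ ((i : ℕ) - m)) (M0 * (1 * q)) kk hlev hG
  have hemb : X.embAt γ (X.ofShf i f) = substHom (X.ζ ^ ((kk : ℤ) * B)) (q ^ m * kk) G := by
    refine sPairs_unique (ser_spec (trComp γ (Subring.inclusion X.R_le (X.ofShf i f)))) ?_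
    rw [coe_trComp_incl]
    convert h1 using 2
    funext τ
    show (f : ℍ → ℂ) (affPt (q ^ (i : ℕ)) 0 1 (γ • τ)) = _
    rw [he, hsmul]
    rfl
  show coeffMap Ω.φ _ = qExpand k _ (coeffMap Ω.φ _)
  rw [hemb, coeffMap_substHom, Ω.φ_zeta, substHom_one]
  · refine qExpand_congr ?_ _
    rw [hkk, Ctx.texp, hmin, mul_left_comm, ← pow_add]
    congr 2
    omega
  · obtain ⟨b, rfl⟩ := hB
    refine ⟨(q : ℤ) ^ (K - 1 - ((i : ℕ) - m)) * b, ?_⟩
    rw [hkk]; push_cast; ring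

/-- The only sheet of the shifted covers. -/
def shfSheet (X : Ctx q M0 N' K) : X.shf.Sheet := ⟨X.shf.eta, X.shf.eta_mem_nodes⟩

theorem eta_shf {δ : SL(2, ℤ)} (hδ : δ ∈ CongruenceSubgroup.Gamma M0) :
    compg δ X.shf.eta = X.shf.eta := X.shf.eta_fix (by rwa [mul_one])

/-- The reduction on a branch of the cover shifted to a vertex. -/
theorem red_ofShf {γ : SL(2, ℤ)} (hγ : γ ∈ CongruenceSubgroup.Gamma M0) (i : Fin K) (f : X.shf.R) :
    Ω.red γ (X.ofShf i f) = qExpand k (N' * X.texp i (X.kindAt γ))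
      (Ω.shf.rs (shfSheet X) (X.tkind i (X.kindAt γ)) f) := by
  obtain ⟨δ, r, s, hδ, hr, hs, hrn, hsn, h⟩ := Ω.exists_shf_transport hγ i
  rw [h]
  congr 1
  set j := X.tkind i (X.kindAt γ)
  have b := X.shf.gm_root (shfSheet X) j false
  simp only [Carayol.Ctx.sb, Carayol.Ctx.rX, Carayol.Ctx.gr, compg_one] at b
  have e := Ω.shf.red_congr hδ (X.shf.gm_mem (shfSheet X) j)
    ((eta_shf hδ).trans (X.shf.gm_eta (shfSheet X) j).symm) hr b hs (X.shf.gm_root (shfSheet X) j true)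
    (hrn.trans ?_) (hsn.trans ?_)
  · exact RingHom.congr_fun e f
  · clear_value j; fin_cases j <;> simp [Carayol.Ctx.kroot]
  · clear_value j; fin_cases j <;> simp [Carayol.Ctx.kroot]

/-- The reduction on a branch of the cover at the centre. -/
theorem red_ofCtr {γ : SL(2, ℤ)} (hγ : γ ∈ CongruenceSubgroup.Gamma M0) {g : X.Sheet}
    (hg : compg γ X.ctr.eta = g.1) (f : X.ctr.R) :
    Ω.red γ (X.ofCtr f) =
      qExpand k (q ^ (K - 1)) (Ω.ctr.rs g (X.tkind 0 (X.kindAt γ)) f) := by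
  rw [Ω.red_eq_qExpand_ctr]
  congr 1
  obtain ⟨r, s, hr, hs, hrn, hsn⟩ := roots_none X.ctr hγ
  set j := X.tkind 0 (X.kindAt γ) with hj
  have b := X.ctr.gm_root g j false
  simp only [Carayol.Ctx.sb, Carayol.Ctx.rX, Carayol.Ctx.gr, compg_one] at b
  have hp : Prime (q : ℤ) := Int.prime_iff_natAbs_prime.2 (by simpa using X.hq)
  have hK := X.hK
  have key : ((q : ℤ) ∣ γ 1 0 ↔ j = 0) ∧ ((q : ℤ) ∣ γ 0 0 ↔ j = 2) := by
    rw [hj, Ctx.tkind, Ctx.kindAt]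
    by_cases h0 : (q : ℤ) ∣ γ 0 0
    · rw [if_pos h0]
      refine ⟨iff_of_false (fun h1 => ?_) (by simp), iff_of_true h0 (by simp)⟩
      have h2 := dvd_sub (dvd_mul_of_dvd_left h0 (γ 1 1)) (dvd_mul_of_dvd_right h1 (γ 0 1))
      rw [det_eq γ] at h2
      exact hp.not_isUnit (isUnit_of_dvd_one h2)
    · rw [if_neg h0]
      have hl : (q : ℤ) ∣ γ 1 0 ↔ 0 < X.lvl γ := by
        constructor
        · intro h1
          exact Nat.le_findGreatest (P := fun m => (q : ℤ) ^ m ∣ γ 1 0) (m := 1) (by omega) (by simpa using h1)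
        · intro h1
          exact (dvd_pow_self _ h1.ne').trans
            (Nat.findGreatest_spec (P := fun m => (q : ℤ) ^ m ∣ γ 1 0) (Nat.zero_le K) (by simp))
      refine ⟨hl.trans ?_, iff_of_false h0 ?_⟩ <;>
      · simp only
        split_ifs <;> simp_all <;> omega
  have e := Ω.ctr.red_congr hγ (X.ctr.gm_mem g j) (hg.trans (X.ctr.gm_eta g j).symm) hr b hs
    (X.ctr.gm_root g j true) (hrn.trans (key.1.trans ?_)) (hsn.trans (key.2.trans ?_))
  · exact RingHom.congr_fun e f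
  · clear_value j; fin_cases j <;> simp [Carayol.Ctx.kroot]
  · clear_value j; fin_cases j <;> simp [Carayol.Ctx.kroot]

/-- Reductions only depend on the level structure and the kind. -/
theorem red_congr {γ γ' : SL(2, ℤ)} (hγ : γ ∈ CongruenceSubgroup.Gamma M0)
    (hγ' : γ' ∈ CongruenceSubgroup.Gamma M0) (he : compg γ X.ctr.eta = compg γ' X.ctr.eta)
    (hk : X.kindAt γ = X.kindAt γ') : Ω.red γ = Ω.red γ' := by
  set g : X.Sheet := ⟨compg γ X.ctr.eta, X.ctr.compg_mem_nodes hγ X.ctr.eta_mem_nodes⟩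
  have h : X.R ≤ Subring.map X.R.subtype (RingHom.eqLocus (Ω.red γ) (Ω.red γ')) := by
    refine Subring.closure_le.2 ?_
    rintro f (hf | hf)
    · refine ⟨X.ofCtr ⟨f, hf⟩, ?_, rfl⟩
      show Ω.red γ _ = Ω.red γ' _
      rw [Ω.red_ofCtr hγ (g := g) rfl, Ω.red_ofCtr hγ' (g := g) he.symm, hk]
    · obtain ⟨i, f', hf', rfl⟩ := Set.mem_iUnion.1 hf
      refine ⟨X.ofShf i ⟨f', hf'⟩, ?_, rfl⟩
      show Ω.red γ _ = Ω.red γ' _
      rw [Ω.red_ofShf hγ, Ω.red_ofShf hγ', hk]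
  refine RingHom.ext fun a => ?_
  obtain ⟨b, hb, e⟩ := h a.2
  exact Subtype.ext e ▸ hb

theorem red_rep (l : X.Idx) : Ω.red (X.rep l) = Ω.rs (X.sheet l) (X.kind l) :=
  Ω.red_congr (X.rep_mem l) (X.gm_mem _ _) (X.gm_eta (X.sheet l) (X.kind l)).symm
    (X.gm_kind (X.sheet l) (X.kind l)).symm

theorem rs_ofCtr (g : X.Sheet) (a : Fin (K + 2)) (f : X.ctr.R) :
    Ω.rs g a (X.ofCtr f) = qExpand k (q ^ (K - 1)) (Ω.ctr.rs g (X.tkind 0 a) f) := by
  rw [rs, Ω.red_ofCtr (X.gm_mem g a) (X.gm_eta g a), X.gm_kind]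

theorem rs_ofShf (g : X.Sheet) (a : Fin (K + 2)) (i : Fin K) (f : X.shf.R) :
    Ω.rs g a (X.ofShf i f) =
      qExpand k (N' * X.texp i a) (Ω.shf.rs (shfSheet X) (X.tkind i a) f) := by
  rw [rs, Ω.red_ofShf (X.gm_mem g a)]
  simp only [X.gm_kind]

theorem red_cW (γ : SL(2, ℤ)) (w : X.W) : Ω.red γ (X.cW w) = HahnSeries.C (Ω.φW w) := by
  rw [red, RingHom.comp_apply, X.embAt_cW, HahnSeries.C_apply, rd, coeffMap_single]
  rfl

theorem red_natCast (γ : SL(2, ℤ)) : Ω.red γ (q : X.R) = 0 := by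
  haveI := Ω.charK
  rw [map_natCast, ← map_natCast (HahnSeries.C : k →+* LaurentSeries k), CharP.cast_eq_zero, map_zero]

instance isPrime_ker (γ : SL(2, ℤ)) : (Ω.ker γ).IsPrime := RingHom.ker_isPrime _

end Res

end FLTAgent.CarayolK
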