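import Fermat.Agent.CarayolK.Fib
import Fermat.Agent.CarayolK.Reduction

/-!
# Sheets and kinds along the fibres
-/

set_option autoImplicit false
set_option linter.unusedSectionVars false
set_option linter.style.haveILetI false

noncomputable section

open UpperHalfPlane hiding I I_re I_im
open Filter Topology Complex Function FLTAgent.ModEq FLTAgent.GoodModel ModularCurve
open scoped MatrixGroups Manifold Classical

namespace FLTAgent.CarayolK

open FLTAgent.Carayol (mul_inv_apply10)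

namespace Ctx

variable {q M0 N' K : ℕ} [NeZero M0] [NeZero N'] [NeZero q] [Fact q.Prime] (X : Ctx q M0 N' K)

include X in
theorem prime_q : Prime (q : ℤ) := Nat.prime_iff_prime_int.1 X.hq

include X in
theorem pow_pred' : (q : ℤ) ^ (K - 1) * q = (q : ℤ) ^ K := by
  rw [mul_comm]; exact_mod_cast X.pow_pred

theorem le_lvl_iff (γ : SL(2, ℤ)) {j : ℕ} (hj : j ≤ K) :
    j ≤ X.lvl γ ↔ (q : ℤ) ^ j ∣ γ 1 0 := by
  refine ⟨fun h => ?_, fun h => Nat.le_findGreatest hj h⟩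
  exact (pow_dvd_pow _ h).trans
    (Nat.findGreatest_spec (P := fun m => (q : ℤ) ^ m ∣ γ 1 0) (Nat.zero_le K) (by simp))

theorem lvl_le (γ : SL(2, ℤ)) : X.lvl γ ≤ K := Nat.findGreatest_le K

theorem kindAt_eq_zero_iff (γ : SL(2, ℤ)) : (X.kindAt γ : ℕ) = 0 ↔ (q : ℤ) ∣ γ 0 0 := by
  rw [kindAt]; split_ifs with h <;> simp [h]

theorem kindAt_val {γ : SL(2, ℤ)} (h : ¬ (q : ℤ) ∣ γ 0 0) :
    (X.kindAt γ : ℕ) = X.lvl γ + 1 := by rw [kindAt, if_neg h]

theorem kindAt_le_one_iff (γ : SL(2, ℤ)) : (X.kindAt γ : ℕ) ≤ 1 ↔ ¬ (q : ℤ) ∣ γ 1 0 := by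
  have hK : 1 ≤ K := le_trans one_le_two X.hK
  by_cases h : (q : ℤ) ∣ γ 0 0
  · refine iff_of_true (le_of_eq_of_le ((X.kindAt_eq_zero_iff γ).2 h) zero_le_one) fun h1 => ?_
    have h2 := dvd_sub (dvd_mul_of_dvd_left h (γ 1 1)) (dvd_mul_of_dvd_right h1 (γ 0 1))
    rw [det_eq γ] at h2
    exact X.prime_q.not_isUnit (isUnit_of_dvd_one h2)
  · rw [X.kindAt_val h, ← pow_one (q : ℤ), ← X.le_lvl_iff γ hK]
    omega

theorem kindAt_congr {γ γ' : SL(2, ℤ)} (h0 : (q : ℤ) ∣ γ 0 0 ↔ (q : ℤ) ∣ γ' 0 0)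
    (h1 : ∀ j ≤ K, ((q : ℤ) ^ j ∣ γ 1 0 ↔ (q : ℤ) ^ j ∣ γ' 1 0)) : X.kindAt γ = X.kindAt γ' := by
  refine Fin.ext ?_
  by_cases h : (q : ℤ) ∣ γ 0 0
  · rw [(X.kindAt_eq_zero_iff γ).2 h, (X.kindAt_eq_zero_iff γ').2 (h0.1 h)]
  · rw [X.kindAt_val h, X.kindAt_val fun h' => h (h0.2 h')]
    have a := (h1 _ (X.lvl_le γ)).1 ((X.le_lvl_iff γ (X.lvl_le γ)).1 le_rfl)
    have b := (h1 _ (X.lvl_le γ')).2 ((X.le_lvl_iff γ' (X.lvl_le γ')).1 le_rfl)
    rw [← X.le_lvl_iff γ' (X.lvl_le γ)] at a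
    rw [← X.le_lvl_iff γ (X.lvl_le γ')] at b
    omega

/-- The kind only depends on the triple. -/
theorem kindAt_triple {γ γ' : SL(2, ℤ)} (hγ : γ ∈ CongruenceSubgroup.Gamma M0)
    (hγ' : γ' ∈ CongruenceSubgroup.Gamma M0) (h : X.triple γ = X.triple γ') :
    X.kindAt γ' = X.kindAt γ := by
  simp only [triple, Prod.mk.injEq] at h
  have key : ∀ f : ℍ → ℂ, compg γ f = compg γ' f → compg (γ' * γ⁻¹) f = f := fun f h => by
    rw [← compg_compg, ← h, compg_compg, mul_inv_cancel, compg_one]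
  have hm := mul_mem hγ' (inv_mem hγ)
  set ε := γ' * γ⁻¹ with hε
  have hb : (q : ℤ) ∣ ε 0 1 := (X.fix_bot_iff hm).1 (key _ h.2.1)
  have hc : (q : ℤ) ^ K ∣ ε 1 0 := (X.fix_top_iff hm).1 (key _ h.2.2)
  have e : γ' = ε * γ := by rw [hε, inv_mul_cancel_right]
  have e00 : γ' 0 0 = ε 0 0 * γ 0 0 + ε 0 1 * γ 1 0 := by
    rw [e]; simp [Matrix.SpecialLinearGroup.coe_mul, Matrix.mul_apply, Fin.sum_univ_two]
  have e10 : γ' 1 0 = ε 1 0 * γ 0 0 + ε 1 1 * γ 1 0 := by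
    rw [e]; simp [Matrix.SpecialLinearGroup.coe_mul, Matrix.mul_apply, Fin.sum_univ_two]
  have hq1 : (q : ℤ) ∣ ε 1 0 := (dvd_pow_self _ (by have := X.hK; omega)).trans hc
  have hu : ¬ (q : ℤ) ∣ ε 0 0 ∧ ¬ (q : ℤ) ∣ ε 1 1 := by
    constructor <;> intro hd
    · have h2 := dvd_sub (dvd_mul_of_dvd_left hd (ε 1 1)) (dvd_mul_of_dvd_left hb (ε 1 0))
      rw [det_eq ε] at h2
      exact X.prime_q.not_isUnit (isUnit_of_dvd_one h2)
    · have h2 := dvd_sub (dvd_mul_of_dvd_right hd (ε 0 0)) (dvd_mul_of_dvd_left hb (ε 1 0))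
      rw [det_eq ε] at h2
      exact X.prime_q.not_isUnit (isUnit_of_dvd_one h2)
  refine (X.kindAt_congr ?_ fun j hj => ?_).symm
  · rw [e00, dvd_add_left (dvd_mul_of_dvd_left hb _)]
    exact ⟨fun h => dvd_mul_of_dvd_right h _, fun h => (X.prime_q.dvd_or_dvd h).resolve_left hu.1⟩
  · rw [e10, dvd_add_right (dvd_mul_of_dvd_left ((pow_dvd_pow _ hj).trans hc) _)]
    exact ⟨fun h => dvd_mul_of_dvd_right h _, fun h => by
      have hcop : IsCoprime ((q : ℤ) ^ j) (ε 1 1) :=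
        (X.prime_q.coprime_iff_not_dvd.2 hu.2).pow_left
      exact hcop.dvd_of_dvd_mul_left h⟩

theorem sheet_idx {γ : SL(2, ℤ)} (hγ : γ ∈ CongruenceSubgroup.Gamma M0) :
    (X.sheet (X.idx hγ)).1 = compg γ X.ctr.eta := congrArg Prod.fst (X.triple_rep (X.idx hγ))

theorem kind_idx {γ : SL(2, ℤ)} (hγ : γ ∈ CongruenceSubgroup.Gamma M0) :
    X.kind (X.idx hγ) = X.kindAt γ :=
  X.kindAt_triple hγ (X.rep_mem _) (X.triple_rep (X.idx hγ)).symm

theorem sheet_lg (g : X.Sheet) (a : Fin (K + 2)) : X.sheet (X.lg g a) = g :=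
  Subtype.ext ((X.sheet_idx (X.gm_mem g a)).trans (X.gm_eta g a))

theorem kind_lg (g : X.Sheet) (a : Fin (K + 2)) : X.kind (X.lg g a) = a :=
  (X.kind_idx (X.gm_mem g a)).trans (X.gm_kind g a)

/-- The translates running through a fibre. -/
def fibMat (_X : Ctx q M0 N' K) : Bool → ZMod q → SL(2, ℤ)
  | false, t => ⟨!![1, ((M0 * N' : ℕ) : ℤ) * t.val; 0, 1], by rw [Matrix.det_fin_two_of]; ring⟩
  | true, t => ⟨!![1, 0; ((M0 * N' : ℕ) : ℤ) * (q : ℤ) ^ (K - 1) * t.val, 1],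
      by rw [Matrix.det_fin_two_of]; ring⟩

theorem fibMat_false (t : ZMod q) (γ : SL(2, ℤ)) :
    (X.fibMat false t * γ) 0 0 = γ 0 0 + ((M0 * N' : ℕ) : ℤ) * t.val * γ 1 0 ∧
      (X.fibMat false t * γ) 1 0 = γ 1 0 := by
  refine ⟨?_, ?_⟩ <;> rw [Matrix.SpecialLinearGroup.coe_mul, Matrix.mul_apply, Fin.sum_univ_two]
  · show 1 * γ 0 0 + ((M0 * N' : ℕ) : ℤ) * t.val * γ 1 0 = _
    ring
  · show 0 * γ 0 0 + 1 * γ 1 0 = _
    ring

theorem fibMat_true (t : ZMod q) (γ : SL(2, ℤ)) :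
    (X.fibMat true t * γ) 0 0 = γ 0 0 ∧
      (X.fibMat true t * γ) 1 0 =
        γ 1 0 + ((M0 * N' : ℕ) : ℤ) * (q : ℤ) ^ (K - 1) * t.val * γ 0 0 := by
  refine ⟨?_, ?_⟩ <;> rw [Matrix.SpecialLinearGroup.coe_mul, Matrix.mul_apply, Fin.sum_univ_two]
  · show 1 * γ 0 0 + 0 * γ 1 0 = _
    ring
  · show ((M0 * N' : ℕ) : ℤ) * (q : ℤ) ^ (K - 1) * t.val * γ 0 0 + 1 * γ 1 0 = _
    ring

theorem fibMat_mem (b : Bool) (t : ZMod q) : X.fibMat b t ∈ CongruenceSubgroup.Gamma (M0 * N') := by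
  rw [CongruenceSubgroup.Gamma_mem]
  cases b
  · exact ⟨by simp [fibMat], (ZMod.intCast_zmod_eq_zero_iff_dvd _ _).2 (by simp [fibMat]),
      by simp [fibMat], by simp [fibMat]⟩
  · exact ⟨by simp [fibMat], by simp [fibMat], (ZMod.intCast_zmod_eq_zero_iff_dvd _ _).2
      (Dvd.intro ((q : ℤ) ^ (K - 1) * t.val) (by simp [fibMat]; ring)), by simp [fibMat]⟩

theorem fibMat_mem0 (b : Bool) (t : ZMod q) : X.fibMat b t ∈ CongruenceSubgroup.Gamma M0 :=
  Carayol.Ctx.mem_M0_of_mem_m (X.fibMat_mem b t)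

theorem fibIdx_mem (b : Bool) (t : ZMod q) : X.idx (X.fibMat_mem0 b t) ∈ X.fib b X.one' := by
  refine X.idx_mem_fib (X.fibMat_mem b t) (fun hb => ?_) fun hb => ?_
  · subst hb; simp [fibMat]
  · subst hb
    exact ⟨by simp [fibMat], by
      simp only [fibMat, Matrix.of_apply, Matrix.cons_val', Matrix.cons_val_zero,
        Matrix.cons_val_one, Matrix.empty_val', Matrix.cons_val_fin_one]
      exact dvd_mul_of_dvd_left (dvd_mul_left _ _) _⟩

theorem fibIdx_injective (b : Bool) : Injective fun t : ZMod q => X.idx (X.fibMat_mem0 b t) := by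
  intro t t' h
  have hmq : ¬ (q : ℤ) ∣ ((M0 * N' : ℕ) : ℤ) := fun h => X.hqm (Int.natCast_dvd_natCast.1 h)
  have hfin : (q : ℤ) ∣ ((M0 * N' : ℕ) : ℤ) * ((t.val : ℤ) - t'.val) → t = t' := fun h => by
    have h2 := (X.prime_q.dvd_or_dvd h).resolve_left hmq
    have := ZMod.val_lt t; have := ZMod.val_lt t'
    have h3 := Int.eq_zero_of_abs_lt_dvd h2 (by rw [abs_lt]; omega)
    exact ZMod.val_injective q (by omega)
  have h2 := (X.idx_eq_iff _ _).1 h
  simp only [triple, Prod.mk.injEq] at h2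
  have hm := mul_mem (X.fibMat_mem0 b t) (inv_mem (X.fibMat_mem0 b t'))
  cases b
  · have h3 : compg (X.fibMat false t * (X.fibMat false t')⁻¹) X.bot = X.bot := by
      rw [← compg_compg, h2.2.1, compg_compg, mul_inv_cancel, compg_one]
    have h4 := (X.fix_bot_iff hm).1 h3
    rw [mul_inv_apply01] at h4
    refine hfin (dvd_trans h4 (dvd_of_eq ?_))
    simp [fibMat]; ring
  · have h3 : compg (X.fibMat true t * (X.fibMat true t')⁻¹) X.top = X.top := by
      rw [← compg_compg, h2.2.2, compg_compg, mul_inv_cancel, compg_one]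
    have h4 := (X.fix_top_iff hm).1 h3
    rw [mul_inv_apply10, ← X.pow_pred'] at h4
    refine hfin ((mul_dvd_mul_iff_left (pow_ne_zero (K - 1) X.prime_q.ne_zero)).1
      (dvd_trans h4 (dvd_of_eq ?_)))
    simp [fibMat]; ring

/-- Products over a fibre, by the translates running through it. -/
theorem prod_fib {β : Type*} [CommMonoid β] (b : Bool) (l : X.Idx) (F : X.Idx → β) :
    ∏ l' ∈ X.fib b l, F l' =
      ∏ t : ZMod q, F (X.idx (mul_mem (X.fibMat_mem0 b t) (X.rep_mem l))) := by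
  have h := X.prod_fib_perm b (X.rep_mem l) X.one' F
  rw [X.perm_rep_one'] at h
  have hfib : X.fib b X.one' = Finset.univ.image fun t : ZMod q => X.idx (X.fibMat_mem0 b t) := by
    refine (Finset.eq_of_subset_of_card_le (fun x hx => ?_) ?_).symm
    · obtain ⟨t, -, rfl⟩ := Finset.mem_image.1 hx
      exact X.fibIdx_mem b t
    · rw [X.card_fib, Finset.card_image_of_injective _ (X.fibIdx_injective b), Finset.card_univ,
        ZMod.card]
  rw [← h, hfib, Finset.prod_image fun t _ t' _ e => X.fibIdx_injective b e]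
  exact Finset.prod_congr rfl fun t _ => congrArg F
    (Subtype.ext (X.triple_mul (X.triple_rep (X.idx (X.fibMat_mem0 b t))) (X.rep l)))

theorem prod_one_special {β : Type*} [CommMonoid β] (G : ZMod q → β) (x y : β) (t0 : ZMod q)
    (h0 : G t0 = x) (h : ∀ t, t ≠ t0 → G t = y) : ∏ t, G t = x * y ^ (q - 1) := by
  rw [← Finset.mul_prod_erase Finset.univ G (Finset.mem_univ t0), h0,
    Finset.prod_congr rfl fun t ht => h t (Finset.mem_erase.1 ht).1, Finset.prod_const,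
    Finset.card_erase_of_mem (Finset.mem_univ t0), Finset.card_univ, ZMod.card]

/-- Products over the fibres of functions of the kind. -/
theorem prod_fib_kind {β : Type*} [CommMonoid β] (l : X.Idx) (F : X.Idx → β)
    (v : Fin (K + 2) → β) (h : ∀ l', X.sheet l' = X.sheet l → F l' = v (X.kind l')) :
    ((X.kind l : ℕ) ≤ 1 → ∏ l' ∈ X.fib false l, F l' = v 0 * v 1 ^ (q - 1)) ∧
    (2 ≤ (X.kind l : ℕ) → ∏ l' ∈ X.fib false l, F l' = v (X.kind l) ^ q) ∧
    ((X.kind l : ℕ) ≤ K - 1 → ∏ l' ∈ X.fib true l, F l' = v (X.kind l) ^ q) ∧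
    (K ≤ (X.kind l : ℕ) → ∏ l' ∈ X.fib true l, F l' =
      v (Fin.last (K + 1)) * v ⟨K, by omega⟩ ^ (q - 1)) := by
  have hK := X.hK
  set γ := X.rep l with hγdef
  have hγ := X.rep_mem l
  have hk : X.kind l = X.kindAt γ := rfl
  have hmq : ¬ (q : ℤ) ∣ ((M0 * N' : ℕ) : ℤ) := fun h => X.hqm (Int.natCast_dvd_natCast.1 h)
  have hF : ∀ (b : Bool) (t : ZMod q),
      F (X.idx (mul_mem (X.fibMat_mem0 b t) hγ)) = v (X.kindAt (X.fibMat b t * γ)) := fun b t => by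
    rw [h _ (Subtype.ext ?_), X.kind_idx]
    rw [X.sheet_idx, ← compg_compg, X.ctr.eta_fix (X.fibMat_mem b t)]
    rfl
  have hconst : ∀ b, (∀ t, X.kindAt (X.fibMat b t * γ) = X.kindAt γ) →
      ∏ l' ∈ X.fib b l, F l' = v (X.kind l) ^ q := fun b hb => by
    rw [X.prod_fib, Finset.prod_congr rfl fun t _ => (hF b t).trans (congrArg v (hb t)),
      Finset.prod_const, Finset.card_univ, ZMod.card, hk]
  -- the affine function of the parameter vanishes once
  have haff : ∀ A B : ℤ, ¬ (q : ℤ) ∣ B → ∃ t0 : ZMod q,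
      ∀ t : ZMod q, (q : ℤ) ∣ A + ((M0 * N' : ℕ) : ℤ) * t.val * B ↔ t = t0 := fun A B hB => by
    have hB' : ((M0 * N' : ℕ) : ZMod q) * (B : ZMod q) ≠ 0 := mul_ne_zero
      (fun h => hmq ((ZMod.intCast_zmod_eq_zero_iff_dvd _ _).1 (by rw [Int.cast_natCast]; exact h)))
      (fun h => hB ((ZMod.intCast_zmod_eq_zero_iff_dvd _ _).1 h))
    refine ⟨-(A : ZMod q) / (((M0 * N' : ℕ) : ZMod q) * (B : ZMod q)), fun t => ?_⟩
    rw [← ZMod.intCast_zmod_eq_zero_iff_dvd, eq_div_iff hB']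
    push_cast
    rw [ZMod.natCast_zmod_val]
    constructor <;> intro e <;> linear_combination e
  refine ⟨fun ha => ?_, fun ha => hconst false fun t => ?_, fun ha => hconst true fun t => ?_,
    fun ha => ?_⟩
  · rw [hk, X.kindAt_le_one_iff] at ha
    obtain ⟨t0, ht0⟩ := haff (γ 0 0) (γ 1 0) ha
    rw [X.prod_fib]
    refine prod_one_special _ _ _ t0 ?_ fun t ht => ?_ <;>
      rw [hF] <;> refine congrArg v (Fin.ext ?_)
    · rw [(X.kindAt_eq_zero_iff _).2 (by rw [(X.fibMat_false t0 γ).1]; exact (ht0 t0).2 rfl)]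
      rfl
    · have h1 : ¬ (q : ℤ) ∣ (X.fibMat false t * γ) 0 0 := by
        rw [(X.fibMat_false t γ).1]; exact fun h => ht ((ht0 t).1 h)
      have h2 : ¬ (q : ℤ) ∣ (X.fibMat false t * γ) 1 0 := by rwa [(X.fibMat_false t γ).2]
      have h3 := (X.kindAt_le_one_iff _).2 h2
      have h4 := X.kindAt_val h1
      simp only [Fin.coe_ofNat_eq_mod]
      rw [Nat.mod_eq_of_lt (by omega)]
      omega
  · rw [hk] at ha
    have hc : (q : ℤ) ∣ γ 1 0 := by
      by_contra hc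
      have := (X.kindAt_le_one_iff γ).2 hc
      omega
    refine X.kindAt_congr ?_ fun j _ => by rw [(X.fibMat_false t γ).2]
    rw [(X.fibMat_false t γ).1, dvd_add_left (dvd_mul_of_dvd_right hc _)]
  · rw [hk] at ha
    by_cases h0 : (q : ℤ) ∣ γ 0 0
    · refine Fin.ext ?_
      rw [(X.kindAt_eq_zero_iff γ).2 h0,
        (X.kindAt_eq_zero_iff _).2 (by rwa [(X.fibMat_true t γ).1])]
    · rw [X.kindAt_val h0] at ha
      have hn : ¬ (q : ℤ) ^ (K - 1) ∣ γ 1 0 := fun h => by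
        have := (X.le_lvl_iff γ (Nat.sub_le K 1)).2 h
        omega
      refine X.kindAt_congr (by rw [(X.fibMat_true t γ).1]) fun j _ => ?_
      rw [(X.fibMat_true t γ).2]
      rcases le_or_gt j (K - 1) with hj | hj
      · rw [dvd_add_left (dvd_mul_of_dvd_left (dvd_mul_of_dvd_left
          (dvd_mul_of_dvd_right (pow_dvd_pow _ hj) _) _) _)]
      · refine iff_of_false (fun h => ?_) (fun h => hn ((pow_dvd_pow _ hj.le).trans h))
        have h' := (pow_dvd_pow (q : ℤ) hj.le).trans h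
        rw [dvd_add_left (dvd_mul_of_dvd_left (dvd_mul_of_dvd_left (dvd_mul_left _ _) _) _)] at h'
        exact hn h'
  · rw [hk] at ha
    have h0 : ¬ (q : ℤ) ∣ γ 0 0 := fun h => by
      rw [(X.kindAt_eq_zero_iff γ).2 h] at ha; omega
    rw [X.kindAt_val h0] at ha
    obtain ⟨s, hs⟩ := (X.le_lvl_iff γ (Nat.sub_le K 1)).1 (by omega)
    obtain ⟨t0, ht0⟩ := haff s (γ 0 0) h0
    have e : ∀ t : ZMod q, (X.fibMat true t * γ) 1 0 =
        (q : ℤ) ^ (K - 1) * (s + ((M0 * N' : ℕ) : ℤ) * t.val * γ 0 0) := fun t => by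
      rw [(X.fibMat_true t γ).2, hs]; ring
    have htop : ∀ t, (q : ℤ) ^ K ∣ (X.fibMat true t * γ) 1 0 ↔ t = t0 := fun t => by
      rw [e, ← X.pow_pred', mul_dvd_mul_iff_left (pow_ne_zero _ X.prime_q.ne_zero), ht0]
    have hval : ∀ t, (X.kindAt (X.fibMat true t * γ) : ℕ) = X.lvl (X.fibMat true t * γ) + 1 :=
      fun t => X.kindAt_val (by rwa [(X.fibMat_true t γ).1])
    rw [X.prod_fib]
    refine prod_one_special _ _ _ t0 ?_ fun t ht => ?_ <;>
      rw [hF] <;> refine congrArg v (Fin.ext ?_) <;> rw [hval]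
    · have := (X.le_lvl_iff (X.fibMat true t0 * γ) le_rfl).2 ((htop t0).2 rfl)
      have := X.lvl_le (X.fibMat true t0 * γ)
      simp only [Fin.val_last]
      omega
    · have := (X.le_lvl_iff (X.fibMat true t * γ) (Nat.sub_le K 1)).2
        (by rw [e]; exact dvd_mul_right _ _)
      have := X.lvl_le (X.fibMat true t * γ)
      have : X.lvl (X.fibMat true t * γ) ≠ K := fun h => ht ((htop t).1
        ((X.le_lvl_iff _ le_rfl).1 h.ge))
      show _ = K
      omega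

end Ctx

end FLTAgent.CarayolK
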