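import Fermat.Agent.CarayolK.Fib
import Fermat.Agent.CarayolK.Pullback
import Fermat.Agent.Carayol.FibNorm

/-!
# Norms along the degeneracy maps as products over the fibres
-/

set_option autoImplicit false
set_option linter.unusedSectionVars false
set_option linter.style.haveILetI false
set_option synthInstance.maxHeartbeats 400000
set_option maxHeartbeats 1000000

noncomputable section

open UpperHalfPlane hiding I I_re I_im
open Filter Topology Complex Function FLTAgent.ModEq FLTAgent.GoodModel ModularCurve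
open AlgebraicCurve
open scoped MatrixGroups Manifold Classical

namespace FLTAgent.CarayolK

open FLTAgent.Carayol (ser_injective trComp jd_invariant')
open FLTAgent.Carayol.Pull (deg gen_mem finrank_along_le eval_qExpand qExpand_ne)

local notation "QA" => AlgebraicClosure ℚ

namespace Pull

variable {q M0 N' K : ℕ} [NeZero M0] [NeZero N'] [NeZero q] [Fact q.Prime]
variable {X : Ctx q M0 N' K} {M' : ℕ} [NeZero M'] (P : Pull X M')

include P in
/-- The modular equation with the two invariants exchanged. -/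
theorem eval_symm :
    ((modularPolynomialData q).Φ.map (evalAt (jqNModC QA q))).eval (jqModC QA) = 0 := by
  set Φ := (modularPolynomialData q).Φ
  have h1mem : qExpand QA 1 (jqModC QA) ∈ X0Fn.XA QA (q * (q ^ (K - 1) * M') * q) := gen_mem 1 (one_dvd _)
  set a1 : X0Fn.XA QA (q * (q ^ (K - 1) * M') * q) := ⟨_, h1mem⟩
  set aq : X0Fn.XA QA (q * (q ^ (K - 1) * M') * q) := ⟨_, gen_mem q (dvd_mul_left q _)⟩
  have hf1 : P.fn a1 = P.jf 1 (one_dvd _) := P.fn_gen _ _
  have hfq : P.fn aq = P.jf q (dvd_mul_of_dvd_left (dvd_pow_self q (Nat.succ_ne_zero K)) _) := P.fn_gen _ _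
  set V : X0Fn.XA QA (q * (q ^ (K - 1) * M') * q) →+* LaurentSeries QA := (X0Fn.XA QA (q * (q ^ (K - 1) * M') * q)).val.toRingHom
  have hV : Injective V := Subtype.val_injective
  have hV1 : V a1 = jqModC QA := qExpand_one_apply _
  have hR : (Φ.map (evalAt a1)).eval aq = 0 := hV <| by
    rw [map_zero, Kronecker.evalRel_map, hV1]
    exact eval_modularPolynomial QA (modularPolynomialData q)
  have hpt : ∀ τ : ℍ, (Φ.map (evalAt (jd q 1 τ))).eval (jd q q τ) = 0 := fun τ => by
    have h := congrArg (fun x => ((Pi.evalRingHom (fun _ : ℍ => ℂ) τ).comp P.Fn.subtype) (P.fn x)) hR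
    simp only [map_zero, Kronecker.evalRel_map, hf1, hfq] at h
    exact h
  have hswap : (Φ.map (evalAt aq)).eval a1 = 0 := P.fn_injective <| by
    rw [map_zero, Kronecker.evalRel_map, hf1, hfq]
    refine Subtype.ext (funext fun τ => ?_)
    show ((Pi.evalRingHom (fun _ : ℍ => ℂ) τ).comp P.Fn.subtype) _ = 0
    rw [Kronecker.evalRel_map]
    show (Φ.map (evalAt (jd q q τ))).eval (jd q 1 τ) = 0
    set τ' : ℍ := affPt q 0 1 (ModularGroup.S • τ)
    have hq : (q : ℂ) ≠ 0 := Nat.cast_ne_zero.mpr (NeZero.ne q)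
    have e1 : jd q q τ' = jd q 1 τ := by
      rw [jd, jd, ← jFun_smul ModularGroup.S (affPt 1 0 q τ)]
      congr 1
      refine UpperHalfPlane.ext ?_
      simp only [τ', coe_affPt, UpperHalfPlane.modular_S_smul, UpperHalfPlane.coe_mk]
      have := τ.ne_zero
      push_cast
      field_simp
      first | ring1 | (simp [this]; ring)
    have e2 : jd q 1 τ' = jd q q τ := by
      rw [jd, jd, show affPt q 0 q τ = τ from UpperHalfPlane.ext (by
        rw [coe_affPt]; push_cast; field_simp; ring), ← jFun_smul ModularGroup.S τ]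
      congr 1
      refine UpperHalfPlane.ext ?_
      simp only [τ', coe_affPt, UpperHalfPlane.modular_S_smul, UpperHalfPlane.coe_mk]
      have := τ.ne_zero
      push_cast
      field_simp
      ring
    rw [← e1, ← e2]
    exact hpt τ'
  have h := congrArg V hswap
  rwa [map_zero, Kronecker.evalRel_map, hV1] at h

include P in
theorem eval_symm_qExpand (d : ℕ) [NeZero d] :
    ((modularPolynomialData q).Φ.map (evalAt (qExpand QA d (qExpand QA q (jqModC QA))))).eval
      (qExpand QA d (jqModC QA)) = 0 := by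
  have h := congrArg (qExpand QA d) P.eval_symm
  rwa [map_zero, Kronecker.evalRel_map] at h

include P in
theorem finrank_deg_le (b : Bool) :
    letI := algebraAlong (deg q (q ^ (K - 1) * M') b)
    FiniteDimensional (modularFunctionFieldBar (q * (q ^ (K - 1) * M'))) (modularFunctionFieldBar (q * (q ^ (K - 1) * M') * q)) ∧
      Module.finrank (modularFunctionFieldBar (q * (q ^ (K - 1) * M'))) (modularFunctionFieldBar (q * (q ^ (K - 1) * M') * q)) ≤ q := by
  have hq1 : q ≠ 1 := X.hq.one_lt.ne'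
  have hgenF : ∀ (d : ℕ) [NeZero d], d ∣ q * (q ^ (K - 1) * M') →
      qExpand QA d (jqModC QA) ∈ modularFunctionFieldBar (q * (q ^ (K - 1) * M')) := fun d _ hd => by
    have h := coeffEmb_mem_laurentBaseChange QA (jqd_mem_full (q * (q ^ (K - 1) * M')) hd)
    rwa [coeffEmb, coeffMap_qExpand, ← jqModC_rat, coeffMap_jqModC] at h
  cases b
  · refine finrank_along_le (deg q (q ^ (K - 1) * M') false) ⟨_, hgenF 1 (one_dvd _)⟩
      ⟨_, hgenF q (dvd_mul_right q (q ^ (K - 1) * M'))⟩ (Kronecker.jEl _) ?_ ?_ ?_ (Or.inl rfl)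
      (Or.inr ⟨Kronecker.jNEl (q * (q ^ (K - 1) * M')), Subtype.ext ?_⟩)
    · simp only [qExpand_one_apply]
      exact eval_modularPolynomial QA (modularPolynomialData q)
    · show ((modularPolynomialData q).Φ.map (evalAt (qExpand QA q (qExpand QA 1 (jqModC QA))))).eval
        (jqModC QA) = 0
      rw [qExpand_one_apply]
      exact P.eval_symm
    · intro h
      haveI : NeZero (q * q) := ⟨mul_ne_zero (NeZero.ne q) (NeZero.ne q)⟩
      have h' : jqModC QA = qExpand QA q (qExpand QA q (jqModC QA)) := congrArg Subtype.val h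
      rw [qExpand_qExpand] at h'
      refine qExpand_ne (a := 1) (b := q * q) ?_ (by rw [qExpand_one_apply]; exact h')
      intro h''
      exact hq1 (Nat.eq_one_of_mul_eq_one_right h''.symm)
    · show qExpand QA (q * (q ^ (K - 1) * M') * q) (jqModC QA) = qExpand QA q (qExpand QA (q * (q ^ (K - 1) * M')) (jqModC QA))
      rw [qExpand_qExpand]
      exact qExpand_congr (mul_comm _ _) _
  · refine finrank_along_le (deg q (q ^ (K - 1) * M') true) ⟨_, hgenF (q * (q ^ (K - 1) * M')) dvd_rfl⟩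
      ⟨_, hgenF (q ^ (K - 1) * M') (dvd_mul_left _ q)⟩ (Kronecker.jNEl _) ?_ ?_ ?_
      (Or.inr ⟨Kronecker.jEl (q * (q ^ (K - 1) * M')), Subtype.ext rfl⟩) (Or.inl rfl)
    · have h := P.eval_symm_qExpand (q ^ (K - 1) * M')
      rw [qExpand_qExpand] at h
      simpa [qExpand_congr (mul_comm (q ^ (K - 1) * M') q)] using h
    · show ((modularPolynomialData q).Φ.map (evalAt (qExpand QA (q * (q ^ (K - 1) * M')) (jqModC QA)))).eval
        (qExpand QA (q * (q ^ (K - 1) * M') * q) (jqModC QA)) = 0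
      rw [← qExpand_qExpand]
      exact eval_qExpand (q * (q ^ (K - 1) * M'))
    · intro h
      have h' : qExpand QA (q * (q ^ (K - 1) * M') * q) (jqModC QA) = qExpand QA (q ^ (K - 1) * M') (jqModC QA) := congrArg Subtype.val h
      refine qExpand_ne ?_ h'
      intro h''
      have h1 : q ^ (K - 1) * M' * (q * q) = q ^ (K - 1) * M' * 1 := by rw [mul_one]; linarith
      exact hq1 (Nat.eq_one_of_mul_eq_one_right
        (Nat.eq_of_mul_eq_mul_left (Nat.pos_of_ne_zero (NeZero.ne (q ^ (K - 1) * M'))) h1))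

theorem Theta_gen (γ : SL(2, ℤ)) {d : ℕ} [NeZero d] (hd : d ∣ q ^ (K + 1) * M')
    (f : modularFunctionFieldBar (q * (q ^ (K - 1) * M') * q)) (hf : (f : LaurentSeries QA) = qExpand QA d (jqModC QA)) :
    P.Theta γ f = P.big γ (P.jf d hd) := by
  have hd' : d ∣ q * (q ^ (K - 1) * M') * q := hd.trans (dvd_of_eq (top_eq (X := X)).symm)
  have : f = X0Fn.incA QA _ ⟨_, gen_mem d hd'⟩ := Subtype.ext hf
  rw [this, P.Theta_incA, P.fn_gen hd]

theorem big_eq_one (γ : SL(2, ℤ)) {d : ℕ} [NeZero d] (hd : d ∣ q ^ (K + 1) * M')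
    (h : ∀ τ, jd q d (γ • τ) = jd q d τ) : P.big γ (P.jf d hd) = P.big 1 (P.jf d hd) := by
  refine (P.big_spec γ _).unique ?_
  rw [show compg γ ((P.jf d hd : P.Fn) : ℍ → ℂ) = compg 1 ((P.jf d hd : P.Fn) : ℍ → ℂ) from by
    funext τ; simp only [compg_apply, one_smul]; exact h τ]
  exact P.big_spec 1 _

theorem Theta_deg {b : Bool} {l : X.Idx} (h : l ∈ X.fib b X.one')
    (g : modularFunctionFieldBar (q * (q ^ (K - 1) * M'))) :
    P.Theta (X.rep l) (deg q (q ^ (K - 1) * M') b g) = P.Theta 1 (deg q (q ^ (K - 1) * M') b g) := by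
  obtain ⟨h10, h0, h1⟩ := X.fix_of_mem_fib h
  set δ := X.rep l
  have hcop : IsCoprime ((q : ℕ) : ℤ) ((M' : ℕ) : ℤ) := by
    rw [Int.isCoprime_iff_nat_coprime]
    simpa using (X.hq.coprime_iff_not_dvd.2 fun h => X.hqm (h.trans P.hN))
  have hM' : (M' : ℤ) ∣ δ 1 0 := (Int.natCast_dvd_natCast.2 P.hN).trans h10
  suffices h : (P.Theta δ).comp (deg q (q ^ (K - 1) * M') b).toRingHom =
      (P.Theta 1).comp (deg q (q ^ (K - 1) * M') b).toRingHom from RingHom.congr_fun h g
  refine Kronecker.ringHom_ext (q * (q ^ (K - 1) * M')) _ _ (fun c => ?_) ?_ ?_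
  · simp only [RingHom.comp_apply, AlgHom.toRingHom_eq_coe, RingHom.coe_coe, AlgHom.commutes,
      P.Theta_algebraMap]
  all_goals simp only [RingHom.comp_apply, AlgHom.toRingHom_eq_coe, RingHom.coe_coe]
  all_goals cases b
  · rw [P.Theta_gen δ (d := q) (dvd_mul_of_dvd_left (dvd_pow_self q (Nat.succ_ne_zero K)) _) _ rfl,
      P.Theta_gen 1 (d := q) (dvd_mul_of_dvd_left (dvd_pow_self q (Nat.succ_ne_zero K)) _) _ rfl]
    refine P.big_eq_one δ _ fun τ => jd_invariant' (dvd_mul_right _ _) (dvd_mul_right _ _) τ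
  · have e : ((deg q (q ^ (K - 1) * M') true (Kronecker.jEl (q * (q ^ (K - 1) * M'))) :
        modularFunctionFieldBar (q * (q ^ (K - 1) * M') * q)) : LaurentSeries QA) =
        qExpand QA 1 (jqModC QA) := by rw [qExpand_one_apply]; rfl
    rw [P.Theta_gen δ (one_dvd _) _ e, P.Theta_gen 1 (one_dvd _) _ e]
    refine P.big_eq_one δ _ fun τ => jd_invariant' (dvd_mul_of_dvd_right (h1 rfl).1 _) (one_dvd _) τ
  · haveI : NeZero (q * (q * (q ^ (K - 1) * M'))) := ⟨mul_ne_zero (NeZero.ne q) (NeZero.ne _)⟩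
    have e : ((deg q (q ^ (K - 1) * M') false (Kronecker.jNEl (q * (q ^ (K - 1) * M'))) :
        modularFunctionFieldBar (q * (q ^ (K - 1) * M') * q)) : LaurentSeries QA) =
        qExpand QA (q * (q * (q ^ (K - 1) * M'))) (jqModC QA) := (qExpand_qExpand _ _ _)
    have hd : q * (q * (q ^ (K - 1) * M')) ∣ q ^ (K + 1) * M' :=
      dvd_of_eq (by rw [← top_eq (X := X)]; ring)
    rw [P.Theta_gen δ hd _ e, P.Theta_gen 1 hd _ e]
    refine P.big_eq_one δ _ fun τ => jd_invariant' ?_ ?_ τ
    · push_cast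
      exact dvd_mul_of_dvd_left (dvd_mul_right _ _) _
    · push_cast
      refine mul_dvd_mul_left _ ?_
      rw [← mul_assoc, ← pow_succ', Nat.sub_add_cancel (le_trans one_le_two X.hK)]
      exact hcop.pow_left.mul_dvd (h0 rfl) hM'
  · have e : ((deg q (q ^ (K - 1) * M') true (Kronecker.jNEl (q * (q ^ (K - 1) * M'))) :
        modularFunctionFieldBar (q * (q ^ (K - 1) * M') * q)) : LaurentSeries QA) =
        qExpand QA (q * (q ^ (K - 1) * M')) (jqModC QA) := rfl
    have hd : q * (q ^ (K - 1) * M') ∣ q ^ (K + 1) * M' :=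
      (dvd_mul_right _ q).trans (dvd_of_eq (top_eq (X := X)))
    rw [P.Theta_gen δ hd _ e, P.Theta_gen 1 hd _ e]
    refine P.big_eq_one δ _ fun τ => jd_invariant' (dvd_mul_of_dvd_right (h1 rfl).1 _) ?_ τ
    push_cast
    exact mul_dvd_mul_left _ (hcop.pow_left.mul_dvd (h1 rfl).2 hM')

theorem compg_eq_of_big {γ γ' : SL(2, ℤ)} {f : P.Fn} (h : P.big γ f = P.big γ' f) :
    compg γ (f : ℍ → ℂ) = compg γ' (f : ℍ → ℂ) := by
  simp only [big, RingHom.comp_apply] at h
  have h2 : trComp γ f = trComp γ' f := ser_injective (sIncl_injective h)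
  exact congrArg (fun z : trRing P.κ.range X.lev => (z : ℍ → ℂ)) h2

theorem Theta_fib_injective (b : Bool) :
    Injective fun l : ↥(X.fib b X.one') => P.Theta (X.rep (l : X.Idx)) := by
  intro l l' h
  simp only at h
  set δ := X.rep (l : X.Idx) with hδdef
  set δ' := X.rep (l' : X.Idx) with hδ'def
  obtain ⟨he, ht, hb⟩ := X.mem_fib.1 l.2
  obtain ⟨he', ht', hb'⟩ := X.mem_fib.1 l'.2
  have hmem := mul_mem (X.rep_mem (l' : X.Idx)) (inv_mem (X.rep_mem (l : X.Idx)))
  rw [← hδdef, ← hδ'def] at hmem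
  have key : ∀ f : ℍ → ℂ, compg δ f = compg δ' f → compg (δ' * δ⁻¹) f = f := fun f h => by
    rw [← compg_compg, ← h, compg_compg, mul_inv_cancel, compg_one]
  have key' : ∀ f : ℍ → ℂ, compg (δ' * δ⁻¹) f = f → compg δ f = compg δ' f := fun f h => by
    conv_lhs => rw [← h]
    rw [compg_compg, inv_mul_cancel_right]
  have hfun : ∀ a : X.R, X.emb l a = X.emb X.one' a → X.emb l' a = X.emb X.one' a →
      compg δ (a : ℍ → ℂ) = compg δ' (a : ℍ → ℂ) := fun a h1 h2 =>
    (X.emb_eq_iff a).1 (h1.trans h2.symm)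
  have hjd : ∀ (d : ℕ) [NeZero d] (hd : d ∣ q ^ (K + 1) * M'),
      compg (δ' * δ⁻¹) (jd q d) = jd q d := fun d _ hd => by
    refine key _ ?_
    have h1 := RingHom.congr_fun h
      (X0Fn.incA QA _ ⟨_, gen_mem d (hd.trans (dvd_of_eq (top_eq (X := X)).symm))⟩)
    rw [P.Theta_incA, P.Theta_incA, P.fn_gen hd] at h1
    exact P.compg_eq_of_big h1
  refine Subtype.ext (Subtype.ext ?_)
  rw [← X.triple_rep, ← X.triple_rep, ← hδdef, ← hδ'def]
  simp only [Ctx.triple, Prod.mk.injEq]
  cases b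
  · have h2 := hfun _ (ht rfl) (ht' rfl)
    refine ⟨hfun _ he he', key' _ ((X.fix_bot_iff hmem).2 ?_), h2⟩
    exact X.dvd01_of_fix P.hN (hjd 1 (one_dvd _))
      ((dvd_pow_self _ (by have := X.hK; omega)).trans ((X.fix_top_iff hmem).1 (key _ h2)))
  · refine ⟨hfun _ he he', hfun _ (hb rfl).1 (hb' rfl).1, key' _ ((X.fix_top_iff hmem).2 ?_)⟩
    exact X.dvd10_of_fix hmem (hjd (q ^ (K + 1)) (dvd_mul_right _ _))

/-- The norm along a degeneracy map is the product over the fibre. -/
theorem Theta_norm (b : Bool) (f : modularFunctionFieldBar (q * (q ^ (K - 1) * M') * q)) :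
    letI := algebraAlong (deg q (q ^ (K - 1) * M') b)
    P.Theta 1 (deg q (q ^ (K - 1) * M') b (Algebra.norm (modularFunctionFieldBar (q * (q ^ (K - 1) * M'))) f)) =
      ∏ l ∈ X.fib b X.one', P.Theta (X.rep l) f := by
  letI := algebraAlong (deg q (q ^ (K - 1) * M') b)
  obtain ⟨hfin, hle⟩ := P.finrank_deg_le b
  haveI := hfin
  haveI : CharZero (modularFunctionFieldBar (q * (q ^ (K - 1) * M'))) :=
    charZero_of_injective_algebraMap (algebraMap QA (modularFunctionFieldBar (q * (q ^ (K - 1) * M')))).injective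
  set ψ : modularFunctionFieldBar (q * (q ^ (K - 1) * M')) →+* LaurentSeries ℂ :=
    (P.Theta 1).comp (deg q (q ^ (K - 1) * M') b).toRingHom
  have hover : ∀ l : ↥(X.fib b X.one'), (P.Theta (X.rep (l : X.Idx))).comp
      (algebraMap (modularFunctionFieldBar (q * (q ^ (K - 1) * M'))) (modularFunctionFieldBar (q * (q ^ (K - 1) * M') * q))) = ψ :=
    fun l => RingHom.ext fun g => P.Theta_deg l.2 g
  have hcard : Fintype.card ↥(X.fib b X.one') =
      Module.finrank (modularFunctionFieldBar (q * (q ^ (K - 1) * M'))) (modularFunctionFieldBar (q * (q ^ (K - 1) * M') * q)) := by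
    refine le_antisymm ?_ (by rw [Fintype.card_coe, X.card_fib]; exact hle)
    letI : Algebra (modularFunctionFieldBar (q * (q ^ (K - 1) * M'))) (AlgebraicClosure (LaurentSeries ℂ)) :=
      ((algebraMap (LaurentSeries ℂ) (AlgebraicClosure (LaurentSeries ℂ))).comp ψ).toAlgebra
    rw [← AlgHom.card (modularFunctionFieldBar (q * (q ^ (K - 1) * M'))) (modularFunctionFieldBar (q * (q ^ (K - 1) * M') * q))
      (AlgebraicClosure (LaurentSeries ℂ))]
    let e : ↥(X.fib b X.one') → (modularFunctionFieldBar (q * (q ^ (K - 1) * M') * q) →ₐ[modularFunctionFieldBar (q * (q ^ (K - 1) * M'))]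
        AlgebraicClosure (LaurentSeries ℂ)) := fun l =>
      { (algebraMap (LaurentSeries ℂ) (AlgebraicClosure (LaurentSeries ℂ))).comp
          (P.Theta (X.rep (l : X.Idx))) with
        commutes' := fun g => congrArg (algebraMap (LaurentSeries ℂ) _)
          (RingHom.congr_fun (hover l) g) }
    exact Fintype.card_le_of_injective e fun l l' h => P.Theta_fib_injective b (RingHom.ext fun x =>
      (algebraMap (LaurentSeries ℂ) (AlgebraicClosure (LaurentSeries ℂ))).injective
        (DFunLike.congr_fun h x))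
  have h := TorsionHom.norm_eq_prod ψ (fun l : ↥(X.fib b X.one') => P.Theta (X.rep (l : X.Idx)))
    hover (P.Theta_fib_injective b) hcard f
  rw [Finset.prod_coe_sort (X.fib b X.one') (fun l => P.Theta (X.rep l) f)] at h
  exact h

end Pull

end FLTAgent.CarayolK
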