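import Fermat.Agent.CarayolK.Descend
import Fermat.Agent.CarayolK.Constants
import Fermat.Agent.Carayol.Bound

/-!
# The degree of the cover over the curve of level `q ^ (K + 1) M'`, divisibility at valuations
-/

set_option autoImplicit false
set_option linter.unusedSectionVars false
set_option linter.style.haveILetI false
set_option synthInstance.maxHeartbeats 400000
set_option maxHeartbeats 1000000

noncomputable section

open UpperHalfPlane hiding I I_re I_im
open Filter Topology Complex Function FLTAgent.ModEq FLTAgent.GoodModel ModularCurve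
open AlgebraicCurve
open scoped MatrixGroups Manifold Classical

namespace FLTAgent.CarayolK

open FLTAgent.Carayol (HhRel inv_mem_of_finite det_mul_eq_sum exists_valuation_eq_pow IsIntVal trComp
  ser_injective)
open FLTAgent.Carayol.Pull (gen_mem jd_qq)

local notation "QA" => AlgebraicClosure ℚ

theorem card_idx_eq {q M0 N' K : ℕ} [NeZero M0] [NeZero N'] [NeZero q] [Fact q.Prime]
    (X X' : Ctx q M0 N' K) : Fintype.card X.Idx = Fintype.card X'.Idx := by
  rw [← Nat.card_eq_fintype_card, ← Nat.card_eq_fintype_card]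
  rfl

namespace Pull

variable {q M0 N' K : ℕ} [NeZero M0] [NeZero N'] [NeZero q] [Fact q.Prime]
variable {X : Ctx q M0 N' K} {M' : ℕ} [NeZero M'] (P : Pull X M') {L : IntermediateField ℚ QA}

theorem eps_cW (w : X.W) : P.eps 1 (X.cW w) = HahnSeries.C (w : ℂ) := by
  rw [P.eps_eq, X.embAt_cW, sIncl, HahnSeries.C_apply, coeffMap_single]
  rfl

include P in
theorem exists_hhRel (hK : P.Small L) : ∃ d, HhRel P.κ M0 d := by
  have hd : q ∣ q ^ (K + 1) * M' := dvd_mul_of_dvd_left (dvd_pow_self q (Nat.succ_ne_zero K)) _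
  obtain ⟨Q, s, hQ⟩ := X.exists_poly_W ⟨jd q q, X.jd_mem P.hN hd⟩
    (fun γ _ => funext fun τ => by
      simp only [compg_apply]
      rw [jd_qq, jd_qq, jFun_smul])
    (fun k => by
      haveI : NeZero (q * (M0 * N' * q ^ (K - 1))) := ⟨mul_ne_zero (NeZero.ne _) (NeZero.ne _)⟩
      rw [X.ser_jd P.hN hd, show jAt (1 : X.Sˣ) (q * (M0 * N' * q ^ (K - 1))) = coeffMap X.inc (jAt 1 (q * (M0 * N' * q ^ (K - 1)))) by
        rw [coeffMap_jAt, map_one], coeffMap_coeff]
      exact ⟨_, rfl⟩)
  have hlift : ∀ R : Polynomial X.W, ∃ A : Polynomial QA, A.map P.κ = R.map X.W.subtype := fun R =>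
    (Polynomial.mem_map_range P.κ).2 fun i => by
      obtain ⟨c, -, hc⟩ := hK.mem (R.coeff i)
      exact ⟨c, by rw [Polynomial.coeff_map]; exact hc⟩
  set lin : Polynomial X.W := Polynomial.C X.co.α * Polynomial.X + Polynomial.C X.co.β
  obtain ⟨A1, hA1⟩ := hlift (Q.comp lin)
  obtain ⟨A2, hA2⟩ := hlift ((X.dltW ^ s).comp lin)
  have hlin : ∀ τ, (lin.map X.W.subtype).eval (hh M0 τ) = X.ctr.T τ := fun τ => by
    simp [lin, X.co.affine τ]
  have he1 : ∀ τ, (A1.map P.κ).eval (hh M0 τ) = (Q.map X.W.subtype).eval (X.ctr.T τ) := fun τ => by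
    rw [hA1, Polynomial.map_comp, Polynomial.eval_comp, hlin]
  have he2 : ∀ τ, (A2.map P.κ).eval (hh M0 τ) = X.ctr.dlt τ ^ s := fun τ => by
    rw [hA2, Polynomial.map_comp, Polynomial.eval_comp, hlin, Polynomial.map_pow, Polynomial.eval_pow]
    simp [Ctx.dltW, Carayol.Ctx.dlt, Polynomial.map_prod, Polynomial.eval_prod]
    rfl
  refine ⟨max A1.natDegree A2.natDegree, A1, A2, fun h => ?_, le_max_left _ _, le_max_right _ _, fun τ => ?_⟩
  · have := he2 UpperHalfPlane.I
    rw [h, Polynomial.map_zero, Polynomial.eval_zero] at this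
    exact pow_ne_zero s (X.ctr.dlt_ne _) this.symm
  · rw [he1, he2]
    have h := congrArg (fun z : trRing X.S X.lev => (z : ℍ → ℂ) τ) hQ
    rw [X.evT_apply, Polynomial.map_map] at h
    rw [← jd_qq (q := q) τ]
    refine Eq.trans ?_ h
    show _ = jd q q τ * ((X.evT X.dltS : ℍ → ℂ) ^ s) τ
    rw [Pi.pow_apply, X.evT_dltS]

/-- The field of the cover over all algebraic constants. -/
def Kc : Subfield (LaurentSeries ℂ) :=
  Subfield.closure (Set.range (fun c => HahnSeries.C (P.κ c)) ∪ Set.range (P.eps 1))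

theorem C_mem_Kc (c : QA) : HahnSeries.C (P.κ c) ∈ P.Kc := Subfield.subset_closure (Or.inl ⟨c, rfl⟩)

theorem eps_mem_Kc (a : X.R) : P.eps 1 a ∈ P.Kc := Subfield.subset_closure (Or.inr ⟨a, rfl⟩)

theorem Theta_mem_Kc (hK : P.Small L) (f : modularFunctionFieldBar (q * (q ^ (K - 1) * M') * q)) :
    P.Theta 1 f ∈ P.Kc := by
  have hle : P.Kf ≤ P.Kc := Subfield.closure_le.2 (by rintro _ ⟨a, rfl⟩; exact P.eps_mem_Kc a)
  obtain ⟨a, ha, b, hb, e⟩ := X0Fn.exists_div QA (q * (q ^ (K - 1) * M') * q) f.2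
  rw [P.Theta_one, e, map_div₀]
  have key : ∀ x ∈ X0Fn.XA QA (q * (q ^ (K - 1) * M') * q), P.theta x ∈ P.Kc := by
    intro x hx
    induction hx using Algebra.adjoin_induction with
    | mem y hy =>
      obtain ⟨_, ⟨d, hne, hd, rfl⟩, rfl⟩ := hy
      rw [coeffEmb, coeffMap_qExpand, ← jqModC_rat, coeffMap_jqModC]
      exact hle (P.theta_gen_mem hK d (hd.trans (dvd_of_eq (top_eq (X := X)))))
    | algebraMap r => rw [P.theta_algebraMap]; exact P.C_mem_Kc r
    | add x y _ _ hx hy => rw [map_add]; exact add_mem hx hy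
    | mul x y _ _ hx hy => rw [map_mul]; exact mul_mem hx hy
  exact div_mem (key a ha) (key b hb)

/-- The function field inside the field of the cover. -/
def ThetaK (hK : P.Small L) : modularFunctionFieldBar (q * (q ^ (K - 1) * M') * q) →+* P.Kc :=
  (P.Theta 1).codRestrict P.Kc (P.Theta_mem_Kc hK)

/-- The functions of the cover inside its field. -/
def epsK : X.R →+* P.Kc := (P.eps 1).codRestrict P.Kc P.eps_mem_Kc

/-- A bound for the degree of the cover. -/
theorem finrank_le (hK : P.Small L) {d : ℕ} (hrel : HhRel P.κ M0 d) :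
    letI := (P.ThetaK hK).toAlgebra
    FiniteDimensional (modularFunctionFieldBar (q * (q ^ (K - 1) * M') * q)) P.Kc ∧
      Module.finrank (modularFunctionFieldBar (q * (q ^ (K - 1) * M') * q)) P.Kc ≤ d * Fintype.card X.Idx := by
  letI := (P.ThetaK hK).toAlgebra
  obtain ⟨A1, A2, hA2, hd1, hd2, hrel⟩ := hrel
  obtain ⟨α', hα'⟩ := X.co.isUnit_α.exists_right_inv
  set hR : X.R := X.cW α' * (X.yR - X.cW X.co.β) with hhR
  have hhR' : ∀ τ, (hR : ℍ → ℂ) τ = hh M0 τ := fun τ => by
    have h1 : (X.co.α : ℂ) * (α' : ℂ) = 1 := by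
      have := congrArg (fun z : X.W => (z : ℂ)) hα'
      simpa using this
    show (α' : ℂ) * (X.ctr.T τ - (X.co.β : ℂ)) = _
    rw [Carayol.Ctx.T, X.co.affine τ]
    linear_combination hh M0 τ * h1
  set z : P.Kc := P.epsK hR
  have hd : q ∣ q ^ (K + 1) * M' := dvd_mul_of_dvd_left (dvd_pow_self q (Nat.succ_ne_zero K)) _
  have hjmem : qExpand QA q (jqModC QA) ∈ (modularFunctionFieldBar (q * (q ^ (K - 1) * M') * q)) := by
    have h := coeffEmb_mem_laurentBaseChange QA (jqd_mem_full (q * (q ^ (K - 1) * M') * q) (dvd_mul_left q (q * (q ^ (K - 1) * M'))))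
    rwa [coeffEmb, coeffMap_qExpand, ← jqModC_rat, coeffMap_jqModC] at h
  set jj : (modularFunctionFieldBar (q * (q ^ (K - 1) * M') * q)) := ⟨_, hjmem⟩
  set Pol : Polynomial (modularFunctionFieldBar (q * (q ^ (K - 1) * M') * q)) := A1.map (algebraMap QA (modularFunctionFieldBar (q * (q ^ (K - 1) * M') * q))) - Polynomial.C jj * A2.map (algebraMap QA (modularFunctionFieldBar (q * (q ^ (K - 1) * M') * q)))
  have hPol : Pol ≠ 0 := by
    intro h
    obtain ⟨i, hi⟩ : ∃ i, A2.coeff i ≠ 0 := by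
      by_contra hne
      push Not at hne
      exact hA2 (Polynomial.ext fun i => by rw [hne i, Polynomial.coeff_zero])
    have h1 := congrArg (fun p : Polynomial (modularFunctionFieldBar (q * (q ^ (K - 1) * M') * q)) => ((p.coeff i : (modularFunctionFieldBar (q * (q ^ (K - 1) * M') * q))) : LaurentSeries QA).coeff (-(q : ℤ))) h
    simp only [Pol, Polynomial.coeff_sub, Polynomial.coeff_map, Polynomial.coeff_C_mul,
      Polynomial.coeff_zero, IntermediateField.coe_zero, HahnSeries.coeff_zero] at h1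
    rw [AddSubgroupClass.coe_sub, IntermediateField.coe_mul, HahnSeries.coeff_sub] at h1
    change (algebraMap QA (LaurentSeries QA) (A1.coeff i)).coeff (-(q : ℤ)) -
      (qExpand QA q (jqModC QA) * algebraMap QA (LaurentSeries QA) (A2.coeff i)).coeff (-(q : ℤ)) = 0 at h1
    rw [algebraMap_eq_C, mul_comm, HahnSeries.C_mul_eq_smul, HahnSeries.coeff_smul, smul_eq_mul,
      geOrd_C (A1.coeff i) (-(q : ℤ)) (by have := X.hq.pos; omega), zero_sub, neg_eq_zero,
      show -(q : ℤ) = (q : ℤ) * (-1) by ring, qExpand_coeff_mul, mul_eq_zero] at h1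
    refine h1.elim hi ?_
    rw [← jAt_one_one]
    have := jAt_coeff_neg (1 : QAˣ) 1
    rw [show -((1 : ℕ) : ℤ) = -1 by norm_num] at this
    rw [this]
    simp
  have hroot : Polynomial.aeval z Pol = 0 := by
    have hfun : P.jf q hd * Polynomial.eval₂ (((Pi.constRingHom ℍ ℂ).comp P.κ).codRestrict P.Fn
        fun c => (P.cst c).2) (P.ι hR) A2 =
        Polynomial.eval₂ (((Pi.constRingHom ℍ ℂ).comp P.κ).codRestrict P.Fn
          fun c => (P.cst c).2) (P.ι hR) A1 := by
      refine Subtype.ext (funext fun τ => ?_)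
      have hev : ∀ A : Polynomial QA, ((Polynomial.eval₂ (((Pi.constRingHom ℍ ℂ).comp P.κ).codRestrict
          P.Fn fun c => (P.cst c).2) (P.ι hR) A : P.Fn) : ℍ → ℂ) τ = (A.map P.κ).eval (hh M0 τ) := by
        intro A
        show ((Pi.evalRingHom (fun _ : ℍ => ℂ) τ).comp P.Fn.subtype) _ = _
        rw [Polynomial.hom_eval₂, Polynomial.eval_map, ← hhR' τ]
        rfl
      show jd q q τ * _ = _
      rw [hev, hev, jd_qq]
      exact hrel τ
    have h1 := congrArg (P.big 1) hfun
    rw [map_mul, Polynomial.hom_eval₂, Polynomial.hom_eval₂,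
      ← P.Theta_gen 1 hd jj rfl] at h1
    have hc : (P.big 1).comp (((Pi.constRingHom ℍ ℂ).comp P.κ).codRestrict P.Fn fun c => (P.cst c).2) =
        ((P.Theta 1).comp (algebraMap QA (modularFunctionFieldBar (q * (q ^ (K - 1) * M') * q)))) := RingHom.ext fun c => by
      rw [RingHom.comp_apply, RingHom.comp_apply, P.Theta_algebraMap, ← P.big_cst 1 c]
      rfl
    rw [hc] at h1
    refine P.Kc.subtype.injective ?_
    rw [map_zero, Polynomial.aeval_def, Polynomial.hom_eval₂]
    simp only [Pol, Polynomial.eval₂_sub, Polynomial.eval₂_mul, Polynomial.eval₂_C, Polynomial.eval₂_map]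
    rw [show (P.Kc.subtype.comp (algebraMap (modularFunctionFieldBar (q * (q ^ (K - 1) * M') * q)) P.Kc)) = P.Theta 1 from RingHom.ext fun _ => rfl,
      show P.Kc.subtype z = P.big 1 (P.ι hR) from rfl, ← h1, sub_self]
  -- the first step
  set L1 := IntermediateField.adjoin (modularFunctionFieldBar (q * (q ^ (K - 1) * M') * q)) ({z} : Set P.Kc)
  have hint : IsIntegral (modularFunctionFieldBar (q * (q ^ (K - 1) * M') * q)) z := IsAlgebraic.isIntegral ⟨Pol, hPol, hroot⟩
  haveI hfin1 : FiniteDimensional (modularFunctionFieldBar (q * (q ^ (K - 1) * M') * q)) L1 := IntermediateField.adjoin.finiteDimensional hint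
  have hdeg1 : Module.finrank (modularFunctionFieldBar (q * (q ^ (K - 1) * M') * q)) L1 ≤ d := by
    rw [IntermediateField.adjoin.finrank hint]
    refine (Polynomial.natDegree_le_of_dvd (minpoly.dvd (modularFunctionFieldBar (q * (q ^ (K - 1) * M') * q)) z hroot) hPol).trans ?_
    refine (Polynomial.natDegree_sub_le _ _).trans (max_le ?_ ?_)
    · exact Polynomial.natDegree_map_le.trans hd1
    · exact (Polynomial.natDegree_C_mul_le _ _).trans (Polynomial.natDegree_map_le.trans hd2)
  have hcst : ∀ c : QA, (⟨_, P.C_mem_Kc c⟩ : P.Kc) ∈ L1 := fun c => by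
    have : (⟨_, P.C_mem_Kc c⟩ : P.Kc) = algebraMap (modularFunctionFieldBar (q * (q ^ (K - 1) * M') * q)) P.Kc (algebraMap QA (modularFunctionFieldBar (q * (q ^ (K - 1) * M') * q)) c) :=
      Subtype.ext (P.Theta_algebraMap 1 c).symm
    rw [this]
    exact IntermediateField.algebraMap_mem _ _
  have hW : ∀ w : X.W, P.epsK (X.cW w) ∈ L1 := fun w => by
    obtain ⟨c, -, hc⟩ := hK.mem w
    have : P.epsK (X.cW w) = ⟨_, P.C_mem_Kc c⟩ := Subtype.ext (by
      show P.eps 1 (X.cW w) = _
      rw [P.eps_eq, X.embAt_cW, sIncl, HahnSeries.C_apply, coeffMap_single]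
      exact congrArg (HahnSeries.single 0) hc.symm)
    rw [this]
    exact hcst c
  have hy : P.epsK X.yR ∈ L1 := by
    have : X.yR = X.cW X.co.α * hR + X.cW X.co.β := by
      rw [hhR, ← mul_assoc, ← map_mul, hα', map_one, one_mul, sub_add_cancel]
    rw [this, map_add, map_mul]
    exact add_mem (mul_mem (hW _) (IntermediateField.subset_adjoin (modularFunctionFieldBar (q * (q ^ (K - 1) * M') * q)) _ rfl)) (hW _)
  have hevR : ∀ Q : Polynomial X.W, P.epsK (X.evR Q) ∈ L1 := fun Q => by
    rw [Ctx.evR, Polynomial.coe_eval₂RingHom, Polynomial.eval₂_eq_sum_range, map_sum]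
    exact sum_mem fun i _ => by rw [map_mul, map_pow]; exact mul_mem (hW _) (pow_mem hy i)
  have hdR : P.epsK X.dR ∈ L1 := by
    have h := congrArg P.epsK X.evR_dltW_mul_dR
    rw [map_mul, map_one] at h
    rw [eq_inv_of_mul_eq_one_right h]
    exact inv_mem (hevR _)
  -- the second step
  obtain ⟨r, hr⟩ := X.exists_basis
  set e := Fintype.equivFin X.Idx
  set M : Submodule L1 P.Kc := Submodule.span L1 (Set.range fun l => P.epsK (r l))
  have hinjE : Injective P.epsK := fun a b h => P.eps_injective 1 (congrArg Subtype.val h)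
  have hall : ∀ a, P.epsK a ∈ M := by
    intro a
    haveI := X.isDomain_trRing
    set V : Matrix (Fin (Fintype.card X.Idx)) (Fin (Fintype.card X.Idx)) (trRing X.S X.lev) :=
      Matrix.of fun i j => X.trEl (e.symm i) (r j) with hVdef
    have hV : V.det ≠ 0 := fun h => hr (by
      have h2 := congrArg ser h
      rw [RingHom.map_det, map_zero] at h2
      exact h2)
    have htr : ∀ b : X.R, ∃ u : X.R, P.epsK u ∈ L1 ∧
        Subring.inclusion X.R_le u = ∑ l, trComp (X.rep l) (Subring.inclusion X.R_le b) := by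
      intro b
      obtain ⟨Q, s, hQ⟩ := X.exists_trace hK.fixed b
      refine ⟨X.evR Q * X.dR ^ s, by rw [map_mul, map_pow]; exact mul_mem (hevR Q) (pow_mem hdR s), ?_⟩
      have hdd : X.evT X.dltS * Subring.inclusion X.R_le X.dR = 1 := by
        rw [← X.map_dltW, ← X.incl_evR, ← map_mul, X.evR_dltW_mul_dR, map_one]
      rw [map_mul, map_pow, X.incl_evR, ← hQ, mul_assoc, ← mul_pow, hdd, one_pow, mul_one]
    choose u hu1 hu2 using htr
    set Tm : Matrix (Fin (Fintype.card X.Idx)) (Fin (Fintype.card X.Idx)) X.R :=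
      Matrix.of fun i j => u (r i * r j)
    set t : Fin (Fintype.card X.Idx) → X.R := fun j => u (a * r j)
    have hmap : (Subring.inclusion X.R_le).mapMatrix Tm = V.transpose * V := Matrix.ext fun i j => by
      rw [Matrix.mul_apply]
      show Subring.inclusion X.R_le (u (r i * r j)) = _
      rw [hu2]
      refine (Fintype.sum_equiv e.symm _ _ fun x => ?_).symm
      simp [hVdef, Ctx.trEl]
    set w : Fin (Fintype.card X.Idx) → trRing X.S X.lev := fun m => X.trEl (e.symm m) a
    have ht : ∀ j, Subring.inclusion X.R_le (t j) = ∑ m, w m * V m j := fun j => by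
      show Subring.inclusion X.R_le (u (a * r j)) = _
      rw [hu2]
      refine (Fintype.sum_equiv e.symm _ _ fun x => ?_).symm
      simp [hVdef, w, Ctx.trEl]
    have h1 := det_mul_eq_sum V hV w (e X.one')
    have hr0 : ∀ l, V (e X.one') l = Subring.inclusion X.R_le (r l) := fun l => by
      show X.trEl (e.symm (e X.one')) (r l) = _
      rw [Equiv.symm_apply_apply, X.trEl_one]
    have hw0 : w (e X.one') = Subring.inclusion X.R_le a := by
      show X.trEl (e.symm (e X.one')) a = _
      rw [Equiv.symm_apply_apply, X.trEl_one]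
    have hinjI := Subring.inclusion_injective X.R_le
    have h2 : Tm.det * a = ∑ l, (∑ j, Tm.adjugate l j * t j) * r l := by
      refine hinjI ?_
      rw [map_mul, RingHom.map_det, hmap, ← hw0, h1, map_sum]
      refine Finset.sum_congr rfl fun l _ => ?_
      rw [map_mul, map_sum, hr0]
      congr 1
      refine Finset.sum_congr rfl fun j _ => ?_
      rw [map_mul, ht]
      congr 1
      have h := congrFun (congrFun ((Subring.inclusion X.R_le).map_adjugate Tm) l) j
      rw [hmap] at h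
      exact h.symm
    have hdet : Tm.det ≠ 0 := fun h => by
      have := congrArg (Subring.inclusion X.R_le) h
      rw [RingHom.map_det, hmap, map_zero, Matrix.det_mul, Matrix.det_transpose] at this
      exact mul_ne_zero hV hV this
    have hTmem : ∀ i j, P.epsK (Tm i j) ∈ L1 := fun i j => hu1 _
    set T' : Matrix (Fin (Fintype.card X.Idx)) (Fin (Fintype.card X.Idx)) L1 :=
      Matrix.of fun i j => ⟨_, hTmem i j⟩
    have hT' : L1.val.toRingHom.mapMatrix T' = P.epsK.mapMatrix Tm := rfl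
    have hdetm : P.epsK Tm.det ∈ L1 := by
      rw [RingHom.map_det, ← hT', ← RingHom.map_det]
      exact (T'.det).2
    have hadjm : ∀ l j, P.epsK (Tm.adjugate l j) ∈ L1 := fun l j => by
      have h := congrFun (congrFun (P.epsK.map_adjugate Tm) l) j
      rw [← hT', ← RingHom.map_adjugate] at h
      rw [RingHom.mapMatrix_apply, Matrix.map_apply, RingHom.mapMatrix_apply, Matrix.map_apply] at h
      rw [h]
      exact (T'.adjugate l j).2
    have h3 : P.epsK a = ∑ l,
        ((P.epsK Tm.det)⁻¹ * ∑ j, P.epsK (Tm.adjugate l j) * P.epsK (t j)) * P.epsK (r l) := by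
      have h4 := congrArg P.epsK h2
      simp only [map_mul, map_sum] at h4
      simp only [mul_assoc]
      rw [← Finset.mul_sum, ← h4, ← mul_assoc,
        inv_mul_cancel₀ ((map_ne_zero_iff _ hinjE).2 hdet), one_mul]
    rw [h3]
    refine sum_mem fun l _ => ?_
    have hc : (P.epsK Tm.det)⁻¹ * ∑ j, P.epsK (Tm.adjugate l j) * P.epsK (t j) ∈ L1 :=
      mul_mem (inv_mem hdetm) (sum_mem fun j _ => mul_mem (hadjm l j) (hu1 _))
    exact M.smul_mem (⟨_, hc⟩ : L1) (Submodule.subset_span ⟨l, rfl⟩)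
  set S2 : Subalgebra L1 P.Kc := Algebra.adjoin L1 (Set.range P.epsK)
  have hle2 : Subalgebra.toSubmodule S2 ≤ M := by
    rw [Algebra.adjoin_eq_span]
    refine Submodule.span_le.2 fun x hx => ?_
    have hcl : Submonoid.closure (Set.range P.epsK) ≤ MonoidHom.mrange P.epsK.toMonoidHom :=
      Submonoid.closure_le.2 (by rintro _ ⟨b, rfl⟩; exact ⟨b, rfl⟩)
    obtain ⟨b, rfl⟩ := hcl hx
    exact hall b
  haveI hfinM : FiniteDimensional L1 M := FiniteDimensional.span_of_finite L1 (Set.finite_range _)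
  haveI hfinS : FiniteDimensional L1 S2 := Submodule.finiteDimensional_of_le hle2
  set L2 : Subfield P.Kc :=
    { S2.toSubring with inv_mem' := fun x hx => inv_mem_of_finite S2 hx }
  have hL2 : ∀ x : P.Kc, x ∈ L2 := by
    have hmap : P.Kc ≤ L2.map P.Kc.subtype := by
      refine Subfield.closure_le.2 ?_
      rintro _ (⟨c, rfl⟩ | ⟨b, rfl⟩)
      · exact ⟨⟨_, P.C_mem_Kc c⟩, S2.algebraMap_mem (⟨_, hcst c⟩ : L1), rfl⟩
      · exact ⟨P.epsK b, Algebra.subset_adjoin ⟨b, rfl⟩, rfl⟩
    intro x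
    obtain ⟨y, hy, hyx⟩ := hmap x.2
    rwa [← Subtype.ext (hyx : (y : LaurentSeries ℂ) = x)]
  have hM : M = ⊤ := eq_top_iff.2 fun x _ => hle2 (hL2 x)
  haveI hfin2 : FiniteDimensional L1 P.Kc := by
    rw [hM] at hfinM
    exact Module.Finite.equiv Submodule.topEquiv
  have hdeg2 : Module.finrank L1 P.Kc ≤ Fintype.card X.Idx := by
    rw [← finrank_top L1 P.Kc, ← hM]
    refine (finrank_range_le_card (R := L1) _).trans ?_
    simp
  refine ⟨Module.Finite.trans L1 P.Kc, ?_⟩
  rw [← Module.finrank_mul_finrank (modularFunctionFieldBar (q * (q ^ (K - 1) * M') * q)) L1 P.Kc]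
  exact Nat.mul_le_mul hdeg1 hdeg2

/-- The constants in the field of the cover. -/
def cstK : QA →+* P.Kc :=
  ((HahnSeries.C : ℂ →+* LaurentSeries ℂ).comp P.κ).codRestrict P.Kc fun c => P.C_mem_Kc c

/-- The divisor condition gives the valuation condition on the cover. -/
theorem vDvd (hK : P.Small L) {f : modularFunctionFieldBar (q * (q ^ (K - 1) * M') * q)} (hf : f ≠ 0) {n : ℕ}
    (hn : n ≠ 0) (D : Divisor QA (modularFunctionFieldBar (q * (q ^ (K - 1) * M') * q)))
    (hD : ∀ v, (n : ℤ) * D v = v.ord f) {a d : X.R} (hd : d ≠ 0)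
    (had : P.eps 1 d * P.Theta 1 f = P.eps 1 a) :
    X.VDvd n (a * d ^ (n - 1)) := by
  intro v hv
  have hinjE : Injective P.epsK := fun x y h => P.eps_injective 1 (congrArg Subtype.val h)
  set j : FractionRing X.R →+* P.Kc := IsFractionRing.lift hinjE
  have hj : ∀ x, j (algebraMap X.R (FractionRing X.R) x) = P.epsK x := fun x =>
    IsFractionRing.lift_algebraMap hinjE x
  letI : Algebra QA P.Kc := P.cstK.toAlgebra
  have hfrac : ∀ c : L, ∃ w w' : X.W, w' ≠ 0 ∧
      P.cstK c * P.epsK (X.cW w') = P.epsK (X.cW w) := fun c => by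
    obtain ⟨w, w', hw', h⟩ := hK.frac c c.2
    refine ⟨w, w', hw', Subtype.ext ?_⟩
    show HahnSeries.C (P.κ c) * P.eps 1 (X.cW w') = P.eps 1 (X.cW w)
    rw [P.eps_cW, P.eps_cW, ← map_mul, h]
  have hne : ∀ w : X.W, w ≠ 0 → algebraMap X.R (FractionRing X.R) (X.cW w) ≠ 0 := fun w hw h =>
    Ctx.cW_ne hw (IsFractionRing.injective X.R (FractionRing X.R) (h.trans (map_zero _).symm))
  have hmemj : ∀ c : L, P.cstK c ∈ j.fieldRange := fun c => by
    obtain ⟨w, w', hw', h⟩ := hfrac c
    refine ⟨algebraMap _ _ (X.cW w) / algebraMap _ _ (X.cW w'), ?_⟩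
    rw [map_div₀, hj, hj, ← h, mul_div_cancel_right₀]
    exact (map_ne_zero_iff _ hinjE).2 (Ctx.cW_ne hw')
  set jK : L →+* FractionRing X.R := (RingHom.rangeRestrictFieldEquiv j).symm.toRingHom.comp
    ((P.cstK.comp L.val.toRingHom).codRestrict j.fieldRange hmemj) with hjK
  have hcomm : ∀ c, j (jK c) = algebraMap QA P.Kc (algebraMap L QA c) := fun c =>
    congrArg Subtype.val ((RingHom.rangeRestrictFieldEquiv j).apply_symm_apply
      ⟨P.cstK c, hmemj c⟩)
  have hv' : IsIntVal jK v := by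
    refine ⟨hv.map_mul, hv.map_add, fun c hc => ?_⟩
    obtain ⟨w, w', hw', h⟩ := hfrac c
    have h1 : jK c * algebraMap X.R (FractionRing X.R) (X.cW w') =
        algebraMap X.R (FractionRing X.R) (X.cW w) := j.injective (by
      rw [map_mul, hcomm, hj, hj]; exact h)
    have hw : w ≠ 0 := fun h0 => mul_ne_zero hc (hne w' hw') (by rw [h1, h0, map_zero, map_zero])
    have h2 := hv.map_mul _ _ hc (hne w' hw')
    have h3 := hv.map_const w (hne w hw)
    have h4 := hv.map_const w' (hne w' hw')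
    simp only [RingHom.comp_apply] at h3 h4
    rw [h1, h3, h4, add_zero] at h2
    exact h2.symm
  have hgen : Subfield.closure (Set.range (algebraMap QA P.Kc) ∪ Set.range j) = ⊤ := by
    set L := Subfield.closure (Set.range (algebraMap QA P.Kc) ∪ Set.range j)
    have hmap : P.Kc ≤ L.map P.Kc.subtype := by
      refine Subfield.closure_le.2 ?_
      rintro _ (⟨c, rfl⟩ | ⟨b, rfl⟩)
      · exact ⟨P.cstK c, Subfield.subset_closure (Or.inl ⟨c, rfl⟩), rfl⟩
      · exact ⟨P.epsK b, Subfield.subset_closure (Or.inr ⟨_, hj b⟩), rfl⟩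
    refine eq_top_iff.2 fun x _ => ?_
    obtain ⟨y, hy, hyx⟩ := hmap x.2
    rwa [← Subtype.ext (hyx : (y : LaurentSeries ℂ) = x)]
  have ha : a ≠ 0 := fun h0 => by
    rw [h0, map_zero, mul_eq_zero] at had
    rcases had with h | h
    · exact hd (P.eps_injective 1 (h.trans (map_zero _).symm))
    · exact hf ((P.Theta 1).injective (h.trans (map_zero _).symm))
  haveI : Algebra.IsAlgebraic ℚ QA := AlgebraicClosure.isAlgebraic ℚ
  haveI : Algebra.IsAlgebraic L QA := Algebra.IsAlgebraic.tower_top (K := ℚ) L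
  refine EigenLattice.dvd_intVal_of_forall jK j hcomm hgen hv'
    ((map_ne_zero_iff _ (IsFractionRing.injective X.R (FractionRing X.R))).2
      (mul_ne_zero ha (pow_ne_zero _ hd))) fun V hV => ?_
  obtain ⟨g, hg⟩ := exists_valuation_eq_pow (P.ThetaK hK) V (fun c => by
    have : P.ThetaK hK (algebraMap QA _ c) = P.cstK c := Subtype.ext (P.Theta_algebraMap 1 c)
    rw [this]
    exact hV c) hf D hD
  refine ⟨P.epsK d * g, ?_⟩
  have hkey : P.epsK (a * d ^ (n - 1)) = P.epsK d ^ n * P.ThetaK hK f := by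
    refine Subtype.ext ?_
    show P.eps 1 (a * d ^ (n - 1)) = P.eps 1 d ^ n * P.Theta 1 f
    obtain ⟨m, rfl⟩ := Nat.exists_eq_succ_of_ne_zero hn
    rw [map_mul, map_pow, ← had, Nat.succ_sub_one, pow_succ]
    ring
  rw [hj, hkey, map_mul, map_pow, hg, map_mul, mul_pow]

end Pull

end FLTAgent.CarayolK
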