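import Fermat.Agent.CarayolK.Descent
import Fermat.Agent.Carayol.StableFrac

/-!
# The function field of the cover
-/

set_option autoImplicit false
set_option linter.unusedSectionVars false
set_option linter.style.haveILetI false

noncomputable section

open UpperHalfPlane hiding I I_re I_im
open Filter Topology Complex Function FLTAgent.ModEq FLTAgent.GoodModel ModularCurve
open scoped MatrixGroups Manifold Classical

namespace FLTAgent.CarayolK

open FLTAgent.Carayol (Coord coordT ser_injective trComp mem_trRing_of_level sPairs_mono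
  coeffMap_range det_mul_eq_sum not_eval₂_eq_zero)

namespace Ctx

variable {q M0 N' K : ℕ} [NeZero M0] [NeZero N'] [NeZero q] [Fact q.Prime] (X : Ctx q M0 N' K)

theorem fix_inc {σ : X.S ≃+* X.S} (hσ : ∀ w, σ (X.inc w) = X.inc w) (G : LaurentSeries X.W) :
    coeffMap σ.toRingHom (coeffMap X.inc G) = coeffMap X.inc G :=
  X.ctr.fix_inc hσ G

/-- A translate of an element as an element of the big ring. -/
def trEl (l : X.Idx) (a : X.R) : trRing X.S (X.lev) :=
  trComp (X.rep l) (Subring.inclusion X.R_le a)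

theorem ser_trEl (l : X.Idx) (a : X.R) : ser (X.trEl l a) = X.emb l a := rfl

theorem trEl_one (a : X.R) : X.trEl X.one' a = Subring.inclusion X.R_le a :=
  Subtype.ext ((X.compg_rep_idx (one_mem _) a).trans (compg_one _))

theorem trEl_perm {γ : SL(2, ℤ)} (hγ : γ ∈ CongruenceSubgroup.Gamma M0) (l : X.Idx) (a : X.R) :
    trComp γ (X.trEl l a) = X.trEl (X.perm hγ l) a :=
  Subtype.ext (X.compg_rep_perm hγ l (X.stab_R a)).symm

theorem perm_one' {γ : SL(2, ℤ)} (hγ : γ ∈ CongruenceSubgroup.Gamma M0) :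
    X.perm hγ X.one' = X.idx hγ := by
  refine X.emb_injective_idx (RingHom.ext fun a => ?_)
  rw [← X.ser_trEl, ← X.ser_trEl, ← X.trEl_perm hγ, X.trEl_one]
  exact congrArg ser (Subtype.ext (X.compg_rep_idx hγ a).symm)

theorem perm_rep_one' (l : X.Idx) : X.perm (X.rep_mem l) X.one' = l := by
  rw [X.perm_one']
  exact Subtype.ext (X.triple_rep l)

theorem isDomain_trRing : IsDomain (trRing X.S (X.lev)) :=
  (ser_injective (S := X.S) (n := X.lev)).isDomain _

/-- A separating element. -/
theorem exists_separating : ∃ θ : X.R, Injective fun l => X.emb l θ := X.exists_separating_R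

theorem exists_basis : ∃ r : Fin (Fintype.card X.Idx) → X.R,
    (Matrix.of fun i j => X.emb ((Fintype.equivFin X.Idx).symm i) (r j)).det ≠ 0 := by
  obtain ⟨θ, hθ⟩ := X.exists_separating
  refine ⟨fun j => θ ^ (j : ℕ), ?_⟩
  have e : (Matrix.of fun i j : Fin (Fintype.card X.Idx) =>
      X.emb ((Fintype.equivFin X.Idx).symm i) (θ ^ (j : ℕ))) =
      Matrix.vandermonde fun i => X.emb ((Fintype.equivFin X.Idx).symm i) θ := by
    ext i j
    simp [Matrix.vandermonde]
  rw [e]
  exact Matrix.det_vandermonde_ne_zero_iff.2 (hθ.comp (Fintype.equivFin X.Idx).symm.injective)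

/-- A stable function with small traces is a quotient of two elements. -/
theorem exists_frac (hF : X.FixedPart) (φ : trRing X.S (X.lev))
    (hstab : X.Stab (φ : ℍ → ℂ))
    (hser : ∀ (a : X.R) (k : ℤ),
      (ser (∑ l, trComp (X.rep l) (φ * Subring.inclusion X.R_le a))).coeff k ∈ X.inc.range) :
    ∃ a d : X.R, d ≠ 0 ∧ Subring.inclusion X.R_le d * φ = Subring.inclusion X.R_le a := by
  haveI := X.isDomain_trRing
  obtain ⟨r, hr⟩ := X.exists_basis
  set e := Fintype.equivFin X.Idx
  set i0 := e X.one'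
  set V : Matrix (Fin (Fintype.card X.Idx)) (Fin (Fintype.card X.Idx)) (trRing X.S (X.lev)) :=
    Matrix.of fun i j => X.trEl (e.symm i) (r j) with hVdef
  have hV : V.det ≠ 0 := fun h => hr (by
    have h2 := congrArg ser h
    rw [RingHom.map_det, map_zero] at h2
    exact h2)
  have hTm : ∀ i j, ∃ u : X.R, Subring.inclusion X.R_le u = (V.transpose * V) i j := by
    intro i j
    have hs : (V.transpose * V) i j = ∑ l, trComp (X.rep l) (Subring.inclusion X.R_le (r i * r j)) := by
      rw [Matrix.mul_apply]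
      refine Fintype.sum_equiv e.symm _ _ fun x => ?_
      simp [hVdef, trEl]
    obtain ⟨P, s, hP⟩ := X.exists_trace hF (r i * r j)
    refine ⟨X.evR P * X.dR ^ s, ?_⟩
    have hd : X.evT X.dltS * Subring.inclusion X.R_le X.dR = 1 := by
      rw [← X.map_dltW, ← X.incl_evR, ← map_mul, X.evR_dltW_mul_dR, map_one]
    rw [hs, map_mul, map_pow, X.incl_evR, ← hP, mul_assoc, ← mul_pow, hd, one_pow, mul_one]
  have ht : ∀ j, ∃ u : X.R, Subring.inclusion X.R_le u =
      ∑ m, trComp (X.rep (e.symm m)) φ * V m j := by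
    intro j
    have hs : ∑ m, trComp (X.rep (e.symm m)) φ * V m j =
        ∑ l, trComp (X.rep l) (φ * Subring.inclusion X.R_le (r j)) := by
      refine Fintype.sum_equiv e.symm _ _ fun x => ?_
      simp [hVdef, trEl]
    obtain ⟨u, -, hu⟩ := X.exists_mem_U (∑ l, trComp (X.rep l) (φ * Subring.inclusion X.R_le (r j)))
      (fun γ hγ => by
        rw [AddSubmonoidClass.coe_finsetSum]
        refine X.sum_invariant (φ := ((φ * Subring.inclusion X.R_le (r j) :
          trRing X.S (X.lev)) : ℍ → ℂ)) ?_ hγ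
        intro γ1 γ2 h1 h2 htr
        show compg γ1 ((φ : ℍ → ℂ) * (r j : ℍ → ℂ)) = compg γ2 ((φ : ℍ → ℂ) * (r j : ℍ → ℂ))
        rw [map_mul, map_mul, hstab γ1 γ2 h1 h2 htr, X.stab_R (r j) γ1 γ2 h1 h2 htr])
      (hser (r j))
    exact ⟨u, hu.trans hs.symm⟩
  choose Tm hTm using hTm
  choose t ht using ht
  have hmap : (Subring.inclusion X.R_le).mapMatrix (Matrix.of Tm) = V.transpose * V :=
    Matrix.ext fun i j => hTm i j
  have hdet : Subring.inclusion X.R_le (Matrix.of Tm).det = (V.transpose * V).det := by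
    rw [RingHom.map_det, hmap]
  have hadj : ∀ i j, Subring.inclusion X.R_le ((Matrix.of Tm).adjugate i j) =
      (V.transpose * V).adjugate i j := fun i j => by
    have h := congrFun (congrFun ((Subring.inclusion X.R_le).map_adjugate (Matrix.of Tm)) i) j
    rw [hmap] at h
    exact h
  refine ⟨∑ l, (∑ j, (Matrix.of Tm).adjugate l j * t j) * r l, (Matrix.of Tm).det, fun h => ?_, ?_⟩
  · have := congrArg (Subring.inclusion X.R_le) h
    rw [hdet, map_zero, Matrix.det_mul, Matrix.det_transpose] at this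
    exact mul_ne_zero hV hV this
  have h1 := det_mul_eq_sum V hV (fun m => trComp (X.rep (e.symm m)) φ) i0
  have hφ0 : trComp (X.rep (e.symm i0)) φ = φ := by
    refine Subtype.ext ?_
    show compg (X.rep (e.symm i0)) (φ : ℍ → ℂ) = φ
    rw [Equiv.symm_apply_apply]
    refine (hstab _ 1 (X.rep_mem _) (one_mem _) ?_).trans (compg_one _)
    exact X.triple_rep X.one'
  have hr0 : ∀ l, V i0 l = Subring.inclusion X.R_le (r l) := fun l => by
    show X.trEl (e.symm i0) (r l) = _
    rw [Equiv.symm_apply_apply, X.trEl_one]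
  rw [hdet]
  simp only [hφ0, hr0] at h1
  rw [h1, map_sum]
  refine Finset.sum_congr rfl fun l _ => ?_
  rw [map_mul, map_sum]
  congr 1
  exact Finset.sum_congr rfl fun j _ => by rw [map_mul, hadj, ht]

theorem emb_perm_iff {γ : SL(2, ℤ)} (hγ : γ ∈ CongruenceSubgroup.Gamma M0) (l l' : X.Idx) (a : X.R) :
    X.emb (X.perm hγ l) a = X.emb (X.perm hγ l') a ↔ X.emb l a = X.emb l' a := by
  simp only [← X.ser_trEl, ← X.trEl_perm hγ]
  constructor
  · intro h
    refine congrArg ser (Subtype.ext (compg_injective γ ?_))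
    exact congrArg Subtype.val (ser_injective h)
  · intro h
    rw [ser_injective h]

/-- A root of a monic polynomial over the line. -/
def IntU (Z : LaurentSeries X.S) : Prop := ((X.embAt 1).comp X.U.subtype).IsIntegralElem Z

theorem intU_emb (hF : X.FixedPart) (l : X.Idx) (a : X.R) : X.IntU (X.emb l a) := by
  obtain ⟨p, hp, -, hk, -, hmap⟩ := X.exists_charpoly hF a
  obtain ⟨p', hp', -, hm⟩ := Polynomial.lifts_and_natDegree_eq_and_monic
    ((Polynomial.lifts_iff_coeff_lifts (f := X.U.subtype) p).2 fun k => ⟨⟨_, hk k⟩, rfl⟩) hp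
  refine ⟨p', hm, ?_⟩
  rw [← Polynomial.eval_map, ← Polynomial.map_map, hp', hmap, Polynomial.eval_prod]
  exact Finset.prod_eq_zero (Finset.mem_univ l) (by simp)

theorem intU_prod {ι : Type*} (s : Finset ι) (F : ι → LaurentSeries X.S) (h : ∀ i ∈ s, X.IntU (F i)) :
    X.IntU (∏ i ∈ s, F i) := by
  induction s using Finset.induction with
  | empty => simpa [IntU] using ((X.embAt 1).comp X.U.subtype).isIntegralElem_one
  | insert i s hi ih =>
    rw [Finset.prod_insert hi]
    exact RingHom.IsIntegralElem.mul _ (h i (Finset.mem_insert_self _ _))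
      (ih fun j hj => h j (Finset.mem_insert_of_mem hj))

theorem eq_zero_of_eval_Ys {P : Polynomial X.S} (h : P.eval₂ HahnSeries.C X.Ys = 0) : P = 0 := by
  have h1 : (P.map X.S.subtype).eval₂ HahnSeries.C (sIncl X.S X.Ys) = 0 := by
    have h0 := congrArg (sIncl X.S) h
    rw [map_zero, Polynomial.hom_eval₂] at h0
    rw [Polynomial.eval₂_map]
    refine Eq.trans ?_ h0
    congr 1
    ext x : 1
    simp [sIncl, HahnSeries.C_apply, coeffMap_single]
  have hl : LeadAt (sIncl X.S X.Ys - HahnSeries.C (0 : ℂ)) (-((N' * q ^ K : ℕ) : ℤ)) := by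
    rw [map_zero, sub_zero, X.Ys_eq]
    refine ⟨fun i hi => ?_, ?_⟩
    · rw [sIncl, coeffMap_coeff, coeffMap_coeff, X.leadAt_Ys_W.1 i hi, map_zero, map_zero]
    · rw [sIncl, coeffMap_coeff, coeffMap_coeff]
      exact (X.leadAt_Ys_W.2.map X.inc).map X.S.subtype
  have hne : -((N' * q ^ K : ℕ) : ℤ) ≠ 0 := neg_ne_zero.2 (by exact_mod_cast NeZero.ne (N' * q ^ K))
  exact (Polynomial.map_eq_zero_iff Subtype.val_injective).1 (not_eval₂_eq_zero hne hl h1)

/-- Fixed expansions of elements of the cover. -/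
theorem coeffMap_embAt_one (hF : X.FixedPart) {σ : X.S ≃+* X.S} (hσ : ∀ w, σ (X.inc w) = X.inc w)
    (a : X.R) : coeffMap σ.toRingHom (X.embAt 1 a) = X.embAt 1 a := by
  ext k
  obtain ⟨w, hw⟩ := X.coeff_embAt_one hF a k
  rw [coeffMap_coeff, ← hw]
  exact congrArg Subtype.val (hσ w)

theorem ser_incl (a : X.R) : ser (Subring.inclusion X.R_le a) = X.embAt 1 a := by
  rw [X.embAt_apply]
  exact congrArg ser (Subtype.ext (compg_one _).symm)

theorem trComp_evT {γ : SL(2, ℤ)} (hγ : γ ∈ CongruenceSubgroup.Gamma M0) (P : Polynomial X.S) :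
    trComp γ (X.evT P) = X.evT P := by
  refine Subtype.ext (funext fun τ => ?_)
  show (X.evT P : ℍ → ℂ) (γ • τ) = _
  rw [X.evT_apply, X.evT_apply, X.ctr.T_pm (Or.inl hγ)]

theorem trComp_dR {γ : SL(2, ℤ)} (hγ : γ ∈ CongruenceSubgroup.Gamma M0) :
    trComp γ (Subring.inclusion X.R_le X.dR) = Subring.inclusion X.R_le X.dR := by
  refine Subtype.ext (funext fun τ => ?_)
  show (X.ctr.dlt (γ • τ))⁻¹ = (X.ctr.dlt τ)⁻¹
  simp only [Carayol.Ctx.dlt, X.ctr.T_pm (Or.inl hγ)]

/-- A stable function with expansion over the small ring is a quotient of two elements. -/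
theorem exists_frac_of_ser (hF : X.FixedPart) (φ : trRing X.S (X.lev))
    (hstab : X.Stab (φ : ℍ → ℂ)) (hser : ∀ k : ℤ, (ser φ).coeff k ∈ X.inc.range) :
    ∃ a d : X.R, d ≠ 0 ∧ Subring.inclusion X.R_le d * φ = Subring.inclusion X.R_le a := by
  haveI := X.isDomain_trRing
  obtain ⟨r, hr⟩ := X.exists_basis
  set e := Fintype.equivFin X.Idx
  set i0 := e X.one'
  set V : Matrix (Fin (Fintype.card X.Idx)) (Fin (Fintype.card X.Idx)) (trRing X.S (X.lev)) :=
    Matrix.of fun i j => X.trEl (e.symm i) (r j) with hVdef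
  have hV : V.det ≠ 0 := fun h => hr (by
    have h2 := congrArg ser h
    rw [RingHom.map_det, map_zero] at h2
    exact h2)
  have hd : X.evT X.dltS * Subring.inclusion X.R_le X.dR = 1 := by
    rw [← X.map_dltW, ← X.incl_evR, ← map_mul, X.evR_dltW_mul_dR, map_one]
  have hTm : ∀ i j, ∃ u : X.R, Subring.inclusion X.R_le u = (V.transpose * V) i j ∧
      ∀ γ ∈ CongruenceSubgroup.Gamma M0, trComp γ ((V.transpose * V) i j) = (V.transpose * V) i j := by
    intro i j
    have hs : (V.transpose * V) i j = ∑ l, trComp (X.rep l) (Subring.inclusion X.R_le (r i * r j)) := by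
      rw [Matrix.mul_apply]
      refine Fintype.sum_equiv e.symm _ _ fun x => ?_
      simp [hVdef, trEl]
    obtain ⟨P, s, hP⟩ := X.exists_trace hF (r i * r j)
    have he : Subring.inclusion X.R_le (X.evR P * X.dR ^ s) = (V.transpose * V) i j := by
      rw [hs, map_mul, map_pow, X.incl_evR, ← hP, mul_assoc, ← mul_pow, hd, one_pow, mul_one]
    refine ⟨X.evR P * X.dR ^ s, he, fun γ hγ => ?_⟩
    rw [← he, map_mul, map_pow, X.incl_evR, map_mul, map_pow, X.trComp_evT hγ, X.trComp_dR hγ]
  have ht : ∀ j, ∃ (P : Polynomial X.S) (s : ℕ),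
      (∑ m, trComp (X.rep (e.symm m)) φ * V m j) =
        X.evT P * Subring.inclusion X.R_le X.dR ^ s := by
    intro j
    have hs : ∑ m, trComp (X.rep (e.symm m)) φ * V m j =
        ∑ l, trComp (X.rep l) (φ * Subring.inclusion X.R_le (r j)) := by
      refine Fintype.sum_equiv e.symm _ _ fun x => ?_
      simp [hVdef, trEl]
    obtain ⟨P, s, hP⟩ := X.exists_poly_el (∑ l, trComp (X.rep l) (φ * Subring.inclusion X.R_le (r j)))
      (fun γ hγ => by
        rw [AddSubmonoidClass.coe_finsetSum]
        refine X.sum_invariant (φ := ((φ * Subring.inclusion X.R_le (r j) :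
          trRing X.S (X.lev)) : ℍ → ℂ)) ?_ hγ
        intro γ1 γ2 h1 h2 htr
        show compg γ1 ((φ : ℍ → ℂ) * (r j : ℍ → ℂ)) = compg γ2 ((φ : ℍ → ℂ) * (r j : ℍ → ℂ))
        rw [map_mul, map_mul, hstab γ1 γ2 h1 h2 htr, X.stab_R (r j) γ1 γ2 h1 h2 htr])
    exact ⟨P, s, by rw [hs, ← hP, mul_assoc, ← mul_pow, hd, one_pow, mul_one]⟩
  choose Tm hTm hinv' using hTm
  have hinv : ∀ γ ∈ CongruenceSubgroup.Gamma M0, ∀ i j,
      trComp γ ((V.transpose * V) i j) = (V.transpose * V) i j := fun γ hγ i j => hinv' i j γ hγ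
  choose P s ht using ht
  have hmap : (Subring.inclusion X.R_le).mapMatrix (Matrix.of Tm) = V.transpose * V :=
    Matrix.ext fun i j => hTm i j
  have hdet : Subring.inclusion X.R_le (Matrix.of Tm).det = (V.transpose * V).det := by
    rw [RingHom.map_det, hmap]
  have hadj : ∀ i j, Subring.inclusion X.R_le ((Matrix.of Tm).adjugate i j) =
      (V.transpose * V).adjugate i j := fun i j => by
    have h := congrFun (congrFun ((Subring.inclusion X.R_le).map_adjugate (Matrix.of Tm)) i) j
    rw [hmap] at h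
    exact h
  have hφ0 : trComp (X.rep (e.symm i0)) φ = φ := by
    refine Subtype.ext ?_
    show compg (X.rep (e.symm i0)) (φ : ℍ → ℂ) = φ
    rw [Equiv.symm_apply_apply]
    refine (hstab _ 1 (X.rep_mem _) (one_mem _) ?_).trans (compg_one _)
    exact X.triple_rep X.one'
  have hr0 : ∀ l, V i0 l = Subring.inclusion X.R_le (r l) := fun l => by
    show X.trEl (e.symm i0) (r l) = _
    rw [Equiv.symm_apply_apply, X.trEl_one]
  have h1 := det_mul_eq_sum V hV (fun m => trComp (X.rep (e.symm m)) φ) i0
  simp only [hφ0, hr0, ← hadj, ← hdet, ht] at h1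
  -- the polynomials have small coefficients
  have hP : ∀ j i, (P j).coeff i ∈ X.inc.range := by
    intro j i
    refine hF _ fun σ hσ => ?_
    have hfix : coeffMap σ.toRingHom (ser φ) = ser φ := by
      ext k
      obtain ⟨w, hw⟩ := hser k
      rw [coeffMap_coeff, ← hw]
      exact congrArg Subtype.val (hσ w)
    have hY : coeffMap σ.toRingHom X.Ys = X.Ys := by rw [X.Ys_eq, X.fix_inc hσ]
    set u : Fin (Fintype.card X.Idx) → Polynomial X.S := fun j => (P j).map σ.toRingHom - P j with hu
    have hev : ∀ j, coeffMap σ.toRingHom (ser (X.evT (P j))) - ser (X.evT (P j)) = ser (X.evT (u j)) := by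
      intro j
      rw [map_sub X.evT, map_sub ser, X.ser_evT, X.ser_evT, Polynomial.hom_eval₂, hY,
        Polynomial.eval₂_map]
      congr 2
      ext x : 1
      simp [HahnSeries.C_apply, coeffMap_single]
    set w : Fin (Fintype.card X.Idx) → trRing X.S (X.lev) := fun j =>
      X.evT (u j) * Subring.inclusion X.R_le X.dR ^ s j with hw
    set z : Fin (Fintype.card X.Idx) → trRing X.S (X.lev) := fun l =>
      ∑ j, Subring.inclusion X.R_le ((Matrix.of Tm).adjugate l j) * w j with hz
    have hzero : ∑ l, z l * Subring.inclusion X.R_le (r l) = 0 := by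
      refine ser_injective ?_
      have h2 := congrArg ser h1
      have h3 := congrArg (coeffMap σ.toRingHom) h2
      simp only [map_mul, map_sum, map_pow, X.ser_incl, X.coeffMap_embAt_one hF hσ, hfix] at h2 h3
      rw [map_zero]
      simp only [hz, hw, map_sum, map_mul, map_pow, X.ser_incl, Finset.sum_mul, ← hev]
      rw [← sub_eq_zero_of_eq (h3.symm.trans h2), ← Finset.sum_sub_distrib]
      refine Finset.sum_congr rfl fun l _ => ?_
      rw [Finset.sum_mul, Finset.sum_mul, ← Finset.sum_sub_distrib]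
      exact Finset.sum_congr rfl fun j _ => by ring
    have hwinv : ∀ m j, trComp (X.rep (e.symm m)) (w j) = w j := fun m j => by
      rw [hw, map_mul, map_pow, X.trComp_evT (X.rep_mem _), X.trComp_dR (X.rep_mem _)]
    have hainv : ∀ m l j, trComp (X.rep (e.symm m)) (Subring.inclusion X.R_le
        ((Matrix.of Tm).adjugate l j)) = Subring.inclusion X.R_le ((Matrix.of Tm).adjugate l j) := by
      intro m l j
      have hT : (trComp (X.rep (e.symm m))).mapMatrix (V.transpose * V) = V.transpose * V :=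
        Matrix.ext fun i j => hinv _ (X.rep_mem _) i j
      have h := congrFun (congrFun ((trComp (X.rep (e.symm m))).map_adjugate (V.transpose * V)) l) j
      rw [hT] at h
      rw [hadj]
      exact h
    have hzv : V.mulVec z = 0 := funext fun m => by
      have h2 := congrArg (trComp (X.rep (e.symm m))) hzero
      simp only [hz, map_sum, map_mul, map_zero, hwinv, hainv] at h2
      refine Eq.trans ?_ h2
      simp only [Matrix.mulVec, dotProduct, hz]
      refine Finset.sum_congr rfl fun l _ => ?_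
      exact (mul_comm _ _).trans (congrArg _ rfl)
    have hz0 := Matrix.eq_zero_of_mulVec_eq_zero hV hzv
    have hw0 : (V.transpose * V).det • w = 0 := by
      have hzA : z = (V.transpose * V).adjugate.mulVec w := funext fun l => by
        simp only [hz, Matrix.mulVec, dotProduct, hadj]
      have h2 : (V.transpose * V).mulVec ((V.transpose * V).adjugate.mulVec w) = 0 := by
        rw [← hzA, hz0, Matrix.mulVec_zero]
      rwa [Matrix.mulVec_mulVec, Matrix.mul_adjugate, Matrix.smul_mulVec, Matrix.one_mulVec] at h2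
    have hdet0 : (V.transpose * V).det ≠ 0 := by
      rw [Matrix.det_mul, Matrix.det_transpose]; exact mul_ne_zero hV hV
    have hwj : X.evT (u j) * Subring.inclusion X.R_le X.dR ^ s j = 0 :=
      congrFun ((smul_eq_zero.1 hw0).resolve_left hdet0) j
    have hu0 : X.evT (u j) = 0 := by
      have h2 := congrArg (· * X.evT X.dltS ^ s j) hwj
      simp only [zero_mul] at h2
      rwa [mul_assoc, ← mul_pow, mul_comm (Subring.inclusion X.R_le X.dR), hd, one_pow, mul_one] at h2
    have hu1 : u j = 0 := X.eq_zero_of_eval_Ys (by rw [← X.ser_evT, hu0, map_zero])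
    have h2 := congrArg (fun p : Polynomial X.S => p.coeff i) hu1
    simp only [hu, Polynomial.coeff_sub, Polynomial.coeff_map, Polynomial.coeff_zero, sub_eq_zero] at h2
    exact h2
  have hP' : ∀ j, ∃ Q : Polynomial X.W, Q.map X.inc = P j := fun j =>
    (Polynomial.mem_map_range X.inc).2 (hP j)
  choose Q hQ using hP'
  refine ⟨∑ l, (∑ j, (Matrix.of Tm).adjugate l j * (X.evR (Q j) * X.dR ^ s j)) * r l,
    (Matrix.of Tm).det, fun h => ?_, ?_⟩
  · have := congrArg (Subring.inclusion X.R_le) h
    rw [hdet, map_zero, Matrix.det_mul, Matrix.det_transpose] at this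
    exact mul_ne_zero hV hV this
  rw [h1, map_sum]
  refine Finset.sum_congr rfl fun l _ => ?_
  rw [map_mul, map_sum]
  congr 1
  exact Finset.sum_congr rfl fun j _ => by rw [map_mul, map_mul, map_pow, X.incl_evR, hQ]

end Ctx

end FLTAgent.CarayolK
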