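import Fermat.Agent.CarayolK.Branch
import Fermat.Agent.Carayol.Invariant

/-!
# Translates only depend on the triple; invariant functions are rational in the coordinate
-/

set_option autoImplicit false
set_option linter.unusedSectionVars false
set_option linter.style.haveILetI false

noncomputable section

open UpperHalfPlane hiding I I_re I_im
open Filter Topology Complex Function FLTAgent.ModEq FLTAgent.GoodModel ModularCurve
open scoped MatrixGroups Manifold Classical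

namespace FLTAgent.CarayolK

open FLTAgent.Carayol (Coord coordT ser_injective trComp mem_trRing_of_level sPairs_mono
  sPairs_comp_affPt coeff_mem_of_eval coeffMap_range)

namespace Ctx

variable {q M0 N' K : ℕ} [NeZero M0] [NeZero N'] [NeZero q] [Fact q.Prime] (X : Ctx q M0 N' K)

theorem bot_mem : X.bot ∈ X.R :=
  X.ctr_le (X.ctr.gens_le (by simp [Carayol.Ctx.gens, bot]))

theorem eta_mem : X.ctr.eta ∈ X.R :=
  X.ctr_le (X.ctr.gens_le (by simp [Carayol.Ctx.gens]))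

include X in
theorem q_coprime_M0 : IsUnit ((q : ℕ) : ZMod M0) := by
  rw [ZMod.isUnit_iff_coprime]
  exact X.hq.coprime_iff_not_dvd.2 fun h => X.hqm (dvd_mul_of_dvd_left h _)

/-- The stabiliser of the last vertex. -/
theorem dvd_of_fix_top {δ : SL(2, ℤ)} (hδ : δ ∈ CongruenceSubgroup.Gamma M0)
    (h : compg δ X.top = X.top) : (q : ℤ) ^ K ∣ δ 1 0 := by
  obtain ⟨m, B, δ', hm, -, hpm, -, h10, -, -, he⟩ := X.exists_vertex hδ K
  rcases eq_or_lt_of_le hm with rfl | hlt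
  · exact ⟨δ' 1 0, by rw [← h10]; ring⟩
  exfalso
  haveI : NeZero (q ^ m * (N' * q ^ m)) :=
    ⟨by simp [NeZero.ne q, NeZero.ne N']⟩
  haveI : NeZero (q ^ K * (N' * q ^ K)) := ⟨by simp [NeZero.ne q, NeZero.ne N']⟩
  have hl1 : q ^ (K - m) * M0 * (N' * q ^ m) = M0 * (N' * q ^ K) := by
    have e : q ^ (K - m) * q ^ m = q ^ K := by rw [← pow_add, Nat.sub_add_cancel hm]
    rw [← e]; ring
  have p1 := sPairs_comp_affPt X.ζ X.hζ (q ^ m) B (q ^ (K - m)) M0 (N' * q ^ m) hl1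
    (sPairs_mono X.hWS X.co.hH)
  have p0 := sPairs_comp_affPt X.ζ X.hζ (q ^ K) 0 1 M0 (N' * q ^ K) (by ring)
    (sPairs_mono X.hWS X.co.hH)
  have hfun : (fun τ => coordT M0 (affPt (q ^ m) B (q ^ (K - m)) τ)) = X.top := by
    rw [← h]
    funext τ
    rw [compg_apply, top, he τ]
    exact (X.ctr.T_pm hpm _).symm
  rw [hfun] at p1
  have heq := sPairs_unique p1 p0
  have hA : ((q ^ m * (N' * q ^ m) : ℕ) : ℤ) < ((q ^ K * (N' * q ^ K) : ℕ) : ℤ) := by
    have h1 : q ^ m < q ^ K := Nat.pow_lt_pow_right X.hq.one_lt hlt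
    have hN : 0 < N' := Nat.pos_of_ne_zero (NeZero.ne N')
    exact_mod_cast Nat.mul_lt_mul'' h1 (Nat.mul_lt_mul_of_pos_left h1 hN)
  have hord : GeOrd (coeffMap X.inc X.co.H) (-1) := fun k hk => by
    rw [coeffMap_coeff, X.co.leadH.1 k hk, map_zero]
  have h1 := congrArg
    (fun z : LaurentSeries X.S => z.coeff (((q ^ K * (N' * q ^ K) : ℕ) : ℤ) * (-1))) heq
  rw [substHom_coeff_mul, geOrd_substHom _ _ hord _ (by linarith), coeffMap_coeff] at h1
  exact ((Units.isUnit _).mul (X.co.leadH.2.map _)).ne_zero h1.symm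

include X in
/-- An element of `Γ₀(qⁱ) ∩ Γ(M₀)` seen from the vertex `i`. -/
theorem exists_conj {δ : SL(2, ℤ)} (hδ : δ ∈ CongruenceSubgroup.Gamma M0) {i : ℕ} {w : ℤ}
    (hw : δ 1 0 = (q : ℤ) ^ i * w) :
    ∃ δ' : SL(2, ℤ), δ' ∈ CongruenceSubgroup.Gamma M0 ∧ δ' 0 1 = (q : ℤ) ^ i * δ 0 1 ∧
      δ' 1 0 = w ∧ ∀ τ : ℍ, affPt (q ^ i) 0 1 (δ • τ) = δ' • affPt (q ^ i) 0 1 τ := by
  obtain ⟨a00, a01, a10, a11⟩ := CongruenceSubgroup.Gamma_mem.mp hδ
  obtain ⟨δ', d00, d01, d10, d11⟩ : ∃ δ' : SL(2, ℤ), δ' 0 0 = δ 0 0 ∧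
      δ' 0 1 = (q : ℤ) ^ i * δ 0 1 ∧ δ' 1 0 = w ∧ δ' 1 1 = δ 1 1 :=
    ⟨⟨!![δ 0 0, (q : ℤ) ^ i * δ 0 1; w, δ 1 1], by
      rw [Matrix.det_fin_two_of]
      linear_combination (det_eq δ) + δ 0 1 * hw⟩, rfl, rfl, rfl, rfl⟩
  refine ⟨δ', ?_, d01, d10, fun τ => ?_⟩
  · rw [CongruenceSubgroup.Gamma_mem, d00, d01, d10, d11]
    refine ⟨a00, by push_cast; rw [a01, mul_zero], ?_, a11⟩
    have h' := congrArg (fun z : ℤ => (z : ZMod M0)) hw
    push_cast at h'
    rw [a10] at h'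
    exact (X.q_coprime_M0.pow i).mul_right_eq_zero.1 h'.symm
  · refine UpperHalfPlane.ext ?_
    rw [coe_sl_smul' δ', d00, d01, d10, d11, coe_affPt, coe_affPt, coe_sl_smul' δ]
    have hden : ((δ 1 0 : ℤ) : ℂ) * τ + (δ 1 1 : ℤ) ≠ 0 := den_ne_zero δ τ
    have hw' : ((δ 1 0 : ℤ) : ℂ) = (q : ℂ) ^ i * w := by rw [hw]; push_cast; ring
    rw [hw'] at hden ⊢
    push_cast
    simp only [add_zero, div_one]
    have : (w : ℂ) * ((q : ℂ) ^ i * τ) + (δ 1 1 : ℤ) ≠ 0 := by convert hden using 1; ring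
    field_simp

/-- The stabiliser of the last vertex, converse. -/
theorem fix_top {δ : SL(2, ℤ)} (hδ : δ ∈ CongruenceSubgroup.Gamma M0)
    (h : (q : ℤ) ^ K ∣ δ 1 0) : compg δ X.top = X.top := by
  obtain ⟨w, hw⟩ := h
  obtain ⟨δ', hδ', -, -, hpt⟩ := X.exists_conj hδ hw
  funext τ
  rw [compg_apply, top, hpt]
  exact X.ctr.T_pm (Or.inl hδ') _

/-- An element of `Γ(M₀)` fixing the triple fixes the ring of the cover. -/
theorem fix_of_triple {δ : SL(2, ℤ)} (hδ : δ ∈ CongruenceSubgroup.Gamma M0)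
    (he : compg δ X.ctr.eta = X.ctr.eta) (hb : compg δ X.bot = X.bot)
    (ht : compg δ X.top = X.top) {f : ℍ → ℂ} (hf : f ∈ X.R) : compg δ f = f := by
  have h01 : (q : ℤ) ∣ δ 0 1 := (X.ctr.fix_rX0_iff hδ).1 hb
  have h10 : (q : ℤ) ^ K ∣ δ 1 0 := X.dvd_of_fix_top hδ ht
  refine RingHom.eqOn_set_closure (f := compg δ) (g := RingHom.id (ℍ → ℂ)) ?_ hf
  rintro g (hg | hg)
  · have hc : (q : ℤ) ∣ δ 1 0 := (dvd_pow_self _ (by have := X.hK; omega)).trans h10
    have h := X.ctr.compg_congr hδ (one_mem _) (by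
      simp only [Carayol.Ctx.triple, compg_one, he, (X.ctr.side_fix hδ hc).1]
      rw [show compg δ (X.ctr.rX (some 0)) = X.ctr.rX (some 0) from hb]) ⟨g, hg⟩
    simpa [compg_one] using h
  · obtain ⟨i, φ, hφ, rfl⟩ := Set.mem_iUnion.1 hg
    obtain ⟨w, hw⟩ := h10
    have hK' : (q : ℤ) ^ K = (q : ℤ) ^ (i : ℕ) * (q : ℤ) ^ (K - i) := by
      rw [← pow_add, Nat.add_sub_cancel' i.2.le]
    obtain ⟨δ', hδ', d01, d10, hpt⟩ :=
      X.exists_conj hδ (i := (i : ℕ)) (w := (q : ℤ) ^ (K - i) * w) (by rw [hw, hK']; ring)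
    have hc' : (q : ℤ) ∣ δ' 1 0 := by
      rw [d10]
      exact (dvd_pow_self _ (by have := i.2; omega)).mul_right w
    have hb' : (q : ℤ) ∣ δ' 0 1 := by rw [d01]; exact h01.mul_left _
    have he' : compg δ' X.shf.eta = X.shf.eta := X.shf.eta_fix (by rwa [mul_one])
    have h := X.shf.compg_congr hδ' (one_mem _) (by
      simp only [Carayol.Ctx.triple, compg_one, he', (X.shf.side_fix hδ' hc').1,
        (X.shf.fix_rX0_iff hδ').2 hb']) ⟨φ, hφ⟩
    simp only [compg_one] at h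
    funext τ
    show φ (affPt (q ^ (i : ℕ)) 0 1 (δ • τ)) = φ (affPt (q ^ (i : ℕ)) 0 1 τ)
    rw [hpt]
    exact congrFun h _

/-- A translate only depends on its triple. -/
theorem compg_congr {γ γ' : SL(2, ℤ)} (hγ : γ ∈ CongruenceSubgroup.Gamma M0)
    (hγ' : γ' ∈ CongruenceSubgroup.Gamma M0) (h : X.triple γ = X.triple γ') (a : X.R) :
    compg γ (a : ℍ → ℂ) = compg γ' (a : ℍ → ℂ) := by
  simp only [triple, Prod.mk.injEq] at h
  obtain ⟨he, hb, ht⟩ := h
  have key : ∀ f : ℍ → ℂ, compg γ f = compg γ' f → compg (γ' * γ⁻¹) f = f := fun f h => by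
    rw [← compg_compg, ← h, compg_compg, mul_inv_cancel, compg_one]
  have hfix := X.fix_of_triple (mul_mem hγ' (inv_mem hγ)) (key _ he) (key _ hb) (key _ ht) a.2
  conv_lhs => rw [← hfix]
  rw [compg_compg, inv_mul_cancel_right]

theorem compg_rep_idx {γ : SL(2, ℤ)} (hγ : γ ∈ CongruenceSubgroup.Gamma M0) (a : X.R) :
    compg (X.rep (X.idx hγ)) (a : ℍ → ℂ) = compg γ (a : ℍ → ℂ) :=
  X.compg_congr (X.rep_mem _) hγ (X.triple_rep _) a

theorem idx_eq_iff {γ γ' : SL(2, ℤ)} (hγ : γ ∈ CongruenceSubgroup.Gamma M0)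
    (hγ' : γ' ∈ CongruenceSubgroup.Gamma M0) :
    X.idx hγ = X.idx hγ' ↔ X.triple γ = X.triple γ' := Subtype.ext_iff

/-- Functions whose translates only depend on the triple. -/
def Stab (φ : ℍ → ℂ) : Prop :=
  ∀ γ γ' : SL(2, ℤ), γ ∈ CongruenceSubgroup.Gamma M0 → γ' ∈ CongruenceSubgroup.Gamma M0 →
    X.triple γ = X.triple γ' → compg γ φ = compg γ' φ

theorem stab_R (a : X.R) : X.Stab (a : ℍ → ℂ) := fun _ _ h h' e => X.compg_congr h h' e a

theorem triple_mul {γ γ' : SL(2, ℤ)} (h : X.triple γ = X.triple γ') (σ : SL(2, ℤ)) :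
    X.triple (γ * σ) = X.triple (γ' * σ) := by
  simp only [triple, Prod.mk.injEq] at h ⊢
  obtain ⟨h1, h2, h3⟩ := h
  simp only [← compg_compg σ, h1, h2, h3, and_self]

/-- Right translation permutes the embeddings. -/
def perm {γ : SL(2, ℤ)} (hγ : γ ∈ CongruenceSubgroup.Gamma M0) : X.Idx ≃ X.Idx where
  toFun l := X.idx (mul_mem (X.rep_mem l) hγ)
  invFun l := X.idx (mul_mem (X.rep_mem l) (inv_mem hγ))
  left_inv l := Subtype.ext ((X.triple_mul (X.triple_rep _) γ⁻¹).trans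
    (by rw [mul_inv_cancel_right]; exact X.triple_rep l))
  right_inv l := Subtype.ext ((X.triple_mul (X.triple_rep _) γ).trans
    (by rw [inv_mul_cancel_right]; exact X.triple_rep l))

theorem compg_rep_perm {γ : SL(2, ℤ)} (hγ : γ ∈ CongruenceSubgroup.Gamma M0) (l : X.Idx)
    {φ : ℍ → ℂ} (hφ : X.Stab φ) :
    compg (X.rep (X.perm hγ l)) φ = compg γ (compg (X.rep l) φ) := by
  rw [compg_compg]
  exact hφ _ _ (X.rep_mem _) (mul_mem (X.rep_mem l) hγ) (X.triple_rep _)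

theorem sum_invariant {φ : ℍ → ℂ} (hφ : X.Stab φ) {γ : SL(2, ℤ)}
    (hγ : γ ∈ CongruenceSubgroup.Gamma M0) :
    compg γ (∑ l, compg (X.rep l) φ) = ∑ l, compg (X.rep l) φ := by
  rw [map_sum]
  simp only [← X.compg_rep_perm hγ _ hφ]
  exact Equiv.sum_comp (X.perm hγ) fun l => compg (X.rep l) φ

theorem T_mem : X.ctr.T ∈ trRing X.S X.lev := X.ctr_level X.ctr.T_mem

/-- The expansion of the coordinate. -/
def Ys : LaurentSeries X.S := qExpand X.S (N' * q ^ K) (coeffMap X.inc X.co.H)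

theorem Ys_spec : (X.ctr.T, X.Ys) ∈ sPairs X.S X.lev :=
  sPairs_refine rfl (sPairs_mono X.hWS X.co.hH)

/-- Invariant functions are rational in the coordinate. -/
theorem exists_poly {φ : ℍ → ℂ} (hφ : φ ∈ trRing X.S (X.lev))
    (hinv : ∀ γ ∈ CongruenceSubgroup.Gamma M0, compg γ φ = φ) :
    ∃ (P : Polynomial X.S) (s : ℕ),
      ∀ τ, φ τ * X.ctr.dlt τ ^ s = (P.map X.S.subtype).eval (X.ctr.T τ) := by
  classical
  obtain ⟨α', hα'⟩ := X.co.isUnit_α.exists_right_inv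
  have hαC : (X.co.α : ℂ) * (α' : ℂ) = 1 := by
    have := congrArg (fun z : X.W => (z : ℂ)) hα'
    simpa using this
  have hαu : IsUnit α' := IsUnit.of_mul_eq_one X.co.α (by rw [mul_comm]; exact hα')
  have hhh : ∀ τ, hh M0 τ = (α' : ℂ) * (X.ctr.T τ - (X.co.β : ℂ)) := fun τ => by
    rw [Carayol.Ctx.T, X.co.affine τ]
    linear_combination (-hh M0 τ) * hαC
  set Hh : LaurentSeries X.W := HahnSeries.C α' * (X.co.H - HahnSeries.C X.co.β)
  have hHh : (hh M0, Hh) ∈ sPairs X.W M0 := by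
    have h := (sPairs X.W M0).mul_mem (sPairs_const (n := M0) α')
      ((sPairs X.W M0).sub_mem X.co.hH (sPairs_const (n := M0) X.co.β))
    rw [Prod.mk_sub_mk, Prod.mk_mul_mk] at h
    convert h using 2
    funext τ
    simp [hhh]
  have hlead : LeadAt Hh (-1) := by
    have hl : LeadAt (X.co.H - HahnSeries.C X.co.β) (-1) :=
      ⟨fun k hk => by
          rw [HahnSeries.coeff_sub, X.co.leadH.1 k hk, geOrd_C X.co.β k (by omega), sub_zero],
        by rw [HahnSeries.coeff_sub, geOrd_C X.co.β (-1) (by norm_num), sub_zero]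
           exact X.co.leadH.2⟩
    have h0 : LeadAt (HahnSeries.C α' : LaurentSeries X.W) 0 :=
      ⟨geOrd_C α', by simpa [HahnSeries.C_apply] using hαu⟩
    have h2 := LeadAt.mul h0 hl
    simpa only [zero_add] using h2
  have hleadS : LeadAt (coeffMap X.inc Hh) (-1) :=
    ⟨fun k hk => by rw [coeffMap_coeff, hlead.1 k hk, map_zero],
      by rw [coeffMap_coeff]; exact hlead.2.map _⟩
  set ch : Fin M0 → X.S := fun i => X.inc (α' * (X.co.c i - X.co.β))
  have hch : ∀ i τ, hh M0 τ - (ch i : ℂ) = (α' : ℂ) * (X.ctr.T τ - (X.co.c i : ℂ)) := fun i τ => by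
    simp only [ch, Subring.coe_inclusion, Subring.coe_mul, AddSubgroupClass.coe_sub, hhh]
    ring
  have hhb : ∀ i, IsBoundedAtImInfty fun τ ↦ hh M0 (cuspRep0 M0 i • τ) := fun i ↦ by
    obtain ⟨G, hG, hG1⟩ := X.co.cusp.2 i
    have h1 : IsBoundedAtImInfty fun τ ↦ X.ctr.T (cuspRep0 M0 i • τ) - (X.co.c i : ℂ) :=
      (mem_sPairs.mp hG).2.isBoundedAtImInfty fun k hk ↦ by
        rw [coeffMap_coeff, hG1.1 k (by omega), map_zero]
    refine ((h1.add (Filter.const_boundedAtFilter atImInfty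
      ((X.co.c i : ℂ) - X.co.β))).const_mul_left (α' : ℂ)).congr_left fun τ ↦ ?_
    simp [hhh]
  have hw : ∀ i, ∃ w : ℕ, IsBoundedAtImInfty fun τ ↦
      φ (cuspRep0 M0 i • τ) * (hh M0 (cuspRep0 M0 i • τ) - (ch i : ℂ)) ^ w := by
    intro i
    obtain ⟨G, hG⟩ := mem_trRing.mp hφ (cuspRep0 M0 i)
    obtain ⟨G', hG', hG'1⟩ := X.co.cusp.2 i
    obtain ⟨w, hw⟩ := (meroInf_of_hasExp (mem_sPairs.mp hG).2).exists_pow_bounded
      (mem_sPairs.mp hG').2 fun k hk ↦ by rw [coeffMap_coeff, hG'1.1 k hk, map_zero]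
    refine ⟨w, ((hw w le_rfl).const_mul_left ((α' : ℂ) ^ w)).congr_left fun τ ↦ ?_⟩
    simp only [Pi.mul_apply, Pi.pow_apply, hch, compg_apply, mul_pow]
    ring
  choose w hw using hw
  obtain ⟨G, hG⟩ := mem_trRing.mp hφ 1
  rw [compg_one] at hG
  obtain ⟨d, hd⟩ : ∃ d : ℕ, GeOrd G (-(((N' * q ^ K) * d : ℕ) : ℤ)) := by
    refine ⟨(-G.order).toNat, fun k hk => HahnSeries.coeff_eq_zero_of_lt_order ?_⟩
    have hpos : 0 < N' * q ^ K := Nat.pos_of_ne_zero (NeZero.ne (N' * q ^ K))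
    have : (-G.order).toNat ≤ (N' * q ^ K) * (-G.order).toNat := Nat.le_mul_of_pos_left _ hpos
    omega
  obtain ⟨P, -, hP⟩ := exists_poly_of_invariant X.hM rfl (sPairs_mono X.hWS hHh) hleadS ch hhb hG
    (fun γ hγ τ ↦ congrFun (hinv γ hγ) τ) w hw hd
  set αS := X.inc X.co.α
  set βS := X.inc X.co.β
  set α'S := X.inc α'
  refine ⟨Polynomial.C (αS ^ ∑ i, w i) * P.comp (Polynomial.C α'S * (Polynomial.X - Polynomial.C βS)) *
      ∏ i, (Polynomial.X - Polynomial.C (X.inc (X.co.c i))) ^ ((∑ j, w j) - w i), ∑ i, w i, fun τ => ?_⟩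
  have h1 := congrFun (congrArg Prod.fst hP) τ
  rw [Prod.fst_mul, Pi.mul_apply, evalP_fst, evalP_fst] at h1
  simp only [Polynomial.map_prod, Polynomial.map_pow, Polynomial.map_sub, Polynomial.map_X,
    Polynomial.map_C, Polynomial.eval_prod, Polynomial.eval_pow, Polynomial.eval_sub,
    Polynomial.eval_X, Polynomial.eval_C, Subring.subtype_apply, hch, mul_pow,
    Finset.prod_mul_distrib, Finset.prod_pow_eq_pow_sum] at h1
  simp only [Polynomial.map_mul, Polynomial.map_C, Polynomial.map_comp, Polynomial.map_sub,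
    Polynomial.map_X, Polynomial.map_prod, Polynomial.map_pow, Polynomial.eval_mul,
    Polynomial.eval_C, Polynomial.eval_comp, Polynomial.eval_sub, Polynomial.eval_X,
    Polynomial.eval_prod, Polynomial.eval_pow, αS, βS, α'S, map_pow, Subring.subtype_apply,
    Subring.coe_inclusion, SubmonoidClass.coe_pow]
  rw [← hhh, h1]
  have hsplit : ∀ i, (X.ctr.T τ - (X.co.c i : ℂ)) ^ (∑ j, w j) =
      (X.ctr.T τ - (X.co.c i : ℂ)) ^ (w i) * (X.ctr.T τ - (X.co.c i : ℂ)) ^ ((∑ j, w j) - w i) := fun i => by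
    rw [← pow_add, Nat.add_sub_cancel' (Finset.single_le_sum (fun j _ => Nat.zero_le (w j)) (Finset.mem_univ i))]
  rw [Carayol.Ctx.dlt, show X.ctr.co = X.co from rfl, ← Finset.prod_pow]
  simp only [hsplit, Finset.prod_mul_distrib]
  have hone : (X.co.α : ℂ) ^ (∑ i, w i) * (α' : ℂ) ^ (∑ i, w i) = 1 := by
    rw [← mul_pow, hαC, one_pow]
  linear_combination (-(φ τ * (∏ i, (X.ctr.T τ - (X.co.c i : ℂ)) ^ w i) *
    (∏ i, (X.ctr.T τ - (X.co.c i : ℂ)) ^ ((∑ j, w j) - w i)))) * hone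

theorem ser_T : ser ⟨X.ctr.T, X.T_mem⟩ = X.Ys := sPairs_unique (ser_spec _) X.Ys_spec

theorem Ys_eq : X.Ys = coeffMap X.inc (qExpand X.W (N' * q ^ K) X.co.H) := by
  rw [Ys, coeffMap_qExpand]

theorem leadAt_Ys_W : LeadAt (qExpand X.W (N' * q ^ K) X.co.H) (-((N' * q ^ K : ℕ) : ℤ)) := by
  refine ⟨fun i hi => geOrd_qExpand X.co.leadH.1 (N' * q ^ K) i (by simpa using hi), ?_⟩
  rw [show -((N' * q ^ K : ℕ) : ℤ) = ((N' * q ^ K : ℕ) : ℤ) * (-1) by ring, qExpand_coeff_mul]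
  exact X.co.leadH.2

/-- The constant function. -/
theorem const_mem (x : X.S) : (fun _ : ℍ => (x : ℂ)) ∈ trRing X.S (X.lev) :=
  mem_trRing.mpr fun _ => ⟨HahnSeries.C x, sPairs_const x⟩

theorem ser_const (x : X.S) : ser ⟨_, X.const_mem x⟩ = HahnSeries.C x :=
  sPairs_unique (ser_spec _) (sPairs_const (n := X.lev) x)

/-- Evaluation at the coordinate of polynomials with constant coefficients. -/
def evT : Polynomial X.S →+* trRing X.S (X.lev) :=
  Polynomial.eval₂RingHom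
    (((Pi.constRingHom ℍ ℂ).comp X.S.subtype).codRestrict _ fun x => X.const_mem x) ⟨X.ctr.T, X.T_mem⟩

theorem evT_apply (P : Polynomial X.S) (τ : ℍ) :
    (X.evT P : ℍ → ℂ) τ = (P.map X.S.subtype).eval (X.ctr.T τ) := by
  rw [Polynomial.eval_map, evT, Polynomial.coe_eval₂RingHom]
  exact Polynomial.hom_eval₂ P _
    ((Pi.evalRingHom (fun _ : ℍ ↦ ℂ) τ).comp (trRing X.S (X.lev)).subtype) _

theorem ser_evT (P : Polynomial X.S) : ser (X.evT P) = P.eval₂ HahnSeries.C X.Ys := by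
  rw [evT, Polynomial.coe_eval₂RingHom, Polynomial.hom_eval₂, ser_T]
  congr 1
  ext x : 1
  exact X.ser_const x

/-- The product of the differences as an element. -/
def dltS : Polynomial X.S := ∏ i, (Polynomial.X - Polynomial.C (X.inc (X.co.c i)))

theorem evT_dltS (τ : ℍ) : (X.evT X.dltS : ℍ → ℂ) τ = X.ctr.dlt τ := by
  rw [X.evT_apply]
  simp [dltS, Carayol.Ctx.dlt, ctr, Polynomial.map_prod, Polynomial.eval_prod]

theorem exists_poly_el (a : trRing X.S (X.lev))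
    (hinv : ∀ γ ∈ CongruenceSubgroup.Gamma M0, compg γ (a : ℍ → ℂ) = a) :
    ∃ (P : Polynomial X.S) (s : ℕ), a * X.evT X.dltS ^ s = X.evT P := by
  obtain ⟨P, s, h⟩ := X.exists_poly a.2 hinv
  refine ⟨P, s, Subtype.ext (funext fun τ => ?_)⟩
  show (a : ℍ → ℂ) τ * ((X.evT X.dltS : ℍ → ℂ) ^ s) τ = _
  rw [Pi.pow_apply, X.evT_dltS, X.evT_apply, h]

/-- Invariant functions with expansion over the small ring of constants. -/
theorem exists_poly_W (a : trRing X.S (X.lev))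
    (hinv : ∀ γ ∈ CongruenceSubgroup.Gamma M0, compg γ (a : ℍ → ℂ) = a)
    (hser : ∀ k, (ser a).coeff k ∈ X.inc.range) :
    ∃ (P : Polynomial X.W) (s : ℕ), a * X.evT X.dltS ^ s = X.evT (P.map X.inc) := by
  obtain ⟨P, s, h⟩ := X.exists_poly_el a hinv
  have h1 := congrArg ser h
  rw [map_mul, map_pow, X.ser_evT, X.ser_evT] at h1
  have hmem : ∀ i, P.coeff i ∈ X.inc.range := by
    refine coeff_mem_of_eval X.inc (Nat.pos_of_ne_zero (NeZero.ne (N' * q ^ K))) X.leadAt_Ys_W P.natDegree P le_rfl fun k => ?_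
    rw [← X.Ys_eq, ← h1]
    obtain ⟨G0, hG0⟩ := coeffMap_range X.inc (Subring.inclusion_injective X.hWS) hser
    rw [← hG0, show X.dltS = (∏ i, (Polynomial.X - Polynomial.C (X.co.c i))).map X.inc by
      simp [dltS, Polynomial.map_prod], Polynomial.eval₂_map, X.Ys_eq]
    have hc : (HahnSeries.C : X.S →+* LaurentSeries X.S).comp X.inc =
        (coeffMap X.inc).comp HahnSeries.C := by
      ext x : 1
      simp [HahnSeries.C_apply, coeffMap_single]
    rw [hc, ← Polynomial.hom_eval₂, ← map_pow, ← map_mul, coeffMap_coeff]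
    exact ⟨_, rfl⟩
  obtain ⟨P0, hP0⟩ := (Polynomial.mem_map_range X.inc).2 hmem
  exact ⟨P0, s, by rw [h]; exact congrArg X.evT hP0.symm⟩

end Ctx

end FLTAgent.CarayolK
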