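import Fermat.Agent.CarayolK.Orders
import Fermat.Agent.CarayolK.Fib
import Fermat.Agent.Carayol.Branches

/-!
# The local factorisation of a function with divisible valuations
-/

set_option autoImplicit false
set_option linter.unusedSectionVars false
set_option linter.style.haveILetI false

noncomputable section

open UpperHalfPlane hiding I I_re I_im
open Filter Topology Complex Function FLTAgent.ModEq FLTAgent.GoodModel ModularCurve
open scoped MatrixGroups Manifold Classical

namespace FLTAgent.CarayolK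

variable {q M0 N' K : ℕ} [NeZero M0] [NeZero N'] [NeZero q] [Fact q.Prime]
variable {X : Ctx q M0 N' K} {k : Type} [Field k] {Ω : Res X k}

namespace Ram

variable (ρ : Ram Ω) [IsDiscreteValuationRing X.S] [IsAlgClosed k] [IsNoetherianRing X.W]

omit [IsAlgClosed k] [IsNoetherianRing X.W] in
include ρ in
theorem exists_q_pow' {w : X.W} (hw : w ≠ 0) :
    ∃ (v : ℕ) (w' : X.W), w = (q : X.W) ^ v * w' ∧ Ω.φW w' ≠ 0 := by
  suffices H : ∀ i : ℕ, ∀ w : X.W, w ≠ 0 → ρ.ordS (HahnSeries.C (X.inc w)) ≤ i →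
      ∃ (v : ℕ) (w' : X.W), w = (q : X.W) ^ v * w' ∧ Ω.φW w' ≠ 0 from H _ w hw le_rfl
  intro i
  induction i using Nat.strong_induction_on with
  | _ i ih =>
    intro w hw hi
    by_cases h : Ω.φW w = 0
    · obtain ⟨w', rfl⟩ := Ω.kerW w h
      have hw' : w' ≠ 0 := right_ne_zero_of_mul hw
      have e : HahnSeries.C (X.inc ((q : X.W) * w')) =
          (q : LaurentSeries X.S) * HahnSeries.C (X.inc w') := by
        rw [map_mul, map_mul, map_natCast, map_natCast]
      rw [e, ρ.ordS_eq (ρ.ord_mul ρ.ord_natCast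
        (ρ.ordS_spec (HahnSeries.C_ne_zero (Ctx.inc_ne hw'))))] at hi
      have hq1 : 1 ≤ q ^ (K - 1) * (q - 1) := Nat.one_le_iff_ne_zero.2
        (mul_ne_zero (pow_ne_zero _ (NeZero.ne q)) (by have := X.hq.two_le; omega))
      obtain ⟨v, w'', rfl, h''⟩ := ih (ρ.ordS (HahnSeries.C (X.inc w'))) (by omega) w' hw' le_rfl
      exact ⟨v + 1, w'', by rw [pow_succ']; ring, h''⟩
    · exact ⟨0, w, by rw [pow_zero, one_mul], h⟩

include ρ in
/-- The local factorisation of a function with divisible valuations. -/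
theorem exists_local_factor {n : ℕ} {F : X.R} (hF : ∀ g j, Ω.rs g j F ≠ 0) (hv : X.VDvd n F)
    (p : Pt Ω) : ∃ s v h : X.R, p.π s ≠ 0 ∧ p.π v ≠ 0 ∧ s * F = v * h ^ n := by
  haveI := p.isNoetherian_loc
  haveI := p.ufd_loc
  set φ := algebraMap X.R p.Loc
  have hinj : Injective φ :=
    IsLocalization.injective p.Loc (Ideal.primeCompl_le_nonZeroDivisors p.ideal)
  have hFne : F ≠ 0 := fun h0 => hF ⟨X.ctr.eta, X.ctr.eta_mem_nodes⟩ 0 (by rw [h0, map_zero])
  obtain ⟨u, γ, hu⟩ := Carayol.exists_eq_unit_mul_pow_of_val (F := FractionRing X.R) X.cW φ hinj (n := n) hFne hv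
    fun π hπ hπF w hw hπw => by
    have hw0 : w ≠ 0 := fun h => hw (by rw [h, map_zero])
    obtain ⟨v, w', rfl, hw'⟩ := ρ.exists_q_pow' hw0
    rw [map_mul, map_mul, map_pow, map_natCast] at hπw
    rcases hπ.dvd_mul.1 hπw with h | h
    · haveI : (Ideal.span {π}).IsPrime := (Ideal.span_singleton_prime hπ.ne_zero).2 hπ
      rw [map_pow] at h
      obtain ⟨l, hl⟩ := Ω.exists_ker_le ((Ideal.span {π}).comap φ)
        (Ideal.mem_span_singleton.2 (hπ.dvd_of_dvd_pow h))
      have hlP : Ω.ker (X.rep l) ≤ p.ideal := hl.trans (fun z hz => by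
        rw [p.mem_ideal, ← p.algebraMap_mem_max]
        exact IsLocalRing.le_maximalIdeal (J := Ideal.span {π}) (Ideal.IsPrime.ne_top inferInstance) hz)
      have hdisj : Disjoint (p.ideal.primeCompl : Set X.R) (Ω.ker (X.rep l) : Set X.R) :=
        Set.disjoint_left.2 fun z hz hz' => hz (hlP hz')
      set P0 := (Ω.ker (X.rep l)).map φ
      haveI : P0.IsPrime :=
        IsLocalization.isPrime_of_isPrime_disjoint p.ideal.primeCompl p.Loc _ inferInstance hdisj
      have hcomap : P0.comap φ = Ω.ker (X.rep l) :=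
        IsLocalization.under_map_of_isPrime_disjoint p.ideal.primeCompl p.Loc inferInstance hdisj
      have hP0 : P0 ≠ ⊥ := fun h0 => by
        have h1 : φ (q : X.R) ∈ P0 := Ideal.mem_map_of_mem _ (Ω.red_natCast _)
        rw [h0, Ideal.mem_bot] at h1
        exact (map_ne_zero_iff _ hinj).2 X.natCast_q_ne h1
      obtain ⟨π', hπ'P, hπ'⟩ :=
        UniqueFactorizationMonoid.iff_exists_prime_mem_of_isPrime.mp inferInstance P0 hP0 inferInstance
      have hass : π ∣ π' := Ideal.mem_span_singleton.1 (Ideal.map_le_iff_le_comap.2 hl hπ'P)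
      obtain ⟨c, hc⟩ := (hπ.associated_of_dvd hπ' hass).symm.dvd
      obtain ⟨d, hd⟩ := hπF
      have hFmem : F ∈ P0.comap φ := by
        rw [Ideal.mem_comap, hd, hc]
        exact P0.mul_mem_right _ (P0.mul_mem_right _ hπ'P)
      rw [hcomap] at hFmem
      have h1 : Ω.red (X.rep l) F ≠ 0 := by rw [Ω.red_rep]; exact hF _ _
      exact h1 hFmem
    · exact hπ.not_isUnit (isUnit_of_dvd_unit h (p.isUnit_algebraMap (by rwa [p.π_cW])))
  obtain ⟨⟨a, s1⟩, ha⟩ := IsLocalization.surj p.ideal.primeCompl (u : p.Loc)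
  obtain ⟨⟨h, s2⟩, hh⟩ := IsLocalization.surj p.ideal.primeCompl γ
  change (u : p.Loc) * φ s1.1 = φ a at ha
  change γ * φ s2.1 = φ h at hh
  refine ⟨s1.1 * s2.1 ^ n, a, h, ?_, fun h0 => ?_, hinj ?_⟩
  · rw [map_mul, map_pow]
    exact mul_ne_zero (fun h0 => s1.2 (p.mem_ideal.2 h0)) (pow_ne_zero _ fun h0 => s2.2 (p.mem_ideal.2 h0))
  · have h1 : IsUnit (φ a) := ha ▸ u.isUnit.mul (IsLocalization.map_units p.Loc s1)
    exact (p.algebraMap_mem_max.2 h0) h1
  · rw [map_mul, map_mul, map_mul, map_pow, map_pow, ← ha, ← hh, hu]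
    ring

end Ram

end FLTAgent.CarayolK
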