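import Fermat.Agent.CarayolK.Residues
import Fermat.Agent.CarayolK.LocalFactor
import Fermat.Agent.Carayol.Local

/-!
# A root modulo a topologically nilpotent element
-/

set_option autoImplicit false
set_option linter.unusedSectionVars false
set_option linter.style.haveILetI false

noncomputable section

open UpperHalfPlane hiding I I_re I_im
open Filter Topology Complex Function FLTAgent.ModEq FLTAgent.GoodModel ModularCurve
open scoped MatrixGroups Manifold Classical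

namespace FLTAgent.CarayolK

open FLTAgent.Carayol (exists_glue exists_lift_root)

variable {q M0 N' K : ℕ} [NeZero M0] [NeZero N'] [NeZero q] [Fact q.Prime]
variable {X : Ctx q M0 N' K} {k : Type} [Field k] {Ω : Res X k}
variable [IsDiscreteValuationRing X.S] [IsAlgClosed k] [IsNoetherianRing X.W]

namespace Pt

variable (p : Pt Ω)

/-- Roots on the branches through a point come from one local element. -/
theorem exists_local_root {n : ℕ} (hn : (n : k) ≠ 0) (Y : X.Sheet → Fin (K + 2) → LaurentSeries k)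
    {s v h : X.R} (hs : p.π s ≠ 0) (hv : p.π v ≠ 0)
    (hF : ∀ g j, RingHom.ker (Ω.rs g j) ≤ p.ideal →
      Ω.rs g j s * Y g j ^ n = Ω.rs g j v * Ω.rs g j h ^ n ∧ Ω.rs g j h ≠ 0)
    {ω : k} (hω : ω ≠ 0) (hres : ∀ g j, RingHom.ker (Ω.rs g j) ≤ p.ideal →
      (Y g j / Ω.rs g j h, ω) ∈ p.EV g j) :
    ∃ t c : X.R, p.π t ≠ 0 ∧ ∀ g j, Ω.rs g j t * Y g j = Ω.rs g j (h * c) := by
  haveI : Fintype X.Sheet := Finset.Subtype.fintype X.ctr.nodes
  haveI := p.isNoetherian_loc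
  set φ := algebraMap X.R p.Loc
  set ι := {i : X.Sheet × Fin (K + 2) // RingHom.ker (Ω.rs i.1 i.2) ≤ p.ideal}
  have hev : ∀ i : ι, ∃ a d : X.R, p.π d ≠ 0 ∧
      Ω.rs i.1.1 i.1.2 d * (Y i.1.1 i.1.2 / Ω.rs i.1.1 i.1.2 h) = Ω.rs i.1.1 i.1.2 a ∧
      p.π d * ω = p.π a := fun i => hres i.1.1 i.1.2 i.2
  choose a d hd hrel hval using hev
  have hdu : ∀ i, IsUnit (φ (d i)) := fun i => p.isUnit_algebraMap (hd i)
  obtain ⟨ds, hds⟩ : ∃ ds : ι → p.Loc, ∀ i, φ (d i) * ds i = 1 :=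
    ⟨fun i => ↑(hdu i).unit⁻¹, fun i => (hdu i).mul_val_inv⟩
  obtain ⟨ss, hss⟩ := (p.isUnit_algebraMap hs).exists_right_inv
  obtain ⟨w, hw⟩ := Ω.surjW ω
  have hwπ : p.π (X.cW w) = ω := (p.π_cW w).trans hw
  obtain ⟨c, hc⟩ := exists_glue (fun i : ι => (RingHom.ker (Ω.rs i.1.1 i.1.2)).map φ)
    (fun i => by
      rw [Ideal.map_le_iff_le_comap]
      exact fun z hz => p.algebraMap_mem_max.2 (p.mem_ideal.1 (i.2 hz)))
    (n := n) (by
      rw [← map_natCast φ]
      exact p.isUnit_algebraMap (by rw [map_natCast]; exact hn))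
    (v := φ v * ss) (r := φ (X.cW w)) (p.isUnit_algebraMap (by rw [hwπ]; exact hω))
    (fun i => φ (a i) * ds i)
    (fun i => by
      have hmem : a i ^ n * s - d i ^ n * v ∈ RingHom.ker (Ω.rs i.1.1 i.1.2) := by
        obtain ⟨h1, h2⟩ := hF _ _ i.2
        rw [RingHom.mem_ker, map_sub, map_mul, map_mul, map_pow, map_pow, ← hrel i, mul_pow, div_pow]
        field_simp
        linear_combination (Ω.rs i.1.1 i.1.2 (d i)) ^ n * h1
      have hnu : (φ (d i) * ds i) ^ n = 1 := by rw [hds, one_pow]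
      rw [show (φ (a i) * ds i) ^ n - φ v * ss = φ (a i ^ n * s - d i ^ n * v) * (ds i ^ n * ss) by
        rw [map_sub, map_mul, map_mul, map_pow, map_pow]
        linear_combination (-((φ (a i) * ds i) ^ n)) * hss + (φ v * ss) * hnu]
      exact Ideal.mul_mem_right _ _ (Ideal.mem_map_of_mem _ hmem))
    (fun i => by
      rw [show φ (a i) * ds i - φ (X.cW w) = φ (a i - d i * X.cW w) * ds i by
        rw [map_sub, map_mul]; linear_combination φ (X.cW w) * hds i]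
      refine Ideal.mul_mem_right _ _ (p.algebraMap_mem_max.2 ?_)
      rw [map_sub, map_mul, hwπ, hval, sub_self])
  obtain ⟨⟨cn, cd⟩, hcd⟩ := IsLocalization.surj p.ideal.primeCompl c
  change c * φ cd.1 = φ cn at hcd
  have hcd0 : p.π cd.1 ≠ 0 := fun h0 => cd.2 (p.mem_ideal.2 h0)
  -- kill the branches away from the point
  have haway : ∀ i : X.Sheet × Fin (K + 2), ¬ RingHom.ker (Ω.rs i.1 i.2) ≤ p.ideal →
      ∃ e, Ω.rs i.1 i.2 e = 0 ∧ p.π e ≠ 0 := fun i hi => by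
    obtain ⟨e, he, he'⟩ := SetLike.not_le_iff_exists.1 hi
    exact ⟨e, he, fun h0 => he' (p.mem_ideal.2 h0)⟩
  choose! e he he' using haway
  set E := ∏ i ∈ Finset.univ.filter (fun i : X.Sheet × Fin (K + 2) => ¬ RingHom.ker (Ω.rs i.1 i.2) ≤ p.ideal),
    e i
  have hE : p.π E ≠ 0 := by
    rw [map_prod, Finset.prod_ne_zero_iff]
    exact fun i hi => he' i (Finset.mem_filter.1 hi).2
  refine ⟨E * cd.1, E * cn, by rw [map_mul]; exact mul_ne_zero hE hcd0, fun g j => ?_⟩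
  by_cases hle : RingHom.ker (Ω.rs g j) ≤ p.ideal
  · set i : ι := ⟨(g, j), hle⟩
    obtain ⟨-, hc1, -⟩ := p.map_ker_data hle
    have h1 : cn * d i - a i * cd.1 ∈ RingHom.ker (Ω.rs g j) := by
      rw [← hc1, Ideal.mem_comap]
      have : φ (cn * d i - a i * cd.1) = (c - φ (a i) * ds i) * (φ cd.1 * φ (d i)) := by
        rw [map_sub, map_mul, map_mul, ← hcd]
        linear_combination (φ cd.1 * φ (a i)) * hds i
      rw [this]
      exact Ideal.mul_mem_right _ _ (hc i)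
    rw [RingHom.mem_ker, map_sub, map_mul, map_mul, sub_eq_zero, ← hrel i] at h1
    have hne := p.rs_ne hle (hd i)
    have hh := (hF g j hle).2
    have h2 : Ω.rs g j cd.1 * Y g j = Ω.rs g j h * Ω.rs g j cn := by
      refine mul_left_cancel₀ hne ?_
      rw [show Ω.rs g j (d i) * (Ω.rs g j h * Ω.rs g j cn) =
        Ω.rs g j h * (Ω.rs g j cn * Ω.rs g j (d i)) by ring, h1]
      simp only [i]
      field_simp
    simp only [map_mul]
    linear_combination (Ω.rs g j E) * h2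
  · have h0 : Ω.rs g j E = 0 := by
      rw [map_prod]
      exact Finset.prod_eq_zero (i := (g, j)) (Finset.mem_filter.2 ⟨Finset.mem_univ _, hle⟩) (he (g, j) hle)
    simp [h0]

end Pt

namespace Ram

variable (ρ : Ram Ω)

include ρ in
/-- The root modulo a nilpotent element, for normalised functions. -/
theorem exists_root {n : ℕ} (hn : (n : k) ≠ 0) (hcop : Nat.Coprime q n) {F : X.R}
    (hF : ∀ g j, Ω.rs g j F ≠ 0) (hv : X.VDvd n F) (A : NRel Ω n false F) (B : NRel Ω n true F) :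
    ∃ (a j : X.R) (e : ℕ), a ^ n = F * (1 + j) ∧ (q : X.R) ∣ j ^ e := by
  haveI : Fintype X.Sheet := Finset.Subtype.fintype X.ctr.nodes
  have hn0 : n ≠ 0 := fun h => hn (by simp [h])
  haveI : NeZero n := ⟨hn0⟩
  -- exponents
  obtain ⟨a, b, hab⟩ : ∃ a b : ℕ, a * q = 1 + b * n := by
    refine ⟨(((ZMod.unitOfCoprime q hcop)⁻¹ : (ZMod n)ˣ) : ZMod n).val + n, ?_⟩
    set a := (((ZMod.unitOfCoprime q hcop)⁻¹ : (ZMod n)ˣ) : ZMod n).val + n
    have h1 : ((a * q : ℕ) : ZMod n) = ((1 : ℕ) : ZMod n) := by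
      simp only [a]
      push_cast
      rw [ZMod.natCast_zmod_val, ZMod.natCast_self, add_zero, ← ZMod.coe_unitOfCoprime q hcop,
        Units.inv_mul]
    have h2 : 1 ≤ a * q := Nat.one_le_iff_ne_zero.2 (mul_ne_zero (by omega) (NeZero.ne q))
    obtain ⟨b, hb⟩ := (Nat.modEq_iff_dvd' h2).1 ((ZMod.natCast_eq_natCast_iff _ _ _).1 h1.symm)
    exact ⟨b, by rw [mul_comm b n, ← hb]; omega⟩
  obtain ⟨κα, hκα, hα⟩ := exists_kappa hn0 A
  obtain ⟨κβ, hκβ, hβ⟩ := exists_kappa hn0 B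
  set Y : X.Sheet → Fin (K + 2) → LaurentSeries k := fun g j => rootS A B κα κβ a b g j
  have hS : ∀ g j, Y g j ^ n = Ω.rs g j F := fun g j => rootS_pow hab hF A B hα hβ g j
  obtain ⟨Eq'⟩ := Ω.shf.nonempty_eqs
  have hloc : ∀ P : Ideal X.R, P.IsMaximal → (q : X.R) ∈ P → ∃ (s v h t c : X.R),
      s ∉ P ∧ v ∉ P ∧ t ∉ P ∧ s * F = v * h ^ n ∧ (∀ g j, Ω.rs g j t * Y g j = Ω.rs g j (h * c)) ∧
      ∀ b, F ∣ b ^ n → ∃ s, s ∉ P ∧ h ∣ s * b := by
    intro P hP hqP
    haveI := hP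
    obtain ⟨p, rfl⟩ := Ω.exists_pt P hqP
    obtain ⟨s, v, h, hs, hv', he⟩ := ρ.exists_local_factor hF hv p
    obtain ⟨ω, hω, hres⟩ := p.exists_residue Eq' hn0 hF A B hab hκα hκβ hα hβ hs hv' he
    have hhne : ∀ g j, RingHom.ker (Ω.rs g j) ≤ p.ideal → Ω.rs g j h ≠ 0 := fun g j hle h0 => by
      have h1 := congrArg (Ω.rs g j) he
      rw [map_mul, map_mul, map_pow, h0, zero_pow hn0, mul_zero] at h1
      exact mul_ne_zero (p.rs_ne hle hs) (hF g j) h1
    obtain ⟨t, c, ht, htc⟩ := p.exists_local_root hn Y hs hv'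
      (fun g j hle => ⟨by rw [hS, ← map_mul, he, map_mul, map_pow], hhne g j hle⟩) hω hres
    refine ⟨s, v, h, t, c, fun h0 => hs (p.mem_ideal.1 h0), fun h0 => hv' (p.mem_ideal.1 h0),
      fun h0 => ht (p.mem_ideal.1 h0), he, htc, fun b hb => ?_⟩
    haveI := p.isNoetherian_loc
    haveI := p.ufd_loc
    haveI := p.isIntegrallyClosed_loc
    set φ := algebraMap X.R p.Loc
    have hinj : Injective φ :=
      IsLocalization.injective p.Loc (Ideal.primeCompl_le_nonZeroDivisors p.ideal)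
    have hsu : IsUnit (φ s) := p.isUnit_algebraMap hs
    have hvu : IsUnit (φ v) := p.isUnit_algebraMap hv'
    have h1 : φ h ^ n ∣ φ b ^ n := by
      have h2 : φ v * φ h ^ n ∣ φ s * φ b ^ n := by
        rw [← map_pow φ h, ← map_mul, ← he, map_mul, ← map_pow φ b]
        exact mul_dvd_mul_left _ (map_dvd φ hb)
      exact (hsu.dvd_mul_left).1 ((hvu.mul_left_dvd).1 h2)
    obtain ⟨z, hz⟩ := (IsIntegrallyClosed.pow_dvd_pow_iff hn0).1 h1
    obtain ⟨⟨zn, zd⟩, hzd⟩ := IsLocalization.surj p.ideal.primeCompl z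
    change z * φ zd.1 = φ zn at hzd
    refine ⟨zd.1, zd.2, zn, hinj ?_⟩
    rw [map_mul, map_mul, hz, ← hzd]
    ring
  choose! ls lv lh lt lc hls hlv hlt hfac hglue hroot using hloc
  -- the global element
  let I : Ideal X.R :=
    { carrier := {t | ∃ a, ∀ g j, Ω.rs g j a = Ω.rs g j t * Y g j}
      add_mem' := by
        rintro x y ⟨a, ha⟩ ⟨a', ha'⟩
        exact ⟨a + a', fun g j => by rw [map_add, ha, ha', map_add, add_mul]⟩
      zero_mem' := ⟨0, fun g j => by simp⟩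
      smul_mem' := by
        rintro c x ⟨a, ha⟩
        exact ⟨c * a, fun g j => by rw [smul_eq_mul, map_mul, ha, map_mul, mul_assoc]⟩ }
  have hqI : (q : X.R) ∈ I := ⟨0, fun g j => by
    rw [map_zero, show Ω.rs g j (q : X.R) = 0 from Ω.red_natCast _, zero_mul]⟩
  have hI : I = ⊤ := by
    by_contra hne
    obtain ⟨P, hP, hle⟩ := Ideal.exists_le_maximal _ hne
    exact hlt P hP (hle hqI) (hle ⟨lh P * lc P, fun g j => (hglue P hP (hle hqI) g j).symm⟩)
  obtain ⟨a0, ha0⟩ : (1 : X.R) ∈ I := hI ▸ Submodule.mem_top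
  set J : Ideal X.R := ⨅ i : X.Sheet × Fin (K + 2), RingHom.ker (Ω.rs i.1 i.2) with hJ
  have hmemJ : ∀ {z : X.R}, (∀ g j, Ω.rs g j z = 0) → z ∈ J := fun {z} hz => by
    rw [hJ, Ideal.mem_iInf]
    exact fun i => hz i.1 i.2
  have hqJ : ∀ P : Ideal X.R, J ≤ P → (q : X.R) ∈ P := fun P hP =>
    hP (hmemJ fun g j => Ω.red_natCast _)
  haveI : ∀ i : X.Sheet × Fin (K + 2), (RingHom.ker (Ω.rs i.1 i.2)).IsPrime := fun i => RingHom.ker_isPrime _
  obtain ⟨a', j, hj, hjJ⟩ := exists_lift_root J (fun i : X.Sheet × Fin (K + 2) => RingHom.ker (Ω.rs i.1 i.2)) hJ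
    (Nat.pos_of_ne_zero hn0) (f := F) (a := a0)
    (fun i h0 => hF i.1 i.2 h0)
    (hmemJ fun g j => by rw [map_sub, map_pow, ha0, map_one, one_mul, hS, sub_self]) lh
    (fun P hP hJP => ⟨ls P, lv P, hls P hP (hqJ P hJP), hlv P hP (hqJ P hJP), hfac P hP (hqJ P hJP)⟩)
    (fun P hP hJP => hroot P hP (hqJ P hJP))
    (fun P hP hJP => ⟨lt P, lc P, hlt P hP (hqJ P hJP), hmemJ fun g j => by
      rw [map_sub, map_mul, ha0, map_one, one_mul, hglue P hP (hqJ P hJP) g j, sub_self]⟩)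
  refine ⟨a', j, Fintype.card X.Idx, hj, Ω.isNilpotent_of_forall fun l => ?_⟩
  show Ω.red (X.rep l) j = 0
  rw [Ω.red_rep]
  rw [hJ, Ideal.mem_iInf] at hjJ
  exact hjJ (X.sheet l, X.kind l)

end Ram

end FLTAgent.CarayolK
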