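import Fermat.Agent.CarayolK.Bound
import Fermat.Agent.CarayolK.Normalise

/-!
# Roots of functions with divisible norms, from the normalisation and the root modulo a nilpotent
-/

set_option autoImplicit false
set_option linter.unusedSectionVars false
set_option linter.style.haveILetI false

noncomputable section

open UpperHalfPlane hiding I I_re I_im
open Filter Topology Complex Function FLTAgent.ModEq FLTAgent.GoodModel ModularCurve
open scoped MatrixGroups Manifold Classical

namespace FLTAgent.CarayolK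

/-- A root modulo a nilpotent element for normalised functions gives the roots of norms. -/
theorem rootOfNorms_of_root {q K : ℕ} [NeZero q] [Fact q.Prime]
    (hroot : ∀ {M0 N' : ℕ} [NeZero M0] [NeZero N'] (X : Ctx q M0 N' K) [IsDiscreteValuationRing X.S]
      [IsNoetherianRing X.W] (k : Type) [Field k] [IsAlgClosed k] (Ω : Res X k) (_ : Ram Ω) {n : ℕ},
      (n : k) ≠ 0 → Nat.Coprime q n → ∀ {F : X.R}, (∀ g a, Ω.rs g a F ≠ 0) → X.VDvd n F →
      NRel Ω n false F → NRel Ω n true F →
      ∃ (a j : X.R) (e : ℕ), a ^ n = F * (1 + j) ∧ (q : X.R) ∣ j ^ e) :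
    RootOfNorms q K := by
  intro M0 N' _ _ X _ _ k _ _ Ω ρ L _ _ A π hπ hA jO hjO hjφ n hn hnW hcop f hf hα hβ hv L' hC hR
  haveI : NeZero n := ⟨fun h => hn (by simp [h])⟩
  obtain ⟨F, t, r, c, hc, ht, -, hF, he, hvF, ⟨NA⟩, ⟨NB⟩⟩ := ρ.exists_normalised hcop hf hα hβ hv
  obtain ⟨a, j, e, ha, hj⟩ := hroot X k Ω ρ hn hcop hF hvF NA NB
  exact ρ.exists_root_of_normalised hπ hA jO hjO hjφ hn hnW (E := expK q K) hc ht hF he hvF ha hj L'
    hC hR

end FLTAgent.CarayolK
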