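import Fermat.Agent.CarayolK.Bound
import Fermat.Agent.CarayolK.RootNorms
import Fermat.Agent.CarayolK.RootGlue

/-!
# The bound at a deeper level
-/

set_option autoImplicit false

noncomputable section

namespace FLTAgent.CarayolK

/-- The bound at `q ^ (K - 1) * M'`. -/
theorem carayol_bound (q M' K : ℕ) [Fact q.Prime] [NeZero q] [NeZero M']
    [NeZero (q ^ (K - 1) * M')] (hq : ¬ q ∣ M') (hK : 2 ≤ K) :
    EigenLattice.CarayolBound q (q ^ (K - 1) * M') :=
  carayol_bound_of_root q M' K hq hK
    (rootOfNorms_of_root (by intro M0 N1 _ _ X _ _ k _ _ Ω ρ n hn hc F hF hv A B; exact ρ.exists_root hn hc hF hv A B))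

end FLTAgent.CarayolK
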