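import Fermat.Agent.CarayolK.Regular

/-!
# Orders along the branches over `q`
-/

set_option autoImplicit false
set_option linter.unusedSectionVars false
set_option linter.style.haveILetI false

noncomputable section

open UpperHalfPlane hiding I I_re I_im
open Filter Topology Complex Function FLTAgent.ModEq FLTAgent.GoodModel ModularCurve
open scoped MatrixGroups Manifold Classical

namespace FLTAgent.CarayolK

open FLTAgent.Carayol (coordT)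

variable {q M0 N' K : ℕ} [NeZero M0] [NeZero N'] [NeZero q] [Fact q.Prime]
variable {X : Ctx q M0 N' K} {k : Type} [Field k]

namespace Res

variable (Ω : Res X k)

theorem ker_eq_of_le {σ σ' : SL(2, ℤ)} (h : Ω.ker σ ≤ Ω.ker σ') : Ω.ker σ = Ω.ker σ' := by
  refine eq_of_le_of_not_lt h fun hlt => ?_
  haveI : Algebra.IsIntegral X.U X.R := ⟨X.isIntegral_U Ω.fixed⟩
  have h2 := Ideal.IsIntegral.comap_lt_comap (R := X.U) (A := X.R) hlt
  obtain ⟨u, hu, hu'⟩ := SetLike.exists_of_lt h2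
  refine hu' ?_
  obtain ⟨v, hv⟩ := Ω.dvd_of_red_U u.2 (show Ω.red σ' (u : X.R) = 0 from hu)
  show Ω.red σ (u : X.R) = 0
  rw [hv, map_mul, Ω.red_natCast, zero_mul]

theorem rd_emb (l : X.Idx) (a : X.R) : Ω.rd (X.emb l a) = Ω.rs (X.sheet l) (X.kind l) a :=
  RingHom.congr_fun (Ω.red_rep l) a

theorem rs_lg (g : X.Sheet) (a : Fin (K + 2)) (x : X.R) :
    Ω.rd (X.emb (X.lg g a) x) = Ω.rs g a x := by
  rw [show X.emb (X.lg g a) x = X.embAt (X.gm g a) x from X.emb_idx _ _]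
  rfl

end Res

namespace Ram

variable {Ω : Res X k} (ρ : Ram Ω)

/-- The order of a series along the uniformiser. -/
def Ord (Fs : LaurentSeries X.S) (i : ℕ) : Prop :=
  ∃ Y, Ω.rd Y ≠ 0 ∧ Fs = HahnSeries.C ρ.ϖ ^ i * Y

variable [IsDiscreteValuationRing X.S]

theorem ker_φ {x : X.S} (h : Ω.φ x = 0) : ρ.ϖ ∣ x := by
  rw [← Ideal.mem_span_singleton, ← ρ.irr.maximalIdeal_eq, IsLocalRing.mem_maximalIdeal,
    mem_nonunits_iff]
  exact fun hu => (hu.map Ω.φ).ne_zero h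

theorem rd_C : Ω.rd (HahnSeries.C ρ.ϖ) = 0 := by
  rw [HahnSeries.C_apply, Res.rd, coeffMap_single, ρ.φϖ, HahnSeries.single_eq_zero]

theorem C_ne : (HahnSeries.C ρ.ϖ : LaurentSeries X.S) ≠ 0 := HahnSeries.C_ne_zero ρ.irr.ne_zero

theorem exists_of_rd_eq_zero {Y : LaurentSeries X.S} (h : Ω.rd Y = 0) :
    HahnSeries.C ρ.ϖ ∣ Y := by
  have hd : ∀ i : ℤ, ρ.ϖ ∣ Y.coeff i := fun i => ρ.ker_φ (by
    have := congrArg (fun z : LaurentSeries k => z.coeff i) h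
    simpa using this)
  choose c hc using hd
  refine ⟨{ coeff := c, isPWO_support' := Y.isPWO_support.mono fun i hi => ?_ }, ?_⟩
  · rw [HahnSeries.mem_support, hc]
    exact mul_ne_zero ρ.irr.ne_zero hi
  · ext i
    rw [HahnSeries.C_mul_eq_smul, HahnSeries.coeff_smul, smul_eq_mul]
    exact congrArg Subtype.val (hc i)

theorem exists_ord {Fs : LaurentSeries X.S} (hX : Fs ≠ 0) : ∃ i, ρ.Ord Fs i := by
  obtain ⟨j, hj⟩ : ∃ j, Fs.coeff j ≠ 0 := by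
    by_contra h
    push Not at h
    exact hX (HahnSeries.ext (funext fun j => (h j).trans HahnSeries.coeff_zero.symm))
  obtain ⟨t, ht⟩ := IsDiscreteValuationRing.associated_pow_irreducible hj ρ.irr
  have hbound : ¬ HahnSeries.C ρ.ϖ ^ (t + 1) ∣ Fs := by
    rintro ⟨Y, hY⟩
    have h1 := congrArg (fun z : LaurentSeries X.S => z.coeff j) hY
    simp only [← map_pow, HahnSeries.C_mul_eq_smul, HahnSeries.coeff_smul, smul_eq_mul] at h1
    have h2 : ρ.ϖ ^ (t + 1) ∣ ρ.ϖ ^ t := ht.dvd_iff_dvd_right.1 ⟨_, h1⟩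
    exact absurd ((pow_dvd_pow_iff ρ.irr.ne_zero ρ.irr.not_isUnit).1 h2) (by omega)
  set P : ℕ → Prop := fun i => ¬ HahnSeries.C ρ.ϖ ^ (i + 1) ∣ Fs
  have hP : ∃ i, P i := ⟨t, hbound⟩
  have hdvd : HahnSeries.C ρ.ϖ ^ Nat.find hP ∣ Fs := by
    rcases Nat.eq_zero_or_pos (Nat.find hP) with h | h
    · rw [h, pow_zero]; exact one_dvd _
    · have := Nat.find_min hP (show Nat.find hP - 1 < Nat.find hP by omega)
      simp only [P, not_not, Nat.sub_add_cancel h] at this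
      exact this
  obtain ⟨Y, hY⟩ := hdvd
  refine ⟨Nat.find hP, Y, fun h0 => Nat.find_spec hP ?_, hY⟩
  obtain ⟨Z, rfl⟩ := ρ.exists_of_rd_eq_zero h0
  exact ⟨Z, hY.trans (by rw [pow_succ, mul_assoc])⟩

theorem ord_unique {Fs : LaurentSeries X.S} {i j : ℕ} (hi : ρ.Ord Fs i) (hj : ρ.Ord Fs j) : i = j := by
  obtain ⟨Y, hY, rfl⟩ := hi
  obtain ⟨Z, hZ, h⟩ := hj
  rcases lt_trichotomy i j with hlt | heq | hgt
  · obtain ⟨d, rfl⟩ := Nat.exists_eq_add_of_lt hlt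
    rw [show i + d + 1 = i + (d + 1) by ring, pow_add, mul_assoc] at h
    exact absurd (by rw [mul_left_cancel₀ (pow_ne_zero _ ρ.C_ne) h, map_mul, map_pow, ρ.rd_C,
      zero_pow (Nat.succ_ne_zero d), zero_mul]) hY
  · exact heq
  · obtain ⟨d, rfl⟩ := Nat.exists_eq_add_of_lt hgt
    rw [show j + d + 1 = j + (d + 1) by ring, pow_add, mul_assoc] at h
    exact absurd (by rw [← mul_left_cancel₀ (pow_ne_zero _ ρ.C_ne) h, map_mul, map_pow, ρ.rd_C,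
      zero_pow (Nat.succ_ne_zero d), zero_mul]) hZ

theorem ord_ne {Fs : LaurentSeries X.S} {i : ℕ} (h : ρ.Ord Fs i) : Fs ≠ 0 := by
  obtain ⟨Y, hY, rfl⟩ := h
  exact mul_ne_zero (pow_ne_zero _ ρ.C_ne) fun h0 => hY (by rw [h0, map_zero])

theorem ord_mul {Fs Y : LaurentSeries X.S} {i j : ℕ} (hi : ρ.Ord Fs i) (hj : ρ.Ord Y j) :
    ρ.Ord (Fs * Y) (i + j) := by
  obtain ⟨A, hA, rfl⟩ := hi
  obtain ⟨B, hB, rfl⟩ := hj
  exact ⟨A * B, by rw [map_mul]; exact mul_ne_zero hA hB, by rw [pow_add]; ring⟩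

theorem ord_zero_iff {Fs : LaurentSeries X.S} : ρ.Ord Fs 0 ↔ Ω.rd Fs ≠ 0 := by
  refine ⟨fun ⟨Y, hY, h⟩ => by rwa [h, pow_zero, one_mul], fun h => ⟨Fs, h, by rw [pow_zero, one_mul]⟩⟩

theorem ord_pow {Fs : LaurentSeries X.S} {i : ℕ} (hi : ρ.Ord Fs i) (n : ℕ) :
    ρ.Ord (Fs ^ n) (n * i) := by
  induction n with
  | zero => rw [pow_zero, zero_mul]; exact ρ.ord_zero_iff.2 (by simp)
  | succ n ih => rw [pow_succ, add_mul, one_mul]; exact ρ.ord_mul ih hi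

theorem ord_prod {ι : Type*} (s : Finset ι) (F : ι → LaurentSeries X.S) (i : ι → ℕ)
    (h : ∀ x ∈ s, ρ.Ord (F x) (i x)) : ρ.Ord (∏ x ∈ s, F x) (∑ x ∈ s, i x) := by
  induction s using Finset.induction with
  | empty => rw [Finset.prod_empty, Finset.sum_empty]; exact ρ.ord_zero_iff.2 (by simp)
  | insert a t ha ih =>
    rw [Finset.prod_insert ha, Finset.sum_insert ha]
    exact ρ.ord_mul (h a (Finset.mem_insert_self _ _)) (ih fun x hx => h x (Finset.mem_insert_of_mem hx))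

theorem ord_natCast : ρ.Ord (q : LaurentSeries X.S) (q ^ (K - 1) * (q - 1)) := by
  refine ⟨HahnSeries.C ρ.u, ?_, ?_⟩
  · rw [HahnSeries.C_apply, Res.rd, coeffMap_single]
    exact fun h => (ρ.hu.map Ω.φ).ne_zero (HahnSeries.single_eq_zero_iff.1 h)
  · rw [← map_natCast (HahnSeries.C : X.S →+* LaurentSeries X.S), ρ.hq, map_mul, map_pow, mul_comm]

theorem ord_add {Fs Y : LaurentSeries X.S} {i : ℕ} (hi : ρ.Ord Fs i)
    (hY : HahnSeries.C ρ.ϖ ^ (i + 1) ∣ Y) : ρ.Ord (Fs + Y) i := by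
  obtain ⟨A, hA, rfl⟩ := hi
  obtain ⟨B, rfl⟩ := hY
  refine ⟨A + HahnSeries.C ρ.ϖ * B, ?_, by rw [pow_succ]; ring⟩
  rwa [map_add, map_mul, ρ.rd_C, zero_mul, add_zero]

/-- The order of a series, zero for the zero series. -/
def ordS (Fs : LaurentSeries X.S) : ℕ := if h : ∃ i, ρ.Ord Fs i then h.choose else 0

theorem ordS_eq {Fs : LaurentSeries X.S} {i : ℕ} (h : ρ.Ord Fs i) : ρ.ordS Fs = i := by
  have he : ∃ i, ρ.Ord Fs i := ⟨i, h⟩
  rw [ordS, dif_pos he]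
  exact ρ.ord_unique he.choose_spec h

theorem ordS_spec {Fs : LaurentSeries X.S} (hX : Fs ≠ 0) : ρ.Ord Fs (ρ.ordS Fs) := by
  obtain ⟨i, hi⟩ := ρ.exists_ord hX
  rwa [ρ.ordS_eq hi]

/-- The order of an element at an embedding. -/
def oe (l : X.Idx) (a : X.R) : ℕ := ρ.ordS (X.emb l a)

omit [IsDiscreteValuationRing X.S] in
theorem emb_ne {l : X.Idx} {a : X.R} (ha : a ≠ 0) : X.emb l a ≠ 0 := fun h =>
  ha (X.embAt_injective (X.rep l) (h.trans (map_zero _).symm))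

theorem ord_oe {l : X.Idx} {a : X.R} (ha : a ≠ 0) : ρ.Ord (X.emb l a) (ρ.oe l a) :=
  ρ.ordS_spec (emb_ne ha)

theorem oe_mul (l : X.Idx) {a b : X.R} (ha : a ≠ 0) (hb : b ≠ 0) :
    ρ.oe l (a * b) = ρ.oe l a + ρ.oe l b := by
  rw [oe, map_mul]; exact ρ.ordS_eq (ρ.ord_mul (ρ.ord_oe ha) (ρ.ord_oe hb))

theorem oe_pow (l : X.Idx) {a : X.R} (ha : a ≠ 0) (n : ℕ) : ρ.oe l (a ^ n) = n * ρ.oe l a := by
  rw [oe, map_pow]; exact ρ.ordS_eq (ρ.ord_pow (ρ.ord_oe ha) n)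

theorem oe_natCast (l : X.Idx) : ρ.oe l (q : X.R) = q ^ (K - 1) * (q - 1) := by
  rw [oe, map_natCast]; exact ρ.ordS_eq ρ.ord_natCast

theorem oe_eq_zero_iff (l : X.Idx) {a : X.R} (ha : a ≠ 0) :
    ρ.oe l a = 0 ↔ Ω.rd (X.emb l a) ≠ 0 :=
  ⟨fun h => ρ.ord_zero_iff.1 (h ▸ ρ.ord_oe ha), fun h => ρ.ordS_eq (ρ.ord_zero_iff.2 h)⟩

variable [IsAlgClosed k] [IsNoetherianRing X.W]

include ρ in
/-- A uniformiser at a branch. -/
theorem exists_unif (g : X.Sheet) (j : Fin (K + 2)) : ∃ b : X.R, b ≠ 0 ∧ Ω.rs g j b = 0 ∧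
    ∀ z : X.R, z ≠ 0 → ∃ (s a : X.R) (i : ℕ), Ω.rs g j s ≠ 0 ∧ Ω.rs g j a ≠ 0 ∧ s * z = a * b ^ i := by
  set Kr := Ω.ker (X.gm g j)
  obtain ⟨P, hP, hKP⟩ := Ideal.exists_le_maximal Kr (Ideal.IsPrime.ne_top inferInstance)
  haveI := hP
  obtain ⟨p, hp⟩ := Ω.exists_pt P (hKP (Ω.red_natCast _))
  subst hp
  haveI := p.isNoetherian_loc
  haveI := p.ufd_loc
  set φ := algebraMap X.R p.Loc
  have hinj : Injective φ :=
    IsLocalization.injective p.Loc (Ideal.primeCompl_le_nonZeroDivisors p.ideal)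
  have hdisj : Disjoint (p.ideal.primeCompl : Set X.R) (Kr : Set X.R) :=
    Set.disjoint_left.2 fun z hz hz' => hz (hKP hz')
  set P0 := Kr.map φ
  haveI : P0.IsPrime :=
    IsLocalization.isPrime_of_isPrime_disjoint p.ideal.primeCompl p.Loc _ inferInstance hdisj
  have hcomap : P0.comap φ = Kr :=
    IsLocalization.under_map_of_isPrime_disjoint p.ideal.primeCompl p.Loc inferInstance hdisj
  have hqne : φ (q : X.R) ≠ 0 := (map_ne_zero_iff _ hinj).2 (X.natCast_q_ne)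
  obtain ⟨fs, hfs, hprod⟩ := UniqueFactorizationMonoid.exists_prime_factors (φ (q : X.R)) hqne
  have hqP : fs.prod ∈ P0 := by
    have h1 : φ (q : X.R) ∈ P0 := Ideal.mem_map_of_mem _ (Ω.red_natCast _)
    obtain ⟨v, hv⟩ := hprod
    rw [← hv] at h1
    exact (Ideal.IsPrime.mem_or_mem inferInstance h1).resolve_right
      fun h => Ideal.IsPrime.ne_top inferInstance (Ideal.eq_top_of_isUnit_mem _ h v.isUnit)
  obtain ⟨π', hπ'mem, hπ'P⟩ := (Ideal.IsPrime.multiset_prod_mem_iff_exists_mem inferInstance fs).1 hqP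
  have hπ' := hfs π' hπ'mem
  haveI hsp : (Ideal.span {π'}).IsPrime := (Ideal.span_singleton_prime hπ'.ne_zero).2 hπ'
  have hqπ : (q : X.R) ∈ (Ideal.span {π'}).comap φ :=
    Ideal.mem_span_singleton.2 ((Multiset.dvd_prod hπ'mem).trans hprod.dvd)
  have hle : (Ideal.span {π'}).comap φ ≤ Kr := by
    rw [← hcomap]
    exact Ideal.comap_mono ((Ideal.span_singleton_le_iff_mem _).2 hπ'P)
  obtain ⟨l', hl'⟩ := Ω.exists_ker_le ((Ideal.span {π'}).comap φ) hqπ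
  have heq := Ω.ker_eq_of_le (hl'.trans hle)
  have hKπ : Kr ≤ (Ideal.span {π'}).comap φ := (le_of_eq heq.symm).trans hl'
  obtain ⟨⟨b, s0⟩, hb⟩ := IsLocalization.surj p.ideal.primeCompl π'
  change π' * φ s0.1 = φ b at hb
  have hs0u : IsUnit (φ s0.1) := IsLocalization.map_units p.Loc s0
  refine ⟨b, fun h0 => ?_, ?_, fun z hz => ?_⟩
  · rw [h0, map_zero] at hb
    exact mul_ne_zero hπ'.ne_zero hs0u.ne_zero hb
  · have : b ∈ P0.comap φ := by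
      rw [Ideal.mem_comap, ← hb]
      exact P0.mul_mem_right _ hπ'P
    rw [hcomap] at this
    exact this
  · obtain ⟨i, w, hw, hzw⟩ := WfDvdMonoid.max_power_factor
      ((map_ne_zero_iff φ hinj).2 hz) hπ'.irreducible
    obtain ⟨⟨a, s1⟩, ha⟩ := IsLocalization.surj p.ideal.primeCompl w
    change w * φ s1.1 = φ a at ha
    refine ⟨s0.1 ^ i * s1.1, a, i, fun h => ?_, fun h => hw ?_, hinj ?_⟩
    · rw [map_mul, map_pow] at h
      rcases mul_eq_zero.1 h with h | h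
      · exact s0.2 (hKP (eq_zero_of_pow_eq_zero h))
      · exact s1.2 (hKP h)
    · have h1 : φ a ∈ Ideal.span {π'} := hKπ h
      rw [← ha, Ideal.mem_span_singleton] at h1
      exact (IsLocalization.map_units p.Loc s1).dvd_mul_right.1 h1
    · rw [map_mul, map_mul, map_mul, map_pow, map_pow, ← ha, ← hb, hzw]
      ring

/-- The order only depends on the branch. -/
theorem oe_eq_of_ker {l : X.Idx} {g : X.Sheet} {j : Fin (K + 2)}
    (h : RingHom.ker (Ω.rs (X.sheet l) (X.kind l)) = RingHom.ker (Ω.rs g j)) {x : X.R} (hx : x ≠ 0) :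
    ρ.oe l x = ρ.oe (X.lg g j) x := by
  obtain ⟨b, hb0, hbker, hb⟩ := ρ.exists_unif g j
  have hl : ∀ a, Ω.rs g j a = 0 ↔ Ω.rd (X.emb l a) = 0 := fun a => by
    rw [Ω.rd_emb, ← RingHom.mem_ker, ← RingHom.mem_ker, h]
  have hg : ∀ a, Ω.rs g j a = 0 ↔ Ω.rd (X.emb (X.lg g j) a) = 0 := fun a => by rw [Ω.rs_lg]
  have key : ∀ l' : X.Idx, (∀ a, Ω.rs g j a = 0 ↔ Ω.rd (X.emb l' a) = 0) →
      ∀ z, z ≠ 0 → ∀ (s a : X.R) (i : ℕ), Ω.rs g j s ≠ 0 → Ω.rs g j a ≠ 0 → s * z = a * b ^ i →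
      ρ.oe l' z = i * ρ.oe l' b := by
    intro l' hl' z hz s a i hs ha he
    have hs0 : s ≠ 0 := fun h0 => hs (by rw [h0, map_zero])
    have ha0 : a ≠ 0 := fun h0 => ha (by rw [h0, map_zero])
    have h1 := congrArg (ρ.oe l') he
    rw [ρ.oe_mul l' hs0 hz, ρ.oe_mul l' ha0 (pow_ne_zero _ hb0), ρ.oe_pow l' hb0,
      (ρ.oe_eq_zero_iff l' hs0).2 fun h0 => hs ((hl' s).2 h0),
      (ρ.oe_eq_zero_iff l' ha0).2 fun h0 => ha ((hl' a).2 h0), zero_add, zero_add] at h1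
    exact h1
  obtain ⟨s, a, e, hs, ha, he⟩ := hb _ (X.natCast_q_ne)
  have e1 := key l hl _ X.natCast_q_ne s a e hs ha he
  have e2 := key (X.lg g j) hg _ X.natCast_q_ne s a e hs ha he
  rw [ρ.oe_natCast] at e1 e2
  have hq1 : q ^ (K - 1) * (q - 1) ≠ 0 :=
    mul_ne_zero (pow_ne_zero _ (NeZero.ne q)) (by have := X.hq.two_le; omega)
  have hbb : ρ.oe l b = ρ.oe (X.lg g j) b := by
    have he0 : e ≠ 0 := fun h0 => hq1 (by rw [e1, h0, zero_mul])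
    exact mul_left_cancel₀ he0 (e1.symm.trans e2)
  obtain ⟨s', a', i, hs', ha', he'⟩ := hb x hx
  rw [key l hl x hx s' a' i hs' ha' he', key _ hg x hx s' a' i hs' ha' he', hbb]

theorem oe_lg (l : X.Idx) {x : X.R} (hx : x ≠ 0) :
    ρ.oe l x = ρ.oe (X.lg (X.sheet l) (X.kind l)) x := ρ.oe_eq_of_ker rfl hx

/-- Elements of equal order at a branch differ by a unit there. -/
theorem exists_cmp (g : X.Sheet) (j : Fin (K + 2)) {x y : X.R} (hx : x ≠ 0) (hy : y ≠ 0)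
    (h : ρ.oe (X.lg g j) x = ρ.oe (X.lg g j) y) :
    ∃ s a : X.R, Ω.rs g j s ≠ 0 ∧ Ω.rs g j a ≠ 0 ∧ s * x = a * y := by
  obtain ⟨b, hb0, hbker, hb⟩ := ρ.exists_unif g j
  obtain ⟨s, a, i, hs, ha, he⟩ := hb x hx
  obtain ⟨s', a', i', hs', ha', he'⟩ := hb y hy
  have key : ∀ (z s a : X.R) (i : ℕ), z ≠ 0 → Ω.rs g j s ≠ 0 → Ω.rs g j a ≠ 0 → s * z = a * b ^ i →
      ρ.oe (X.lg g j) z = i * ρ.oe (X.lg g j) b := by
    intro z s a i hz hs ha he
    have hs0 : s ≠ 0 := fun h0 => hs (by rw [h0, map_zero])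
    have ha0 : a ≠ 0 := fun h0 => ha (by rw [h0, map_zero])
    have h1 := congrArg (ρ.oe (X.lg g j)) he
    rw [ρ.oe_mul _ hs0 hz, ρ.oe_mul _ ha0 (pow_ne_zero _ hb0), ρ.oe_pow _ hb0,
      (ρ.oe_eq_zero_iff _ hs0).2 (by rwa [Ω.rs_lg]), (ρ.oe_eq_zero_iff _ ha0).2 (by rwa [Ω.rs_lg]),
      zero_add, zero_add] at h1
    exact h1
  have hbpos : ρ.oe (X.lg g j) b ≠ 0 := fun h0 =>
    (ρ.oe_eq_zero_iff _ hb0).1 h0 (by rw [Ω.rs_lg]; exact hbker)
  rw [key x s a i hx hs ha he, key y s' a' i' hy hs' ha' he'] at h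
  obtain rfl := mul_right_cancel₀ hbpos h
  exact ⟨s * a', a * s', by rw [map_mul]; exact mul_ne_zero hs ha',
    by rw [map_mul]; exact mul_ne_zero ha hs', by linear_combination a' * he - a * he'⟩

/-- Clearing the units outside all branches. -/
theorem exists_clear {x y : X.R} (hx : x ≠ 0) (hy : y ≠ 0)
    (h : ∀ g j, ρ.oe (X.lg g j) x = ρ.oe (X.lg g j) y) :
    ∃ t a : X.R, (∀ g j, Ω.rs g j t ≠ 0 ∧ Ω.rs g j a ≠ 0) ∧ t * x = a * y := by
  let D : Ideal X.R := Submodule.comap (LinearMap.mulRight X.R x) (Ideal.span {y})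
  haveI : Fintype X.Sheet := Finset.Subtype.fintype X.ctr.nodes
  have hD : ¬ (D : Set X.R) ⊆ ⋃ i ∈ ((Finset.univ : Finset (X.Sheet × Fin (K + 2))) : Set (X.Sheet × Fin (K + 2))),
      (RingHom.ker (Ω.rs i.1 i.2) : Set X.R) := by
    intro hsub
    haveI : ∀ i : X.Sheet × Fin (K + 2), (RingHom.ker (Ω.rs i.1 i.2)).IsPrime := fun i => RingHom.ker_isPrime _
    obtain ⟨i, -, hi⟩ := (Ideal.subset_union_prime (s := Finset.univ)
      (f := fun i : X.Sheet × Fin (K + 2) => RingHom.ker (Ω.rs i.1 i.2))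
      (⟨X.ctr.eta, X.ctr.eta_mem_nodes⟩, 0) (⟨X.ctr.eta, X.ctr.eta_mem_nodes⟩, 0) fun _ _ _ _ => inferInstance).1 hsub
    obtain ⟨s, a, hs, -, hsa⟩ := ρ.exists_cmp i.1 i.2 hx hy (h i.1 i.2)
    exact hs (hi (show s * x ∈ Ideal.span {y} from Ideal.mem_span_singleton'.2 ⟨a, hsa.symm⟩))
  obtain ⟨t, ht, ht'⟩ := Set.not_subset.1 hD
  obtain ⟨a, ha⟩ := Ideal.mem_span_singleton'.1 (show t * x ∈ Ideal.span {y} from ht)
  have htne : ∀ g j, Ω.rs g j t ≠ 0 := fun g j h0 =>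
    ht' (Set.mem_biUnion (Finset.mem_coe.2 (Finset.mem_univ (g, j))) h0)
  have ht0 : t ≠ 0 := fun h0 => htne ⟨X.ctr.eta, X.ctr.eta_mem_nodes⟩ 0 (by rw [h0, map_zero])
  have ha0 : a ≠ 0 := fun h0 => mul_ne_zero ht0 hx (by rw [← ha, h0, zero_mul])
  refine ⟨t, a, fun g j => ⟨htne g j, ?_⟩, ha.symm⟩
  have h1 := congrArg (ρ.oe (X.lg g j)) ha
  rw [ρ.oe_mul _ ha0 hy, ρ.oe_mul _ ht0 hx,
    (ρ.oe_eq_zero_iff _ ht0).2 (by rw [Ω.rs_lg]; exact htne g j), h g j, zero_add] at h1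
  have := (ρ.oe_eq_zero_iff (X.lg g j) ha0).1 (by omega)
  rwa [Ω.rs_lg] at this

/-- An element with prescribed orders. -/
theorem exists_orders (m : X.Sheet → Fin (K + 2) → ℕ)
    (hm : ∀ g j g' j', RingHom.ker (Ω.rs g j) = RingHom.ker (Ω.rs g' j') → m g j = m g' j') :
    ∃ r : X.R, r ≠ 0 ∧ ∀ g j, ρ.oe (X.lg g j) r = (q ^ (K - 1) * (q - 1)) * m g j := by
  haveI : Fintype X.Sheet := Finset.Subtype.fintype X.ctr.nodes
  set Kr : X.Sheet × Fin (K + 2) → Ideal X.R := fun i => RingHom.ker (Ω.rs i.1 i.2)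
  set ks := (Finset.univ : Finset (X.Sheet × Fin (K + 2))).image Kr
  haveI : ∀ i, (Kr i).IsPrime := fun i => RingHom.ker_isPrime _
  have hrep : ∀ P ∈ ks, ∃ i, Kr i = P := fun P hP => by
    obtain ⟨i, -, hi⟩ := Finset.mem_image.1 hP
    exact ⟨i, hi⟩
  haveI : Nonempty X.Sheet := ⟨⟨X.ctr.eta, X.ctr.eta_mem_nodes⟩⟩
  choose! rep hrep using hrep
  have hsep : ∀ P ∈ ks, ∀ Q ∈ ks, Q ≠ P → ∃ e, e ∈ Q ∧ e ∉ P := fun P hP Q hQ hne => by
    by_contra hcon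
    push Not at hcon
    have hle : Kr (rep Q) ≤ Kr (rep P) := by rw [hrep Q hQ, hrep P hP]; exact hcon
    exact hne (by rw [← hrep P hP, ← hrep Q hQ]; exact Ω.ker_eq_of_le hle)
  choose! e he he' using hsep
  set ep : Ideal X.R → X.R := fun P => ∏ Q ∈ ks.erase P, e P Q
  have hep : ∀ P ∈ ks, ∀ Q ∈ ks, (ep P ∈ Q ↔ Q ≠ P) := by
    intro P hP Q hQ
    refine ⟨fun h hQP => ?_, fun hne => ?_⟩
    · subst hQP
      haveI : Q.IsPrime := hrep Q hQ ▸ inferInstance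
      obtain ⟨R', hR', hmem⟩ := (Ideal.IsPrime.prod_mem_iff).1 h
      exact he' Q hP R' (Finset.mem_erase.1 hR').2 (Finset.mem_erase.1 hR').1 hmem
    · exact Ideal.mem_of_dvd _ (Finset.dvd_prod_of_mem _ (Finset.mem_erase.2 ⟨hne, hQ⟩))
        (he P hP Q hQ hne)
  set M := Finset.univ.sup fun i : X.Sheet × Fin (K + 2) => m i.1 i.2
  set r := ∑ P ∈ ks, (q : X.R) ^ m (rep P).1 (rep P).2 * ep P ^ ((q ^ (K - 1) * (q - 1)) * M + 1)
  have key : ∀ g j, ρ.Ord (X.emb (X.lg g j) r) ((q ^ (K - 1) * (q - 1)) * m g j) := by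
    intro g j
    set P := Kr (g, j)
    have hP : P ∈ ks := Finset.mem_image.2 ⟨(g, j), Finset.mem_univ _, rfl⟩
    have hmP : m (rep P).1 (rep P).2 = m g j := hm _ _ _ _ (hrep P hP)
    rw [map_sum, ← Finset.add_sum_erase _ _ hP]
    refine ρ.ord_add ?_ (Finset.dvd_sum fun Q hQ => ?_)
    · rw [map_mul, map_pow, map_natCast, map_pow, hmP]
      have h0 : ρ.Ord (X.emb (X.lg g j) (ep P)) 0 := by
        rw [ρ.ord_zero_iff, Ω.rs_lg]
        exact fun h => ((hep P hP P hP).1 h) rfl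
      have := ρ.ord_mul (ρ.ord_pow ρ.ord_natCast (m g j)) (ρ.ord_pow h0 ((q ^ (K - 1) * (q - 1)) * M + 1))
      rwa [mul_zero, add_zero, mul_comm (m g j)] at this
    · obtain ⟨hne, hQks⟩ := Finset.mem_erase.1 hQ
      rw [map_mul, map_pow (X.emb (X.lg g j)) (ep Q)]
      refine dvd_mul_of_dvd_right ((pow_dvd_pow _ ?_).trans (pow_dvd_pow_of_dvd ?_ _)) _
      · have : m g j ≤ M := Finset.le_sup (f := fun i : X.Sheet × Fin (K + 2) => m i.1 i.2)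
          (Finset.mem_univ (g, j))
        exact Nat.add_le_add_right (Nat.mul_le_mul_left _ this) 1
      · refine ρ.exists_of_rd_eq_zero ?_
        rw [Ω.rs_lg]
        exact (hep Q hQks P hP).2 (Ne.symm hne)
  refine ⟨r, fun h => ρ.ord_ne (key ⟨X.ctr.eta, X.ctr.eta_mem_nodes⟩ 0) (by rw [h, map_zero]), fun g j =>
    ρ.ordS_eq (key g j)⟩

end Ram

end FLTAgent.CarayolK
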