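import Fermat.Agent.Carayol.Points

/-!
# More on first order neighbourhoods of one slot of the chain
-/

set_option autoImplicit false
set_option linter.unusedSectionVars false
set_option linter.style.haveILetI false

noncomputable section

open UpperHalfPlane hiding I I_re I_im
open Filter Topology Complex Function FLTAgent.ModEq FLTAgent.GoodModel ModularCurve
open scoped MatrixGroups Manifold Classical

namespace FLTAgent.Carayol

variable {q M0 N' : ℕ} [NeZero M0] [NeZero N'] [NeZero q] [Fact q.Prime]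
variable {C : Ctx q M0 N'} {k : Type} [Field k] {Ω : Res C k}

theorem Jet.agree_of_coords {p : Pt Ω} {B : Type} [CommRing B] (J : Jet p B) (E : Eqs Ω)
    (hy : J.Agree C.yR) (hx : ∀ b, J.Agree (C.xR b)) : J.f = J.ι.comp p.π := by
  refine J.agree_all E hy fun b => ?_
  by_cases h : p.π E.OmR = 0
  · exact ⟨hx b, J.agree_super E h hy (hx b)⟩
  · rcases p.side_ne E h b with ⟨hw, -⟩ | ⟨hv, -, -, -⟩
    · exact J.agree_side_F E hy hw
    · exact ⟨hx b, (J.agree_side_V E (hx b) hv).2⟩

/-- At a supersingular point the centre has no first order part. -/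
theorem Jet.agree_centre {p : Pt Ω} {B : Type} [CommRing B] (J : Jet p B) (E : Eqs Ω)
    (h : p.π E.OmR = 0) : J.Agree C.yR := by
  haveI := Ω.charK
  set x := C.xR false
  set z := C.xR true
  obtain ⟨hx, hx'⟩ := E.π_L p h false
  obtain ⟨hz, hz'⟩ := E.π_L p h true
  obtain ⟨P1, P2, hP, -, -⟩ := exists_divided C.cW C.yR C.yR x z E.H
  set S := ∑ i ∈ Finset.range q, x ^ i * z ^ (q - 1 - i)
  have hS : S * (x - z) = x ^ q - z ^ q := geom_sum₂_mul x z q
  have key : E.Dv * (S * (x - C.yR ^ q) + (z ^ q - C.yR)) + (q : C.R) * P1 = 0 := by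
    refine mul_left_cancel₀ (Eqs.xR_ne (C := C)) ?_
    rw [mul_zero]
    have k0 := E.kron' false
    have k1 := E.kron' true
    simp only [Eqs.Hv] at k0 k1
    linear_combination k0 - k1 + (E.Dv * (x - C.yR ^ q)) * hS - (q : C.R) * hP
  have hSπ : p.π S = 0 := by
    have hxz : p.π x = p.π z := hx'.trans hz'.symm
    simp only [S, map_sum, map_mul, map_pow, hxz, ← pow_add]
    rw [Finset.sum_congr rfl fun i hi => by
      rw [Nat.add_sub_cancel' (Nat.le_sub_one_of_lt (Finset.mem_range.1 hi))]]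
    simp [CharP.cast_eq_zero]
  have hxπ : p.π (x - C.yR ^ q) = 0 := by rw [map_sub, map_pow, hx', sub_self]
  have h1 := congrArg J.f key
  rw [map_add, map_mul, map_add, map_mul, J.sq _ _ hSπ hxπ, zero_add, map_mul, J.f_q, zero_mul,
    add_zero, map_zero] at h1
  have h2 : J.f (z ^ q) = J.f C.yR := by
    have h3 := (J.isUnit_f (E.π_Dv p)).mul_right_eq_zero.1 h1
    rwa [map_sub, sub_eq_zero] at h3
  obtain ⟨c, hc⟩ := p.exists_lift z
  obtain ⟨e, he⟩ := Polynomial.binomExpansion (Polynomial.X ^ q : Polynomial C.R) (C.cW c) (z - C.cW c)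
  simp only [Polynomial.eval_pow, Polynomial.eval_X, Polynomial.derivative_X_pow,
    Polynomial.eval_mul, Polynomial.eval_C, add_sub_cancel] at he
  have h4 := congrArg J.f he
  have hd := J.sq _ _ (p.mem_ideal.1 hc) (p.mem_ideal.1 hc)
  simp only [map_add, map_mul, map_pow, map_natCast] at h4
  have hq : (q : B) = 0 := by simpa using J.f_q
  rw [hq, zero_mul, zero_mul, add_zero, pow_two, hd, mul_zero, add_zero] at h4
  rw [Jet.Agree, ← h2, map_pow, h4, J.agree_cW c, ← map_pow, p.π_cW]
  congr 1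
  have hc' : p.π z = Ω.φW c := by
    rw [← p.π_cW, ← sub_eq_zero, ← map_sub, ← p.mem_ideal]; exact hc
  rw [← hc', hz]

/-- Both sides cannot be étale over the centre. -/
theorem Pt.not_both_F (p : Pt Ω) (h0 : p.π (C.wR false) ≠ 0) : p.π (C.wR true) = 0 := by
  by_contra h1
  obtain ⟨l, hl⟩ := p.exists_branch
  have key : ∀ b, p.π (C.wR b) ≠ 0 → compg (C.rep l) (C.rX (C.sb b)) = C.rX none := by
    intro b hb
    obtain ⟨r, hr, -, h2⟩ := Ω.red_cases (C.rep_mem l) b
    by_cases hn : r = none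
    · rw [hr, hn]
    · exact absurd (p.mem_ideal.1 (hl (h2 hn).2.1)) hb
  have := C.rX_injective (compg_injective (C.rep l) ((key _ h0).trans (key _ h1).symm))
  simp [Ctx.sb] at this

/-- The value of the slope only depends on the centre. -/
theorem Pt.π_OmR_mul (p : Pt Ω) (E : Eqs Ω) :
    p.π E.OmR * (C.dltW.map Ω.φW).eval (p.π C.yR) ^ E.s =
      -((E.G.coeff q).map Ω.φW).eval (p.π C.yR) := by
  have h := congrArg p.π C.evR_dltW_mul_dR
  rw [map_mul, map_one, p.π_evR] at h
  rw [Eqs.OmR, map_neg, map_mul, map_pow, p.π_evR, ← p.π_evR, ← p.π_evR, neg_mul, mul_assoc,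
    ← mul_pow, p.π_evR C.dltW, mul_comm (p.π C.dR), h, one_pow, mul_one]

/-- At a point where both sides are étale over the outer ends the outer differences bound the
inner one. -/
theorem divided_centres {W A : Type*} [CommRing W] [CommRing A] (f : W →+* A)
    (G Q : Polynomial (Polynomial W)) {x x' v v' y y' : A} (hG : bv f x v G = 0)
    (hQ : bv f x v (Polynomial.derivative G) * y = bv f x v Q) (hG' : bv f x' v' G = 0)
    (hQ' : bv f x' v' (Polynomial.derivative G) * y' = bv f x' v' Q) :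
    ∃ P1 T : A, P1 * bv f x v (Polynomial.derivative G) * (y - y') = (x - x') * T ∧
      P1 - bv f x v (Polynomial.derivative G) ∈ Ideal.span {v - v', x - x'} ∧
      T - ((bv f x v (Polynomial.derivative Q) -
            y' * bv f x v (Polynomial.derivative (Polynomial.derivative G))) * (-bv f x v (dInner G)) +
        (bv f x v (dInner Q) - y' * bv f x v (dInner (Polynomial.derivative G))) *
          bv f x v (Polynomial.derivative G)) ∈ Ideal.span {v - v', x - x'} := by
  obtain ⟨P1, P2, hP, hP1, hP2⟩ := exists_divided f x x' v v' G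
  obtain ⟨A1, A2, hA, hA1, hA2⟩ := exists_divided f x x' v v' (Polynomial.derivative G)
  obtain ⟨Q1, Q2, hq, hQ1, hQ2⟩ := exists_divided f x x' v v' Q
  set I := Ideal.span {v - v', x - x'}
  rw [hG, hG', sub_zero] at hP
  refine ⟨P1, (Q1 - y' * A1) * (-P2) + (Q2 - y' * A2) * P1, ?_, hP1, ?_⟩
  · linear_combination (P1) * hQ - P1 * hQ' + P1 * hq - (P1 * y') * hA - (Q1 - y' * A1) * hP
  · have e1 := Ideal.Quotient.mk_eq_mk_iff_sub_mem (I := I) _ _ |>.2 hP1
    have e2 := Ideal.Quotient.mk_eq_mk_iff_sub_mem (I := I) _ _ |>.2 hP2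
    have e3 := Ideal.Quotient.mk_eq_mk_iff_sub_mem (I := I) _ _ |>.2 hA1
    have e4 := Ideal.Quotient.mk_eq_mk_iff_sub_mem (I := I) _ _ |>.2 hA2
    have e5 := Ideal.Quotient.mk_eq_mk_iff_sub_mem (I := I) _ _ |>.2 hQ1
    have e6 := Ideal.Quotient.mk_eq_mk_iff_sub_mem (I := I) _ _ |>.2 hQ2
    rw [← Ideal.Quotient.mk_eq_mk_iff_sub_mem]
    simp only [map_add, map_sub, map_mul, map_neg, e1, e2, e3, e4, e5, e6]

end FLTAgent.Carayol
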