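import Fermat.Agent.CarayolK.Vertices
import Fermat.Agent.CarayolK.Descent
import Fermat.Agent.CarayolK.Slot

/-!
# Regularity of the cover over `q`

At a supersingular point the two ends of the chain are parameters. At an ordinary point the reduced
chain has one maximum, the vertex `a`: the parameters are `q` and an end, or the two ends, or an
end and the difference of the two neighbours of the maximum.
-/

set_option autoImplicit false
set_option linter.unusedSectionVars false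
set_option linter.style.haveILetI false

noncomputable section

open UpperHalfPlane hiding I I_re I_im
open Filter Topology Complex Function FLTAgent.ModEq FLTAgent.GoodModel ModularCurve
open scoped MatrixGroups Manifold Classical

namespace FLTAgent.CarayolK

open IsLocalRing (maximalIdeal)
open FLTAgent.Carayol (bv map_bv le_of_le_sup_sq Eqs)

variable {q M0 N' K : ℕ} [NeZero M0] [NeZero N'] [NeZero q] [Fact q.Prime]
variable {X : Ctx q M0 N' K} {k : Type} [Field k] {Ω : Res X k}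

/-- A first order neighbourhood of a point. -/
structure Jet (p : Pt Ω) (B : Type) [CommRing B] where
  f : X.R →+* B
  ι : k →+* B
  comp : f.comp X.cW = ι.comp Ω.φW
  sq : ∀ z z' : X.R, p.π z = 0 → p.π z' = 0 → f z * f z' = 0

theorem ofShf_cW (i : Fin K) (w : X.W) : X.ofShf i (X.shf.cW w) = X.cW w :=
  Subtype.ext rfl

namespace Pt

variable (p : Pt Ω)

/-- The point seen from a shifted cover. -/
def slot (i : Fin K) : Carayol.Pt Ω.shf :=
  ⟨p.π.comp (X.ofShf i), RingHom.ext fun w => by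
    exact (congrArg p.π (ofShf_cW i w)).trans (p.π_cW w)⟩

/-- The point seen from the centre. -/
def cen : Carayol.Pt Ω.ctr :=
  ⟨p.π.comp X.ofCtr, RingHom.ext fun w => p.π_cW w⟩

theorem slot_apply (i : Fin K) (z : X.shf.R) : (p.slot i).π z = p.π (X.ofShf i z) := rfl

theorem q_mem : (q : X.R) ∈ p.ideal := by
  haveI := Ω.charK
  rw [p.mem_ideal, map_natCast, CharP.cast_eq_zero]

theorem π_q : p.π (q : X.R) = 0 := p.mem_ideal.1 p.q_mem

theorem exists_lift (z : X.R) : ∃ c : X.W, z - X.cW c ∈ p.ideal := by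
  obtain ⟨c, hc⟩ := Ω.surjW (p.π z)
  refine ⟨c, ?_⟩
  rw [p.mem_ideal, map_sub, p.π_cW]
  exact sub_eq_zero.2 hc.symm

theorem algebraMap_mem_max {z : X.R} :
    algebraMap X.R p.Loc z ∈ maximalIdeal p.Loc ↔ p.π z = 0 := by
  rw [IsLocalization.AtPrime.to_map_mem_maximal_iff p.Loc p.ideal z, p.mem_ideal]

theorem isUnit_algebraMap {z : X.R} (h : p.π z ≠ 0) : IsUnit (algebraMap X.R p.Loc z) :=
  IsLocalization.map_units p.Loc (⟨z, fun hz => h (p.mem_ideal.1 hz)⟩ : p.ideal.primeCompl)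

/-- Agreement of all first order neighbourhoods bounds the maximal ideal. -/
theorem maximal_le (I : Ideal p.Loc) (hq : algebraMap X.R p.Loc (q : X.R) ∈ I ⊔ maximalIdeal p.Loc ^ 2)
    (h : ∀ (B : Type) [CommRing B] (J : Jet p B), (∀ z, algebraMap X.R p.Loc z ∈ I → J.f z = 0) →
      J.f = J.ι.comp p.π) [IsNoetherianRing p.Loc] : maximalIdeal p.Loc ≤ I := by
  refine le_of_le_sup_sq ?_
  set K' := I ⊔ maximalIdeal p.Loc ^ 2
  set f := (Ideal.Quotient.mk K').comp (algebraMap X.R p.Loc)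
  have hker : RingHom.ker Ω.φW ≤ RingHom.ker (f.comp X.cW) := by
    intro w hw
    obtain ⟨c, rfl⟩ := Ω.kerW w hw
    rw [RingHom.mem_ker, map_mul, map_natCast]
    simp only [f]
    rw [← map_natCast ((Ideal.Quotient.mk K').comp (algebraMap X.R p.Loc)), RingHom.comp_apply,
      Ideal.Quotient.eq_zero_iff_mem.2 hq, zero_mul]
  let J : Jet p (p.Loc ⧸ K') := ⟨f, RingHom.liftOfSurjective Ω.φW Ω.surjW ⟨f.comp X.cW, hker⟩,
    (RingHom.liftOfRightInverse_comp Ω.φW (Function.surjInv Ω.surjW)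
      (Function.rightInverse_surjInv Ω.surjW) ⟨f.comp X.cW, hker⟩).symm, fun z z' hz hz' => by
      rw [← map_mul, RingHom.comp_apply, Ideal.Quotient.eq_zero_iff_mem, map_mul]
      refine Ideal.mem_sup_right ?_
      rw [pow_two]
      exact Ideal.mul_mem_mul (p.algebraMap_mem_max.2 hz) (p.algebraMap_mem_max.2 hz')⟩
  have hJ := h _ J fun z hz => Ideal.Quotient.eq_zero_iff_mem.2 (Ideal.mem_sup_left hz)
  rw [← Localization.AtPrime.map_eq_maximalIdeal, Ideal.map_le_iff_le_comap]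
  intro z hz
  rw [Ideal.mem_comap, ← Ideal.Quotient.eq_zero_iff_mem]
  show J.f z = 0
  rw [hJ, RingHom.comp_apply, p.mem_ideal.1 hz, map_zero]

end Pt

namespace Jet

variable {p : Pt Ω} {B : Type} [CommRing B] (J : Jet p B)

/-- Elements without first order part. -/
def Agree (z : X.R) : Prop := J.f z = J.ι (p.π z)

/-- The neighbourhood seen from a shifted cover. -/
def slot (i : Fin K) : Carayol.Jet (p.slot i) B :=
  ⟨J.f.comp (X.ofShf i), J.ι, RingHom.ext fun w => by
    exact (congrArg J.f (ofShf_cW i w)).trans (RingHom.congr_fun J.comp w), fun _ _ h h' => J.sq _ _ h h'⟩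

/-- The neighbourhood seen from the centre. -/
def cen : Carayol.Jet p.cen B :=
  ⟨J.f.comp X.ofCtr, J.ι, RingHom.ext fun w => RingHom.congr_fun J.comp w,
    fun _ _ h h' => J.sq _ _ h h'⟩

theorem agree_slot {i : Fin K} {z : X.shf.R} : (J.slot i).Agree z ↔ J.Agree (X.ofShf i z) := Iff.rfl

theorem agree_cen {z : X.ctr.R} : J.cen.Agree z ↔ J.Agree (X.ofCtr z) := Iff.rfl

theorem agree_of_sub {z : X.R} {c : X.W} (h : J.f (z - X.cW c) = 0)
    (hπ : z - X.cW c ∈ p.ideal) : J.Agree z := by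
  have h1 : J.f (X.cW c) = J.ι (Ω.φW c) := RingHom.congr_fun J.comp c
  have h2 := p.mem_ideal.1 hπ
  rw [map_sub, sub_eq_zero] at h h2
  rw [Agree, h, h1, h2, p.π_cW]

theorem agree_congr {z z' : X.R} (h : J.Agree z') (h1 : J.f (z - z') = 0) (h2 : p.π (z - z') = 0) :
    J.Agree z := by
  rw [map_sub, sub_eq_zero] at h1 h2
  rw [Agree, h1, h2]
  exact h

/-- Agreement at all vertices gives agreement everywhere. -/
theorem agree_all (E : Eqs Ω.shf) (E0 : Eqs Ω.ctr) (h : ∀ j, j ≤ K + 1 → J.Agree (X.vv j)) :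
    J.f = J.ι.comp p.π := by
  have hs : ∀ i : Fin K, (J.slot i).f = (J.slot i).ι.comp (p.slot i).π := fun i => by
    have := i.2
    refine (J.slot i).agree_of_coords E ?_ fun b => ?_
    · rw [agree_slot, ← X.vv_succ]; exact h _ (by omega)
    · rw [agree_slot]
      cases b
      · rw [X.ofShf_xR_false]; exact h _ (by omega)
      · rw [X.ofShf_xR_true]; exact h _ (by omega)
  have hc : J.cen.f = J.cen.ι.comp p.cen.π := by
    refine J.cen.agree_of_coords E0 ?_ fun b => ?_
    · rw [agree_cen, X.ofCtr_yR]; exact h _ (by omega)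
    · rw [agree_cen, (X.ofCtr_side b).1]
      exact RingHom.congr_fun (hs X.first) (X.shf.xR b)
  have hle : X.R ≤ Subring.map X.R.subtype (RingHom.eqLocus J.f (J.ι.comp p.π)) := by
    refine Subring.closure_le.2 ?_
    rintro f (hf | hf)
    · exact ⟨X.ofCtr ⟨f, hf⟩, RingHom.congr_fun hc ⟨f, hf⟩, rfl⟩
    · obtain ⟨i, f', hf', rfl⟩ := Set.mem_iUnion.1 hf
      exact ⟨X.ofShf i ⟨f', hf'⟩, RingHom.congr_fun (hs i) ⟨f', hf'⟩, rfl⟩
  refine RingHom.ext fun z => ?_
  obtain ⟨y, hy, e⟩ := hle z.2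
  exact Subtype.ext e ▸ hy

end Jet

namespace Pt

variable (p : Pt Ω) (E : Eqs Ω.shf)

/-- The value of the slope at a shifted centre. -/
def om (i : Fin K) : k := (p.slot i).π E.OmR

theorem om_eq_zero_iff (i : Fin K) :
    p.om E i = 0 ↔ p.π (X.eDn ((i : ℕ) + 1)) = 0 ∧ p.π (X.eUp ((i : ℕ) + 1)) = 0 := by
  obtain ⟨h1, h2⟩ := X.edge_succ i
  rw [h1, h2]
  constructor
  · intro h
    exact ⟨((p.slot i).side_zero E h false).2, ((p.slot i).side_zero E h false).1⟩
  · rintro ⟨hv, hw⟩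
    by_contra h
    rcases (p.slot i).side_ne E h false with ⟨h', -⟩ | ⟨h', -⟩
    · exact h' hw
    · exact h' hv

theorem om_eq_zero_iff' (i : Fin K) :
    p.om E i = 0 ↔ p.π (X.eDn i) = 0 ∧ p.π (X.eUp i) = 0 := by
  rw [X.eDn_lt, X.eUp_lt]
  constructor
  · intro h
    exact ⟨((p.slot i).side_zero E h true).1, ((p.slot i).side_zero E h true).2⟩
  · rintro ⟨hw, hv⟩
    by_contra h
    rcases (p.slot i).side_ne E h true with ⟨h', -⟩ | ⟨h', -⟩
    · exact h' hw
    · exact h' hv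

theorem om_zero_all (h : p.om E X.first = 0) (i : Fin K) : p.om E i = 0 := by
  obtain ⟨n, hn⟩ := i
  induction n with
  | zero => exact h
  | succ n ih =>
    exact (p.om_eq_zero_iff' E ⟨n + 1, hn⟩).2 ((p.om_eq_zero_iff E ⟨n, by omega⟩).1 (ih (by omega)))

theorem om_ne_all (h : p.om E X.first ≠ 0) (i : Fin K) : p.om E i ≠ 0 := by
  obtain ⟨n, hn⟩ := i
  induction n with
  | zero => exact h
  | succ n ih =>
    exact fun h0 => ih (by omega)
      ((p.om_eq_zero_iff E ⟨n, by omega⟩).2 ((p.om_eq_zero_iff' E ⟨n + 1, hn⟩).1 h0))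

variable (hord : p.om E X.first ≠ 0)

include hord in
/-- At an ordinary point an edge is travelled in exactly one direction. -/
theorem edge_cases {j : ℕ} (hj : j ≤ K) : (p.π (X.eUp j) ≠ 0 ↔ p.π (X.eDn j) = 0) := by
  rcases Nat.lt_or_eq_of_le hj with h | rfl
  · have hh := p.om_ne_all E hord ⟨j, h⟩
    rcases (p.slot ⟨j, h⟩).side_ne E hh true with ⟨a, b⟩ | ⟨a, b, -⟩
    · rw [show p.π (X.eUp j) = 0 by rw [← b]; exact congrArg p.π (X.eUp_lt ⟨j, h⟩)]
      exact iff_of_false (by simp) (fun e => a ((congrArg p.π (X.eDn_lt ⟨j, h⟩)).symm.trans e))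
    · exact iff_of_true (fun e => a ((congrArg p.π (X.eUp_lt ⟨j, h⟩)).symm.trans e))
        ((congrArg p.π (X.eDn_lt ⟨j, h⟩)).trans b)
  · have hh := p.om_ne_all E hord X.last
    have hl : (X.last : ℕ) + 1 = j := by have := X.hK; simp only [Ctx.last]; omega
    obtain ⟨h1, h2⟩ := X.edge_succ X.last
    rw [hl] at h1 h2
    rcases (p.slot X.last).side_ne E hh false with ⟨a, b⟩ | ⟨a, b, -⟩
    · exact iff_of_true (by rw [h2]; exact a) (by rw [h1]; exact b)
    · exact iff_of_false (by rw [h2]; exact not_not.2 b) (by rw [h1]; exact a)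

/-- Edges go downwards from the first one which does. -/
theorem eDn_succ {j : ℕ} (hj : j < K) (hord : p.om E X.first ≠ 0) (h : p.π (X.eDn j) ≠ 0) :
    p.π (X.eDn (j + 1)) ≠ 0 := by
  intro h0
  refine h ?_
  rw [show X.eDn j = X.ofShf ⟨j, hj⟩ (X.shf.wR true) from X.eDn_lt ⟨j, hj⟩]
  refine (p.slot ⟨j, hj⟩).not_both_F ?_
  have h1 := (p.edge_cases E hord (Nat.succ_le_of_lt hj)).2 h0
  rwa [(X.edge_succ ⟨j, hj⟩).2] at h1

include hord in
/-- The position of the maximum of the reduced chain. -/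
theorem exists_max : ∃ a, a ≤ K + 1 ∧ (∀ j < a, p.π (X.eUp j) ≠ 0) ∧
    ∀ j, a ≤ j → j ≤ K → p.π (X.eDn j) ≠ 0 := by
  by_cases h : ∃ j, j ≤ K ∧ p.π (X.eDn j) ≠ 0
  · refine ⟨Nat.find h, (Nat.find_spec h).1.trans (Nat.le_succ _), fun j hj => ?_, fun j hj hjK => ?_⟩
    · have hjK : j ≤ K := hj.le.trans (Nat.find_spec h).1
      refine (p.edge_cases E hord hjK).2 (not_not.1 fun h' => Nat.find_min h hj ⟨hjK, h'⟩)
    · induction j, hj using Nat.le_induction with
      | base => exact (Nat.find_spec h).2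
      | succ j _ ih => exact p.eDn_succ E (by omega) hord (ih (by omega))
  · push Not at h
    exact ⟨K + 1, le_rfl, fun j hj => (p.edge_cases E hord (by omega)).2 (h j (by omega)),
      fun j hj hjK => by omega⟩

end Pt

namespace Jet

variable {p : Pt Ω} {B : Type} [CommRing B] (J : Jet p B) (E : Eqs Ω.shf)

include E

theorem step_up {j : ℕ} (hj : j ≤ K) (h : J.Agree (X.vv j)) (hu : p.π (X.eUp j) ≠ 0) :
    J.Agree (X.vv (j + 1)) := by
  rcases Nat.lt_or_eq_of_le hj with hlt | rfl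
  · set i : Fin K := ⟨j, hlt⟩
    have hx : (J.slot i).Agree (X.shf.xR true) := by rw [agree_slot, X.ofShf_xR_true]; exact h
    have := ((J.slot i).agree_side_V E hx (by rw [show X.eUp j = _ from X.eUp_lt i] at hu; exact hu)).1
    rw [agree_slot, ← X.vv_succ] at this
    exact this
  · have hl : (X.last : ℕ) + 1 = j := by have := X.hK; simp only [Ctx.last]; omega
    have hy : (J.slot X.last).Agree X.shf.yR := by rw [agree_slot, ← X.vv_succ, hl]; exact h
    have h2 := (X.edge_succ X.last).2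
    rw [hl] at h2
    have := ((J.slot X.last).agree_side_F E hy (by rw [h2] at hu; exact hu)).1
    rw [agree_slot, X.ofShf_xR_false, show (X.last : ℕ) + 2 = j + 1 by omega] at this
    exact this

theorem step_dn {j : ℕ} (hj : j ≤ K) (h : J.Agree (X.vv (j + 1))) (hd : p.π (X.eDn j) ≠ 0) :
    J.Agree (X.vv j) := by
  rcases Nat.lt_or_eq_of_le hj with hlt | rfl
  · set i : Fin K := ⟨j, hlt⟩
    have hy : (J.slot i).Agree X.shf.yR := by rw [agree_slot, ← X.vv_succ]; exact h
    have := ((J.slot i).agree_side_F E hy (by rw [show X.eDn j = _ from X.eDn_lt i] at hd; exact hd)).1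
    rw [agree_slot, X.ofShf_xR_true] at this
    exact this
  · have hl : (X.last : ℕ) + 1 = j := by have := X.hK; simp only [Ctx.last]; omega
    have hx : (J.slot X.last).Agree (X.shf.xR false) := by
      rw [agree_slot, X.ofShf_xR_false, show (X.last : ℕ) + 2 = j + 1 by omega]; exact h
    have h2 := (X.edge_succ X.last).1
    rw [hl] at h2
    have := ((J.slot X.last).agree_side_V E hx (by rw [h2] at hd; exact hd)).1
    rw [agree_slot, ← X.vv_succ, hl] at this
    exact this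

theorem agree_upto {a : ℕ} (ha : a ≤ K + 1) (hu : ∀ j < a, p.π (X.eUp j) ≠ 0)
    (h : J.Agree (X.vv 0)) : ∀ j ≤ a, J.Agree (X.vv j) := fun j hj => by
  induction j with
  | zero => exact h
  | succ j ih => exact J.step_up E (by omega) (ih (by omega)) (hu j (by omega))

theorem agree_downto {a : ℕ} (hd : ∀ j, a ≤ j → j ≤ K → p.π (X.eDn j) ≠ 0)
    (h : J.Agree (X.vv (K + 1))) {j : ℕ} (haj : a ≤ j) (hj : j ≤ K + 1) : J.Agree (X.vv j) := by
  refine Nat.decreasingInduction' (n := K + 1) (P := fun i => J.Agree (X.vv i))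
    (fun i hi hji hP => ?_) hj h
  exact J.step_dn E (by omega) hP (hd i (by omega) (by omega))

end Jet

namespace Pt

variable (p : Pt Ω)

theorem killed {x y : X.R} {B : Type} [CommRing B] (J : Jet p B)
    (hJ : ∀ z, algebraMap X.R p.Loc z ∈
      Ideal.span {algebraMap X.R p.Loc x, algebraMap X.R p.Loc y} → J.f z = 0) :
    J.f x = 0 ∧ J.f y = 0 :=
  ⟨hJ _ (Ideal.subset_span (Set.mem_insert _ _)),
    hJ _ (Ideal.subset_span (Set.mem_insert_of_mem _ rfl))⟩

variable (E : Eqs Ω.shf) (E0 : Eqs Ω.ctr)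

include E0 in
theorem gens_super [IsNoetherianRing p.Loc] (h : p.om E X.first = 0) :
    ∃ a b : X.R, p.π a = 0 ∧ p.π b = 0 ∧
      maximalIdeal p.Loc ≤ Ideal.span {algebraMap X.R p.Loc a, algebraMap X.R p.Loc b} := by
  obtain ⟨c0, hc0⟩ := p.exists_lift (X.vv 0)
  obtain ⟨c1, hc1⟩ := p.exists_lift (X.vv (K + 1))
  refine ⟨_, _, p.mem_ideal.1 hc0, p.mem_ideal.1 hc1, p.maximal_le _ ?_ fun B _ J hJ => ?_⟩
  · refine Ideal.mem_sup_right ?_
    set φ := (algebraMap X.R p.Loc).comp (X.ofShf X.first)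
    obtain ⟨hL, hL'⟩ := E.π_L (p.slot X.first) h false
    have hH : IsUnit (φ (E.Hv false)) := p.isUnit_algebraMap (E.π_Hv_ne (p.slot X.first) h false)
    refine (Ideal.unit_mul_mem_iff_mem _ hH).1 ?_
    rw [show algebraMap X.R p.Loc (q : X.R) = φ (q : X.shf.R) by rw [map_natCast, map_natCast],
      ← map_mul, show E.Hv false * (q : X.shf.R) =
        -(E.Dv * (X.shf.xR false ^ q - X.shf.yR)) * (X.shf.xR false - X.shf.yR ^ q) by
      linear_combination E.kron' false, map_mul, pow_two]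
    refine Ideal.mul_mem_mul (p.algebraMap_mem_max.2 ?_) (p.algebraMap_mem_max.2 ?_) <;>
      show (p.slot X.first).π _ = 0
    · simp [hL]
    · simp [hL']
  obtain ⟨h0, h1⟩ := p.killed J hJ
  refine J.agree_all E E0 fun j hj => ?_
  rcases Nat.eq_zero_or_pos j with rfl | hpos
  · exact J.agree_of_sub h0 hc0
  rcases Nat.lt_or_eq_of_le hj with hlt | rfl
  · obtain ⟨i, rfl⟩ : ∃ i, j = i + 1 := ⟨j - 1, by omega⟩
    rw [show i + 1 = ((⟨i, by omega⟩ : Fin K) : ℕ) + 1 from rfl, X.vv_succ]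
    exact (J.slot ⟨i, by omega⟩).agree_centre E (p.om_zero_all E h _)
  · exact J.agree_of_sub h1 hc1

/-- `q` is a multiple of the difference of the neighbours of a maximum. -/
theorem q_mem_peak (hord : p.om E X.first ≠ 0) (i : Fin K) (hu : p.π (X.eUp i) ≠ 0)
    (hd : p.π (X.eDn ((i : ℕ) + 1)) ≠ 0) :
    algebraMap X.R p.Loc (q : X.R) ∈
        Ideal.span {algebraMap X.R p.Loc (X.vv ((i : ℕ) + 2) - X.vv i)} ∧
      p.π (X.vv ((i : ℕ) + 2)) = p.π (X.vv i) := by
  haveI := Ω.charK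
  rw [X.eUp_lt] at hu
  rw [(X.edge_succ i).1] at hd
  have hh := p.om_ne_all E hord i
  obtain ⟨-, hvF, hxF, hvqF⟩ : p.π (X.ofShf i (X.shf.vR false)) ≠ 0 ∧
      (p.slot i).π (X.shf.wR false) = 0 ∧
      (p.slot i).π (X.shf.xR false) ^ q = (p.slot i).π X.shf.yR ∧
      (p.slot i).π (X.shf.vR false) ^ q = (p.slot i).π E.OmR :=
    ((p.slot i).side_ne E hh false).resolve_left fun h => hd h.2
  obtain ⟨-, hvT, hxT, hvqT⟩ : p.π (X.ofShf i (X.shf.vR true)) ≠ 0 ∧
      (p.slot i).π (X.shf.wR true) = 0 ∧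
      (p.slot i).π (X.shf.xR true) ^ q = (p.slot i).π X.shf.yR ∧
      (p.slot i).π (X.shf.vR true) ^ q = (p.slot i).π E.OmR :=
    ((p.slot i).side_ne E hh true).resolve_left fun h => hu h.2
  have hxx : (p.slot i).π (X.shf.xR false) = (p.slot i).π (X.shf.xR true) :=
    frobenius_inj k q (by simp [frobenius_def, hxF, hxT])
  have hvv : (p.slot i).π (X.shf.vR false) = (p.slot i).π (X.shf.vR true) :=
    frobenius_inj k q (by simp [frobenius_def, hvqF, hvqT])
  have hq := E.q_mem_VV (p.slot i) hd hu hvv hxx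
  refine ⟨?_, by rw [← X.ofShf_xR_false, ← X.ofShf_xR_true]; exact hxx⟩
  obtain ⟨c, hc⟩ := Ideal.mem_span_singleton.1 hq
  set F := Localization.localRingHom (p.slot i).ideal p.ideal (X.ofShf i) (Ideal.ext fun z => Iff.rfl)
  have hF := congrArg F hc
  rw [map_mul, Localization.localRingHom_to_map, Localization.localRingHom_to_map, map_natCast,
    map_sub, X.ofShf_xR_false, X.ofShf_xR_true] at hF
  exact Ideal.mem_span_singleton.2 ⟨_, hF⟩

/-- The centres next to a maximum in the middle agree to second order. -/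
theorem centres_mem_sq (hord : p.om E X.first ≠ 0) (i i' : Fin K) (hu : p.π (X.eUp i) ≠ 0)
    (hd : p.π (X.eDn ((i' : ℕ) + 1)) ≠ 0)
    (hc : p.π (X.vv ((i' : ℕ) + 1)) = p.π (X.vv ((i : ℕ) + 1))) :
    algebraMap X.R p.Loc (X.vv ((i' : ℕ) + 1) - X.vv ((i : ℕ) + 1)) ∈ maximalIdeal p.Loc ^ 2 := by
  haveI := Ω.charK
  rw [X.eUp_lt] at hu
  rw [(X.edge_succ i').1] at hd
  rw [X.vv_succ, X.vv_succ] at hc ⊢
  obtain ⟨hv, -, hx, hvq⟩ :=
    ((p.slot i').side_ne E (p.om_ne_all E hord i') false).resolve_left fun h => hd h.2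
  obtain ⟨-, -, hx', hvq'⟩ :=
    ((p.slot i).side_ne E (p.om_ne_all E hord i) true).resolve_left fun h => hu h.2
  have hom : (p.slot i').π E.OmR = (p.slot i).π E.OmR := by
    have a := (p.slot i').π_OmR_mul E
    have b := (p.slot i).π_OmR_mul E
    have hD : (X.shf.dltW.map Ω.shf.φW).eval ((p.slot i).π X.shf.yR) ≠ 0 := by
      rw [← (p.slot i).π_evR]; exact (p.slot i).π_dlt
    rw [slot_apply p i' X.shf.yR, hc, ← slot_apply p i X.shf.yR] at a
    exact mul_right_cancel₀ (pow_ne_zero _ hD) (a.trans b.symm)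
  have hxx : (p.slot i').π (X.shf.xR false) = (p.slot i).π (X.shf.xR true) :=
    frobenius_inj k q (by simp only [frobenius_def, hx, hx']; exact hc)
  have hvv : (p.slot i').π (X.shf.vR false) = (p.slot i).π (X.shf.vR true) :=
    frobenius_inj k q (by simp only [frobenius_def, hvq, hvq', hom])
  obtain ⟨-, -, a1, a2⟩ := E.G_eval false
  obtain ⟨-, -, b1, b2⟩ := E.G_eval true
  have eu := congrArg (p.slot i').π (E.euler_dual false)
  set g1 := X.ofShf i'
  set g2 := X.ofShf i
  have hg : ∀ j : Fin K, (X.ofShf j).comp X.shf.cW = X.cW := fun j => RingHom.ext (ofShf_cW j)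
  have hbv : ∀ (j : Fin K) (x v : X.shf.R) (P : Polynomial (Polynomial X.shf.W)),
      X.ofShf j (bv X.shf.cW x v P) = bv X.cW (X.ofShf j x) (X.ofShf j v) P := fun j x v P =>
    (map_bv (X.ofShf j) X.shf.cW x v P).trans
      (congrArg (fun f => bv f (X.ofShf j x) (X.ofShf j v) P) (hg j))
  have push : ∀ (j : Fin K) {y x v : X.shf.R} {P : Polynomial (Polynomial X.shf.W)}
      (Q : Polynomial (Polynomial X.shf.W)), bv X.shf.cW x v P * y = bv X.shf.cW x v Q →
      bv X.cW (X.ofShf j x) (X.ofShf j v) P * X.ofShf j y =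
        bv X.cW (X.ofShf j x) (X.ofShf j v) Q := fun j y x v P Q h =>
    (congrArg (· * X.ofShf j y) (hbv j x v P)).symm.trans
      (((map_mul (X.ofShf j) _ _).symm.trans (congrArg (X.ofShf j) h)).trans (hbv j x v Q))
  have push0 : ∀ (j : Fin K) {x v : X.shf.R} {P : Polynomial (Polynomial X.shf.W)},
      bv X.shf.cW x v P = 0 → bv X.cW (X.ofShf j x) (X.ofShf j v) P = 0 := fun j x v P h =>
    (hbv j x v P).symm.trans ((congrArg (X.ofShf j) h).trans (map_zero _))
  obtain ⟨P1, T, hPT, hP1, hT⟩ := Carayol.divided_centres X.cW E.G E.Q (push0 i' a1) (push i' _ a2)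
    (push0 i b1) (push i _ b2)
  set x1 := g1 (X.shf.xR false)
  set v1 := g1 (X.shf.vR false)
  set I := Ideal.span {v1 - g2 (X.shf.vR true), x1 - g2 (X.shf.xR true)}
  have hI : ∀ z ∈ I, p.π z = 0 := by
    intro z hz
    obtain ⟨a, b, rfl⟩ := Ideal.mem_span_pair.1 hz
    simp only [map_add, map_mul, map_sub, slot_apply] at hxx hvv ⊢
    simp [x1, v1, g1, g2, hxx, hvv]
  set GX := bv X.cW x1 v1 (Polynomial.derivative E.G)
  have hgX : ∀ P : Polynomial (Polynomial X.shf.W), p.π (bv X.cW x1 v1 P) =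
      (p.slot i').π (bv X.shf.cW (X.shf.xR false) (X.shf.vR false) P) := fun P =>
    congrArg p.π (hbv i' _ _ P).symm
  have hGX : p.π GX ≠ 0 := fun h =>
    mul_ne_zero (pow_ne_zero _ ((p.slot i').π_dlt_x false)) (pow_ne_zero _ hv)
      (((p.slot i').π_dG E _ _).symm.trans ((hgX _).symm.trans h))
  have hu1 : IsUnit (algebraMap X.R p.Loc (P1 * GX)) := p.isUnit_algebraMap (by
    have := hI _ hP1
    rw [map_sub, sub_eq_zero] at this
    rw [map_mul, this]
    exact mul_ne_zero hGX hGX)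
  have hT0 : p.π T = 0 := by
    have h1 := hI _ hT
    rw [map_sub, sub_eq_zero] at h1
    rw [h1]
    simp only [map_add, map_sub, map_mul, map_neg, map_natCast] at eu ⊢
    rw [show (p.π (g2 X.shf.yR)) = (p.slot i').π X.shf.yR from hc.symm]
    rw [(CharP.cast_eq_zero k q), zero_mul] at eu
    have key : ∀ {a a' b b' c c' d d' e e' g g' y : k}, a = a' → b = b' → c = c' → d = d' → e = e' →
        g = g' → (a' - y * b') * -c' + (d' - y * e') * g' = 0 →
        (a - y * b) * -c + (d - y * e) * g = 0 := by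
      intros; subst_vars; assumption
    exact key (hgX _) (hgX _) (hgX _) (hgX _) (hgX _) (hgX _) ((mul_eq_zero.1 eu).resolve_left hv)
  refine (Ideal.unit_mul_mem_iff_mem _ hu1).1 ?_
  rw [← map_mul, hPT, map_mul, pow_two]
  exact Ideal.mul_mem_mul (p.algebraMap_mem_max.2 (hI _ (Ideal.subset_span (Set.mem_insert_of_mem _ rfl))))
    (p.algebraMap_mem_max.2 hT0)

include E0 in
theorem gens_ordinary [IsNoetherianRing p.Loc] (hord : p.om E X.first ≠ 0) :
    ∃ a b : X.R, p.π a = 0 ∧ p.π b = 0 ∧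
      maximalIdeal p.Loc ≤ Ideal.span {algebraMap X.R p.Loc a, algebraMap X.R p.Loc b} := by
  obtain ⟨a, ha, hu, hd⟩ := p.exists_max E hord
  obtain ⟨c0, hc0⟩ := p.exists_lift (X.vv 0)
  obtain ⟨c1, hc1⟩ := p.exists_lift (X.vv (K + 1))
  have hq : ∀ z : p.Loc, algebraMap X.R p.Loc (q : X.R) ∈
      Ideal.span {algebraMap X.R p.Loc (q : X.R), z} ⊔ maximalIdeal p.Loc ^ 2 := fun z =>
    Ideal.mem_sup_left (Ideal.subset_span (Set.mem_insert _ _))
  rcases Nat.eq_zero_or_pos a with rfl | ha0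
  · refine ⟨_, _, p.π_q, p.mem_ideal.1 hc1, p.maximal_le _ (hq _) fun B _ J hJ => ?_⟩
    exact J.agree_all E E0 fun j hj =>
      J.agree_downto E hd (J.agree_of_sub (p.killed J hJ).2 hc1) (Nat.zero_le _) hj
  rcases Nat.lt_or_eq_of_le ha with haK | rfl
  swap
  · refine ⟨_, _, p.π_q, p.mem_ideal.1 hc0, p.maximal_le _ (hq _) fun B _ J hJ => ?_⟩
    exact J.agree_all E E0 fun j hj =>
      J.agree_upto E le_rfl hu (J.agree_of_sub (p.killed J hJ).2 hc0) j hj
  set i : Fin K := ⟨a - 1, by omega⟩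
  obtain ⟨hqd, hπd⟩ := p.q_mem_peak E hord i (hu _ (by simp only [i]; omega))
    (hd _ (by simp only [i]; omega) (by simp only [i]; omega))
  rw [show (i : ℕ) + 2 = a + 1 by simp only [i]; omega, show (i : ℕ) = a - 1 from rfl] at hqd hπd
  set d := X.vv (a + 1) - X.vv (a - 1)
  have hπd' : p.π d = 0 := by rw [map_sub, hπd, sub_self]
  rcases eq_or_ne a 1 with rfl | ha1
  · refine ⟨d, _, hπd', p.mem_ideal.1 hc1, p.maximal_le _ (Ideal.mem_sup_left
      (Ideal.span_mono (by simp) hqd)) fun B _ J hJ => ?_⟩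
    obtain ⟨k0, k1⟩ := p.killed J hJ
    have hdn := fun j h1 h2 => J.agree_downto E (a := 1) hd (J.agree_of_sub k1 hc1) (j := j) h1 h2
    refine J.agree_all E E0 fun j hj => ?_
    rcases Nat.eq_zero_or_pos j with rfl | hj0
    · refine J.agree_congr (hdn 2 (by omega) (by omega)) ?_ ?_
      · rw [← neg_sub, map_neg, neg_eq_zero]; exact k0
      · rw [← neg_sub, map_neg, neg_eq_zero]; exact hπd'
    · exact hdn j hj0 hj
  rcases eq_or_ne a K with rfl | haK'
  · refine ⟨d, _, hπd', p.mem_ideal.1 hc0, p.maximal_le _ (Ideal.mem_sup_left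
      (Ideal.span_mono (by simp) hqd)) fun B _ J hJ => ?_⟩
    obtain ⟨k0, k1⟩ := p.killed J hJ
    have hup := J.agree_upto E (by omega) hu (J.agree_of_sub k1 hc0)
    refine J.agree_all E E0 fun j hj => ?_
    rcases Nat.lt_or_eq_of_le hj with hj1 | rfl
    · exact hup j (by omega)
    · exact J.agree_congr (hup (a - 1) (by omega)) k0 hπd'
  have hsq : algebraMap X.R p.Loc d ∈ maximalIdeal p.Loc ^ 2 := by
    have h := p.centres_mem_sq E hord ⟨a - 2, by omega⟩ ⟨a, by omega⟩ (hu _ (by simp; omega))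
      (hd _ (by simp) (by simp; omega))
    simp only [show a - 2 + 1 = a - 1 by omega] at h
    exact h hπd
  refine ⟨_, _, p.mem_ideal.1 hc0, p.mem_ideal.1 hc1, p.maximal_le _ (Ideal.mem_sup_right
    ((Ideal.span_singleton_le_iff_mem _).2 hsq hqd)) fun B _ J hJ => ?_⟩
  obtain ⟨k0, k1⟩ := p.killed J hJ
  refine J.agree_all E E0 fun j hj => ?_
  rcases le_total j a with hja | hja
  · exact J.agree_upto E ha hu (J.agree_of_sub k0 hc0) j hja
  · exact J.agree_downto E hd (J.agree_of_sub k1 hc1) hja hj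

theorem exists_gens [IsNoetherianRing p.Loc] :
    ∃ a b : p.Loc, maximalIdeal p.Loc = Ideal.span {a, b} := by
  obtain ⟨E⟩ := Ω.shf.nonempty_eqs
  obtain ⟨E0⟩ := Ω.ctr.nonempty_eqs
  obtain ⟨a, b, ha, hb, hle⟩ : ∃ a b : X.R, p.π a = 0 ∧ p.π b = 0 ∧
      maximalIdeal p.Loc ≤ Ideal.span {algebraMap X.R p.Loc a, algebraMap X.R p.Loc b} := by
    by_cases h : p.om E X.first = 0
    · exact p.gens_super E E0 h
    · exact p.gens_ordinary E E0 h
  exact ⟨algebraMap X.R p.Loc a, algebraMap X.R p.Loc b, le_antisymm hle (by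
    rw [Ideal.span_le, Set.pair_subset_iff]
    exact ⟨p.algebraMap_mem_max.2 ha, p.algebraMap_mem_max.2 hb⟩)⟩

theorem isNoetherian_loc [IsNoetherianRing X.W] : IsNoetherianRing p.Loc := by
  haveI := X.isNoetherianRing_R
  exact IsLocalization.isNoetherianRing p.ideal.primeCompl p.Loc inferInstance

end Pt

end FLTAgent.CarayolK
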