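import Fermat.Agent.CarayolK.Points
import Fermat.Agent.CarayolK.Minimal

/-!
# The local rings over `q`
-/

set_option autoImplicit false
set_option linter.unusedSectionVars false
set_option linter.style.haveILetI false

noncomputable section

open UpperHalfPlane hiding I I_re I_im
open Filter Topology Complex Function FLTAgent.ModEq FLTAgent.GoodModel ModularCurve
open scoped MatrixGroups Manifold Classical

namespace FLTAgent.CarayolK

open IsLocalRing (maximalIdeal)
open FLTAgent.Carayol (coordT not_eval₂_eq_zero)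

variable {q M0 N' K : ℕ} [NeZero M0] [NeZero N'] [NeZero q] [Fact q.Prime]
variable {X : Ctx q M0 N' K} {k : Type} [Field k] {Ω : Res X k}

theorem Ctx.natCast_q_ne (X : Ctx q M0 N' K) : (q : X.R) ≠ 0 := fun h => NeZero.ne q (by
  have := congrArg (fun z : X.R => (z : ℍ → ℂ) UpperHalfPlane.I) h
  simpa using this)

namespace Pt

variable (p : Pt Ω)

theorem exists_branch : ∃ l, Ω.ker (X.rep l) ≤ p.ideal := Ω.exists_ker_le _ p.q_mem

/-- The branches through a point are proper. -/
theorem ker_lt {l : X.Idx} (hl : Ω.ker (X.rep l) ≤ p.ideal) : Ω.ker (X.rep l) ≠ p.ideal := by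
  intro h
  obtain ⟨c, hc⟩ := p.exists_lift X.yR
  rw [← h] at hc
  have h1 : Ω.red (X.rep l) (X.yR - X.cW c) = 0 := hc
  rw [map_sub, Ω.red_cW, Ctx.yR, Ω.red_eq_qExpand_ctr, Ω.ctr.red_yR (X.rep_mem l)] at h1
  have h2 : Ω.ctr.bb ^ q - HahnSeries.C (Ω.φW c) = 0 := by
    refine qExpand_injective (R := k) (q ^ (K - 1)) ?_
    rw [map_sub, map_zero, HahnSeries.C_apply, qExpand_single, mul_zero]
    exact h1
  have := not_eval₂_eq_zero (P := Polynomial.X - Polynomial.C (Ω.φW c)) (by
    simp [NeZero.ne q, NeZero.ne N']) Ω.ctr.leadAt_base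
    (by rw [Polynomial.eval₂_sub, Polynomial.eval₂_X, Polynomial.eval₂_C]; exact h2)
  exact Polynomial.X_sub_C_ne_zero _ this

/-- The local rings over `q` are factorial. -/
theorem ufd_loc [IsNoetherianRing X.W] : UniqueFactorizationMonoid p.Loc := by
  haveI := p.isNoetherian_loc
  obtain ⟨a, b, hab⟩ := p.exists_gens
  obtain ⟨l, hl⟩ := p.exists_branch
  set P₀ := (Ω.ker (X.rep l)).map (algebraMap X.R p.Loc)
  have hdisj : Disjoint (p.ideal.primeCompl : Set X.R) (Ω.ker (X.rep l) : Set X.R) :=
    Set.disjoint_left.2 fun z hz hz' => hz (hl hz')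
  haveI : P₀.IsPrime :=
    IsLocalization.isPrime_of_isPrime_disjoint p.ideal.primeCompl p.Loc _ inferInstance hdisj
  have hcomap : P₀.comap (algebraMap X.R p.Loc) = Ω.ker (X.rep l) :=
    IsLocalization.under_map_of_isPrime_disjoint p.ideal.primeCompl p.Loc inferInstance hdisj
  refine Carayol.uniqueFactorizationMonoid_of_pair hab (P₀ := P₀) (fun h => ?_) fun h => p.ker_lt hl ?_
  · have h1 : algebraMap X.R p.Loc (q : X.R) ∈ P₀ := Ideal.mem_map_of_mem _ (Ω.red_natCast _)
    rw [h, Ideal.mem_bot] at h1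
    exact X.natCast_q_ne (IsLocalization.injective p.Loc
      (Ideal.primeCompl_le_nonZeroDivisors p.ideal) (h1.trans (map_zero _).symm))
  · rw [← hcomap, h]
    exact IsLocalization.AtPrime.under_maximalIdeal p.Loc p.ideal

/-- The value at a point of the elements of its local ring. -/
def πL : p.Loc →+* k :=
  IsLocalization.lift (M := p.ideal.primeCompl) (g := p.π) fun s =>
    IsUnit.mk0 _ fun h => s.2 (p.mem_ideal.2 h)

theorem πL_alg (x : X.R) : p.πL (algebraMap X.R p.Loc x) = p.π x := IsLocalization.lift_eq _ x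

theorem isUnit_of_πL {z : p.Loc} (h : p.πL z ≠ 0) : IsUnit z := by
  obtain ⟨⟨x, s⟩, hx⟩ := IsLocalization.surj p.ideal.primeCompl z
  change z * algebraMap X.R p.Loc s.1 = algebraMap X.R p.Loc x at hx
  have h1 : IsUnit (algebraMap X.R p.Loc x) := p.isUnit_algebraMap (by
    rw [← p.πL_alg, ← hx, map_mul, p.πL_alg]
    exact mul_ne_zero h fun h0 => s.2 (p.mem_ideal.2 h0))
  rw [← hx] at h1
  exact isUnit_of_mul_isUnit_left h1

variable [IsNoetherianRing X.W]

set_option synthInstance.maxHeartbeats 400000 in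
theorem isIntegrallyClosed_loc : IsIntegrallyClosed p.Loc := by
  haveI := p.isNoetherian_loc
  haveI := p.ufd_loc
  infer_instance

end Pt

end FLTAgent.CarayolK
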