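import Fermat.Agent.CarayolK.Eval
import Fermat.Agent.CarayolK.Values
import Fermat.Agent.CarayolK.Points

/-!
# Functions on other kinds of branches

A function on a branch is rational in the functions of the branches of the least kinds; at a
supersingular point this holds with values, after a power of Frobenius.
-/

set_option autoImplicit false
set_option linter.unusedSectionVars false
set_option linter.style.haveILetI false

noncomputable section

open UpperHalfPlane hiding I I_re I_im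
open Filter Topology Complex Function FLTAgent.ModEq FLTAgent.GoodModel ModularCurve
open scoped MatrixGroups Manifold Classical

namespace FLTAgent.CarayolK

open FLTAgent.Carayol (Eqs)

variable {q M0 N' K : ℕ} [NeZero M0] [NeZero N'] [NeZero q] [Fact q.Prime]

/-- Without level structure the node is rational over the coordinate. -/
theorem etaR_lie {C : Carayol.Ctx q M0 1} (hF : C.FixedPart) :
    ∃ (P : Polynomial C.W) (s : ℕ), C.etaR = C.evR P * C.dR ^ s := by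
  set z : trRing C.S (M0 * (1 * q)) := ⟨C.eta, C.lift_level (C.node_mem0 C.eta_mem_nodes)⟩
  obtain ⟨P, s, h⟩ := C.exists_poly_W z
    (fun γ hγ => C.eta_fix (by rwa [mul_one]))
    (fun j => hF _ fun σ hσ => by
      have h1 := congrArg (fun x : LaurentSeries C.S => x.coeff j)
        (C.ser_lift_fix hσ (C.node_mem0 C.eta_mem_nodes))
      simp only [coeffMap_coeff] at h1
      exact h1)
  refine ⟨P, s, ?_⟩
  have h2 : C.etaR * C.evR C.dltW ^ s = C.evR P := Subring.inclusion_injective C.R_le (by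
    rw [map_mul, map_pow, C.incl_evR, C.incl_evR, C.map_dltW]
    exact h)
  rw [← h2, mul_assoc, ← mul_pow, C.evR_dltW_mul_dR, one_pow, mul_one]

/-- Without level structure there is one node. -/
theorem rhoR_eq_one (C : Carayol.Ctx q M0 1) : C.rhoR = 1 := by
  refine Subtype.ext (funext fun τ => ?_)
  show C.rhoOf C.eta τ = 1
  rw [Carayol.Ctx.rhoOf, Finset.prod_eq_one]
  intro g hg
  obtain ⟨hne, hg⟩ := Finset.mem_erase.1 hg
  obtain ⟨γ, hγ, rfl⟩ := C.mem_nodes.1 hg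
  exact absurd (C.eta_fix (by rwa [mul_one])) hne

/-- A subring with inverses containing coordinates, slopes and level structure is everything. -/
theorem gen_mem {N₁ : ℕ} [NeZero N₁] (C : Carayol.Ctx q M0 N₁) (U : Subring C.R)
    (hW : ∀ w, C.cW w ∈ U) (hy : C.yR ∈ U)
    (hb : ∀ b, C.xR b ∈ U ∧ C.wR b ∈ U ∧ C.vR b ∈ U)
    (hinv : ∀ z z' : C.R, z ∈ U → z * z' = 1 → z' ∈ U)
    (he : (∀ P, C.evR P ∈ U) → C.dR ∈ U → C.etaR ∈ U) (hr : C.rhoR ∈ U) (f : C.R) : f ∈ U := by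
  have hev : ∀ (P : Polynomial C.W) (z : C.R), z ∈ U → P.eval₂ C.cW z ∈ U := fun P z hz => by
    rw [Polynomial.eval₂_eq_sum_range]
    exact U.sum_mem fun j _ => U.mul_mem (hW _) (U.pow_mem hz j)
  have hevR : ∀ P, C.evR P ∈ U := fun P => by
    rw [Carayol.Ctx.evR, Polynomial.coe_eval₂RingHom]
    exact hev P _ hy
  have hd : C.dR ∈ U := hinv _ _ (hevR C.dltW) C.evR_dltW_mul_dR
  exact C.mem_subring_of U hW hy hd (he hevR hd) hr (fun b => ⟨(hb b).1, (hb b).2.1, (hb b).2.2,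
    hinv _ _ (hev C.dltW _ (hb b).1) (C.dltW_x_mul_uR b)⟩) f

namespace Ctx

variable (X : Ctx q M0 N' K)

/-- The shifted cover is generated by its centre, sides and inverses. -/
theorem ofShf_mem (hF : X.FixedPart) (T : Subring X.R) (i : Fin K)
    (hW : ∀ w, X.ofShf i (X.shf.cW w) ∈ T) (hy : X.ofShf i X.shf.yR ∈ T)
    (hb : ∀ b, X.ofShf i (X.shf.xR b) ∈ T ∧ X.ofShf i (X.shf.wR b) ∈ T ∧
      X.ofShf i (X.shf.vR b) ∈ T)
    (hinv : ∀ z z' : X.R, z ∈ T → z * z' = 1 → z' ∈ T) (f : X.shf.R) : X.ofShf i f ∈ T := by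
  have hU := gen_mem X.shf (T.comap (X.ofShf i))
    (fun w => Subring.mem_comap.2 (hW w)) (Subring.mem_comap.2 hy)
    (fun b => ⟨Subring.mem_comap.2 (hb b).1, Subring.mem_comap.2 (hb b).2.1,
      Subring.mem_comap.2 (hb b).2.2⟩)
    (fun z z' hz h => Subring.mem_comap.2
      (hinv _ _ (Subring.mem_comap.1 hz) (by rw [← map_mul, h, map_one])))
  obtain ⟨P, s, he⟩ := etaR_lie (X.fixedPart_shf hF)
  refine Subring.mem_comap.1 (hU ?_ ?_ f)
  · intro hev hd
    rw [he]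
    exact mul_mem (hev P) (pow_mem hd s)
  · rw [rhoR_eq_one]
    exact one_mem _

/-- The centre is generated by its sides, the level structure and inverses. -/
theorem ofCtr_mem (T : Subring X.R) (hW : ∀ w, X.ofCtr (X.ctr.cW w) ∈ T)
    (hy : X.ofCtr X.ctr.yR ∈ T)
    (he : X.ofCtr X.ctr.etaR ∈ T) (hr : X.ofCtr X.ctr.rhoR ∈ T)
    (hb : ∀ b, X.ofCtr (X.ctr.xR b) ∈ T ∧ X.ofCtr (X.ctr.wR b) ∈ T ∧
      X.ofCtr (X.ctr.vR b) ∈ T)
    (hinv : ∀ z z' : X.R, z ∈ T → z * z' = 1 → z' ∈ T) (f : X.ctr.R) : X.ofCtr f ∈ T := by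
  have hU := gen_mem X.ctr (T.comap X.ofCtr)
    (fun w => Subring.mem_comap.2 (hW w)) (Subring.mem_comap.2 hy)
    (fun b => ⟨Subring.mem_comap.2 (hb b).1, Subring.mem_comap.2 (hb b).2.1,
      Subring.mem_comap.2 (hb b).2.2⟩)
    (fun z z' hz h => Subring.mem_comap.2
      (hinv _ _ (Subring.mem_comap.1 hz) (by rw [← map_mul, h, map_one])))
  exact Subring.mem_comap.1 (hU (fun _ _ => Subring.mem_comap.2 he) (Subring.mem_comap.2 hr) f)

/-- The cover is generated by its vertices, its edges, the level structure and inverses. -/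
theorem mem_subring_of (hF : X.FixedPart) (T : Subring X.R) (hW : ∀ w, X.cW w ∈ T)
    (he : X.ofCtr X.ctr.etaR ∈ T) (hr : X.ofCtr X.ctr.rhoR ∈ T)
    (hv : ∀ i : Fin K, X.ofShf i X.shf.yR ∈ T ∧ ∀ b, X.ofShf i (X.shf.xR b) ∈ T ∧
      X.ofShf i (X.shf.wR b) ∈ T ∧ X.ofShf i (X.shf.vR b) ∈ T)
    (hinv : ∀ z z' : X.R, z ∈ T → z * z' = 1 → z' ∈ T) (x : X.R) : x ∈ T := by
  have hs : ∀ (i : Fin K) (f : X.shf.R), X.ofShf i f ∈ T := fun i =>
    X.ofShf_mem hF T i (fun w => (congrArg (· ∈ T) (ofShf_cW (X := X) i w)).mpr (hW w)) (hv i).1 (hv i).2 hinv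
  have hc : ∀ f : X.ctr.R, X.ofCtr f ∈ T := by
    refine X.ofCtr_mem T hW ?_ he hr (fun b => ?_) hinv
    · have e := (X.ofCtr_yR).trans (X.vv_succ X.first)
      rw [e]; exact hs _ _
    · obtain ⟨ex, ew, ev⟩ := X.ofCtr_side b
      rw [ex, ew, ev]
      exact ⟨hs _ _, hs _ _, hs _ _⟩
  have hle : X.R ≤ Subring.map X.R.subtype T := by
    refine Subring.closure_le.2 ?_
    rintro f (hf | hf)
    · exact ⟨X.ofCtr ⟨f, hf⟩, hc _, rfl⟩
    · obtain ⟨i, f', hf', rfl⟩ := Set.mem_iUnion.1 hf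
      exact ⟨X.ofShf i ⟨f', hf'⟩, hs i _, rfl⟩
  obtain ⟨y, hy, e⟩ := hle x.2
  exact Subtype.ext e ▸ hy

end Ctx

namespace Res

variable {X : Ctx q M0 N' K} {k : Type} [Field k] (Ω : Res X k)

/-- The constants and the level structure do not depend on the kind of branch. -/
theorem rs_common (g : X.Sheet) (a a' : Fin (K + 2)) :
    (∀ w, Ω.rs g a (X.cW w) = Ω.rs g a' (X.cW w)) ∧
      Ω.rs g a (X.ofCtr X.ctr.etaR) = Ω.rs g a' (X.ofCtr X.ctr.etaR) ∧
      Ω.rs g a (X.ofCtr X.ctr.rhoR) = Ω.rs g a' (X.ofCtr X.ctr.rhoR) := by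
  obtain ⟨-, c2, c3, -⟩ := Ω.ctr.rs_common g (X.tkind 0 a) (X.tkind 0 a')
  exact ⟨fun w => by rw [rs, rs, Ω.red_cW, Ω.red_cW],
    by rw [Ω.rs_ofCtr, Ω.rs_ofCtr, c2], by rw [Ω.rs_ofCtr, Ω.rs_ofCtr, c3]⟩

include Ω in
/-- A ring containing the functions on one kind of branch and the two basic series contains those
on the other kinds. -/
theorem transfer_aux {R' : Type*} [CommRing R'] (S : Subring R') (Φ Ψ : X.R →+* R')
    (hΨ : ∀ x, Ψ x ∈ S) (hinv : ∀ F G, F ∈ S → F * G = 1 → G ∈ S)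
    (hW : ∀ w, Φ (X.cW w) = Ψ (X.cW w))
    (he : Φ (X.ofCtr X.ctr.etaR) = Ψ (X.ofCtr X.ctr.etaR))
    (hr : Φ (X.ofCtr X.ctr.rhoR) = Ψ (X.ofCtr X.ctr.rhoR))
    (hv : ∀ i : Fin K, Φ (X.ofShf i X.shf.yR) ∈ S ∧ ∀ b, Φ (X.ofShf i (X.shf.xR b)) ∈ S ∧
      Φ (X.ofShf i (X.shf.wR b)) ∈ S ∧ Φ (X.ofShf i (X.shf.vR b)) ∈ S) (x : X.R) : Φ x ∈ S :=
  X.mem_subring_of Ω.fixed (S.comap Φ) (fun w => by show Φ _ ∈ S; rw [hW]; exact hΨ _)
    (by show Φ _ ∈ S; rw [he]; exact hΨ _) (by show Φ _ ∈ S; rw [hr]; exact hΨ _) hv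
    (fun z z' hz h => hinv _ _ hz (by rw [← map_mul, h, map_one])) x

/-- On a kind `≤ 1` the basic series are functions. -/
theorem basic_mem_UF {a : Fin (K + 2)} (ha : (a : ℕ) ≤ 1) :
    (fun _ : X.Sheet => Ω.B) ∈ Ω.UF a ∧ (fun _ : X.Sheet => Ω.Nu) ∈ Ω.UF a := by
  have hK := X.hK
  have hne : X.shf.kroot (X.tkind X.last a) false ≠ none := by
    rw [Ne, kroot_false]; simp only [Ctx.last]; omega
  have he : q ^ (K - 1 - (X.last : ℕ) + 2 * min (X.last : ℕ) ((a : ℕ) - 1)) = 1 := by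
    rw [show (a : ℕ) - 1 = 0 by omega]; simp [Ctx.last]
  constructor
  · convert Ω.rs_mem_UF a (X.ofShf X.last (X.shf.xR false)) using 1
    funext g
    rw [((Ω.rs_slot_side g a X.last false).2 hne).1, he, pow_one]
  · convert Ω.rs_mem_UF a (X.ofShf X.last (X.shf.vR false)) using 1
    funext g
    rw [((Ω.rs_slot_side g a X.last false).2 hne).2.2, he, pow_one]

/-- Rationality on another kind of branch. -/
theorem UF_transfer {a : Fin (K + 2)} (ha : (a : ℕ) ≤ 1) (a' : Fin (K + 2)) (x : X.R) :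
    (fun g => Ω.rs g a' x) ∈ Ω.UF a := by
  obtain ⟨hB, hN⟩ := Ω.basic_mem_UF ha
  have memP : ∀ {c : LaurentSeries k}, (fun _ : X.Sheet => c) ∈ Ω.UF a →
      ∀ (F : X.Sheet → LaurentSeries k) (e : ℕ), (∀ g, F g = c ^ e) → F ∈ Ω.UF a :=
    fun {c} hc F e h => (show F = (fun _ => c) ^ e from funext h) ▸ (Ω.UF a).pow_mem hc e
  have mem0 : ∀ F : X.Sheet → LaurentSeries k, (∀ g, F g = 0) → F ∈ Ω.UF a :=
    fun F h => (show F = 0 from funext h) ▸ (Ω.UF a).zero_mem
  refine Ω.transfer_aux (Ω.UF a) (RingHom.pi fun g => Ω.rs g a') (RingHom.pi fun g => Ω.rs g a)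
    (Ω.rs_mem_UF a) (fun F G hF hFG => ?_) (fun w => funext fun g => (Ω.rs_common g a' a).1 w)
    (funext fun g => (Ω.rs_common g a' a).2.1) (funext fun g => (Ω.rs_common g a' a).2.2)
    (fun i => ⟨?_, fun b => ?_⟩) x
  · have h1 : ∀ g, F g * G g = 1 := fun g => congrFun hFG g
    convert Ω.UF_inv hF (fun g => left_ne_zero_of_mul_eq_one (h1 g)) using 1
    exact funext fun g => eq_inv_of_mul_eq_one_right (h1 g)
  · exact memP hB _ _ fun g => Ω.rs_centre g a' i
  · by_cases hr : X.shf.kroot (X.tkind i a') b = none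
    · exact ⟨memP hB _ _ fun g => ((Ω.rs_slot_side g a' i b).1 hr).1,
        memP hN _ _ fun g => ((Ω.rs_slot_side g a' i b).1 hr).2.2,
        mem0 _ fun g => ((Ω.rs_slot_side g a' i b).1 hr).2.1⟩
    · exact ⟨memP hB _ _ fun g => ((Ω.rs_slot_side g a' i b).2 hr).1,
        mem0 _ fun g => ((Ω.rs_slot_side g a' i b).2 hr).2.1,
        memP hN _ _ fun g => ((Ω.rs_slot_side g a' i b).2 hr).2.2⟩

end Res

theorem pow_period {R : Type*} [Monoid R] {z : R} (h : z ^ q ^ 2 = z) {m n : ℕ} (hmn : m % 2 = n % 2) :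
    z ^ q ^ m = z ^ q ^ n := by
  have key : ∀ t r, z ^ q ^ (2 * t + r) = z ^ q ^ r := by
    intro t r
    induction t with
    | zero => simp
    | succ t ih =>
      rw [show 2 * (t + 1) + r = 2 + (2 * t + r) by ring, pow_add, pow_mul, h, ih]
  rw [← Nat.div_add_mod m 2, ← Nat.div_add_mod n 2, key, key, hmn]

namespace Pt

variable {X : Ctx q M0 N' K} {k : Type} [Field k] {Ω : Res X k} (p : Pt Ω)

/-- The value of the basic series at a supersingular point. -/
def sval : k := p.π (X.ofShf X.first X.shf.yR) ^ q ^ K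

variable (E : Eqs Ω.shf) (hss : p.om E X.first = 0)
include hss

theorem centre_period (i : Fin K) :
    p.π (X.ofShf i X.shf.yR) ^ q ^ 2 = p.π (X.ofShf i X.shf.yR) := by
  obtain ⟨h1, h2⟩ := E.π_L (p.slot i) (p.om_zero_all E hss i) true
  simp only [slot_apply] at h1 h2
  rw [pow_two, pow_mul, ← h2, h1]

theorem sval_period : p.sval ^ q ^ 2 = p.sval := by
  rw [sval, ← pow_mul, mul_comm, pow_mul, p.centre_period E hss]

theorem π_centre (i : Fin K) {e : ℕ} (he : (e + K + i) % 2 = 0) :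
    p.π (X.ofShf i X.shf.yR) = p.sval ^ q ^ e := by
  obtain ⟨n, hn⟩ := i
  induction n generalizing e with
  | zero =>
    show p.π (X.ofShf X.first X.shf.yR) = _
    rw [sval, ← pow_mul, ← pow_add, pow_period (p.centre_period E hss X.first) (n := 0)
      (by simp only at he; omega), pow_zero, pow_one]
  | succ n ih =>
    have h := ih (e := e + 1) (by omega) (by simp only at he ⊢; omega)
    have hx : X.ofShf ⟨n, by omega⟩ (X.shf.xR false) = X.ofShf ⟨n + 1, hn⟩ X.shf.yR := by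
      rw [X.ofShf_xR_false, ← X.vv_succ]
    obtain ⟨-, h2⟩ := E.π_L (p.slot ⟨n, by omega⟩) (p.om_zero_all E hss _) false
    simp only [slot_apply, hx] at h2
    rw [h2, h, ← pow_mul, ← pow_succ, pow_period (p.sval_period E hss) (n := e) (by omega)]

theorem π_side (i : Fin K) (b : Bool) {e : ℕ} (he : (e + K + i) % 2 = 1) :
    p.π (X.ofShf i (X.shf.xR b)) = p.sval ^ q ^ e ∧
      p.π (X.ofShf i (X.shf.wR b)) = 0 ∧ p.π (X.ofShf i (X.shf.vR b)) = 0 := by
  obtain ⟨-, h2⟩ := E.π_L (p.slot i) (p.om_zero_all E hss i) b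
  obtain ⟨hw, hv⟩ := (p.slot i).side_zero E (p.om_zero_all E hss i) b
  simp only [slot_apply] at h2
  refine ⟨?_, hw, hv⟩
  rw [h2, p.π_centre E hss i (e := e + 1) (by omega), ← pow_mul, ← pow_succ,
    pow_period (p.sval_period E hss) (n := e) (by omega)]

variable {g : X.Sheet} {a : Fin (K + 2)} (hle : RingHom.ker (Ω.rs g a) ≤ p.ideal)
include hle

/-- Evaluation on the other kinds of branches at a supersingular point, after a power of
Frobenius. -/
theorem ev_transfer (a' : Fin (K + 2)) (x : X.R) :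
    (Ω.rs g a' x ^ q ^ (2 * K), p.π x ^ q ^ (2 * K)) ∈ p.EV g a := by
  haveI := Ω.charK
  haveI : CharP (LaurentSeries k) q := charP_of_injective_ringHom HahnSeries.C_injective q
  have hK := X.hK
  have ha := a.2
  set pw : LaurentSeries k × k →+* LaurentSeries k × k :=
    (iterateFrobenius (LaurentSeries k) q (2 * K)).prodMap (iterateFrobenius k q (2 * K))
  have hpw : ∀ F, pw F = (F.1 ^ q ^ (2 * K), F.2 ^ q ^ (2 * K)) := fun F => by
    exact Prod.ext (iterateFrobenius_def _ _ _) (iterateFrobenius_def _ _ _)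
  set S := (p.EV g a).comap pw
  have hS : ∀ F G, (F, G) ∈ S ↔ (F ^ q ^ (2 * K), G ^ q ^ (2 * K)) ∈ p.EV g a := fun F G => by
    rw [Subring.mem_comap, hpw]
  -- the two basic pairs
  have h0 := Ω.rs_slot_side g a X.first
  obtain ⟨b, hb⟩ : ∃ b, X.shf.kroot (X.tkind X.first a) b ≠ none := by
    by_cases h : 1 < (a : ℕ)
    · exact ⟨true, by rw [Ne, Res.kroot_true]; simp only [Ctx.first]; omega⟩
    · exact ⟨false, by rw [Ne, Res.kroot_false]; simp only [Ctx.first]; omega⟩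
  have ht : K - 1 - (X.first : ℕ) + 2 * min (X.first : ℕ) ((a : ℕ) - 1) = K - 1 := by
    simp [Ctx.first]
  obtain ⟨hx, -, hv⟩ := (h0 b).2 hb
  rw [ht] at hx hv
  obtain ⟨sx, -, sv⟩ := p.π_side E hss X.first b (e := K - 1) (by simp only [Ctx.first]; omega)
  have lift : ∀ (F : LaurentSeries k) (z : k), (F ^ q ^ (K - 1), z ^ q ^ (K - 1)) ∈ p.EV g a →
      (F, z) ∈ S := by
    intro F z h
    rw [hS]
    have h' := (p.EV g a).pow_mem h (q ^ (K + 1))
    rw [Prod.pow_mk, ← pow_mul, ← pow_mul, ← pow_add, show K - 1 + (K + 1) = 2 * K by omega] at h'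
    exact h'
  have hB : (Ω.B, p.sval) ∈ S := lift _ _ (by rw [← hx, ← sx]; exact p.ev_self g a _)
  have hN : (Ω.Nu, (0 : k)) ∈ S := lift _ _ (by
    rw [← hv, zero_pow (pow_ne_zero _ (NeZero.ne q)), ← sv]; exact p.ev_self g a _)
  have memP : ∀ {c : LaurentSeries k} {z : k}, (c, z) ∈ S → ∀ (F : LaurentSeries k × k) (e : ℕ),
      F.1 = c ^ e → F.2 = z ^ e → F ∈ S := fun {c z} hc F e h1 h2 =>
    (show F = (c, z) ^ e from Prod.ext h1 h2) ▸ S.pow_mem hc e
  have mem0 : ∀ F : LaurentSeries k × k, F.1 = 0 → F.2 = 0 → F ∈ S := fun F h1 h2 =>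
    (show F = 0 from Prod.ext h1 h2) ▸ S.zero_mem
  rw [← hS]
  refine Ω.transfer_aux S ((Ω.rs g a').prod p.π) ((Ω.rs g a).prod p.π)
    (fun z => (hS _ _).2 ?_) (fun F G hF hFG => ?_)
    (fun w => Prod.ext ((Ω.rs_common g a' a).1 w) rfl) (Prod.ext (Ω.rs_common g a' a).2.1 rfl)
    (Prod.ext (Ω.rs_common g a' a).2.2 rfl) (fun i => ⟨?_, fun b => ?_⟩) x
  · rw [← map_pow, ← map_pow]; exact p.ev_self g a _
  · have h1 : pw F * pw G = 1 := by rw [← map_mul, hFG, map_one]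
    obtain ⟨e1, e2⟩ := Prod.ext_iff.1 h1
    show pw G ∈ p.EV g a
    convert p.ev_inv hle hF (left_ne_zero_of_mul_eq_one e2) using 1
    exact Prod.ext (eq_inv_of_mul_eq_one_right e1) (eq_inv_of_mul_eq_one_right e2)
  · exact memP hB (((Ω.rs g a').prod p.π) _) _ (Ω.rs_centre g a' i)
      (p.π_centre E hss i (e := K - (i : ℕ) + 2 * min (i : ℕ) ((a' : ℕ) - 1))
        (by have := i.2; omega))
  · set t := K - 1 - (i : ℕ) + 2 * min (i : ℕ) ((a' : ℕ) - 1) with ht'
    obtain ⟨px, pw0, pv0⟩ := p.π_side E hss i b (e := t) (by have := i.2; omega)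
    obtain ⟨px', -, -⟩ := p.π_side E hss i b (e := t + 2) (by have := i.2; omega)
    obtain ⟨hr0, hr1⟩ := Ω.rs_slot_side g a' i b
    rw [← ht'] at hr0 hr1
    have hz : ∀ e, (0 : k) ^ q ^ e = 0 := fun e => zero_pow (pow_ne_zero _ (NeZero.ne q))
    by_cases hr : X.shf.kroot (X.tkind i a') b = none
    · obtain ⟨t1, t2, t3⟩ := hr0 hr
      exact ⟨memP hB (((Ω.rs g a').prod p.π) _) _ t1 px',
        memP hN (((Ω.rs g a').prod p.π) _) _ t3 (pw0.trans (hz _).symm),
        mem0 (((Ω.rs g a').prod p.π) _) t2 pv0⟩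
    · obtain ⟨t1, t2, t3⟩ := hr1 hr
      exact ⟨memP hB (((Ω.rs g a').prod p.π) _) _ t1 px,
        mem0 (((Ω.rs g a').prod p.π) _) t2 pw0,
        memP hN (((Ω.rs g a').prod p.π) _) _ t3 (pv0.trans (hz _).symm)⟩

end Pt

end FLTAgent.CarayolK
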