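import Fermat.Agent.CarayolK.Branches
import Fermat.Agent.CarayolK.Eval
import Fermat.Agent.CarayolK.FibKind
import Fermat.Agent.CarayolK.Fib
import Fermat.Agent.CarayolK.Orders
import Fermat.Agent.Carayol.Residues
import Fermat.Agent.CarayolK.Sheets

/-!
# Residues of the roots on the branches

Away from the kinds `0` and `1` a root is read off the norm relation forgetting the first vertex,
at those kinds off the other one, corrected by a root of unity.
-/

set_option autoImplicit false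
set_option linter.unusedSectionVars false
set_option linter.style.haveILetI false

noncomputable section

open UpperHalfPlane hiding I I_re I_im
open Filter Topology Complex Function FLTAgent.ModEq FLTAgent.GoodModel ModularCurve
open scoped MatrixGroups Manifold Classical

namespace FLTAgent.CarayolK

open IsLocalRing (maximalIdeal)
open FLTAgent.Carayol (ratio_pow Eqs)

variable {q M0 N' K : ℕ} [NeZero M0] [NeZero N'] [NeZero q] [Fact q.Prime]
variable {X : Ctx q M0 N' K} {k : Type} [Field k] {Ω : Res X k}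
variable {n : ℕ} {F : X.R}

/-- A root on a branch read off a normalised norm relation. -/
def gS {b : Bool} (N : NRel Ω n b F) (κ : k) (g : X.Sheet) (a : Fin (K + 2)) : LaurentSeries k :=
  HahnSeries.C κ * Ω.rs g a N.G0 / Ω.rs g a N.G1

/-- The correcting root of unity of a sheet. -/
def xiS (A : NRel Ω n false F) (B : NRel Ω n true F) (κα κβ : k) (a b : ℕ) (g : X.Sheet) :
    LaurentSeries k :=
  gS A κα g (Fin.last (K + 1)) ^ a / Ω.rs g (Fin.last (K + 1)) F ^ b *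
      (gS A κα g ⟨K, by omega⟩ ^ a / Ω.rs g ⟨K, by omega⟩ F ^ b) ^ (q - 1) /
    gS B κβ g (Fin.last (K + 1))

/-- The roots on the branches. -/
def rootS (A : NRel Ω n false F) (B : NRel Ω n true F) (κα κβ : k) (a b : ℕ) (g : X.Sheet)
    (j : Fin (K + 2)) : LaurentSeries k :=
  if 2 ≤ (j : ℕ) then gS A κα g j ^ a / Ω.rs g j F ^ b
  else gS B κβ g j ^ a / Ω.rs g j F ^ b * xiS A B κα κβ a b g ^ a

theorem gS_ne {b : Bool} (N : NRel Ω n b F) {κ : k} (hκ : κ ≠ 0) (g : X.Sheet) (j : Fin (K + 2)) :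
    gS N κ g j ≠ 0 :=
  div_ne_zero (mul_ne_zero (HahnSeries.C_ne_zero hκ) (N.hG g j).1) (N.hG g j).2

theorem exists_kappa [IsAlgClosed k] (hn : n ≠ 0) {b : Bool} (N : NRel Ω n b F) :
    ∃ κ : k, κ ≠ 0 ∧ κ ^ n * Ω.φW N.c1 = Ω.φW N.c0 := by
  obtain ⟨κ, hκ⟩ := IsAlgClosed.exists_pow_nat_eq (Ω.φW N.c0 / Ω.φW N.c1) (Nat.pos_of_ne_zero hn)
  refine ⟨κ, fun h0 => ?_, by rw [hκ, div_mul_cancel₀ _ N.hc1]⟩
  rw [h0, zero_pow hn] at hκ
  exact div_ne_zero N.hc0 N.hc1 hκ.symm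

theorem rd_C_inc (w : X.W) : Ω.rd (HahnSeries.C (X.inc w)) = HahnSeries.C (Ω.φW w) := by
  rw [HahnSeries.C_apply, Res.rd, coeffMap_single]
  rfl

/-- The norm relation on reductions. -/
theorem red_rel {b : Bool} (N : NRel Ω n b F) {κ : k} (hκ : κ ^ n * Ω.φW N.c1 = Ω.φW N.c0)
    (g : X.Sheet) (j : Fin (K + 2)) :
    ∏ l ∈ X.fib b (X.lg g j), Ω.rd (X.emb l F) = gS N κ g j ^ n := by
  have h := congrArg Ω.rd (N.rel (X.lg g j))
  rw [map_mul, map_mul, map_mul, map_pow, map_pow, map_prod, rd_C_inc, rd_C_inc, Ω.rs_lg, Ω.rs_lg] at h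
  have hc : (HahnSeries.C (Ω.φW N.c1) : LaurentSeries k) ≠ 0 := HahnSeries.C_ne_zero N.hc1
  rw [← hκ, map_mul, map_pow] at h
  rw [gS, div_pow, eq_div_iff (pow_ne_zero _ (N.hG g j).2), mul_pow]
  refine mul_left_cancel₀ hc ?_
  linear_combination h

/-- Reductions of fibre products. -/
theorem rd_fib (g : X.Sheet) (j : Fin (K + 2)) (x : X.R) :
    (2 ≤ (j : ℕ) → ∏ l ∈ X.fib false (X.lg g j), Ω.rd (X.emb l x) = Ω.rs g j x ^ q) ∧
    ((j : ℕ) ≤ K - 1 → ∏ l ∈ X.fib true (X.lg g j), Ω.rd (X.emb l x) = Ω.rs g j x ^ q) ∧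
    (K ≤ (j : ℕ) → ∏ l ∈ X.fib true (X.lg g j), Ω.rd (X.emb l x) =
      Ω.rs g (Fin.last (K + 1)) x * Ω.rs g ⟨K, by omega⟩ x ^ (q - 1)) := by
  obtain ⟨-, p2, p3, p4⟩ := X.prod_fib_kind (X.lg g j) (fun l => Ω.rd (X.emb l x))
    (fun j => Ω.rs g j x) fun l hl => by rw [Ω.rd_emb, hl, X.sheet_lg]
  simp only [X.kind_lg] at p2 p3 p4
  exact ⟨p2, p3, p4⟩

theorem xi_ratio {L : Type*} [Field L] {A1 A0 G h1 h0 : L} {e : ℕ} (e1 : h1 ≠ 0) (e0 : h0 ^ e ≠ 0) :
    A1 / h1 * (A0 / h0) ^ e / (G / (h1 * h0 ^ e)) = A1 * A0 ^ e / G := by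
  rw [div_pow, div_mul_div_comm, div_div_div_cancel_right₀ (mul_ne_zero e1 e0)]

theorem root_pow_aux {a b : ℕ} (hab : a * q = 1 + b * n) {Y f : LaurentSeries k} (hf : f ≠ 0)
    (hY : Y ^ n = f ^ q) : (Y ^ a / f ^ b) ^ n = f := by
  rw [div_pow, ← pow_mul, mul_comm a n, pow_mul, hY, ← pow_mul, ← pow_mul, mul_comm q a, hab,
    pow_add, pow_one, mul_div_assoc, div_self (pow_ne_zero _ hf), mul_one]

section Pow

variable {a b : ℕ} (hab : a * q = 1 + b * n) (hF : ∀ g j, Ω.rs g j F ≠ 0)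
  (A : NRel Ω n false F) (B : NRel Ω n true F) {κα κβ : k}
  (hα : κα ^ n * Ω.φW A.c1 = Ω.φW A.c0) (hβ : κβ ^ n * Ω.φW B.c1 = Ω.φW B.c0)

include hab hF hα in
theorem root_false_pow (g : X.Sheet) {j : Fin (K + 2)} (hj : 2 ≤ (j : ℕ)) :
    (gS A κα g j ^ a / Ω.rs g j F ^ b) ^ n = Ω.rs g j F :=
  root_pow_aux hab (hF g j) ((red_rel A hα g j).symm.trans ((rd_fib g j F).1 hj))

include hab hF hα hβ in
theorem xiS_pow (g : X.Sheet) : xiS A B κα κβ a b g ^ n = 1 := by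
  have hK := X.hK
  have h1 := (red_rel B hβ g (Fin.last (K + 1))).symm.trans
    ((rd_fib g _ F).2.2 (by simp only [Fin.val_last]; omega))
  rw [xiS, div_pow, mul_pow, ← pow_mul _ (q - 1), mul_comm (q - 1) n, pow_mul _ n (q - 1),
    root_false_pow hab hF A hα g (by simp only [Fin.val_last]; omega),
    root_false_pow hab hF A hα g (show 2 ≤ ((⟨K, by omega⟩ : Fin (K + 2)) : ℕ) by simpa using hK), h1,
    div_self (mul_ne_zero (hF _ _) (pow_ne_zero _ (hF _ _)))]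

include hab hF hα hβ in
/-- The roots are roots. -/
theorem rootS_pow (g : X.Sheet) (j : Fin (K + 2)) :
    rootS A B κα κβ a b g j ^ n = Ω.rs g j F := by
  rw [rootS]
  split_ifs with hj
  · exact root_false_pow hab hF A hα g hj
  · rw [mul_pow, ← pow_mul (xiS A B κα κβ a b g), mul_comm a n, pow_mul, xiS_pow hab hF A B hα hβ g,
      one_pow, mul_one]
    exact root_pow_aux hab (hF g j) ((red_rel B hβ g j).symm.trans ((rd_fib g j F).2.1 (by
      have := X.hK; omega)))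

end Pow

/-- The roots are uniformly rational. -/
theorem rootS_mem {a b : ℕ} (hF : ∀ g j, Ω.rs g j F ≠ 0) (A : NRel Ω n false F) (B : NRel Ω n true F)
    {κα κβ : k} (hκα : κα ≠ 0) (hκβ : κβ ≠ 0) (j : Fin (K + 2)) :
    (fun g => rootS A B κα κβ a b g j) ∈ Ω.UF j := by
  have hC : ∀ κ : k, (fun _ : X.Sheet => (HahnSeries.C κ : LaurentSeries k)) ∈ Ω.UF j := fun κ => by
    obtain ⟨w, hw⟩ := Ω.surjW κ
    convert Ω.rs_mem_UF j (X.cW w) using 1
    funext g
    rw [Res.rs, Ω.red_cW]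
    exact congrArg _ hw.symm
  have hdiv : ∀ {Y Z : X.Sheet → LaurentSeries k}, Y ∈ Ω.UF j → Z ∈ Ω.UF j → (∀ g, Z g ≠ 0) →
      (fun g => Y g / Z g) ∈ Ω.UF j := fun {Y Z} hY hZ hne => by
    convert (Ω.UF j).mul_mem hY (Ω.UF_inv hZ hne) using 1
    funext g
    exact div_eq_mul_inv _ _
  have hR : ∀ {c : Bool} (N : NRel Ω n c F) (κ : k) (j' : Fin (K + 2)),
      (∀ x, (fun g => Ω.rs g j' x) ∈ Ω.UF j) →
      (fun g => gS N κ g j') ∈ Ω.UF j ∧ (fun g => gS N κ g j' ^ a / Ω.rs g j' F ^ b) ∈ Ω.UF j :=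
    fun N κ j' ht => by
    have hg : (fun g => gS N κ g j') ∈ Ω.UF j :=
      hdiv ((Ω.UF j).mul_mem (hC κ) (ht N.G0)) (ht N.G1) fun g => (N.hG g j').2
    exact ⟨hg, hdiv ((Ω.UF j).pow_mem hg a) ((Ω.UF j).pow_mem (ht F) b)
      fun g => pow_ne_zero _ (hF g j')⟩
  by_cases hj : 2 ≤ (j : ℕ)
  · simp only [rootS, if_pos hj]
    exact (hR A κα j (Ω.rs_mem_UF j)).2
  · simp only [rootS, if_neg hj]
    have ht := fun j' => Ω.UF_transfer (a := j) (by omega) j'
    refine (Ω.UF j).mul_mem (hR B κβ j (Ω.rs_mem_UF j)).2 ((Ω.UF j).pow_mem ?_ a)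
    exact hdiv ((Ω.UF j).mul_mem (hR A κα _ (ht _)).2 ((Ω.UF j).pow_mem (hR A κα _ (ht _)).2 (q - 1)))
      (hR B κβ _ (ht _)).1 fun g => gS_ne B hκβ g _

namespace Pt

variable (p : Pt Ω) [IsAlgClosed k] [IsNoetherianRing X.W] (E : Eqs Ω.shf)

include p in
theorem pow_inj {x y : k} (h : x ^ q ^ (2 * K) = y ^ q ^ (2 * K)) : x = y := by
  haveI := Ω.charK
  refine iterateFrobenius_inj k q (2 * K) ?_
  simpa [iterateFrobenius_def] using h

/-- Values of fibre products at supersingular points. -/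
theorem fib_value (hss : p.om E X.first = 0) {g : X.Sheet} {j : Fin (K + 2)}
    (h : RingHom.ker (Ω.rs g j) ≤ p.ideal) (b : Bool) (x : X.R) :
    ∃ (A D : X.R) (z : p.Loc), D ≠ 0 ∧ algebraMap X.R p.Loc D * z = algebraMap X.R p.Loc A ∧
      (∀ l, X.emb l D * ∏ l' ∈ X.fib b l, X.emb l' x = X.emb l A) ∧ p.πL z = p.π x ^ q := by
  haveI := p.isNoetherian_loc
  haveI := p.ufd_loc
  haveI := p.isIntegrallyClosed_loc
  have hinj : Injective (algebraMap X.R p.Loc) :=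
    IsLocalization.injective p.Loc (Ideal.primeCompl_le_nonZeroDivisors p.ideal)
  obtain ⟨A, D, z, hD, hz, hAD⟩ := X.exists_of_intU (algebraMap X.R p.Loc) hinj Ω.fixed b x
  refine ⟨A, D, z, hD, hz, hAD, ?_⟩
  obtain ⟨⟨a', d'⟩, hd'⟩ := IsLocalization.surj p.ideal.primeCompl z
  change z * algebraMap X.R p.Loc d'.1 = algebraMap X.R p.Loc a' at hd'
  have heq : a' * D = A * d'.1 := hinj (by rw [map_mul, map_mul, ← hd', ← hz]; ring)
  have hd0 : p.π d'.1 ≠ 0 := fun h0 => d'.2 (p.mem_ideal.2 h0)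
  have hemb : ∀ l, X.emb l a' = X.emb l d'.1 * ∏ l' ∈ X.fib b l, X.emb l' x := fun l => by
    have h1 := congrArg (X.emb l) heq
    rw [map_mul, map_mul, ← hAD l] at h1
    refine mul_right_cancel₀ (Ctx.emb_ne (l := l) hD) ?_
    linear_combination h1
  -- evaluate along a fibre of one kind
  set j0 : Fin (K + 2) := if b then 0 else Fin.last (K + 1) with hj0
  have h2 := congrArg Ω.rd (hemb (X.lg g j0))
  rw [map_mul, map_prod, Ω.rs_lg, Ω.rs_lg] at h2
  have hprod : ∏ l ∈ X.fib b (X.lg g j0), Ω.rd (X.emb l x) = Ω.rs g j0 x ^ q := by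
    have hK := X.hK
    cases b
    · exact (rd_fib g j0 x).1 (by simp [hj0]; omega)
    · exact (rd_fib g j0 x).2.1 (by simp [hj0])
  rw [hprod] at h2
  have hev := (p.EV g j).mul_mem (p.ev_transfer E hss h j0 d'.1)
    ((p.EV g j).pow_mem (p.ev_transfer E hss h j0 x) q)
  have hev' : (Ω.rs g j0 a' ^ q ^ (2 * K), (p.π d'.1 * p.π x ^ q) ^ q ^ (2 * K)) ∈ p.EV g j := by
    convert hev using 1
    rw [Prod.pow_mk, Prod.mk_mul_mk, h2, mul_pow, mul_pow, pow_right_comm (Ω.rs g j0 x) q,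
      pow_right_comm (p.π x) q]
  have h3 := p.pow_inj (p.ev_unique h (p.ev_transfer E hss h j0 a') hev')
  have h4 := congrArg p.πL hd'
  rw [map_mul, p.πL_alg, p.πL_alg, h3] at h4
  exact mul_right_cancel₀ hd0 (by linear_combination h4)

/-- The value of a norm relation at a supersingular point. -/
theorem exists_norm_value (hss : p.om E X.first = 0) {g0 : X.Sheet} {j0 : Fin (K + 2)}
    (h0 : RingHom.ker (Ω.rs g0 j0) ≤ p.ideal) (hn : n ≠ 0)
    (hF : ∀ g j, Ω.rs g j F ≠ 0) {b : Bool} (N : NRel Ω n b F) {κ : k}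
    (hκ : κ ^ n * Ω.φW N.c1 = Ω.φW N.c0) {s v h : X.R} (hs : p.π s ≠ 0) (hv : p.π v ≠ 0)
    (he : s * F = v * h ^ n) :
    ∃ u : k, u ^ n = (p.π v / p.π s) ^ q ∧ ∀ g j, RingHom.ker (Ω.rs g j) ≤ p.ideal → ∀ j',
      ((gS N κ g j' / ∏ l ∈ X.fib b (X.lg g j'), Ω.rd (X.emb l h)) ^ q ^ (2 * K), u ^ q ^ (2 * K)) ∈
        p.EV g j := by
  haveI := p.isNoetherian_loc
  haveI := p.ufd_loc
  haveI := p.isIntegrallyClosed_loc
  set φ := algebraMap X.R p.Loc
  have hinj : Injective φ :=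
    IsLocalization.injective p.Loc (Ideal.primeCompl_le_nonZeroDivisors p.ideal)
  obtain ⟨As, Ds, zs, hDs, hzs, hAs, vs⟩ := p.fib_value E hss h0 b s
  obtain ⟨Av, Dv, zv, hDv, hzv, hAv, vv⟩ := p.fib_value E hss h0 b v
  obtain ⟨Ah, Dh, hDh, hAh⟩ := X.exists_fib_frac Ω.fixed b h
  have hG1 : N.G1 ≠ 0 := fun h1 => (N.hG g0 j0).2 (by rw [h1, map_zero])
  have hhne : h ≠ 0 := fun h1 => by
    rw [h1, zero_pow hn, mul_zero, mul_eq_zero] at he
    rcases he with he | he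
    · exact hs (by rw [he, map_zero])
    · exact hF g0 j0 (by rw [he, map_zero])
  have hAh0 : Ah ≠ 0 := fun h1 => by
    have h2 := hAh X.one'
    rw [h1, map_zero, mul_eq_zero, Finset.prod_eq_zero_iff] at h2
    rcases h2 with h2 | ⟨l', -, h2⟩
    · exact Ctx.emb_ne hDh h2
    · exact Ctx.emb_ne hhne h2
  have hR : X.cW N.c0 * (N.G0 * Dh) ^ n * (As * Dv) = X.cW N.c1 * (N.G1 * Ah) ^ n * (Av * Ds) := by
    refine X.embAt_injective (X.rep X.one') ?_
    show X.emb X.one' _ = X.emb X.one' _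
    set l := X.one'
    have e := Finset.prod_congr rfl (s₁ := X.fib b l) fun l' _ => congrArg (X.emb l') he
    simp only [map_mul, map_pow, Finset.prod_mul_distrib, Finset.prod_pow] at e
    simp only [map_mul, map_pow, ← hAs l, ← hAv l, ← hAh l, Ctx.emb_cW, mul_pow]
    linear_combination (-(X.emb l Dh ^ n * X.emb l Ds * X.emb l Dv *
        ∏ l' ∈ X.fib b l, X.emb l' s)) * N.rel l +
      (HahnSeries.C (X.inc N.c1) * X.emb l N.G1 ^ n * X.emb l Dh ^ n * X.emb l Ds * X.emb l Dv) * e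
  have hL : φ (X.cW N.c0) * zs * φ (N.G0 * Dh) ^ n = φ (X.cW N.c1) * zv * φ (N.G1 * Ah) ^ n := by
    have h1 := congrArg φ hR
    simp only [map_mul, map_pow] at h1
    rw [show φ As = φ Ds * zs from hzs.symm, show φ Av = φ Dv * zv from hzv.symm] at h1
    simp only [map_mul]
    refine mul_right_cancel₀ (mul_ne_zero ((map_ne_zero_iff _ hinj).2 hDs) ((map_ne_zero_iff _ hinj).2 hDv)) ?_
    linear_combination h1
  have hu : IsUnit (φ (X.cW N.c0) * zs) := p.isUnit_of_πL (by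
    rw [map_mul, p.πL_alg, p.π_cW, vs]
    exact mul_ne_zero N.hc0 (pow_ne_zero _ hs))
  have hdvd : φ (N.G1 * Ah) ∣ φ (N.G0 * Dh) := by
    refine (IsIntegrallyClosed.pow_dvd_pow_iff hn).1 ?_
    exact (hu.dvd_mul_left).1 ⟨φ (X.cW N.c1) * zv, by rw [hL]; ring⟩
  obtain ⟨z, hz⟩ := hdvd
  obtain ⟨⟨n', d'⟩, hnd⟩ := IsLocalization.surj p.ideal.primeCompl z
  change z * φ d'.1 = φ n' at hnd
  have hd0 : p.π d'.1 ≠ 0 := fun h1 => d'.2 (p.mem_ideal.2 h1)
  have hGA : φ (N.G1 * Ah) ≠ 0 := (map_ne_zero_iff _ hinj).2 (mul_ne_zero hG1 hAh0)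
  have hzn : φ (X.cW N.c0) * zs * z ^ n = φ (X.cW N.c1) * zv := by
    refine mul_right_cancel₀ (pow_ne_zero n hGA) ?_
    rw [← hL, hz, mul_pow]
    ring
  have hRd : d'.1 * (N.G0 * Dh) = n' * (N.G1 * Ah) := hinj (by
    rw [map_mul φ d'.1, hz, map_mul φ n', ← hnd]; ring)
  have hemb : ∀ l, X.emb l d'.1 * X.emb l N.G0 =
      X.emb l n' * X.emb l N.G1 * ∏ l' ∈ X.fib b l, X.emb l' h := fun l => by
    have h1 := congrArg (X.emb l) hRd
    simp only [map_mul, ← hAh l] at h1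
    refine mul_right_cancel₀ (Ctx.emb_ne (l := l) hDh) ?_
    linear_combination h1
  refine ⟨κ * (p.π n' / p.π d'.1), ?_, fun g j hle j' => ?_⟩
  · have h1 := congrArg p.πL hzn
    have h2 := congrArg p.πL hnd
    have hπ : ∀ x, p.πL (φ x) = p.π x := p.πL_alg
    simp only [map_mul, map_pow, hπ, p.π_cW, vs, vv] at h1 h2
    have h3 : p.π n' / p.π d'.1 = p.πL z := by rw [div_eq_iff hd0, h2]
    rw [h3, mul_pow, div_pow, eq_div_iff (pow_ne_zero _ hs)]
    refine mul_right_cancel₀ N.hc1 ?_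
    linear_combination h1 + p.πL z ^ n * p.π s ^ q * hκ
  · obtain ⟨wκ, hwκ⟩ := Ω.surjW κ
    have hκev : ((HahnSeries.C κ : LaurentSeries k), κ) ∈ p.EV g j := by
      have := p.ev_self g j (X.cW wκ)
      rwa [show Ω.rs g j (X.cW wκ) = HahnSeries.C κ from (Ω.red_cW _ _).trans (congrArg _ hwκ),
        show p.π (X.cW wκ) = κ from (p.π_cW _).trans hwκ] at this
    have hd' := p.ev_transfer E hss hle j' d'.1
    have hev := (p.EV g j).mul_mem ((p.EV g j).pow_mem hκev (q ^ (2 * K)))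
      ((p.EV g j).mul_mem (p.ev_transfer E hss hle j' n') (p.ev_inv hle hd' (pow_ne_zero _ hd0)))
    have hd'ne : Ω.rs g j' d'.1 ≠ 0 := fun h1 =>
      p.ev_ne hle hd' (pow_ne_zero _ hd0) (by
        show Ω.rs g j' d'.1 ^ q ^ (2 * K) = 0
        rw [h1, zero_pow (pow_ne_zero _ (NeZero.ne q))])
    simp only [Prod.pow_mk, Prod.mk_mul_mk, ← inv_pow, ← mul_pow] at hev
    convert hev using 3
    · have h1 := congrArg Ω.rd (hemb (X.lg g j'))
      rw [map_mul, map_mul, map_mul, map_prod, Ω.rs_lg, Ω.rs_lg, Ω.rs_lg, Ω.rs_lg] at h1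
      have hpr : ∏ l ∈ X.fib b (X.lg g j'), Ω.rd (X.emb l h) ≠ 0 := fun h2 => by
        rw [h2, mul_zero] at h1
        exact mul_ne_zero hd'ne (N.hG g j').1 h1
      have := (N.hG g j').2
      rw [gS]
      field_simp
      linear_combination (HahnSeries.C κ) * h1
    · rw [div_eq_mul_inv]

include E in
/-- A common residue of the roots on all branches through a point. -/
theorem exists_residue (hn : n ≠ 0) (hF : ∀ g j, Ω.rs g j F ≠ 0)
    (A : NRel Ω n false F) (B : NRel Ω n true F) {a b : ℕ} (hab : a * q = 1 + b * n)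
    {κα κβ : k} (hκα : κα ≠ 0) (hκβ : κβ ≠ 0) (hα : κα ^ n * Ω.φW A.c1 = Ω.φW A.c0)
    (hβ : κβ ^ n * Ω.φW B.c1 = Ω.φW B.c0) {s v h : X.R} (hs : p.π s ≠ 0) (hv : p.π v ≠ 0)
    (he : s * F = v * h ^ n) :
    ∃ ω : k, ω ≠ 0 ∧ ∀ g j, RingHom.ker (Ω.rs g j) ≤ p.ideal →
      (rootS A B κα κβ a b g j / Ω.rs g j h, ω) ∈ p.EV g j := by
  haveI := p.isNoetherian_loc
  haveI := Ω.charK
  set V := p.π v / p.π s
  have hV : V ≠ 0 := div_ne_zero hv hs
  by_cases hnone : ∀ g j, ¬ RingHom.ker (Ω.rs g j) ≤ p.ideal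
  · exact ⟨1, one_ne_zero, fun g j h' => absurd h' (hnone g j)⟩
  push Not at hnone
  obtain ⟨g0, j0, hg0⟩ := hnone
  have hfact : ∀ g j, Ω.rs g j s * Ω.rs g j F = Ω.rs g j v * Ω.rs g j h ^ n := fun g j => by
    rw [← map_mul, he, map_mul, map_pow]
  have hh : ∀ g j, Ω.rs g j s ≠ 0 → Ω.rs g j h ≠ 0 := fun g j hs' h0 =>
    mul_ne_zero hs' (hF g j) (by rw [hfact, h0, zero_pow hn, mul_zero])
  -- on each branch the quotient is rational and its power has a value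
  set Y : X.Sheet → Fin (K + 2) → LaurentSeries k := fun g j =>
    rootS A B κα κβ a b g j / Ω.rs g j h with hY
  have hYrat : ∀ g0' j, RingHom.ker (Ω.rs g0' j) ≤ p.ideal → ∃ A' D' : X.R, ∀ g,
      RingHom.ker (Ω.rs g j) ≤ p.ideal →
        Ω.rs g j D' ≠ 0 ∧ Ω.rs g j D' * Y g j = Ω.rs g j A' := by
    intro g0' j _
    obtain ⟨A', D', hAD⟩ := rootS_mem (a := a) (b := b) hF A B hκα hκβ j
    refine ⟨A', D' * h, fun g hle => ?_⟩
    have hne := hh g j (p.rs_ne hle hs)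
    refine ⟨by rw [map_mul]; exact mul_ne_zero (hAD g).1 hne, ?_⟩
    rw [map_mul, mul_assoc, hY, mul_div_cancel₀ _ hne]
    exact (hAD g).2
  have hYpow : ∀ g j, RingHom.ker (Ω.rs g j) ≤ p.ideal →
      Ω.rs g j s * Y g j ^ n = Ω.rs g j v := fun g j hle => by
    have hne := pow_ne_zero n (hh g j (p.rs_ne hle hs))
    rw [hY, div_pow, rootS_pow hab hF A B hα hβ, ← mul_div_assoc, div_eq_iff hne, hfact]
  by_cases hss : p.om E X.first = 0
  · obtain ⟨uβ, hu1, hβev⟩ := p.exists_norm_value E hss hg0 hn hF A hα hs hv he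
    obtain ⟨uα, hu2, hαev⟩ := p.exists_norm_value E hss hg0 hn hF B hβ hs hv he
    set ω := uβ ^ a / V ^ b
    have hβ0 : uβ ≠ 0 := fun h0 => pow_ne_zero q hV (by rw [← hu1, h0, zero_pow hn])
    have hα0 : uα ≠ 0 := fun h0 => pow_ne_zero q hV (by rw [← hu2, h0, zero_pow hn])
    refine ⟨ω, div_ne_zero (pow_ne_zero _ hβ0) (pow_ne_zero _ hV), fun g j hle => ?_⟩
    obtain ⟨A', D', hAD⟩ := hYrat g j hle
    obtain ⟨e, hev⟩ := p.ev_root hle hn (hAD g hle).1 (hAD g hle).2 hs (hYpow g j hle)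
    suffices hpow : (Y g j ^ q ^ (2 * K), ω ^ q ^ (2 * K)) ∈ p.EV g j by
      have h1 := (p.EV g j).pow_mem hev (q ^ (2 * K))
      rw [Prod.pow_mk] at h1
      exact p.pow_inj (p.ev_unique hle h1 hpow) ▸ hev
    set P : LaurentSeries k → k → Prop := fun Z z =>
      (Z ^ q ^ (2 * K), z ^ q ^ (2 * K)) ∈ p.EV g j
    have Pmul : ∀ {Z Z' z z'}, P Z z → P Z' z' → P (Z * Z') (z * z') := fun h1 h2 => by
      simpa only [P, mul_pow, Prod.mk_mul_mk] using (p.EV g j).mul_mem h1 h2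
    have Ppow : ∀ {Z z} (i : ℕ), P Z z → P (Z ^ i) (z ^ i) := fun i h1 => by
      simpa only [P, ← pow_mul, mul_comm i, Prod.pow_mk] using (p.EV g j).pow_mem h1 i
    have Pdiv : ∀ {Z Z' z z'}, P Z z → P Z' z' → z' ≠ 0 → P (Z / Z') (z / z') := fun h1 h2 hz => by
      simpa only [P, div_pow, div_eq_mul_inv, mul_pow, inv_pow, Prod.mk_mul_mk] using
        (p.EV g j).mul_mem h1 (p.ev_inv hle h2 (pow_ne_zero _ hz))
    have hsne : ∀ j', Ω.rs g j' s ≠ 0 := fun j' h1 =>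
      p.ev_ne hle (p.ev_transfer E hss hle j' s) (pow_ne_zero _ hs) (by
        show Ω.rs g j' s ^ q ^ (2 * K) = 0
        rw [h1, zero_pow (pow_ne_zero _ (NeZero.ne q))])
    have PV : ∀ j', P (Ω.rs g j' F / Ω.rs g j' h ^ n) V := fun j' => by
      have h1 := Pdiv (p.ev_transfer E hss hle j' v) (p.ev_transfer E hss hle j' s) hs
      convert h1 using 1
      rw [div_eq_div_iff (pow_ne_zero _ (hh g j' (hsne j'))) (hsne j'), mul_comm, hfact]
    have Pα : ∀ j' : Fin (K + 2), 2 ≤ (j' : ℕ) →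
        P (gS A κα g j' ^ a / Ω.rs g j' F ^ b / Ω.rs g j' h) ω := fun j' hj' => by
      have h1 : P (gS A κα g j' / Ω.rs g j' h ^ q) uβ := by
        have h2 := hβev g j hle j'
        rwa [(rd_fib g j' h).1 hj'] at h2
      rw [← ratio_pow (hh g j' (hsne j')) hab]
      exact Pdiv (Ppow a h1) (Ppow b (PV j')) (pow_ne_zero _ hV)
    show P (rootS A B κα κβ a b g j / Ω.rs g j h) ω
    unfold rootS
    split_ifs with hj
    · exact Pα j hj
    · have hK := X.hK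
      have h1 : P (gS B κβ g j / Ω.rs g j h ^ q) uα := by
        have h2 := hαev g j hle j
        rwa [(rd_fib g j h).2.1 (by omega)] at h2
      have h2 : P (gS B κβ g j ^ a / Ω.rs g j F ^ b / Ω.rs g j h) (uα ^ a / V ^ b) := by
        rw [← ratio_pow (hh g j (hsne j)) hab]
        exact Pdiv (Ppow a h1) (Ppow b (PV j)) (pow_ne_zero _ hV)
      set J1 : Fin (K + 2) := Fin.last (K + 1) with hJ1
      set J0 : Fin (K + 2) := ⟨K, by omega⟩ with hJ0
      have hh1 := hh g J1 (hsne J1)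
      have hh0 := pow_ne_zero (q - 1) (hh g J0 (hsne J0))
      have h3 : P (gS B κβ g J1 / (Ω.rs g J1 h * Ω.rs g J0 h ^ (q - 1))) uα := by
        have h4 := hαev g j hle J1
        rwa [(rd_fib g J1 h).2.2 (by simp only [hJ1, Fin.val_last]; omega)] at h4
      have h5 := Pdiv (Pmul (Pα J1 (by simp only [hJ1, Fin.val_last]; omega))
        (Ppow (q - 1) (Pα J0 (by simp only [hJ0]; omega)))) h3 hα0
      have hξ : P (xiS A B κα κβ a b g) (uβ / uα) := by
        convert h5 using 1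
        · exact (xi_ratio hh1 hh0).symm
        · rw [← pow_succ', Nat.sub_add_cancel X.hq.one_le, div_pow, ← pow_mul, hab, pow_add, pow_one,
            mul_comm b n, pow_mul, hu1, ← pow_mul, ← pow_mul, mul_comm b q,
            mul_div_assoc, div_self (pow_ne_zero _ hV), mul_one]
      have h6 := Pmul h2 (Ppow a hξ)
      convert h6 using 1
      · rw [mul_div_right_comm]
      · simp only [ω, div_pow]
        field_simp
  · -- ordinary point
    obtain ⟨A', D', hAD⟩ := hYrat g0 j0 hg0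
    obtain ⟨ω, hω⟩ := p.ev_root hg0 hn (hAD g0 hg0).1 (hAD g0 hg0).2 hs (hYpow g0 j0 hg0)
    refine ⟨ω, fun h0 => ?_, fun g j hle => ?_⟩
    · have h1 := (p.EV g0 j0).mul_mem (p.ev_self g0 j0 s) ((p.EV g0 j0).pow_mem hω n)
      rw [show (Ω.rs g0 j0 s, p.π s) * (Y g0 j0, ω) ^ n =
        (Ω.rs g0 j0 v, p.π s * ω ^ n) from Prod.ext (hYpow g0 j0 hg0) rfl] at h1
      have h2 := p.ev_unique hg0 (p.ev_self g0 j0 v) h1
      rw [h0, zero_pow hn, mul_zero] at h2
      exact hv h2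
    · obtain rfl := p.kind_unique E hss hle hg0
      have hker := p.ker_unique hg0 hle
      obtain ⟨c, d, hd, h1, h2⟩ := hω
      refine ⟨c, d, hd, ?_, h2⟩
      show Ω.rs g j d * Y g j = Ω.rs g j c
      obtain ⟨hne, hrel⟩ := hAD g hle
      have hmem : d * A' - c * D' ∈ RingHom.ker (Ω.rs g0 j) := by
        rw [RingHom.mem_ker, map_sub, map_mul, map_mul, ← (hAD g0 hg0).2, ← h1]
        ring
      have h3 := RingHom.mem_ker.1 (hker hmem)
      rw [map_sub, map_mul, map_mul, ← hrel] at h3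
      refine mul_left_cancel₀ hne ?_
      linear_combination h3

end Pt

end FLTAgent.CarayolK
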