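import Fermat.Agent.Carayol.Bound

/-!
# The auxiliary cover for level `q^(K+1)`

The chain of vertices `-1, 0, …, K` is `T (τ / q), T τ, T (q τ), …, T (q ^ K τ)`. The triple at the
vertex `i < K` is the image of the cover of level `q` under `τ ↦ q ^ i τ`.
-/

set_option autoImplicit false
set_option linter.unusedSectionVars false
set_option linter.style.haveILetI false

noncomputable section

open UpperHalfPlane hiding I I_re I_im
open Filter Topology Complex Function FLTAgent.ModEq FLTAgent.GoodModel ModularCurve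
open scoped MatrixGroups Manifold Classical

namespace FLTAgent.CarayolK

open FLTAgent.Carayol (Coord coordT ser_injective trComp mem_trRing_of_level sPairs_mono
  sPairs_comp_affPt)

/-- The data of the auxiliary cover. -/
structure Ctx (q M0 N' K : ℕ) [NeZero M0] [NeZero N'] [NeZero q] where
  hK : 2 ≤ K
  hq : q.Prime
  hM : M0 = 2 ∨ M0 = 3
  hqm : ¬ q ∣ M0 * N'
  W : Subring ℂ
  S : Subring ℂ
  hWS : W ≤ S
  ζ : Sˣ
  hζ : ((ζ : S) : ℂ) = zetaN (M0 * (N' * q ^ K))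
  ζm : Wˣ
  hζm : ((ζm : W) : ℂ) = zetaN (M0 * N')
  hu : IsUnit ((M0 * N' : ℕ) : W)
  co : Coord W M0

namespace Ctx

variable {q M0 N' K : ℕ} [NeZero M0] [NeZero N'] [NeZero q] [Fact q.Prime] (X : Ctx q M0 N' K)

/-- The inclusion of the constants. -/
abbrev inc : X.W →+* X.S := Subring.inclusion X.hWS

/-- The level of the expansions. -/
abbrev lev (_X : Ctx q M0 N' K) : ℕ := M0 * (N' * q ^ K)

include X in
theorem pow_pred : q * q ^ (K - 1) = q ^ K := by
  rw [← pow_succ', Nat.sub_add_cancel (le_trans one_le_two X.hK)]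

theorem hζ_ctr : (((X.ζ ^ (q ^ (K - 1)) : X.Sˣ) : X.S) : ℂ) = zetaN (M0 * (N' * q)) := by
  have hb : NeZero (M0 * (N' * q) * q ^ (K - 1)) := inferInstance
  rw [Units.val_pow_eq_pow_val, SubmonoidClass.coe_pow, X.hζ]
  rw [← Carayol.zetaN_pow (a := M0 * (N' * q)) (b := q ^ (K - 1))]
  have e : M0 * (N' * q ^ K) = M0 * (N' * q) * q ^ (K - 1) := by rw [← X.pow_pred]; ring
  simp only [zetaN, Units.val_mk0, e]

theorem hζ_shf : (((X.ζ ^ (N' * q ^ (K - 1)) : X.Sˣ) : X.S) : ℂ) = zetaN (M0 * (1 * q)) := by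
  have hb : NeZero (M0 * (1 * q) * (N' * q ^ (K - 1))) := inferInstance
  rw [Units.val_pow_eq_pow_val, SubmonoidClass.coe_pow, X.hζ]
  rw [← Carayol.zetaN_pow (a := M0 * (1 * q)) (b := N' * q ^ (K - 1))]
  have e : M0 * (N' * q ^ K) = M0 * (1 * q) * (N' * q ^ (K - 1)) := by rw [← X.pow_pred]; ring
  simp only [zetaN, Units.val_mk0, e]

theorem hζm_shf : (((X.ζm ^ N' : X.Wˣ) : X.W) : ℂ) = zetaN (M0 * 1) := by
  have hb : NeZero (M0 * N') := inferInstance
  rw [Units.val_pow_eq_pow_val, SubmonoidClass.coe_pow, X.hζm,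
    Carayol.zetaN_pow (a := M0) (b := N')]
  simp only [zetaN, Units.val_mk0, mul_one]

theorem hu_shf : IsUnit ((M0 * 1 : ℕ) : X.W) := by
  have h := X.hu
  rw [Nat.cast_mul] at h
  simpa using (IsUnit.mul_iff.mp h).1

/-- The cover of level `q` with the level structure, centred at the vertex `0`. -/
def ctr : Carayol.Ctx q M0 N' where
  hq := X.hq
  hM := X.hM
  hqm := X.hqm
  W := X.W
  S := X.S
  hWS := X.hWS
  ζ := X.ζ ^ (q ^ (K - 1))
  hζ := X.hζ_ctr
  ζm := X.ζm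
  hζm := X.hζm
  hu := X.hu
  co := X.co

/-- The cover of level `q` without level structure, to be shifted to all vertices. -/
def shf : Carayol.Ctx q M0 1 where
  hq := X.hq
  hM := X.hM
  hqm := fun h => X.hqm (by rw [mul_one] at h; exact dvd_mul_of_dvd_left h _)
  W := X.W
  S := X.S
  hWS := X.hWS
  ζ := X.ζ ^ (N' * q ^ (K - 1))
  hζ := X.hζ_shf
  ζm := X.ζm ^ N'
  hζm := X.hζm_shf
  hu := X.hu_shf
  co := X.co

/-- Composition with `τ ↦ q ^ i τ`. -/
def sig (_X : Ctx q M0 N' K) (i : ℕ) : (ℍ → ℂ) →+* (ℍ → ℂ) :=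
  RingHom.pi fun τ : ℍ => Pi.evalRingHom (fun _ : ℍ => ℂ) (affPt (q ^ i) 0 1 τ)

theorem sig_apply (i : ℕ) (f : ℍ → ℂ) (τ : ℍ) : X.sig i f τ = f (affPt (q ^ i) 0 1 τ) := rfl

theorem sig_mem {i : ℕ} (hi : i < K) {f : ℍ → ℂ} (hf : f ∈ trRing X.S (M0 * (1 * q))) :
    X.sig i f ∈ trRing X.S X.lev := by
  refine mem_trRing.mpr fun σ => ?_
  obtain ⟨A, D, B, δ, _, _, hAD, he⟩ := exists_affPt_smul (q ^ i) 1 σ
  rw [mul_one] at hAD
  obtain ⟨G, hG⟩ := mem_trRing.mp hf δ
  obtain ⟨e, he1, rfl⟩ := (Nat.dvd_prime_pow X.hq).1 (show D ∣ q ^ i from ⟨A, by rw [← hAD]; ring⟩)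
  haveI : NeZero (A * (N' * q ^ (K - 1 - e))) :=
    ⟨by simp [NeZero.ne A, NeZero.ne N', NeZero.ne q]⟩
  have hl : q ^ e * (M0 * (1 * q)) * (N' * q ^ (K - 1 - e)) = M0 * (N' * q ^ K) := by
    have h2 : q ^ e * q ^ (K - 1 - e) = q ^ (K - 1) := by
      rw [← pow_add]; congr 1; omega
    rw [← X.pow_pred, ← h2]
    ring
  have h1 := sPairs_comp_affPt X.ζ X.hζ A B (q ^ e) (M0 * (1 * q)) (N' * q ^ (K - 1 - e)) hl hG
  refine ⟨substHom (X.ζ ^ (((N' * q ^ (K - 1 - e) : ℕ) : ℤ) * B)) (A * (N' * q ^ (K - 1 - e))) G,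
    ?_⟩
  convert h1 using 2
  funext τ
  simp only [compg_apply, sig_apply, he]

/-- The generators of the ring of the cover. -/
def gens : Set (ℍ → ℂ) :=
  (X.ctr.R : Set (ℍ → ℂ)) ∪ ⋃ i : Fin K, X.sig i '' (X.shf.R : Set (ℍ → ℂ))

/-- The ring of functions of the cover. -/
def R : Subring (ℍ → ℂ) := Subring.closure X.gens

theorem ctr_le : X.ctr.R ≤ X.R := fun _ hf => Subring.subset_closure (Or.inl hf)

theorem sig_mem_R (i : Fin K) {f : ℍ → ℂ} (hf : f ∈ X.shf.R) : X.sig i f ∈ X.R :=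
  Subring.subset_closure (Or.inr (Set.mem_iUnion.2 ⟨i, f, hf, rfl⟩))

theorem ctr_level {f : ℍ → ℂ} (hf : f ∈ trRing X.S (M0 * (N' * q))) : f ∈ trRing X.S X.lev :=
  mem_trRing_of_level le_rfl (k := q ^ (K - 1)) (by rw [lev, ← X.pow_pred]; ring) hf

theorem R_le : X.R ≤ trRing X.S X.lev := by
  rw [R, Subring.closure_le]
  rintro f (hf | hf)
  · exact X.ctr_level (X.ctr.R_le hf)
  · obtain ⟨i, g, hg, rfl⟩ := Set.mem_iUnion.1 hf
    exact X.sig_mem i.2 (X.shf.R_le hg)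

/-- The elements coming from the centre. -/
def ofCtr : X.ctr.R →+* X.R := Subring.inclusion X.ctr_le

/-- The elements coming from the shifted covers. -/
def ofShf (i : Fin K) : X.shf.R →+* X.R :=
  ((X.sig i).comp X.shf.R.subtype).codRestrict X.R fun a => X.sig_mem_R i a.2

/-- The constants. -/
def cW : X.W →+* X.R := X.ofCtr.comp X.ctr.cW

/-- The coordinate at the vertex `0` as an element. -/
def yR : X.R := X.ofCtr X.ctr.yR

/-- The function at the last vertex. -/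
def top (_X : Ctx q M0 N' K) : ℍ → ℂ := fun τ => coordT M0 (affPt (q ^ K) 0 1 τ)

/-- The function at the first vertex. -/
def bot : ℍ → ℂ := X.ctr.rX (some 0)

theorem top_mem : X.top ∈ X.R := by
  have h : X.top = X.sig (⟨K - 1, by have := X.hK; omega⟩ : Fin K) X.shf.sX := by
    funext τ
    simp only [top, sig_apply, Carayol.Ctx.sX]
    congr 1
    refine UpperHalfPlane.ext ?_
    rw [coe_affPt, coe_affPt, coe_affPt]
    have e := congrArg (fun z : ℕ => (z : ℂ)) X.pow_pred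
    push_cast at e ⊢
    rw [← e]
    ring
  rw [h]
  exact X.sig_mem_R _ (X.shf.gens_le (by simp [Carayol.Ctx.gens]))

/-- The expansion of a translate. -/
def embAt (γ : SL(2, ℤ)) : X.R →+* LaurentSeries X.S :=
  ser.comp ((trComp γ).comp (Subring.inclusion X.R_le))

theorem embAt_injective (γ : SL(2, ℤ)) : Function.Injective (X.embAt γ) := by
  intro a b h
  have h2 := congrArg (fun x : trRing X.S X.lev => (x : ℍ → ℂ)) (ser_injective h)
  exact Subtype.ext (compg_injective γ h2)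

theorem embAt_cW (γ : SL(2, ℤ)) (w : X.W) : X.embAt γ (X.cW w) = HahnSeries.C (X.inc w) := by
  refine sPairs_unique (n := X.lev) (φ := fun _ => ((X.inc w : X.S) : ℂ)) ?_
    (sPairs_const (X.inc w))
  exact ser_spec (trComp γ (Subring.inclusion X.R_le (X.cW w)))

/-- The data deciding a translate: level structure and the two ends of the chain. -/
def triple (γ : SL(2, ℤ)) : (ℍ → ℂ) × (ℍ → ℂ) × (ℍ → ℂ) :=
  (compg γ X.ctr.eta, compg γ X.bot, compg γ X.top)

/-- The index set of the embeddings over the line of the coordinate. -/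
def Idx : Type := ↥(Set.range fun γ : CongruenceSubgroup.Gamma M0 => X.triple (γ : SL(2, ℤ)))

/-- The embedding of a translate. -/
def idx {γ : SL(2, ℤ)} (hγ : γ ∈ CongruenceSubgroup.Gamma M0) : X.Idx :=
  ⟨X.triple γ, ⟨γ, hγ⟩, rfl⟩

/-- A matrix realising an embedding. -/
def rep (l : X.Idx) : SL(2, ℤ) := (l.2.choose : CongruenceSubgroup.Gamma M0)

theorem rep_mem (l : X.Idx) : X.rep l ∈ CongruenceSubgroup.Gamma M0 := (l.2.choose).2

theorem triple_rep (l : X.Idx) : X.triple (X.rep l) = l.1 := l.2.choose_spec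

/-- The expansion of a conjugate. -/
def emb (l : X.Idx) : X.R →+* LaurentSeries X.S := X.embAt (X.rep l)

/-- The index of the identical embedding. -/
def one' : X.Idx := X.idx (one_mem _)

/-- The hypothesis that the small ring is the fixed ring. -/
def FixedPart : Prop :=
  ∀ x : X.S, (∀ σ : X.S ≃+* X.S, (∀ w, σ (X.inc w) = X.inc w) → σ x = x) → x ∈ X.inc.range

theorem fixedPart_ctr (h : X.FixedPart) : X.ctr.FixedPart := h

theorem fixedPart_shf (h : X.FixedPart) : X.shf.FixedPart := h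

include X in
/-- The substitution of a vertex: for `γ ∈ Γ(M₀)` and a vertex `j`, the isogenous point is an affine
point moved by an element of `±Γ(M₀)`. -/
theorem exists_vertex {γ : SL(2, ℤ)} (hγ : γ ∈ CongruenceSubgroup.Gamma M0) (j : ℕ) :
    ∃ (m : ℕ) (B : ℤ) (δ : SL(2, ℤ)), m ≤ j ∧ (m < j → ¬ ((q : ℤ) ^ (m + 1)) ∣ γ 1 0) ∧
      Carayol.Ctx.Pm M0 δ ∧ (M0 : ℤ) ∣ B ∧
      δ 1 0 * (q : ℤ) ^ m = γ 1 0 ∧ δ 0 0 = (q : ℤ) ^ (j - m) * γ 0 0 ∧
      δ 1 0 * B + δ 1 1 * (q : ℤ) ^ (j - m) = γ 1 1 ∧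
      ∀ τ : ℍ, affPt (q ^ j) 0 1 (γ • τ) = δ • affPt (q ^ m) B (q ^ (j - m)) τ := by
  set a := γ 0 0 with ha
  set b := γ 0 1 with hb
  set c := γ 1 0 with hc
  set d := γ 1 1 with hd
  have hdet : a * d - b * c = 1 := det_eq γ
  set P : ℕ → Prop := fun m => (q : ℤ) ^ m ∣ c with hP
  set m := Nat.findGreatest P j with hm
  have hmj : m ≤ j := Nat.findGreatest_le j
  have hPm : P m := Nat.findGreatest_spec (Nat.zero_le j) (by simp [P])
  have hmax : m < j → ¬ (q : ℤ) ^ (m + 1) ∣ c := fun h => by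
    exact Nat.findGreatest_is_greatest (P := P) (n := j) (by omega) (by omega)
  obtain ⟨s, hs⟩ := hPm
  obtain ⟨h00, h01, h10, h11⟩ := CongruenceSubgroup.Gamma_mem.mp hγ
  rw [← ha] at h00; rw [← hb] at h01; rw [← hc] at h10; rw [← hd] at h11
  have hqu : IsUnit ((q : ℕ) : ZMod M0) := by
    rw [ZMod.isUnit_iff_coprime]
    exact X.hq.coprime_iff_not_dvd.2 fun h => X.hqm (dvd_mul_of_dvd_left h _)
  set D : ℤ := (q : ℤ) ^ (j - m) with hD
  obtain ⟨t, ht⟩ : ∃ t : ℤ, D ∣ d - s * ((M0 : ℤ) * t) := by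
    rcases Nat.eq_or_lt_of_le hmj with e | hlt
    · exact ⟨0, by simp [D, e]⟩
    have hs' : IsCoprime D (s * M0) := by
      refine IsCoprime.pow_left ((Int.prime_iff_natAbs_prime.2 (by simpa using X.hq)).coprime_iff_not_dvd.2 ?_)
      intro hdv
      rcases (Int.prime_iff_natAbs_prime.2 (by simpa using X.hq)).dvd_or_dvd hdv with h | h
      · refine hmax hlt ?_
        rw [hs, pow_succ]
        exact mul_dvd_mul_left _ h
      · exact X.hqm (dvd_mul_of_dvd_left (Int.natCast_dvd_natCast.1 h) _)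
    obtain ⟨u, v, huv⟩ := hs'
    exact ⟨v * d, u * d, by linear_combination (-d) * huv⟩
  set B : ℤ := (M0 : ℤ) * t with hB
  obtain ⟨y, hy⟩ := ht
  set A : ℤ := (q : ℤ) ^ m with hA
  obtain ⟨δ, d00, d01, d10, d11⟩ : ∃ δ : SL(2, ℤ),
      δ 0 0 = D * a ∧ δ 0 1 = A * b - a * B ∧ δ 1 0 = s ∧ δ 1 1 = y :=
    ⟨⟨!![D * a, A * b - a * B; s, y], by
      rw [Matrix.det_fin_two_of]
      linear_combination hdet + b * hs - a * hy⟩, rfl, rfl, rfl, rfl⟩
  refine ⟨m, B, δ, hmj, hmax, ?_, dvd_mul_right _ _, by rw [d10, hs]; ring, d00,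
    by rw [d10, d11]; linear_combination -hy, fun τ => ?_⟩
  · have hAu : IsUnit (A : ZMod M0) := by simpa [A] using hqu.pow m
    have hs0 : (s : ZMod M0) = 0 := by
      have h' := congrArg (fun z : ℤ => (z : ZMod M0)) hs
      simp only [Int.cast_mul, h10] at h'
      exact hAu.mul_right_eq_zero.1 h'.symm
    have hB0 : (B : ZMod M0) = 0 := by simp [B]
    have hy1 : (D : ZMod M0) * (y : ZMod M0) = 1 := by
      have h' := congrArg (fun z : ℤ => (z : ZMod M0)) hy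
      simp only [Int.cast_sub, Int.cast_mul, Int.cast_natCast, ZMod.natCast_self, h11, zero_mul,
        mul_zero, sub_zero, hs0, zero_mul] at h'
      exact h'.symm
    have hsign : ∀ x z : ZMod M0, x * z = 1 → (x = 1 ∧ z = 1) ∨ (x = -1 ∧ z = -1) := by
      rcases X.hM with rfl | rfl <;> decide
    rcases hsign _ _ hy1 with ⟨e1, e2⟩ | ⟨e1, e2⟩
    · refine Or.inl (CongruenceSubgroup.Gamma_mem.mpr ⟨?_, ?_, ?_, ?_⟩) <;>
        simp only [d00, d01, d10, d11] <;> push_cast <;> simp [e1, e2, hs0, hB0, h00, h01]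
    · refine Or.inr (CongruenceSubgroup.Gamma_mem.mpr ⟨?_, ?_, ?_, ?_⟩) <;>
        simp only [Matrix.SpecialLinearGroup.coe_neg, Matrix.neg_apply, d00, d01, d10, d11] <;>
        push_cast <;> simp [e1, e2, hs0, hB0, h00, h01]
  · refine UpperHalfPlane.ext ?_
    rw [coe_sl_smul' δ, d00, d01, d10, d11, coe_affPt, coe_affPt, coe_sl_smul' γ]
    rw [← ha, ← hb, ← hc, ← hd]
    have hden : (c : ℂ) * τ + (d : ℂ) ≠ 0 := den_ne_zero γ τ
    have hq0 : (q : ℂ) ≠ 0 := Nat.cast_ne_zero.mpr (NeZero.ne q)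
    have hs' : (c : ℂ) = (q : ℂ) ^ m * s := by exact_mod_cast hs
    have hy' : (d : ℂ) - s * B = (q : ℂ) ^ (j - m) * y := by exact_mod_cast hy
    have hqj : ((q : ℂ) ^ j) = (q : ℂ) ^ m * (q : ℂ) ^ (j - m) := by
      rw [← pow_add, Nat.add_sub_cancel' hmj]
    simp only [D, A]
    push_cast
    rw [hqj]
    have e2 : (s : ℂ) * (((q : ℂ) ^ m * τ + B) / (q : ℂ) ^ (j - m)) + y =
        ((c : ℂ) * τ + d) / (q : ℂ) ^ (j - m) := by
      field_simp
      linear_combination -(τ : ℂ) * hs' - hy'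
    rw [e2]
    field_simp
    ring

end Ctx

end FLTAgent.CarayolK
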