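import Fermat.Agent.CarayolK.Reduction

/-!
# The vertices and the edges of the chain as elements
-/

set_option autoImplicit false
set_option linter.unusedSectionVars false
set_option linter.style.haveILetI false

noncomputable section

open UpperHalfPlane hiding I I_re I_im
open Filter Topology Complex Function FLTAgent.ModEq FLTAgent.GoodModel ModularCurve
open scoped MatrixGroups Manifold Classical

namespace FLTAgent.CarayolK

open FLTAgent.Carayol (coordT)

variable {q M0 N' K : ℕ} [NeZero M0] [NeZero N'] [NeZero q] [Fact q.Prime]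

namespace Ctx

variable (X : Ctx q M0 N' K)

/-- The last shift. -/
def last : Fin K := ⟨K - 1, by have := X.hK; omega⟩

/-- The vertices: `0` is the first one, `j + 1` the vertex `q ^ j τ`. -/
def vv : ℕ → X.R
  | 0 => X.botR
  | j + 1 => if h : j < K then X.ofShf ⟨j, h⟩ X.shf.yR else X.topR

theorem coe_ofShf (i : Fin K) (f : X.shf.R) (τ : ℍ) :
    (X.ofShf i f : ℍ → ℂ) τ = (f : ℍ → ℂ) (affPt (q ^ (i : ℕ)) 0 1 τ) := rfl

theorem coe_ofCtr (f : X.ctr.R) : (X.ofCtr f : ℍ → ℂ) = (f : ℍ → ℂ) := coe_incl X.ctr_le f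

theorem vv_succ (i : Fin K) : X.vv ((i : ℕ) + 1) = X.ofShf i X.shf.yR := by
  rw [vv, dif_pos i.2]

theorem vv_top : X.vv (K + 1) = X.topR := by rw [vv, dif_neg (lt_irrefl K)]

theorem coe_vv_succ {j : ℕ} (hj : j ≤ K) (τ : ℍ) :
    (X.vv (j + 1) : ℍ → ℂ) τ = coordT M0 (affPt (q ^ j) 0 1 τ) := by
  rcases Nat.lt_or_eq_of_le hj with h | rfl
  · rw [vv, dif_pos h]; rfl
  · rw [vv_top]; rfl

theorem coe_vv_zero (τ : ℍ) : (X.vv 0 : ℍ → ℂ) τ = coordT M0 (affPt 1 0 q τ) := by
  show X.ctr.rX (some 0) τ = _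
  rw [Carayol.Ctx.rX_eq]
  simp [Carayol.Ctx.rA, Carayol.Ctx.rB, Carayol.Ctx.rD, Carayol.Ctx.T]

theorem ofShf_xR_false (i : Fin K) : X.ofShf i (X.shf.xR false) = X.vv ((i : ℕ) + 2) := by
  refine Subtype.ext (funext fun τ => ?_)
  rw [coe_ofShf, X.coe_vv_succ i.2]
  show X.shf.rX none _ = _
  rw [Carayol.Ctx.rX_eq]
  simp only [Carayol.Ctx.rA, Carayol.Ctx.rB, Carayol.Ctx.rD]
  show coordT M0 _ = _
  congr 1
  refine UpperHalfPlane.ext ?_
  simp only [coe_affPt]
  push_cast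
  rw [pow_succ]
  ring

theorem ofShf_xR_true (i : Fin K) : X.ofShf i (X.shf.xR true) = X.vv (i : ℕ) := by
  refine Subtype.ext (funext fun τ => ?_)
  rw [coe_ofShf]
  show X.shf.rX (some 0) _ = _
  rw [Carayol.Ctx.rX_eq]
  simp only [Carayol.Ctx.rA, Carayol.Ctx.rB, Carayol.Ctx.rD, ZMod.val_zero, Nat.cast_zero, mul_zero]
  show coordT M0 _ = _
  obtain ⟨i, hi⟩ := i
  rcases i with _ | i
  · rw [X.coe_vv_zero]
    congr 1
    refine UpperHalfPlane.ext ?_
    simp only [coe_affPt]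
    push_cast
    ring
  · show _ = (X.vv (i + 1) : ℍ → ℂ) τ
    rw [X.coe_vv_succ (Nat.le_of_succ_le hi.le)]
    congr 1
    refine UpperHalfPlane.ext ?_
    simp only [coe_affPt]
    have hq : (q : ℂ) ≠ 0 := Nat.cast_ne_zero.mpr (NeZero.ne q)
    push_cast
    field_simp
    ring

theorem ofCtr_yR : X.ofCtr X.ctr.yR = X.vv 1 := by
  refine Subtype.ext (funext fun τ => ?_)
  rw [coe_ofCtr, X.coe_vv_succ (Nat.zero_le _)]
  show coordT M0 τ = _
  congr 1
  refine UpperHalfPlane.ext ?_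
  simp [coe_affPt]

theorem ofCtr_xR_true : X.ofCtr (X.ctr.xR true) = X.vv 0 := rfl

/-- The first shift. -/
def first : Fin K := ⟨0, by have := X.hK; omega⟩

theorem affPt_id (τ : ℍ) : affPt (q ^ 0) 0 1 τ = τ :=
  UpperHalfPlane.ext (by simp [coe_affPt])

/-- The centre and the shifted cover at the first vertex share their sides. -/
theorem ofCtr_side (b : Bool) : X.ofCtr (X.ctr.xR b) = X.ofShf X.first (X.shf.xR b) ∧
    X.ofCtr (X.ctr.wR b) = X.ofShf X.first (X.shf.wR b) ∧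
    X.ofCtr (X.ctr.vR b) = X.ofShf X.first (X.shf.vR b) := by
  have hx : X.ofCtr (X.ctr.xR b) = X.ofShf X.first (X.shf.xR b) := by
    refine Subtype.ext (funext fun τ => ?_)
    rw [coe_ofShf, first, affPt_id]
    show X.ctr.rX _ τ = X.shf.rX _ τ
    rw [Carayol.Ctx.rX_eq, Carayol.Ctx.rX_eq]
    cases b <;> rfl
  have hw : X.ofCtr (X.ctr.wR b) = X.ofShf X.first (X.shf.wR b) := by
    refine Subtype.ext (funext fun τ => ?_)
    rw [coe_ofShf, first, affPt_id]
    show X.ctr.rW _ τ = X.shf.rW _ τ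
    rw [Carayol.Ctx.rW_eq, Carayol.Ctx.rW_eq]
    cases b <;> rfl
  refine ⟨hx, hw, ?_⟩
  have h1 := congrArg X.ofCtr (X.ctr.wR_mul_vR b)
  have h2 := congrArg (X.ofShf X.first) (X.shf.wR_mul_vR b)
  simp only [map_mul, map_pow, map_natCast] at h1 h2
  refine mul_left_cancel₀ (fun h0 => ?_) (h1.trans (h2.symm.trans (by rw [← hw])))
  rw [h0, zero_mul] at h1
  exact NeZero.ne q (by
    have := congrArg (fun z : X.R => (z : ℍ → ℂ) UpperHalfPlane.I) h1
    simpa using this.symm)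

/-- The function of an edge travelled downwards. -/
def eDn (j : ℕ) : X.R :=
  if h : j < K then X.ofShf ⟨j, h⟩ (X.shf.wR true) else X.ofShf X.last (X.shf.vR false)

/-- The function of an edge travelled upwards. -/
def eUp (j : ℕ) : X.R :=
  if h : j < K then X.ofShf ⟨j, h⟩ (X.shf.vR true) else X.ofShf X.last (X.shf.wR false)

theorem eDn_lt (i : Fin K) : X.eDn i = X.ofShf i (X.shf.wR true) := by rw [eDn, dif_pos i.2]

theorem eUp_lt (i : Fin K) : X.eUp i = X.ofShf i (X.shf.vR true) := by rw [eUp, dif_pos i.2]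

theorem edge_succ (i : Fin K) :
    X.eDn ((i : ℕ) + 1) = X.ofShf i (X.shf.vR false) ∧
      X.eUp ((i : ℕ) + 1) = X.ofShf i (X.shf.wR false) := by
  rcases Nat.lt_or_eq_of_le (Nat.succ_le_of_lt i.2) with h | h
  · set i' : Fin K := ⟨(i : ℕ) + 1, h⟩
    have hw : X.ofShf i' (X.shf.wR true) = X.ofShf i (X.shf.vR false) := by
      refine Subtype.ext (funext fun τ => ?_)
      rw [coe_ofShf, coe_ofShf]
      show X.shf.rW (some 0) _ = compg (1 : SL(2, ℤ)) X.shf.sV _
      rw [compg_one, Carayol.Ctx.rW_eq]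
      simp only [Carayol.Ctx.rA, Carayol.Ctx.rB, Carayol.Ctx.rD, Carayol.Ctx.rc, Carayol.Ctx.sV]
      have e1 : affPt 1 ((M0 : ℤ) * ((0 : ZMod q).val : ℤ)) q (affPt (q ^ (i' : ℕ)) 0 1 τ) =
          affPt (q ^ (i : ℕ)) 0 1 τ := by
        refine UpperHalfPlane.ext ?_
        have hq : (q : ℂ) ≠ 0 := Nat.cast_ne_zero.mpr (NeZero.ne q)
        simp only [coe_affPt, ZMod.val_zero, i']
        push_cast
        field_simp
        ring
      have e2 : affPt q 0 1 (affPt (q ^ (i : ℕ)) 0 1 τ) = affPt (q ^ (i' : ℕ)) 0 1 τ := by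
        refine UpperHalfPlane.ext ?_
        simp only [coe_affPt, i']
        push_cast
        ring
      rw [e1, e2]
      push_cast
      rfl
    have h1 : X.eDn ((i : ℕ) + 1) = X.ofShf i (X.shf.vR false) := (X.eDn_lt i').trans hw
    refine ⟨h1, (X.eUp_lt i').trans ?_⟩
    have p1 := congrArg (X.ofShf i') (X.shf.wR_mul_vR true)
    have p2 := congrArg (X.ofShf i) (X.shf.wR_mul_vR false)
    simp only [map_mul, map_pow, map_natCast] at p1 p2
    rw [mul_comm (X.ofShf i (X.shf.wR false))] at p2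
    rw [hw] at p1
    refine mul_left_cancel₀ (fun h0 => ?_) (p1.trans p2.symm)
    rw [h0, zero_mul] at p1
    exact NeZero.ne q (by
      have := congrArg (fun z : X.R => (z : ℍ → ℂ) UpperHalfPlane.I) p1
      simpa using this.symm)
  · have hl : i = X.last := Fin.ext (by simp only [last]; omega)
    subst hl
    constructor <;> simp only [eDn, eUp, dif_neg (show ¬ ((X.last : ℕ) + 1) < K by omega)]

end Ctx

end FLTAgent.CarayolK
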